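/-
RT-HECKE / HK-ABS-B (helper27), ring theory: a local ring `T0 ⊆ M_d(𝒪)`, finite over a complete
discrete valuation ring `𝒪` with finite residue field, is a complete noetherian local ring with
finite residue field, and `𝒪 → T0` is a local homomorphism.
-/
import Mathlib
import Fermat.Agent.RT.K5.FitOAbs
import Fermat.Agent.S32.Final

/-!
# K-machine, HECKE-asm, piece HK-ABS-B: the ring theory of the base Hecke ring

* `rthk_b_isPrecomplete_of_pow_le` : precompleteness for `I ⊇ J ⊇ I ^ e`;
* `rthk_b_mem_maximalIdeal` : `x ∈ T0` with `(j0 x) ^ e ∈ M_d(𝔪)` is in the maximal ideal;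
* `rthk_b_isLocalHom`, `rthk_b_natCast_mem`, `rthk_b_isNoetherianRing`,
  `rthk_b_finite_residueField`, `rthk_b_isAdicComplete`.
-/

set_option autoImplicit false

namespace Fermat.Agent.RT

open IsLocalRing

section Precomplete

/-- precompleteness passes to a bigger ideal with the same topology -/
theorem rthk_b_isPrecomplete_of_pow_le {R : Type*} [CommRing R] (I J : Ideal R) (hJI : J ≤ I)
    {e : ℕ} (hIJ : I ^ e ≤ J) [IsPrecomplete J R] : IsPrecomplete I R := by
  refine ⟨fun {f} hf => ?_⟩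
  have hIJ' : I ^ (e + 1) ≤ J := (Ideal.pow_le_pow_right (Nat.le_succ e)).trans hIJ
  have hg : ∀ {m n : ℕ}, m ≤ n →
      f ((e + 1) * m) ≡ f ((e + 1) * n) [SMOD (J ^ m • ⊤ : Submodule R R)] := by
    intro m n hmn
    have h1 := hf (Nat.mul_le_mul_left (e + 1) hmn)
    rw [SModEq.sub_mem, smul_eq_mul, Ideal.mul_top] at h1 ⊢
    have h2 : I ^ ((e + 1) * m) ≤ J ^ m := by
      rw [pow_mul]
      exact Ideal.pow_right_mono hIJ' m
    exact h2 h1
  obtain ⟨L, hL⟩ := IsPrecomplete.prec ‹IsPrecomplete J R› (f := fun n => f ((e + 1) * n)) hg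
  refine ⟨L, fun n => ?_⟩
  have h1 := hL n
  have h2 := hf (show n ≤ (e + 1) * n from Nat.le_mul_of_pos_left n (Nat.succ_pos e))
  rw [SModEq.sub_mem, smul_eq_mul, Ideal.mul_top] at h1 h2 ⊢
  have h3 : f n - L = (f n - f ((e + 1) * n)) + (f ((e + 1) * n) - L) := by ring
  rw [h3]
  exact Ideal.add_mem _ h2 (Ideal.pow_right_mono hJI n h1)

end Precomplete

section Ring

variable {O : Type} [CommRing O] [IsLocalRing O] {T0 : Type} [CommRing T0] [IsLocalRing T0]
  [Algebra O T0] {d : ℕ} (j0 : T0 →ₐ[O] Matrix (Fin d) (Fin d) O)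

/-- an element of `T0` a power of whose matrix has entries in `𝔪` is in the maximal ideal -/
theorem rthk_b_mem_maximalIdeal (hd : 0 < d) {x : T0} {e : ℕ}
    (h : ∀ i j, ((j0 x) ^ e) i j ∈ maximalIdeal O) : x ∈ maximalIdeal T0 := by
  by_contra hx
  have hu : IsUnit x := notMem_maximalIdeal.mp hx
  obtain ⟨y, hy⟩ := hu.exists_right_inv
  have h1 : (j0 x) ^ e * (j0 y) ^ e = 1 := by
    rw [← map_pow, ← map_pow, ← map_mul, ← mul_pow, hy, one_pow, map_one]
  have h2 := congrArg (fun M : Matrix (Fin d) (Fin d) O => (residue O).mapMatrix M) h1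
  simp only [map_mul, map_one] at h2
  have h3 : (residue O).mapMatrix ((j0 x) ^ e) = 0 := by
    ext i j
    rw [RingHom.mapMatrix_apply, Matrix.map_apply, Matrix.zero_apply, residue_eq_zero_iff]
    exact h i j
  rw [h3, zero_mul] at h2
  have h4 := congrFun (congrFun h2 ⟨0, hd⟩) ⟨0, hd⟩
  rw [Matrix.zero_apply, Matrix.one_apply_eq] at h4
  exact zero_ne_one h4

include j0 in
/-- `𝒪 → T0` is a local homomorphism -/
theorem rthk_b_isLocalHom (hd : 0 < d) : IsLocalHom (algebraMap O T0) := by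
  refine ⟨fun c hc => ?_⟩
  by_contra hcu
  have hcm : c ∈ maximalIdeal O := (mem_maximalIdeal c).mpr hcu
  have h1 : algebraMap O T0 c ∈ maximalIdeal T0 := by
    refine rthk_b_mem_maximalIdeal j0 hd (e := 1) fun i j => ?_
    rw [pow_one, AlgHom.commutes, Matrix.algebraMap_matrix_apply]
    split_ifs
    · exact hcm
    · exact Ideal.zero_mem _
  exact (mem_maximalIdeal _).mp h1 hc

include j0 in
theorem rthk_b_natCast_mem (hd : 0 < d) {p : ℕ} (hp : (p : O) ∈ maximalIdeal O) :
    (p : T0) ∈ maximalIdeal T0 := by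
  haveI := rthk_b_isLocalHom j0 hd
  have h1 : (p : T0) = algebraMap O T0 (p : O) := (map_natCast (algebraMap O T0) p).symm
  rw [h1]
  exact map_nonunit (algebraMap O T0) _ hp

omit [IsLocalRing O] [IsLocalRing T0] in
theorem rthk_b_isNoetherianRing [IsNoetherianRing O] [Module.Finite O T0] :
    IsNoetherianRing T0 :=
  IsNoetherianRing.of_finite O T0

theorem rthk_b_finite_residueField [Finite (ResidueField O)] [Module.Finite O T0]
    [IsLocalHom (algebraMap O T0)] : Finite (ResidueField T0) :=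
  IsLocalRing.ResidueField.finite_of_finite ‹Finite (ResidueField O)›

/-- the quotient of `T0` by `𝔪_𝒪 T0` is finite -/
theorem rthk_b_finite_quot [Finite (ResidueField O)] [Module.Finite O T0] :
    Finite (T0 ⧸ (maximalIdeal O).map (algebraMap O T0)) := by
  haveI : Finite (O ⧸ maximalIdeal O) := ‹Finite (ResidueField O)›
  haveI hfin : Finite (T0 ⧸ (maximalIdeal O • (⊤ : Submodule O T0))) := by
    have : Module.Finite (O ⧸ maximalIdeal O) (T0 ⧸ (maximalIdeal O • (⊤ : Submodule O T0))) :=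
      Module.Finite.of_restrictScalars_finite O _ _
    exact Module.finite_of_finite (O ⧸ maximalIdeal O)
  let f : (T0 ⧸ (maximalIdeal O • (⊤ : Submodule O T0))) →
      (T0 ⧸ (maximalIdeal O).map (algebraMap O T0)) :=
    Quotient.map' id (by
      intro a b hab
      rw [← Quotient.eq''] at hab
      have h1 : a - b ∈ (maximalIdeal O • (⊤ : Submodule O T0)) :=
        (Submodule.Quotient.eq _).mp hab
      rw [Ideal.smul_top_eq_map] at h1
      exact (Submodule.quotientRel_def _).mpr h1)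
  refine Finite.of_surjective f ?_
  intro y
  obtain ⟨x, rfl⟩ := Ideal.Quotient.mk_surjective y
  exact ⟨Submodule.Quotient.mk x, rfl⟩

/-- **the base Hecke ring is complete** -/
theorem rthk_b_isAdicComplete [IsDomain O] [IsDiscreteValuationRing O]
    [IsAdicComplete (maximalIdeal O) O] [Finite (ResidueField O)] [Module.Finite O T0]
    (hj0 : Function.Injective j0) (hd : 0 < d) : IsAdicComplete (maximalIdeal T0) T0 := by
  haveI := rthk_b_isLocalHom j0 hd
  haveI : IsNoetherianRing T0 := rthk_b_isNoetherianRing (O := O)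
  haveI : Module.IsTorsionFree O T0 := by
    refine Module.IsTorsionFree.of_smul_eq_zero fun r m hrm => ?_
    by_cases hr : r = 0
    · exact Or.inl hr
    · right
      apply hj0
      rw [map_zero]
      have h1 := congrArg j0 hrm
      rw [map_smul, map_zero] at h1
      ext i j
      have h2 := congrFun (congrFun h1 i) j
      rw [Matrix.smul_apply, Matrix.zero_apply, smul_eq_mul] at h2
      rw [Matrix.zero_apply]
      exact (mul_eq_zero.mp h2).resolve_left hr
  haveI : IsPrecomplete (maximalIdeal O) T0 :=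
    Fermat.Agent.RT.K5.k5of_isPrecomplete (maximalIdeal O)
  haveI : IsPrecomplete ((maximalIdeal O).map (algebraMap O T0)) T0 :=
    (IsPrecomplete.map_algebraMap_iff (I := maximalIdeal O) (S := T0) (M := T0)).mpr inferInstance
  haveI := rthk_b_finite_quot (O := O) (T0 := T0)
  obtain ⟨e, he⟩ := Fermat.Agent.S32.exists_pow_le_of_finite_quotient
    ((maximalIdeal O).map (algebraMap O T0))
  have hle : (maximalIdeal O).map (algebraMap O T0) ≤ maximalIdeal T0 :=
    Ideal.map_le_iff_le_comap.mpr fun x hx =>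
      Ideal.mem_comap.mpr (map_nonunit (algebraMap O T0) x hx)
  have hpre : IsPrecomplete (maximalIdeal T0) T0 :=
    rthk_b_isPrecomplete_of_pow_le _ _ hle he
  exact { toIsHausdorff := inferInstance, toIsPrecomplete := hpre }

end Ring

/-- **BASE-AR, the contract consumed by HK-ABS-B**: the base Hecke ring `T0 = 𝒪[Φ0 x]`
(commutative, local, finite over `𝒪`, inside `M_d(𝒪)`) with the Artin–Rees property for `a`. -/
def StmtBaseRing : Prop :=
  ∀ (O : Type) [CommRing O] [IsDomain O] [IsDiscreteValuationRing O] (d : ℕ), 0 < d →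
  ∀ (𝕋 : Type) [CommRing 𝕋] (Φ0 : 𝕋 →+* Matrix (Fin d) (Fin d) O),
    (∀ x : 𝕋, ∃ (c : O) (e : ℕ), ∀ i j,
      ((Φ0 x - algebraMap O (Matrix (Fin d) (Fin d) O) c) ^ e) i j ∈ maximalIdeal O) →
  ∀ a : O, a ≠ 0 →
  ∃ (T0 : Type) (_ : CommRing T0) (_ : IsLocalRing T0) (_ : Algebra O T0)
    (_ : Module.Finite O T0) (j0 : T0 →ₐ[O] Matrix (Fin d) (Fin d) O) (π : 𝕋 →+* T0),
    Function.Injective j0 ∧ (∀ x, j0 (π x) = Φ0 x) ∧
    ∀ k : ℕ, ∃ n : ℕ, ∀ x : T0, (∀ i j, j0 x i j ∈ Ideal.span {a ^ n}) →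
      x ∈ Ideal.span {algebraMap O T0 a ^ k}

end Fermat.Agent.RT
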