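/-
K-machine, HECKE-asm (owner helper59), piece **BASE-AR** (helper12): Artin–Rees for the base Hecke
ring `T0 ⊆ M_d(O)` and locality of `Algebra.adjoin O (Set.range Φ)`.  Mathlib only.

* `rthk_ar_stab` : `O` noetherian, `N` a finite `O`-module, `T ≤ N`, `a : O`:
  `∃ c, ∀ n m, a ^ n • m ∈ T → a ^ c • m ∈ T`.
* `rthk_ar_span` : `j0 : T0 →ₐ[O] M_d(O)` injective, `a : O`:
  `∀ k, ∃ n, ∀ x, (∀ i j, j0 x i j ∈ span {a ^ n}) → x ∈ span {algebraMap O T0 a ^ k}`.
* `rthk_ar_algebraMap_mem_maximalIdeal` : `T0` local and finite over the local ring `O`: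
  `algebraMap O T0` maps the maximal ideal into the maximal ideal.
* `rthk_ar_max` : the same with `x ∈ maximalIdeal T0 ^ k` (for `a = lam` in the maximal ideal).
* `rthk_ar_comm`, `rthk_ar_adjoin_finite`, `rthk_ar_adjoin_isLocalRing`,
  `rthk_ar_adjoin_exists_sub_mem` : `T0 = Algebra.adjoin O (Set.range Φ)`, `Φ : 𝕋 →+* M_d(O)`,
  `𝕋` commutative, is commutative, finite over `O`, and local with residue field `O / lam` as soon
  as every `Φ h` is a scalar plus a nilpotent modulo `lam` (`d > 0`).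
-/
import Mathlib

set_option autoImplicit false
set_option linter.style.haveILetI false
set_option linter.unusedVariables false

namespace Fermat.Agent.RT

open Polynomial

/-! ### Artin–Rees -/

section Stab

variable {O N : Type*} [CommRing O] [IsNoetherianRing O] [AddCommGroup N] [Module O N]
  [Module.Finite O N]

/-- the `a`-power torsion of `N / T` is bounded -/
theorem rthk_ar_stab (T : Submodule O N) (a : O) :
    ∃ c : ℕ, ∀ (n : ℕ) (m : N), a ^ n • m ∈ T → a ^ c • m ∈ T := by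
  have : IsNoetherian O N := isNoetherian_of_isNoetherianRing_of_finite O N
  let f : ℕ →o Submodule O N :=
    { toFun := fun i => T.comap ((a ^ i) • (LinearMap.id : N →ₗ[O] N))
      monotone' := by
        intro i j hij m hm
        have hm' : a ^ i • m ∈ T := hm
        show a ^ j • m ∈ T
        obtain ⟨e, rfl⟩ := Nat.exists_eq_add_of_le hij
        rw [pow_add, mul_comm, mul_smul]
        exact T.smul_mem _ hm' }
  obtain ⟨c, hc⟩ := monotone_stabilizes_iff_noetherian.2 ‹IsNoetherian O N› f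
  refine ⟨c, fun n m hm => ?_⟩
  rcases le_total c n with h | h
  · have h1 : m ∈ f n := hm
    rw [← hc n h] at h1
    exact h1
  · have h1 : m ∈ f n := hm
    exact f.monotone h h1

end Stab

section Span

variable {O T0 : Type*} [CommRing O] [IsNoetherianRing O] [CommRing T0] [Algebra O T0] {d : ℕ}

/-- **Artin–Rees for `T0 ⊆ M_d(O)`**, `a`-adic form. -/
theorem rthk_ar_span (j0 : T0 →ₐ[O] Matrix (Fin d) (Fin d) O) (hj0 : Function.Injective j0)
    (a : O) (k : ℕ) :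
    ∃ n : ℕ, ∀ x : T0, (∀ i j, j0 x i j ∈ Ideal.span {a ^ n}) →
      x ∈ Ideal.span {algebraMap O T0 a ^ k} := by
  obtain ⟨c, hc⟩ := rthk_ar_stab (LinearMap.range j0.toLinearMap) a
  refine ⟨c + k, fun x hx => ?_⟩
  have hx' : ∀ i j, ∃ b : O, b * a ^ (c + k) = j0 x i j := fun i j =>
    Ideal.mem_span_singleton'.1 (hx i j)
  choose b hb using hx'
  let m : Matrix (Fin d) (Fin d) O := Matrix.of b
  have hm : a ^ (c + k) • m = j0 x := by
    ext i j
    rw [Matrix.smul_apply, smul_eq_mul, mul_comm]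
    exact hb i j
  have h1 : a ^ (c + k) • m ∈ LinearMap.range j0.toLinearMap := by
    rw [hm]
    exact ⟨x, rfl⟩
  obtain ⟨y, hy⟩ := hc _ _ h1
  have hy' : j0 y = a ^ c • m := hy
  have h2 : j0 x = j0 (a ^ k • y) := by
    rw [map_smul, hy', ← hm, smul_smul, ← pow_add, add_comm]
  have h3 : x = a ^ k • y := hj0 h2
  rw [h3, Algebra.smul_def, map_pow]
  exact Ideal.mul_mem_right _ _ (Ideal.subset_span rfl)

end Span

section Max

variable {O T0 : Type*} [CommRing O] [IsLocalRing O] [CommRing T0] [IsLocalRing T0]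
  [Algebra O T0] [Module.Finite O T0]

/-- a finite local algebra over a local ring: the structure map is local -/
theorem rthk_ar_algebraMap_mem_maximalIdeal {a : O} (ha : a ∈ IsLocalRing.maximalIdeal O) :
    algebraMap O T0 a ∈ IsLocalRing.maximalIdeal T0 := by
  rw [IsLocalRing.mem_maximalIdeal, mem_nonunits_iff]
  intro hu
  have htop : (⊤ : Submodule O T0) = ⊥ := by
    refine Submodule.eq_bot_of_le_smul_of_le_jacobson_bot (IsLocalRing.maximalIdeal O) ⊤
      Module.Finite.fg_top ?_ ?_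
    · intro t _
      obtain ⟨u, hu'⟩ := hu
      have e : t = a • ((↑u⁻¹ : T0) * t) := by
        rw [Algebra.smul_def, ← hu', ← mul_assoc, Units.mul_inv, one_mul]
      rw [e]
      exact Submodule.smul_mem_smul ha Submodule.mem_top
    · rw [IsLocalRing.jacobson_eq_maximalIdeal ⊥ bot_ne_top]
  have h1 : (1 : T0) ∈ (⊥ : Submodule O T0) := htop ▸ Submodule.mem_top
  exact one_ne_zero ((Submodule.mem_bot O).1 h1)

variable [IsNoetherianRing O] {d : ℕ}

/-- **Artin–Rees for `T0 ⊆ M_d(O)`**, `𝔪`-adic form. -/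
theorem rthk_ar_max (j0 : T0 →ₐ[O] Matrix (Fin d) (Fin d) O) (hj0 : Function.Injective j0)
    {lam : O} (hlam : lam ∈ IsLocalRing.maximalIdeal O) (k : ℕ) :
    ∃ n : ℕ, ∀ x : T0, (∀ i j, j0 x i j ∈ Ideal.span {lam ^ n}) →
      x ∈ IsLocalRing.maximalIdeal T0 ^ k := by
  obtain ⟨n, hn⟩ := rthk_ar_span j0 hj0 lam k
  refine ⟨n, fun x hx => ?_⟩
  have h1 := hn x hx
  have h2 : Ideal.span {algebraMap O T0 lam ^ k} ≤ IsLocalRing.maximalIdeal T0 ^ k := by
    rw [Ideal.span_singleton_le_iff_mem]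
    exact Ideal.pow_mem_pow (rthk_ar_algebraMap_mem_maximalIdeal hlam) k
  exact h2 h1

end Max

/-! ### Locality -/

section Local

variable {O T0 : Type*} [CommRing O] [IsLocalRing O] [CommRing T0] [Algebra O T0] {d : ℕ}

/-- reduction of matrices modulo the maximal ideal -/
noncomputable def rthkArRed (O : Type*) [CommRing O] [IsLocalRing O] (d : ℕ) :
    Matrix (Fin d) (Fin d) O →+* Matrix (Fin d) (Fin d) (O ⧸ IsLocalRing.maximalIdeal O) :=
  (Ideal.Quotient.mk (IsLocalRing.maximalIdeal O)).mapMatrix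

theorem rthk_ar_red_eq_zero_iff (m : Matrix (Fin d) (Fin d) O) :
    rthkArRed O d m = 0 ↔ ∀ i j, m i j ∈ IsLocalRing.maximalIdeal O := by
  constructor
  · intro h i j
    have := congrFun (congrFun h i) j
    rw [rthkArRed, RingHom.mapMatrix_apply, Matrix.map_apply, Matrix.zero_apply] at this
    exact Ideal.Quotient.eq_zero_iff_mem.1 this
  · intro h
    ext i j
    rw [rthkArRed, RingHom.mapMatrix_apply, Matrix.map_apply, Matrix.zero_apply]
    exact Ideal.Quotient.eq_zero_iff_mem.2 (h i j)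

/-- the reduction `T0 → M_d(O / 𝔪)` -/
noncomputable def rthkArPsi (j0 : T0 →ₐ[O] Matrix (Fin d) (Fin d) O) :
    T0 →+* Matrix (Fin d) (Fin d) (O ⧸ IsLocalRing.maximalIdeal O) :=
  (rthkArRed O d).comp (j0 : T0 →+* Matrix (Fin d) (Fin d) O)

theorem rthkArPsi_apply (j0 : T0 →ₐ[O] Matrix (Fin d) (Fin d) O) (x : T0) :
    rthkArPsi j0 x = rthkArRed O d (j0 x) := rfl

theorem rthkArPsi_algebraMap (j0 : T0 →ₐ[O] Matrix (Fin d) (Fin d) O) {c : O}
    (hc : c ∈ IsLocalRing.maximalIdeal O) : rthkArPsi j0 (algebraMap O T0 c) = 0 := by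
  rw [rthkArPsi_apply, rthk_ar_red_eq_zero_iff]
  intro i j
  rw [AlgHom.commutes, Matrix.algebraMap_matrix_apply]
  split_ifs
  · exact hc
  · exact zero_mem _

/-- the candidate maximal ideal: the elements which are nilpotent modulo `𝔪` -/
noncomputable def rthkArJ (j0 : T0 →ₐ[O] Matrix (Fin d) (Fin d) O) : Ideal T0 :=
  (RingHom.ker (rthkArPsi j0)).radical

theorem rthk_ar_mem_J_iff (j0 : T0 →ₐ[O] Matrix (Fin d) (Fin d) O) (x : T0) :
    x ∈ rthkArJ j0 ↔ ∃ N : ℕ, ∀ i j, (j0 x ^ N) i j ∈ IsLocalRing.maximalIdeal O := by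
  rw [rthkArJ, Ideal.mem_radical_iff]
  refine exists_congr fun N => ?_
  rw [RingHom.mem_ker, rthkArPsi_apply, rthk_ar_red_eq_zero_iff, map_pow]

/-- **Cayley–Hamilton**: `w ∈ T0` with `j0 w ≡ 1` modulo `𝔪` is a unit of `T0`. -/
theorem rthk_ar_isUnit_one_sub (j0 : T0 →ₐ[O] Matrix (Fin d) (Fin d) O)
    (hj0 : Function.Injective j0) {z : T0} (hz : z ∈ RingHom.ker (rthkArPsi j0)) :
    IsUnit (1 - z) := by
  set w : T0 := 1 - z with hw
  have hψ : rthkArRed O d (j0 w) = 1 := by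
    have h1 : rthkArPsi j0 w = 1 := by
      rw [hw, map_sub, map_one, (RingHom.mem_ker).1 hz, sub_zero]
    exact h1
  -- the determinant is a unit
  have hdet : IsUnit (j0 w).det := by
    have h1 : Ideal.Quotient.mk (IsLocalRing.maximalIdeal O) (j0 w).det = 1 := by
      rw [RingHom.map_det]
      have : (Ideal.Quotient.mk (IsLocalRing.maximalIdeal O)).mapMatrix (j0 w) = 1 := hψ
      rw [this, Matrix.det_one]
    by_contra hnu
    have h2 : (j0 w).det ∈ IsLocalRing.maximalIdeal O := (IsLocalRing.mem_maximalIdeal _).2 hnu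
    rw [Ideal.Quotient.eq_zero_iff_mem.2 h2] at h1
    have hne : (1 : O ⧸ IsLocalRing.maximalIdeal O) ≠ 0 := one_ne_zero
    exact hne h1.symm
  -- the constant coefficient of the characteristic polynomial is a unit
  have hu : IsUnit ((j0 w).charpoly.coeff 0) := by
    have h1 := Matrix.det_eq_sign_charpoly_coeff (j0 w)
    rw [h1] at hdet
    exact isUnit_of_mul_isUnit_right hdet
  obtain ⟨u, hu'⟩ := hu
  -- Cayley–Hamilton in `T0`
  have hCH : aeval w (j0 w).charpoly = 0 := by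
    apply hj0
    rw [← Polynomial.aeval_algHom_apply, map_zero]
    exact Matrix.aeval_self_charpoly (j0 w)
  have hsplit : aeval w (j0 w).charpoly
      = aeval w (j0 w).charpoly.divX * w + algebraMap O T0 (u : O) := by
    conv_lhs => rw [← Polynomial.divX_mul_X_add (j0 w).charpoly]
    rw [map_add, map_mul, aeval_X, aeval_C, hu']
  rw [hCH] at hsplit
  refine IsUnit.of_mul_eq_one (-(algebraMap O T0 ((u⁻¹ : Oˣ) : O) * aeval w (j0 w).charpoly.divX)) ?_
  have h3 : aeval w (j0 w).charpoly.divX * w = -algebraMap O T0 (u : O) :=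
    eq_neg_of_add_eq_zero_left hsplit.symm
  calc w * -(algebraMap O T0 ((u⁻¹ : Oˣ) : O) * aeval w (j0 w).charpoly.divX)
      = -(algebraMap O T0 ((u⁻¹ : Oˣ) : O) * (aeval w (j0 w).charpoly.divX * w)) := by ring
    _ = algebraMap O T0 (((u⁻¹ : Oˣ) : O) * (u : O)) := by rw [h3, map_mul]; ring
    _ = 1 := by rw [Units.inv_mul, map_one]

/-- the candidate maximal ideal is contained in the Jacobson radical -/
theorem rthk_ar_J_le_jacobson (j0 : T0 →ₐ[O] Matrix (Fin d) (Fin d) O)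
    (hj0 : Function.Injective j0) : rthkArJ j0 ≤ Ideal.jacobson ⊥ := by
  have h1 : RingHom.ker (rthkArPsi j0) ≤ Ideal.jacobson ⊥ := by
    intro z hz
    rw [Ideal.mem_jacobson_bot]
    intro y
    have h2 : -(z * y) ∈ RingHom.ker (rthkArPsi j0) :=
      neg_mem (Ideal.mul_mem_right _ _ hz)
    have h3 := rthk_ar_isUnit_one_sub j0 hj0 h2
    rwa [sub_neg_eq_add, add_comm] at h3
  calc rthkArJ j0 ≤ Ideal.jacobson (RingHom.ker (rthkArPsi j0)) := Ideal.radical_le_jacobson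
    _ ≤ Ideal.jacobson (Ideal.jacobson ⊥) := Ideal.jacobson_mono h1
    _ = Ideal.jacobson ⊥ := Ideal.jacobson_idem

/-- `1 ∉ J` (`d > 0`) -/
theorem rthk_ar_one_notMem_J (hd : 0 < d) (j0 : T0 →ₐ[O] Matrix (Fin d) (Fin d) O) :
    (1 : T0) ∉ rthkArJ j0 := by
  intro h
  rw [rthk_ar_mem_J_iff] at h
  obtain ⟨N, hN⟩ := h
  have h1 := hN ⟨0, hd⟩ ⟨0, hd⟩
  rw [map_one, one_pow, Matrix.one_apply_eq] at h1
  exact (IsLocalRing.mem_maximalIdeal _).1 h1 isUnit_one

variable (S : Set T0)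

/-- every element of `T0` is a scalar modulo `J` -/
theorem rthk_ar_exists_sub_mem_J (j0 : T0 →ₐ[O] Matrix (Fin d) (Fin d) O)
    (hS : Algebra.adjoin O S = ⊤)
    (hgen : ∀ s ∈ S, ∃ (c : O) (N : ℕ), ∀ i j,
      ((j0 s - algebraMap O (Matrix (Fin d) (Fin d) O) c) ^ N) i j ∈ IsLocalRing.maximalIdeal O)
    (x : T0) : ∃ c : O, x - algebraMap O T0 c ∈ rthkArJ j0 := by
  have hx : x ∈ Algebra.adjoin O S := hS ▸ Algebra.mem_top
  induction hx using Algebra.adjoin_induction with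
  | mem s hs =>
      obtain ⟨c, N, hc⟩ := hgen s hs
      refine ⟨c, (rthk_ar_mem_J_iff j0 _).2 ⟨N, ?_⟩⟩
      rw [map_sub, AlgHom.commutes]
      exact hc
  | algebraMap r => exact ⟨r, by rw [sub_self]; exact zero_mem _⟩
  | add x y _ _ hx hy =>
      obtain ⟨c₁, h₁⟩ := hx
      obtain ⟨c₂, h₂⟩ := hy
      refine ⟨c₁ + c₂, ?_⟩
      have e : x + y - algebraMap O T0 (c₁ + c₂)
          = (x - algebraMap O T0 c₁) + (y - algebraMap O T0 c₂) := by
        rw [map_add]; ring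
      rw [e]
      exact add_mem h₁ h₂
  | mul x y _ _ hx hy =>
      obtain ⟨c₁, h₁⟩ := hx
      obtain ⟨c₂, h₂⟩ := hy
      refine ⟨c₁ * c₂, ?_⟩
      have e : x * y - algebraMap O T0 (c₁ * c₂)
          = (x - algebraMap O T0 c₁) * y + algebraMap O T0 c₁ * (y - algebraMap O T0 c₂) := by
        rw [map_mul]; ring
      rw [e]
      exact add_mem (Ideal.mul_mem_right _ _ h₁) (Ideal.mul_mem_left _ _ h₂)

/-- the elements outside `J` are units -/
theorem rthk_ar_isUnit_of_notMem_J (j0 : T0 →ₐ[O] Matrix (Fin d) (Fin d) O)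
    (hj0 : Function.Injective j0) (hS : Algebra.adjoin O S = ⊤)
    (hgen : ∀ s ∈ S, ∃ (c : O) (N : ℕ), ∀ i j,
      ((j0 s - algebraMap O (Matrix (Fin d) (Fin d) O) c) ^ N) i j ∈ IsLocalRing.maximalIdeal O)
    {x : T0} (hx : x ∉ rthkArJ j0) : IsUnit x := by
  obtain ⟨c, hc⟩ := rthk_ar_exists_sub_mem_J S j0 hS hgen x
  have hcu : IsUnit c := by
    by_contra hnu
    have h1 : c ∈ IsLocalRing.maximalIdeal O := (IsLocalRing.mem_maximalIdeal _).2 hnu
    have h2 : algebraMap O T0 c ∈ rthkArJ j0 :=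
      Ideal.le_radical ((RingHom.mem_ker).2 (rthkArPsi_algebraMap j0 h1))
    apply hx
    have := add_mem hc h2
    rwa [sub_add_cancel] at this
  obtain ⟨u, rfl⟩ := hcu
  have h3 := (Ideal.mem_jacobson_bot.1 (rthk_ar_J_le_jacobson j0 hj0 hc))
    (algebraMap O T0 ((u⁻¹ : Oˣ) : O))
  have e : x = algebraMap O T0 (u : O) *
      ((x - algebraMap O T0 (u : O)) * algebraMap O T0 ((u⁻¹ : Oˣ) : O) + 1) := by
    have h4 : algebraMap O T0 (u : O) * algebraMap O T0 ((u⁻¹ : Oˣ) : O) = 1 := by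
      rw [← map_mul, Units.mul_inv, map_one]
    calc x = (x - algebraMap O T0 (u : O)) *
          (algebraMap O T0 (u : O) * algebraMap O T0 ((u⁻¹ : Oˣ) : O))
          + algebraMap O T0 (u : O) := by rw [h4, mul_one, sub_add_cancel]
      _ = _ := by ring
  rw [e]
  exact (u.isUnit.map (algebraMap O T0)).mul h3

/-- **Locality of the base Hecke ring.**  `T0` commutative, `j0 : T0 →ₐ[O] M_d(O)` injective,
`d > 0`, `T0` generated by elements which are scalar plus nilpotent modulo `𝔪_O`. -/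
theorem rthk_ar_isLocalRing (hd : 0 < d) (j0 : T0 →ₐ[O] Matrix (Fin d) (Fin d) O)
    (hj0 : Function.Injective j0) (hS : Algebra.adjoin O S = ⊤)
    (hgen : ∀ s ∈ S, ∃ (c : O) (N : ℕ), ∀ i j,
      ((j0 s - algebraMap O (Matrix (Fin d) (Fin d) O) c) ^ N) i j ∈ IsLocalRing.maximalIdeal O) :
    IsLocalRing T0 := by
  have : Nontrivial T0 := ⟨⟨0, 1, fun h => rthk_ar_one_notMem_J hd j0 (h ▸ zero_mem _)⟩⟩
  have hJ : ∀ a : T0, a ∈ nonunits T0 → a ∈ rthkArJ j0 := by
    intro a ha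
    by_contra h
    exact ha (rthk_ar_isUnit_of_notMem_J S j0 hj0 hS hgen h)
  have hJ' : ∀ a : T0, a ∈ rthkArJ j0 → a ∈ nonunits T0 := by
    intro a ha hu
    exact rthk_ar_one_notMem_J hd j0 ((Ideal.eq_top_of_isUnit_mem _ ha hu) ▸ Submodule.mem_top)
  exact IsLocalRing.of_nonunits_add fun a b ha hb => hJ' _ (add_mem (hJ a ha) (hJ b hb))

/-- the maximal ideal of the base Hecke ring: the elements which are nilpotent modulo `𝔪_O` -/
theorem rthk_ar_maximalIdeal_eq [IsLocalRing T0] (hd : 0 < d)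
    (j0 : T0 →ₐ[O] Matrix (Fin d) (Fin d) O)
    (hj0 : Function.Injective j0) (hS : Algebra.adjoin O S = ⊤)
    (hgen : ∀ s ∈ S, ∃ (c : O) (N : ℕ), ∀ i j,
      ((j0 s - algebraMap O (Matrix (Fin d) (Fin d) O) c) ^ N) i j ∈ IsLocalRing.maximalIdeal O) :
    IsLocalRing.maximalIdeal T0 = rthkArJ j0 := by
  ext a
  rw [IsLocalRing.mem_maximalIdeal]
  constructor
  · intro ha
    by_contra h
    exact ha (rthk_ar_isUnit_of_notMem_J S j0 hj0 hS hgen h)
  · intro ha hu
    exact rthk_ar_one_notMem_J hd j0 ((Ideal.eq_top_of_isUnit_mem _ ha hu) ▸ Submodule.mem_top)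

/-- the residue field of the base Hecke ring is the residue field of `O` -/
theorem rthk_ar_exists_sub_mem_maximalIdeal [IsLocalRing T0] (hd : 0 < d)
    (j0 : T0 →ₐ[O] Matrix (Fin d) (Fin d) O)
    (hj0 : Function.Injective j0) (hS : Algebra.adjoin O S = ⊤)
    (hgen : ∀ s ∈ S, ∃ (c : O) (N : ℕ), ∀ i j,
      ((j0 s - algebraMap O (Matrix (Fin d) (Fin d) O) c) ^ N) i j ∈ IsLocalRing.maximalIdeal O)
    (x : T0) : ∃ c : O, x - algebraMap O T0 c ∈ IsLocalRing.maximalIdeal T0 := by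
  rw [rthk_ar_maximalIdeal_eq S hd j0 hj0 hS hgen]
  exact rthk_ar_exists_sub_mem_J S j0 hS hgen x

end Local

/-! ### The subalgebra generated by a commutative family of matrices -/

section Adjoin

variable {O 𝕋 : Type*} [CommRing O] [CommRing 𝕋] {d : ℕ}
  (Φ : 𝕋 →+* Matrix (Fin d) (Fin d) O)

/-- the generators commute -/
theorem rthk_ar_comm : ∀ a ∈ Set.range Φ, ∀ b ∈ Set.range Φ, a * b = b * a := by
  rintro _ ⟨x, rfl⟩ _ ⟨y, rfl⟩
  rw [← map_mul, ← map_mul, mul_comm]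

/-- the base Hecke ring `O[Φ(𝕋)] ⊆ M_d(O)` -/
abbrev rthkArAdj : Subalgebra O (Matrix (Fin d) (Fin d) O) := Algebra.adjoin O (Set.range Φ)

open scoped IsMulCommutative in
/-- the commutative ring structure of the base Hecke ring (the one of Mathlib's
`Algebra.adjoinCommRingOfComm`) -/
@[reducible] def rthkArAdjCommRing : CommRing (rthkArAdj Φ) :=
  have := Algebra.isMulCommutative_adjoin O (rthk_ar_comm Φ)
  inferInstance

/-- `Φ` with values in the base Hecke ring -/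
def rthkArAdjHom : 𝕋 →+* rthkArAdj Φ where
  toFun h := ⟨Φ h, Algebra.subset_adjoin ⟨h, rfl⟩⟩
  map_one' := Subtype.ext (map_one Φ)
  map_mul' x y := Subtype.ext (map_mul Φ x y)
  map_zero' := Subtype.ext (map_zero Φ)
  map_add' x y := Subtype.ext (map_add Φ x y)

@[simp]
theorem rthkArAdjHom_coe (h : 𝕋) :
    ((rthkArAdjHom Φ h : rthkArAdj Φ) : Matrix (Fin d) (Fin d) O) = Φ h := rfl

/-- the base Hecke ring is generated by the image of `Φ` -/
theorem rthk_ar_adjoin_range_hom :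
    Algebra.adjoin O (Set.range (rthkArAdjHom Φ)) = ⊤ := by
  have h := Algebra.adjoin_adjoin_coe_preimage (R := O) (s := Set.range Φ)
  have e : Set.range (rthkArAdjHom Φ)
      = ((↑) ⁻¹' (Set.range Φ) : Set (Algebra.adjoin O (Set.range Φ))) := by
    ext x
    constructor
    · rintro ⟨h, rfl⟩
      exact ⟨h, rfl⟩
    · rintro ⟨h, hh⟩
      exact ⟨h, Subtype.ext hh⟩
  rw [e]
  exact h

/-- the base Hecke ring is finite over `O` -/
theorem rthk_ar_adjoin_finite [IsNoetherianRing O] : Module.Finite O (rthkArAdj Φ) := by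
  have : IsNoetherian O (Matrix (Fin d) (Fin d) O) :=
    isNoetherian_of_isNoetherianRing_of_finite O _
  exact Module.Finite.of_injective (rthkArAdj Φ).val.toLinearMap Subtype.val_injective

/-- **Artin–Rees for the base Hecke ring**, `a`-adic form, without instances:
`x ∈ O[Φ(𝕋)] ∩ aⁿ M_d(O) ⇒ x ∈ aᵏ O[Φ(𝕋)]`. -/
theorem rthk_ar_adjoin_smul [IsNoetherianRing O] (a : O) (k : ℕ) :
    ∃ n : ℕ, ∀ x ∈ rthkArAdj Φ, (∀ i j, x i j ∈ Ideal.span {a ^ n}) →
      ∃ y ∈ rthkArAdj Φ, x = a ^ k • y := by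
  letI := rthkArAdjCommRing Φ
  obtain ⟨n, hn⟩ := rthk_ar_span (rthkArAdj Φ).val Subtype.val_injective a k
  refine ⟨n, fun x hx hxa => ?_⟩
  have h1 := hn ⟨x, hx⟩ hxa
  obtain ⟨y, hy⟩ := Ideal.mem_span_singleton'.1 h1
  refine ⟨(y : Matrix (Fin d) (Fin d) O), y.2, ?_⟩
  have h2 : ((y * (algebraMap O (rthkArAdj Φ) a) ^ k : rthkArAdj Φ) :
      Matrix (Fin d) (Fin d) O) = x := congrArg Subtype.val hy
  rw [← h2, ← map_pow, mul_comm, ← Algebra.smul_def]
  rfl

variable [IsLocalRing O]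

/-- **Locality of the base Hecke ring** `O[Φ(𝕋)]`: every `Φ h` is a scalar plus a nilpotent modulo
`𝔪_O`, `d > 0`. -/
theorem rthk_ar_adjoin_isLocalRing (hd : 0 < d)
    (hΦ : ∀ h : 𝕋, ∃ (c : O) (N : ℕ), ∀ i j,
      ((Φ h - algebraMap O (Matrix (Fin d) (Fin d) O) c) ^ N) i j ∈ IsLocalRing.maximalIdeal O) :
    IsLocalRing (rthkArAdj Φ) := by
  letI := rthkArAdjCommRing Φ
  refine rthk_ar_isLocalRing (Set.range (rthkArAdjHom Φ)) hd (rthkArAdj Φ).val
    Subtype.val_injective (rthk_ar_adjoin_range_hom Φ) ?_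
  rintro _ ⟨h, rfl⟩
  exact hΦ h

/-- the same, `𝔪_O = (lam)` -/
theorem rthk_ar_adjoin_isLocalRing_span (hd : 0 < d) {lam : O}
    (hlam : IsLocalRing.maximalIdeal O = Ideal.span {lam})
    (hΦ : ∀ h : 𝕋, ∃ (c : O) (N : ℕ), ∀ i j,
      ((Φ h - algebraMap O (Matrix (Fin d) (Fin d) O) c) ^ N) i j ∈ Ideal.span {lam}) :
    IsLocalRing (rthkArAdj Φ) :=
  rthk_ar_adjoin_isLocalRing Φ hd (by rw [hlam]; exact hΦ)

/-- the maximal ideal of the base Hecke ring, without instances: `x ∈ O[Φ(𝕋)]` is a unit of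
`O[Φ(𝕋)]` unless it is nilpotent modulo `𝔪_O`. -/
theorem rthk_ar_adjoin_unit_or (hd : 0 < d)
    (hΦ : ∀ h : 𝕋, ∃ (c : O) (N : ℕ), ∀ i j,
      ((Φ h - algebraMap O (Matrix (Fin d) (Fin d) O) c) ^ N) i j ∈ IsLocalRing.maximalIdeal O)
    (x : rthkArAdj Φ) :
    IsUnit x ∨ ∃ N : ℕ, ∀ i j,
      ((x : Matrix (Fin d) (Fin d) O) ^ N) i j ∈ IsLocalRing.maximalIdeal O := by
  letI := rthkArAdjCommRing Φ
  by_cases hx : x ∈ rthkArJ (rthkArAdj Φ).val
  · exact Or.inr ((rthk_ar_mem_J_iff _ x).1 hx)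
  · left
    refine rthk_ar_isUnit_of_notMem_J (Set.range (rthkArAdjHom Φ)) (rthkArAdj Φ).val
      Subtype.val_injective (rthk_ar_adjoin_range_hom Φ) ?_ hx
    rintro _ ⟨h, rfl⟩
    exact hΦ h

/-- the residue field of the base Hecke ring is the residue field of `O`, without instances -/
theorem rthk_ar_adjoin_exists_sub (hd : 0 < d)
    (hΦ : ∀ h : 𝕋, ∃ (c : O) (N : ℕ), ∀ i j,
      ((Φ h - algebraMap O (Matrix (Fin d) (Fin d) O) c) ^ N) i j ∈ IsLocalRing.maximalIdeal O)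
    (x : rthkArAdj Φ) :
    ∃ (c : O) (N : ℕ), ∀ i j,
      (((x : Matrix (Fin d) (Fin d) O) - algebraMap O (Matrix (Fin d) (Fin d) O) c) ^ N) i j
        ∈ IsLocalRing.maximalIdeal O := by
  letI := rthkArAdjCommRing Φ
  obtain ⟨c, hc⟩ := rthk_ar_exists_sub_mem_J (Set.range (rthkArAdjHom Φ)) (rthkArAdj Φ).val
    (rthk_ar_adjoin_range_hom Φ) (by rintro _ ⟨h, rfl⟩; exact hΦ h) x
  obtain ⟨N, hN⟩ := (rthk_ar_mem_J_iff _ _).1 hc
  refine ⟨c, N, ?_⟩
  have e : (rthkArAdj Φ).val (x - algebraMap O (rthkArAdj Φ) c)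
      = (x : Matrix (Fin d) (Fin d) O) - algebraMap O (Matrix (Fin d) (Fin d) O) c := by
    rw [map_sub, AlgHom.commutes]
    rfl
  rw [e] at hN
  exact hN

/-- **Artin–Rees for the base Hecke ring**, `𝔪`-adic form. -/
theorem rthk_ar_adjoin_max [IsNoetherianRing O] (hd : 0 < d)
    (hΦ : ∀ h : 𝕋, ∃ (c : O) (N : ℕ), ∀ i j,
      ((Φ h - algebraMap O (Matrix (Fin d) (Fin d) O) c) ^ N) i j ∈ IsLocalRing.maximalIdeal O)
    {lam : O} (hlam : lam ∈ IsLocalRing.maximalIdeal O) (k : ℕ) :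
    letI := rthkArAdjCommRing Φ
    haveI := rthk_ar_adjoin_isLocalRing Φ hd hΦ
    ∃ n : ℕ, ∀ x : rthkArAdj Φ,
      (∀ i j, (x : Matrix (Fin d) (Fin d) O) i j ∈ Ideal.span {lam ^ n}) →
        x ∈ IsLocalRing.maximalIdeal (rthkArAdj Φ) ^ k := by
  letI := rthkArAdjCommRing Φ
  haveI := rthk_ar_adjoin_isLocalRing Φ hd hΦ
  haveI := rthk_ar_adjoin_finite Φ
  exact rthk_ar_max (rthkArAdj Φ).val Subtype.val_injective hlam k

end Adjoin

end Fermat.Agent.RT
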