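/-
K-machine, HECKE-asm (owner helper59), piece **BASE-AR** (helper12), final form: the contract
`StmtBaseRing` of HK-ABS-B (helper27, `RT/Hecke/AbsBRing.lean`), verbatim, as a theorem.

`T0 = Algebra.adjoin O (Set.range Φ0) ⊆ M_d(O)` with the commutative ring structure
`rthkArAdjCommRing` (= Mathlib's `Algebra.adjoinCommRingOfComm`), `j0` = the inclusion,
`π` = `Φ0` with values in `T0`.
-/
import Fermat.Agent.RT.Hecke.BaseAR

set_option autoImplicit false
set_option linter.style.haveILetI false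

namespace Fermat.Agent.RT

/-- **BASE-AR, contract form** (`StmtBaseRing` verbatim): the base Hecke ring exists, is
commutative, local, finite over `O`, embeds into `M_d(O)`, receives `𝕋`, and satisfies the `a`-adic
Artin–Rees property. -/
theorem rthk_ar_baseRing :
    ∀ (O : Type) [CommRing O] [IsDomain O] [IsDiscreteValuationRing O] (d : ℕ), 0 < d →
    ∀ (𝕋 : Type) [CommRing 𝕋] (Φ0 : 𝕋 →+* Matrix (Fin d) (Fin d) O),
      (∀ x : 𝕋, ∃ (c : O) (e : ℕ), ∀ i j,
        ((Φ0 x - algebraMap O (Matrix (Fin d) (Fin d) O) c) ^ e) i j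
          ∈ IsLocalRing.maximalIdeal O) →
    ∀ a : O, a ≠ 0 →
    ∃ (T0 : Type) (_ : CommRing T0) (_ : IsLocalRing T0) (_ : Algebra O T0)
      (_ : Module.Finite O T0)
      (j0 : T0 →ₐ[O] Matrix (Fin d) (Fin d) O) (π : 𝕋 →+* T0),
      Function.Injective j0 ∧ (∀ x, j0 (π x) = Φ0 x) ∧
      ∀ k : ℕ, ∃ n : ℕ, ∀ x : T0, (∀ i j, j0 x i j ∈ Ideal.span {a ^ n}) →
        x ∈ Ideal.span {algebraMap O T0 a ^ k} := by
  intro O _ _ _ d hd 𝕋 _ Φ0 hΦ a _
  letI : CommRing (rthkArAdj Φ0) := rthkArAdjCommRing Φ0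
  refine ⟨rthkArAdj Φ0, rthkArAdjCommRing Φ0, rthk_ar_adjoin_isLocalRing Φ0 hd hΦ,
    inferInstance, rthk_ar_adjoin_finite Φ0, (rthkArAdj Φ0).val, rthkArAdjHom Φ0,
    Subtype.val_injective, fun x => rfl, fun k => ?_⟩
  exact rthk_ar_span (rthkArAdj Φ0).val Subtype.val_injective a k

end Fermat.Agent.RT
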