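import Fermat.Agent.RT.K7.Main
import Fermat.Agent.RT.Prod.FinalPlan

/-!
# K-machine, HECKE-asm (owner helper59): the contracts between the module side and the Galois side

Target: `Prod.StmtHecke` (`RT/Prod/FinalPlan.lean`).  The chain is

  K5 + K6 + ES₁-inf-tw + K7F  ──(HK-CONC)──▶  `HkBase`, `HkLevel`        (module side, concrete)
  `HkLevel`  ──(HK-ABS-L : `StmtHkAbsL`)──▶  `HkOut`                      (K7-MAIN, K7-U2, HK-COMPAT)
  `HkBase`   ──(HK-ABS-B : `StmtHkAbsB`)──▶  `HkBaseOut`                  (K7-MAIN adic, BASE-AR)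
  `HkOut`    ──(HECKE-PACK, helper70)────▶  `Prod.TWGal`                  (framing)

## The abstract situation

`𝕋` is ANY commutative ring (in the application a subring of `HDAlg M`), acting on `J` (the
`p`-divisible torsion of the twisted Jacobian) with the twisted package `Rtk7bPkg p L J Tr`;
the Hecke MODULE enters only through two ring homomorphisms
`Φ1, Φχ : 𝕋 →+* M_d(S ⧸ 𝔪 ^ n)`: the matrices of the operators on the two specialisations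
(`Δ_T → 1`, `Δ_T → ζ`) of the free module of level `Q`, pushed along `Λ → S ⧸ 𝔪 ^ n`
(`[δ_q]^e ↦ u_q`, `u_q − u_q⁻¹ = w_q`; HK-MAT + TW-unit).  The Hecke ring is
`A₀ = 𝒪[(Φ1 x, Φχ x) : x ∈ 𝕋] ⊆ M_d(S ⧸ 𝔪 ^ n)²`.

* `faith`  : an `x ∈ 𝕋` which kills `J[p^{n₀}]` has `Φ1 x = 0 = Φχ x`  (HK-FAITH);
* `nil`    : every `Φ x − c` (some `c ∈ 𝒪`) is nilpotent, for both `Φ` with the SAME `c`
             (K5-LOC: then `A₀` is local with the residue field of `𝒪`);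
* `resid`  : for `x = Tr ℓ` the constant `c` lifts `tr ρ̄(Frob_ℓ)`;
* `gen`    : `𝕋` is generated by elements with an EXACT representative `g ∈ G_ℚ`
             (`Tr ℓ ↔ Frob_ℓ`; `δ_c^e + δ_c^{−e} ↔ σ ∈ I_q`, K6), so that `A₀` is generated by traces;
* `trT`, `trQ` : K6 at the trivial primes (`σ i` the LOC-gen generators) and at the Taylor–Wiles
             primes (`w_j² = (tr ρ(g_j))² − 4`);
* `cong`   : `Φ1 ≡ Φχ` modulo `λ`;
* `base`   : modulo `𝔞` the operator `Φ1 (Tr ℓ)` is the base matrix `a0 ℓ` of `T_ℓ`.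
-/

set_option autoImplicit false

namespace Fermat.Agent.RT

open IsLocalRing Fermat.Agent.ES Fermat.Agent.S30 Fermat.Agent.W1 Fermat.Agent.TW
open Fermat.Agent.RT.Prod ExtCitation
open WeierstrassCurve WeierstrassCurve.Affine WeierstrassCurve.Affine.Point

/-- `S ⧸ 𝔪 ^ n`, `S = 𝒪[[w_1, …, w_m]]`. -/
abbrev RthkSn (O : Type) [CommRing O] [IsLocalRing O] (m n : ℕ) : Type :=
  RttwS O m ⧸ maximalIdeal (RttwS O m) ^ n

section Level

variable {O : Type} [CommRing O] [IsLocalRing O]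

/-- **The module side at level `n`** (abstract form; `n ≥ 1` in the application, the level `n`
of `Prod.TWGal` is obtained from the level `n + 1` here). -/
structure HkLevel (p : ℕ) [Fact p.Prime] (lam : O) (ρbar : ResidualGaloisRep (ResidueField O))
    (Sbad : Finset ℕ) {ι : Type} (σ : ι → GQ) (tχ : ι → O) (m h d n : ℕ)
    (a0 : ℕ → Matrix (Fin d) (Fin d) O)
    (L : ℕ) {𝕋 : Type} [CommRing 𝕋] (J : Type) [AddCommGroup J] [Module 𝕋 J]
    [DistribMulAction GQ J] (Tr : ℕ → 𝕋)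
    (Φ1 Φχ : 𝕋 →+* Matrix (Fin d) (Fin d) (RthkSn O m n)) : Prop where
  /-- the twisted Eichler–Shimura package -/
  pkg : Rtk7bPkg p L J Tr
  /-- the primes of the level are bad -/
  primes : ∀ q : ℕ, q.Prime → q ∉ Sbad → ¬ q ∣ L * p
  /-- finite flat models dominating the `J[pᵏ]` -/
  model : ∀ k : ℕ, ∃ (X : Type) (_ : AddCommGroup X) (_ : Finite X) (act : GQ → X → X),
      (∀ s x x', act s (x + x') = act s x + act s x') ∧
      (∀ s s' x, act (s * s') x = act s (act s' x)) ∧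
      HasFiniteFlatModel (GaloisRep.ratLocalizedAt p) X act ∧
      ∀ e : GQ →₀ ℤ, (∀ x : X, (e.sum fun g z => z • act g x) = 0) →
        ∀ x : J, p ^ k • x = 0 → (e.sum fun g z => z • g • x) = 0
  /-- `𝕋` is generated by elements with an exact representative -/
  gen : Subring.closure {x : 𝕋 | ∃ g : GQ,
      ∀ k, Rtk7bApprox p J (fun n g => ((cycE p n g : ℕ) : 𝕋)) k g x} = ⊤
  /-- faithfulness -/
  faith : ∃ n₀ : ℕ, ∀ x : 𝕋, (∀ y : J, p ^ n₀ • y = 0 → x • y = 0) → Φ1 x = 0 ∧ Φχ x = 0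
  /-- locality -/
  nil : ∀ x : 𝕋, ∃ c : O,
    IsNilpotent (Φ1 x - algebraMap O (Matrix (Fin d) (Fin d) (RthkSn O m n)) c) ∧
    IsNilpotent (Φχ x - algebraMap O (Matrix (Fin d) (Fin d) (RthkSn O m n)) c)
  /-- the residual Frobenius traces -/
  resid : ∀ ℓ : ℕ, ℓ.Prime → ¬ ℓ ∣ L * p →
    ∀ P : ValuationSubring (AlgebraicClosure ℚ), P.LiesOverPrime ℓ →
      ∀ τ : GQ, P.IsFrobeniusAt τ ℓ → ∃ c : O,
        residue O c = LinearMap.trace (ResidueField O) ρbar.V (ρbar.ρ τ) ∧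
        IsNilpotent (Φ1 (Tr ℓ) - algebraMap O (Matrix (Fin d) (Fin d) (RthkSn O m n)) c)
  /-- the two sides are congruent modulo `λ` -/
  cong : ∀ x : 𝕋,
    (Φ1 x).map (Ideal.Quotient.factor
        (le_sup_right : maximalIdeal (RttwS O m) ^ n ≤
          rttwLam m lam ⊔ maximalIdeal (RttwS O m) ^ n)) =
      (Φχ x).map (Ideal.Quotient.factor
        (le_sup_right : maximalIdeal (RttwS O m) ^ n ≤
          rttwLam m lam ⊔ maximalIdeal (RttwS O m) ^ n))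
  /-- K6 at the trivial primes -/
  trT : ∀ i, ∃ x : 𝕋, (∀ k, Rtk7bApprox p J (fun n g => ((cycE p n g : ℕ) : 𝕋)) k (σ i) x) ∧
    Φ1 x = 2 ∧ Φχ x = algebraMap O (Matrix (Fin d) (Fin d) (RthkSn O m n)) (2 * tχ i)
  /-- K6 at the Taylor–Wiles primes: `w_j² = (tr ρ(g_j))² − 4` -/
  trQ : ∀ j : Fin m, (j : ℕ) < h → ∃ (g : GQ) (x : 𝕋),
    (∀ k, Rtk7bApprox p J (fun n g => ((cycE p n g : ℕ) : 𝕋)) k g x) ∧
    Φ1 x ^ 2 - 4 = algebraMap (RthkSn O m n) (Matrix (Fin d) (Fin d) (RthkSn O m n))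
      (Ideal.Quotient.mk _ (MvPowerSeries.X j) ^ 2) ∧
    Φχ x ^ 2 - 4 = algebraMap (RthkSn O m n) (Matrix (Fin d) (Fin d) (RthkSn O m n))
      (Ideal.Quotient.mk _ (MvPowerSeries.X j) ^ 2)
  /-- the base: modulo `𝔞` the operator `Tr ℓ` is the base matrix `a0 ℓ` of `T_ℓ` -/
  base : ∀ ℓ : ℕ, ℓ.Prime → ¬ ℓ ∣ L * p →
    (Φ1 (Tr ℓ)).map (Ideal.Quotient.factor
      (le_sup_right : maximalIdeal (RttwS O m) ^ n ≤
        rttwAug O m ⊔ maximalIdeal (RttwS O m) ^ n)) = rttwBaseRed m d n (a0 ℓ)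

/-- **What the Galois side delivers at level `n`** (= the inputs (I1)–(I3) of HECKE-PACK):
a finite local `𝒪`-algebra `A₀` generated by traces, the representation over `A₀` with Wiles'
matrices, of type `twFlat`, with the annihilator property (flatness survives base change), and
the two actions `φ1`, `φχ`. -/
structure HkOut (p : ℕ) [Fact p.Prime] (lam : O) (ρbar : ResidualGaloisRep (ResidueField O))
    (Smin QT : Finset ℕ) {ι : Type} (σ φ : ι → GQ) (tχ : ι → O) (m h d n : ℕ)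
    {T0 : Type} [CommRing T0] [Algebra O T0] (j0 : T0 →ₐ[O] Matrix (Fin d) (Fin d) O)
    (Sig0 Phi0 : ι → Matrix (Fin 2) (Fin 2) T0)
    {A₀ : Type} [CommRing A₀] [IsLocalRing A₀] [Algebra O A₀]
    (ιA : ResidueField O →+* ResidueField A₀)
    (ρ : GaloisRepAdic A₀) (b : Module.Basis (Fin 2) A₀ ρ.V)
    (φ1 φχ : A₀ →ₐ[O] Matrix (Fin d) (Fin d) (RthkSn O m n)) : Prop where
  finite : Finite A₀
  resAlg : Fermat.Agent.S53.IsResAlg O A₀
  hιA : ∀ x : O, ιA (residue O x) = residue A₀ (algebraMap O A₀ x)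
  flat : twFlat O p Smin QT ρ
  ann : Rtk7fAnn p (fun g => LinearMap.toMatrix b b (ρ.ρ g))
  res : ρ.residual.IsEquiv (ρbar.baseChangeAlong ιA)
  gen : Algebra.adjoin O {y | ∃ g, y = LinearMap.trace A₀ ρ.V (ρ.ρ g)} = ⊤
  scalY1 : ∀ j : Fin m, (j : ℕ) < h → ∃ a : A₀,
    φ1 a = algebraMap (RthkSn O m n) (Matrix (Fin d) (Fin d) (RthkSn O m n))
      (Ideal.Quotient.mk _ (MvPowerSeries.X j) ^ 2)
  scalYχ : ∀ j : Fin m, (j : ℕ) < h → ∃ a : A₀,
    φχ a = algebraMap (RthkSn O m n) (Matrix (Fin d) (Fin d) (RthkSn O m n))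
      (Ideal.Quotient.mk _ (MvPowerSeries.X j) ^ 2)
  tr1 : ∀ i, φ1 (LinearMap.trace A₀ ρ.V (ρ.ρ (σ i))) = 2
  trχ : ∀ i, φχ (LinearMap.trace A₀ ρ.V (ρ.ρ (σ i))) = algebraMap O _ (2 * tχ i)
  cong : ∀ u : A₀,
    (φ1 u).map (Ideal.Quotient.factor
        (le_sup_right : maximalIdeal (RttwS O m) ^ n ≤
          rttwLam m lam ⊔ maximalIdeal (RttwS O m) ^ n)) =
      (φχ u).map (Ideal.Quotient.factor
        (le_sup_right : maximalIdeal (RttwS O m) ^ n ≤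
          rttwLam m lam ⊔ maximalIdeal (RttwS O m) ^ n))
  base_sig : ∀ i a c,
    (φ1 (LinearMap.toMatrix b b (ρ.ρ (σ i)) a c)).map (Ideal.Quotient.factor
        (le_sup_right : maximalIdeal (RttwS O m) ^ n ≤
          rttwAug O m ⊔ maximalIdeal (RttwS O m) ^ n)) =
      rttwBaseRed m d n (j0 (Sig0 i a c))
  base_phi : ∀ i a c,
    (φ1 (LinearMap.toMatrix b b (ρ.ρ (φ i)) a c)).map (Ideal.Quotient.factor
        (le_sup_right : maximalIdeal (RttwS O m) ^ n ≤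
          rttwAug O m ⊔ maximalIdeal (RttwS O m) ^ n)) =
      rttwBaseRed m d n (j0 (Phi0 i a c))
  base_T0 : ∀ u : A₀, ∃ t0 : T0,
    (φ1 u).map (Ideal.Quotient.factor
        (le_sup_right : maximalIdeal (RttwS O m) ^ n ≤
          rttwAug O m ⊔ maximalIdeal (RttwS O m) ^ n)) =
      rttwBaseRed m d n (j0 t0)

end Level

/-- **HK-ABS-L**: the module side at level `n` gives the Galois side at level `n`.
[`stmtK7Main` with `B = ⊤`, `A₀ = 𝒪[(Φ1 x, Φχ x)] ⊆ M_d(S ⧸ 𝔪 ^ n)²` (finite; local by `nil`,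
K5's `stmtLocRing`), `π x = (Φ1 x, Φχ x)`; `gen` + "`t g = π x` for exact representatives" ⇒
`A₀` is generated by traces; `stmtK7U2` at the primes of `Smin`; HK-COMPAT for `base_*`.] -/
def StmtHkAbsL : Prop :=
  Cheb.WeakChebotarev →
  ∀ (p : ℕ) [Fact p.Prime], p ≠ 2 →
  ∀ (O : Type) [CommRing O] [IsDomain O] [IsDiscreteValuationRing O]
    [IsAdicComplete (maximalIdeal O) O] [Finite (ResidueField O)]
    (lam half : O), maximalIdeal O = Ideal.span {lam} → (p : O) ∈ maximalIdeal O →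
    2 * half = 1 →
  ∀ (ρbar : ResidualGaloisRep (ResidueField O)), ρbar.IsAbsolutelyIrreducible →
    (GaloisRepAdic.ofResidualGaloisRep ρbar).DetIsCyclotomic p →
  ∀ (Smin QT : Finset ℕ),
    (∀ q ∈ Smin, q.Prime → q ≠ p → ¬ p ∣ q ^ 2 - 1 ∧
      ∀ P : ValuationSubring (AlgebraicClosure ℚ), P.LiesOverPrime q →
        ∀ s ∈ P.inertiaSubgroupIn ℚ,
          LinearMap.charpoly (ρbar.ρ s) = (Polynomial.X - 1) ^ 2) →
  ∀ (ι : Type) [Fintype ι] (σ φ : ι → GQ) (tχ : ι → O) (m h d n : ℕ), 0 < d → 0 < n →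
  ∀ (σ₀ τ₀ : GQ),
    rtk7Xi (fun g => LinearMap.trace (ResidueField O) ρbar.V (ρbar.ρ g)) complexConjugation
      (residue O half) σ₀ τ₀ ≠ 0 →
  ∀ (T0 : Type) [CommRing T0] [IsLocalRing T0] [Algebra O T0] [Module.Finite O T0]
    (j0 : T0 →ₐ[O] Matrix (Fin d) (Fin d) O) (ρ0 : GaloisRepAdic T0)
    (b0 : Module.Basis (Fin 2) T0 ρ0.V) (u0 : T0),
    ρ0.DetIsCyclotomic p →
    (∀ g, LinearMap.toMatrix b0 b0 (ρ0.ρ g) =
      rtk7Mat (fun g => LinearMap.trace T0 ρ0.V (ρ0.ρ g)) complexConjugation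
        (algebraMap O T0 half) σ₀ τ₀ u0 g) →
    u0 * rtk7Xi (fun g => LinearMap.trace T0 ρ0.V (ρ0.ρ g)) complexConjugation
        (algebraMap O T0 half) σ₀ τ₀ = 1 →
  ∀ (S' : Finset ℕ) (a0 : ℕ → Matrix (Fin d) (Fin d) O),
    (∀ ℓ : ℕ, ℓ.Prime → ℓ ∉ S' →
      ∀ P : ValuationSubring (AlgebraicClosure ℚ), P.LiesOverPrime ℓ →
        ∀ τ : GQ, P.IsFrobeniusAt τ ℓ → j0 (LinearMap.trace T0 ρ0.V (ρ0.ρ τ)) = a0 ℓ) →
  ∀ (L : ℕ) (𝕋 : Type) [CommRing 𝕋] (J : Type) [AddCommGroup J] [Module 𝕋 J]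
    [DistribMulAction GQ J] (Tr : ℕ → 𝕋)
    (Φ1 Φχ : 𝕋 →+* Matrix (Fin d) (Fin d) (RthkSn O m n)),
    HkLevel p lam ρbar (Smin ∪ QT) σ tχ m h d n a0 L J Tr Φ1 Φχ →
    ∃ (A₀ : Type) (_ : CommRing A₀) (_ : IsLocalRing A₀) (_ : Algebra O A₀)
      (ιA : ResidueField O →+* ResidueField A₀) (ρ : GaloisRepAdic A₀)
      (b : Module.Basis (Fin 2) A₀ ρ.V)
      (φ1 φχ : A₀ →ₐ[O] Matrix (Fin d) (Fin d) (RthkSn O m n)),
      HkOut p lam ρbar Smin QT σ φ tχ m h d n j0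
        (fun i => LinearMap.toMatrix b0 b0 (ρ0.ρ (σ i)))
        (fun i => LinearMap.toMatrix b0 b0 (ρ0.ρ (φ i))) ιA ρ b φ1 φχ

section Base

variable {O : Type} [CommRing O] [IsLocalRing O]

/-- **The module side of the base** (level `N`, coefficients `𝒪`): the matrices
`Φ0 : 𝕋 →+* M_d(𝒪)` of the Hecke operators on the base module `M₀ ^ (2 ^ h)` in a fixed basis.
* `faith` : an `x` which kills `J[p^{n₀}]` has `Φ0 x ∈ pᵏ M_d(𝒪)`  (HK-FAITH, adic form);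
* `nil`, `resid` : locality and the residual Frobenius traces (a power of `Φ0 x − c` has entries
  in `𝔪`);
* `occ` : BASE-BRIDGE (helper22): a Hecke polynomial outside `S'` which kills `S₂(Γ₀(N))` kills
  the base module. -/
structure HkBase (p : ℕ) [Fact p.Prime] (ρbar : ResidualGaloisRep (ResidueField O)) (N : ℕ)
    [NeZero N] (S' : Finset ℕ) (d : ℕ) {𝕋 : Type} [CommRing 𝕋] (J : Type) [AddCommGroup J] [Module 𝕋 J]
    [DistribMulAction GQ J] (Tr : ℕ → 𝕋) (Φ0 : 𝕋 →+* Matrix (Fin d) (Fin d) O) : Prop where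
  pkg : Rtk7bPkg p N J Tr
  primes : ∀ q : ℕ, q.Prime → q ∉ S' → ¬ q ∣ N * p
  model : ∀ k : ℕ, ∃ (X : Type) (_ : AddCommGroup X) (_ : Finite X) (act : GQ → X → X),
      (∀ s x x', act s (x + x') = act s x + act s x') ∧
      (∀ s s' x, act (s * s') x = act s (act s' x)) ∧
      HasFiniteFlatModel (GaloisRep.ratLocalizedAt p) X act ∧
      ∀ e : GQ →₀ ℤ, (∀ x : X, (e.sum fun g z => z • act g x) = 0) →
        ∀ x : J, p ^ k • x = 0 → (e.sum fun g z => z • g • x) = 0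
  faith : ∀ k : ℕ, ∃ n₀ : ℕ, ∀ x : 𝕋, (∀ y : J, p ^ n₀ • y = 0 → x • y = 0) →
    ∀ i j, Φ0 x i j ∈ Ideal.span {(p : O) ^ k}
  nil : ∀ x : 𝕋, ∃ (c : O) (e : ℕ), ∀ i j,
    ((Φ0 x - algebraMap O (Matrix (Fin d) (Fin d) O) c) ^ e) i j ∈ maximalIdeal O
  resid : ∀ ℓ : ℕ, ℓ.Prime → ℓ ∉ S' →
    ∀ P : ValuationSubring (AlgebraicClosure ℚ), P.LiesOverPrime ℓ →
      ∀ τ : GQ, P.IsFrobeniusAt τ ℓ → ∃ (c : O) (e : ℕ),
        residue O c = LinearMap.trace (ResidueField O) ρbar.V (ρbar.ρ τ) ∧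
        ∀ i j, ((Φ0 (Tr ℓ) - algebraMap O (Matrix (Fin d) (Fin d) O) c) ^ e) i j ∈ maximalIdeal O
  occ : ∀ t ∈ MvPolynomial.supported ℤ (Fermat.Agent.S31.outsideVars (↑S' : Set ℕ)),
    CuspForm.heckeEvalForms N 2 t = 0 →
      Φ0 (MvPolynomial.aeval (fun ℓ : Nat.Primes => Tr (ℓ : ℕ)) t) = 0

end Base

/-- **What the Galois side delivers at the base**: the base fields of `Prod.HeckeData` together
with the Wiles form of `ρ0` in the basis `b0` for the base point `σ₀, τ₀` and the link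
`j0 (a ℓ) = a0 ℓ` with the matrices of the module side. -/
structure HkBaseOut {P : FreyPackage} {N q : ℕ} [NeZero N] (Y : KSetup P N q) (d : ℕ)
    (σ₀ τ₀ : GQ) (S' : Finset ℕ) (a0 : ℕ → Matrix (Fin d) (Fin d) Y.O) : Type 1 where
  /-- the base Hecke ring -/
  T0 : Type
  [instCommRingT0 : CommRing T0]
  [instIsLocalRingT0 : IsLocalRing T0]
  [instAlgebraT0 : Algebra Y.O T0]
  [instFiniteT0 : Module.Finite Y.O T0]
  j0 : T0 →ₐ[Y.O] Matrix (Fin d) (Fin d) Y.O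
  hj0 : Function.Injective j0
  /-- the base representation -/
  ρ0 : GaloisRepAdic T0
  b0 : Module.Basis (Fin 2) T0 ρ0.V
  hdet0 : ρ0.DetIsCyclotomic P.p
  ι0 : ResidueField Y.O →+* ResidueField T0
  hres0 : ρ0.residual.IsEquiv (Y.ρbar.baseChangeAlong ι0)
  habs0 : ρ0.residual.IsAbsolutelyIrreducible
  hpS' : P.p ∈ S'
  hNS' : ∀ ℓ : ℕ, ℓ.Prime → ℓ ∣ N → ℓ ∈ S'
  a : Nat.Primes → T0
  hocc : ∀ t ∈ MvPolynomial.supported ℤ (Fermat.Agent.S31.outsideVars (↑S' : Set ℕ)),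
    CuspForm.heckeEvalForms N 2 t = 0 → MvPolynomial.aeval a t = 0
  hcong : ∀ ℓ : Nat.Primes, (ℓ : ℕ) ∉ S' → Y.W.IsGoodPrimeFor ℓ →
    a ℓ - ((Y.W.apOfModel ℓ : ℤ) : T0) ∈ maximalIdeal T0
  hfrob : ∀ ℓ : Nat.Primes, (ℓ : ℕ) ∉ S' →
    ∀ 𝔄 : ValuationSubring (AlgebraicClosure ℚ), 𝔄.LiesOverPrime ℓ →
      ∀ τ : RtpaG, 𝔄.IsFrobeniusAt τ ℓ →
        LinearMap.charpoly (ρ0.ρ τ) =
          Polynomial.X ^ 2 - Polynomial.C (a ℓ) * Polynomial.X
            + Polynomial.C (((ℓ : ℕ) : T0))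
  /-- the Wiles form -/
  u0 : T0
  hu0 : u0 * rtk7Xi (fun g => LinearMap.trace T0 ρ0.V (ρ0.ρ g)) complexConjugation
    (algebraMap Y.O T0 Y.half) σ₀ τ₀ = 1
  hmat : ∀ g, LinearMap.toMatrix b0 b0 (ρ0.ρ g) =
    rtk7Mat (fun g => LinearMap.trace T0 ρ0.V (ρ0.ρ g)) complexConjugation
      (algebraMap Y.O T0 Y.half) σ₀ τ₀ u0 g
  /-- the link with the module side -/
  ha0 : ∀ ℓ : Nat.Primes, (ℓ : ℕ) ∉ S' → j0 (a ℓ) = a0 ℓ

attribute [instance] HkBaseOut.instCommRingT0 HkBaseOut.instIsLocalRingT0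
  HkBaseOut.instAlgebraT0 HkBaseOut.instFiniteT0

/-- **HK-ABS-B**: the module side of the base gives the Galois side of the base.
[`T0 = 𝒪[Φ0 x] ⊆ M_d(𝒪)` (BASE-AR: commutative, finite, local, `𝔪`-adically = `p`-adically
complete; faith in the form `Rtk7bGood`), `stmtK7MainAdic` with `B = ⊤`, `Y.hbar` for `hcong`.] -/
def StmtHkAbsB : Prop :=
  Cheb.WeakChebotarev →
  ∀ (P : FreyPackage) (N q : ℕ) [NeZero N] (Y : KSetup P N q) (d : ℕ), 0 < d →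
  ∀ (σ₀ τ₀ : GQ),
    rtk7Xi (fun g => LinearMap.trace (ResidueField Y.O) Y.ρbar.V (Y.ρbar.ρ g))
      complexConjugation (residue Y.O Y.half) σ₀ τ₀ ≠ 0 →
  ∀ (S' : Finset ℕ), P.p ∈ S' → (∀ ℓ : ℕ, ℓ.Prime → ℓ ∣ N → ℓ ∈ S') →
  ∀ (𝕋 : Type) [CommRing 𝕋] (J : Type) [AddCommGroup J] [Module 𝕋 J]
    [DistribMulAction GQ J] (Tr : ℕ → 𝕋) (Φ0 : 𝕋 →+* Matrix (Fin d) (Fin d) Y.O),
    haveI : Fact P.p.Prime := ⟨P.pp⟩
    HkBase P.p Y.ρbar N S' d J Tr Φ0 →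
    Nonempty (HkBaseOut Y d σ₀ τ₀ S' (fun ℓ => Φ0 (Tr ℓ)))

/-- **HECKE-final** (assembly, helper59): if over every setup `Y` and for every `h` the module
side delivers a base and, for every Taylor–Wiles family of level `n`, a level datum at level
`n + 1` with the same `d` and the same base matrices `a0`, then `Prod.StmtHecke`.
[`StmtHkAbsB`, `StmtHkAbsL`, HECKE-PACK (helper70), HK-RES (helper97).] -/
def StmtHkModSide : Prop :=
  ∀ (P : FreyPackage) (N q : ℕ) [NeZero N], P.IsConductorLevel N → ¬ P.p ∣ N → q.Prime →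
    q ≠ 2 → q ∣ N → GaloisRepIsIrreducible (K := AlgebraicClosure ℚ) ℚ P.freyCurve P.p →
    P.ModularRepOfLevel N →
    (∀ r : ℕ, r.Prime → r ≠ 2 → r ∣ N → Fermat.Agent.RIB.IsTrivialPrime P r) →
    ∀ (Y : KSetup P N q) (h : ℕ),
      haveI : Fact P.p.Prime := ⟨P.pp⟩
      ∃ (d : ℕ) (_ : 0 < d) (S' : Finset ℕ) (_ : P.p ∈ S')
        (_ : ∀ ℓ : ℕ, ℓ.Prime → ℓ ∣ N → ℓ ∈ S')
        (𝕋₀ : Type) (_ : CommRing 𝕋₀) (J₀ : Type) (_ : AddCommGroup J₀) (_ : Module 𝕋₀ J₀)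
        (_ : DistribMulAction GQ J₀) (Tr₀ : ℕ → 𝕋₀)
        (Φ0 : 𝕋₀ →+* Matrix (Fin d) (Fin d) Y.O),
        HkBase P.p Y.ρbar N S' d J₀ Tr₀ Φ0 ∧
        ∀ (n : ℕ) (qv : Fin h → ℕ),
          IsTWFamily P.p Y.ρbar (Y.Smin ∪ Finset.univ.image Y.r) n h qv →
          ∃ (L : ℕ) (𝕋 : Type) (_ : CommRing 𝕋) (J : Type) (_ : AddCommGroup J)
            (_ : Module 𝕋 J) (_ : DistribMulAction GQ J) (Tr : ℕ → 𝕋)
            (Φ1 Φχ : 𝕋 →+* Matrix (Fin d) (Fin d) (RthkSn Y.O (Y.m h) (n + 1))),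
            HkLevel P.p Y.lam Y.ρbar
              (Y.Smin ∪ (Finset.univ.image qv ∪ Finset.univ.image Y.r)) Y.σ Y.tχ (Y.m h) h d
              (n + 1) (fun ℓ => Φ0 (Tr₀ ℓ)) L J Tr Φ1 Φχ

end Fermat.Agent.RT
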