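/-
RT-HECKE / HK-ABS-B (helper27): the module side of the base gives the Galois side of the base.

`stmtHkAbsB_of : StmtBaseRing → StmtHkAbsB` (`StmtBaseRing` = BASE-AR, `RT/Hecke/AbsBRing.lean`),
`stmtHkAbsB : StmtHkAbsB` (with helper12's `rthk_ar_baseRing`, `RT/Hecke/BaseRing.lean`).
-/
import Fermat.Agent.RT.Hecke.Plan
import Fermat.Agent.RT.Hecke.AbsBRing
import Fermat.Agent.RT.Hecke.BaseRing
import Fermat.Agent.RT.K7.MainFinal
import Fermat.Agent.RT.Prod.HaUnit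
import Fermat.Agent.RT.Prod.FinalNum
import Fermat.Agent.Common.FrobExists
import Fermat.Agent.TW.L.FrobExists
import Fermat.Agent.S34.Reduction
import Fermat.Agent.S31.Lucas

/-!
# K-machine, HECKE-asm, piece HK-ABS-B

* `rthk_b_trace_bc`, `rthk_b_det_bc` : traces and determinants of `ρbar.baseChangeAlong ι`;
* `rthk_b_irr_of_absIrr`, `rthk_b_irr_bc` : absolutely irreducible ⇒ (every base change is)
  irreducible;
* `rthk_b_det_of_cyc` : the determinant of a residual representation with cyclotomic determinant;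
* `rthk_b_det_frob` : `det ρ(Frob_ℓ) = ℓ` for a representation with cyclotomic determinant over a
  separated local ring;
* `rthk_b_out` : the abstract form (`T0`, `j0`, `π`, Artin–Rees given);
* `stmtHkAbsB_of : StmtBaseRing → StmtHkAbsB`.
-/

set_option autoImplicit false

namespace Fermat.Agent.RT

open IsLocalRing Fermat.Agent.ES Fermat.Agent.S30 Fermat.Agent.W1 Fermat.Agent.TW
open Fermat.Agent.RT.Prod ExtCitation
open WeierstrassCurve WeierstrassCurve.Affine WeierstrassCurve.Affine.Point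

section Resid

variable {k K : Type} [Field k] [Field K] (ι : k →+* K) (ρ : ResidualGaloisRep k)

theorem rthk_b_trace_bc (σ : GQ) :
    LinearMap.trace K (ρ.baseChangeAlong ι).V ((ρ.baseChangeAlong ι).ρ σ)
      = ι (LinearMap.trace k ρ.V (ρ.ρ σ)) := by
  letI : Algebra k K := ι.toAlgebra
  exact LinearMap.trace_baseChange (ρ.ρ σ) K

theorem rthk_b_det_bc (σ : GQ) :
    LinearMap.det ((ρ.baseChangeAlong ι).ρ σ) = ι (LinearMap.det (ρ.ρ σ)) := by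
  letI : Algebra k K := ι.toAlgebra
  exact LinearMap.det_baseChange (A := K) (ρ.ρ σ)

/-- absolutely irreducible ⇒ irreducible -/
theorem rthk_b_irr_of_absIrr (habs : ρ.IsAbsolutelyIrreducible) : ρ.IsIrreducible := by
  classical
  let b : Module.Basis (Fin 2) k ρ.V := Module.finBasisOfFinrankEq k ρ.V ρ.finrank_eq
  have hspan := rthu_span_toMatrix ρ habs b
  intro W hW
  refine Fermat.Agent.RT.Interp.rtint_irr_of_span (RingHom.id k)
    (fun g : AlgebraicClosure ℚ ≃ₐ[ℚ] AlgebraicClosure ℚ => LinearMap.toMatrix b b (ρ.ρ g))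
    hspan b W ?_
  intro g x hx
  have e : Matrix.toLin b b ((LinearMap.toMatrix b b (ρ.ρ g)).map (RingHom.id k)) = ρ.ρ g := by
    have e1 : (LinearMap.toMatrix b b (ρ.ρ g)).map (RingHom.id k)
        = LinearMap.toMatrix b b (ρ.ρ g) := by
      ext i j
      rfl
    rw [e1, Matrix.toLin_toMatrix]
  rw [e]
  exact hW g x hx

/-- absolutely irreducible ⇒ every base change is irreducible -/
theorem rthk_b_irr_bc (habs : ρ.IsAbsolutelyIrreducible) :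
    (ρ.baseChangeAlong ι).IsIrreducible :=
  rthk_b_irr_of_absIrr _
    (rthu_absIrr_of_isEquiv ι ρ _ ⟨ResidualGaloisRep.Equiv.refl _⟩ habs)

/-- the determinant of a residual representation with cyclotomic determinant -/
theorem rthk_b_det_of_cyc (p : ℕ)
    (hdet : (GaloisRepAdic.ofResidualGaloisRep ρ).DetIsCyclotomic p) (σ : GQ) (a : ℕ)
    (h : ∀ μ : AlgebraicClosure ℚ, μ ^ p = 1 → σ μ = μ ^ a) :
    LinearMap.det (ρ.ρ σ) = (a : k) := by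
  obtain ⟨h1, h2⟩ := hdet
  have h3 : (p : k) = 0 := by
    by_contra h0
    exact h1 (isUnit_iff_ne_zero.2 h0)
  have h4 := h2 1 σ a (fun μ hμ => h μ (by rwa [pow_one] at hμ))
  rw [pow_one, h3, Ideal.span_singleton_eq_bot.mpr rfl, Ideal.mem_bot, sub_eq_zero] at h4
  exact h4

end Resid

section DetFrob

variable {A : Type} [CommRing A] [IsLocalRing A]

/-- `det ρ(Frob_ℓ) = ℓ` -/
theorem rthk_b_det_frob [IsHausdorff (maximalIdeal A) A] {p : ℕ} (hp : p.Prime)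
    (ρ : GaloisRepAdic A) (hdet : ρ.DetIsCyclotomic p) {ℓ : ℕ} (hℓ : ℓ.Prime) (hℓp : ℓ ≠ p)
    (𝔄 : ValuationSubring (AlgebraicClosure ℚ)) (h𝔄 : 𝔄.LiesOverPrime ℓ) (τ : GQ)
    (hτ : 𝔄.IsFrobeniusAt τ ℓ) : LinearMap.det (ρ.ρ τ) = (ℓ : A) := by
  rw [← sub_eq_zero]
  apply IsHausdorff.haus (I := maximalIdeal A) (M := A) inferInstance
  intro n
  rw [SModEq.sub_mem, sub_zero, smul_eq_mul, Ideal.mul_top]
  have h1 := hdet.2 n τ ℓ (fun μ hμ =>
    Fermat.Agent.S31.frob_rootOfUnity 𝔄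
      (Fermat.Agent.S31.natCast_pow_not_mem_nonunits 𝔄 hp hℓ hℓp h𝔄 n)
      (pow_ne_zero n hp.ne_zero) hτ hμ)
  have h2 : Ideal.span {((p ^ n : ℕ) : A)} ≤ maximalIdeal A ^ n := by
    rw [Ideal.span_singleton_le_iff_mem, Nat.cast_pow]
    exact Ideal.pow_mem_pow hdet.1 n
  exact h2 h1

end DetFrob

section Out

variable {P : FreyPackage} {N q : ℕ} [NeZero N] (Y : KSetup P N q)

/-- **HK-ABS-B, abstract form**: the base Hecke ring `T0 ⊆ M_d(𝒪)` (commutative, local, finite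
over `𝒪`) with `π : 𝕋 → T0`, `j0 ∘ π = Φ0` and the Artin–Rees property for `p` being given. -/
theorem rthk_b_out (hcheb : Cheb.WeakChebotarev) (d : ℕ) (hd : 0 < d) (σ₀ τ₀ : GQ)
    (hξ : rtk7Xi (fun g => LinearMap.trace (ResidueField Y.O) Y.ρbar.V (Y.ρbar.ρ g))
      complexConjugation (residue Y.O Y.half) σ₀ τ₀ ≠ 0)
    (S' : Finset ℕ) (hpS' : P.p ∈ S') (hNS' : ∀ ℓ : ℕ, ℓ.Prime → ℓ ∣ N → ℓ ∈ S')
    (𝕋 : Type) [CommRing 𝕋] (J : Type) [AddCommGroup J] [Module 𝕋 J]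
    [DistribMulAction GQ J] (Tr : ℕ → 𝕋) (Φ0 : 𝕋 →+* Matrix (Fin d) (Fin d) Y.O)
    [Fact P.p.Prime] (hB : HkBase P.p Y.ρbar N S' d J Tr Φ0)
    (T0 : Type) [CommRing T0] [IsLocalRing T0] [Algebra Y.O T0] [Module.Finite Y.O T0]
    (j0 : T0 →ₐ[Y.O] Matrix (Fin d) (Fin d) Y.O) (hj0 : Function.Injective j0)
    (π : 𝕋 →+* T0) (hπ : ∀ x, j0 (π x) = Φ0 x)
    (hAR : ∀ k : ℕ, ∃ n : ℕ, ∀ x : T0,
      (∀ i j, j0 x i j ∈ Ideal.span {(P.p : Y.O) ^ n}) → x ∈ Ideal.span {(P.p : T0) ^ k}) :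
    Nonempty (HkBaseOut Y d σ₀ τ₀ S' (fun ℓ => Φ0 (Tr ℓ))) := by
  classical
  have hpp : P.p.Prime := P.pp
  -- the ring theory of `T0`
  haveI hloc : IsLocalHom (algebraMap Y.O T0) := rthk_b_isLocalHom j0 hd
  haveI hnoeth : IsNoetherianRing T0 := rthk_b_isNoetherianRing (O := Y.O)
  haveI hcomp : IsAdicComplete (maximalIdeal T0) T0 := rthk_b_isAdicComplete j0 hj0 hd
  haveI hfinres : Finite (ResidueField T0) := rthk_b_finite_residueField (O := Y.O)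
  have hpT : (P.p : T0) ∈ maximalIdeal T0 := rthk_b_natCast_mem j0 hd Y.hyp.hp𝒪
  -- the residue field
  let ι0 : ResidueField Y.O →+* ResidueField T0 := ResidueField.map (algebraMap Y.O T0)
  have hι0 : ∀ x : Y.O, ι0 (residue Y.O x) = residue T0 (algebraMap Y.O T0 x) := fun x => rfl
  -- `1/2`
  have hi2 : 2 * algebraMap Y.O T0 Y.half = 1 := by
    have h := congrArg (algebraMap Y.O T0) Y.two_mul_half
    rw [map_mul, map_ofNat, map_one] at h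
    exact h
  -- faithfulness
  have hfaith : ∀ k : ℕ, ∃ n : ℕ, k ≤ n ∧ Rtk7bGood P.p J (⊤ : Subring 𝕋) π k n := by
    intro k
    obtain ⟨n₁, hn₁⟩ := hAR k
    obtain ⟨n₀, hn₀⟩ := hB.faith n₁
    refine ⟨max k n₀, le_max_left _ _, fun h _ hkill => hn₁ (π h) fun i j => ?_⟩
    rw [hπ]
    exact hn₀ h (fun y hy => hkill y (rtk7b_tors_le (le_max_right k n₀) hy)) i j
  -- the residual representation over the residue field of `T0`
  have hirr : (Y.ρbar.baseChangeAlong ι0).IsIrreducible := rthk_b_irr_bc ι0 Y.ρbar Y.hyp.habs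
  have hdetbar : ∀ (σ : GQ) (a : ℕ), (∀ μ : AlgebraicClosure ℚ, μ ^ P.p = 1 → σ μ = μ ^ a) →
      LinearMap.det ((Y.ρbar.baseChangeAlong ι0).ρ σ) = (a : ResidueField T0) := by
    intro σ a h
    rw [rthk_b_det_bc, rthk_b_det_of_cyc Y.ρbar P.p Y.hyp.hdet σ a h, map_natCast]
  have hfrobbar : ∀ ℓ : ℕ, ℓ.Prime → ℓ ∉ S' →
      ∀ 𝔄 : ValuationSubring (AlgebraicClosure ℚ), 𝔄.LiesOverPrime ℓ →
        ∀ τ : GQ, 𝔄.IsFrobeniusAt τ ℓ →
          residue T0 (π (Tr ℓ)) = LinearMap.trace (ResidueField T0)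
            (Y.ρbar.baseChangeAlong ι0).V ((Y.ρbar.baseChangeAlong ι0).ρ τ) := by
    intro ℓ hℓ hℓS 𝔄 h𝔄 τ hτ
    obtain ⟨c, e, hc, hce⟩ := hB.resid ℓ hℓ hℓS 𝔄 h𝔄 τ hτ
    have h1 : π (Tr ℓ) - algebraMap Y.O T0 c ∈ maximalIdeal T0 := by
      refine rthk_b_mem_maximalIdeal j0 hd (e := e) fun i j => ?_
      rw [map_sub, hπ, AlgHom.commutes]
      exact hce i j
    have h2 := (residue_eq_zero_iff _).mpr h1
    rw [map_sub, sub_eq_zero] at h2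
    rw [h2, ← hι0, hc, rthk_b_trace_bc]
  have hξ' : rtk7Xi (fun g => LinearMap.trace (ResidueField T0)
      (Y.ρbar.baseChangeAlong ι0).V ((Y.ρbar.baseChangeAlong ι0).ρ g)) complexConjugation
      (residue T0 (algebraMap Y.O T0 Y.half)) σ₀ τ₀ ≠ 0 := by
    have e1 : (fun g => LinearMap.trace (ResidueField T0)
        (Y.ρbar.baseChangeAlong ι0).V ((Y.ρbar.baseChangeAlong ι0).ρ g))
        = fun g => ι0 (LinearMap.trace (ResidueField Y.O) Y.ρbar.V (Y.ρbar.ρ g)) :=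
      funext fun g => rthk_b_trace_bc ι0 Y.ρbar g
    rw [e1, ← hι0, ← rtk7m_map_Xi ι0]
    exact (map_ne_zero ι0).mpr hξ
  -- K7-MAIN
  obtain ⟨t, u, ρ, b, hu, hmat, htr, htfrob, -, httr, hdetcyc, -, -, -, hresid⟩ :=
    stmtK7MainAdic hcheb P.p N Y.hyp.hp2 𝕋 J Tr hB.pkg S' hB.primes (⊤ : Subring 𝕋)
      (fun _ _ _ => Subring.mem_top _) hB.model T0 hpT (algebraMap Y.O T0 Y.half) hi2 π hfaith
      (Y.ρbar.baseChangeAlong ι0) hirr hdetbar hfrobbar σ₀ τ₀ hξ'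
  have htfun : (fun g => LinearMap.trace T0 ρ.V (ρ.ρ g)) = t := funext htr
  refine ⟨{
    T0 := T0
    j0 := j0
    hj0 := hj0
    ρ0 := ρ
    b0 := b
    hdet0 := hdetcyc
    ι0 := ι0
    hres0 := hresid
    habs0 := rthu_absIrr_of_isEquiv ι0 Y.ρbar ρ.residual hresid Y.hyp.habs
    hpS' := hpS'
    hNS' := hNS'
    a := fun ℓ => π (Tr (ℓ : ℕ))
    hocc := ?_
    hcong := ?_
    hfrob := ?_
    u0 := u
    hu0 := ?_
    hmat := ?_
    ha0 := fun ℓ _ => hπ _ }⟩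
  · -- hocc
    intro f hf hf0
    have h1 := hB.occ f hf hf0
    have h2 : MvPolynomial.aeval (fun ℓ : Nat.Primes => π (Tr (ℓ : ℕ))) f
        = π (MvPolynomial.aeval (fun ℓ : Nat.Primes => Tr (ℓ : ℕ)) f) :=
      (MvPolynomial.comp_aeval_apply (fun ℓ : Nat.Primes => Tr (ℓ : ℕ)) π.toIntAlgHom f).symm
    rw [h2]
    apply hj0
    rw [hπ, h1, _root_.map_zero]
  · -- hcong
    intro ℓ hℓS hgood
    have hℓ : (ℓ : ℕ).Prime := ℓ.2
    have hℓp : (ℓ : ℕ) ≠ P.p := fun h => hℓS (h ▸ hpS')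
    obtain ⟨𝔄, τ, h𝔄, hτ⟩ := Fermat.Agent.Common.exists_isFrobeniusAt (ℓ : ℕ) hℓ
    have h1 := httr τ
    rw [htfrob ℓ hℓ hℓS 𝔄 h𝔄 τ hτ, rthk_b_trace_bc,
      Fermat.Agent.S31.trace_of_charpoly Y.ρbar.finrank_eq (Y.ρbar.ρ τ) _ _
        (Y.hbar ℓ hℓ hℓp hgood 𝔄 h𝔄 τ hτ), map_intCast] at h1
    rw [← residue_eq_zero_iff, map_sub, h1, map_intCast, sub_self]
  · -- hfrob
    intro ℓ hℓS 𝔄 h𝔄 τ hτ
    have hℓ : (ℓ : ℕ).Prime := ℓ.2
    have hℓp : (ℓ : ℕ) ≠ P.p := fun h => hℓS (h ▸ hpS')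
    rw [Fermat.Agent.S34.charpoly_eq_of_finrank_two ρ.finrank_eq (ρ.ρ τ), htr,
      htfrob ℓ hℓ hℓS 𝔄 h𝔄 τ hτ, rthk_b_det_frob hpp ρ hdetcyc hℓ hℓp 𝔄 h𝔄 τ hτ]
  · -- hu0
    rw [htfun]
    exact hu
  · -- hmat
    intro g
    rw [htfun]
    exact hmat g

end Out

/-- **HK-ABS-B** from BASE-AR. -/
theorem stmtHkAbsB_of (hBR : StmtBaseRing) : StmtHkAbsB := by
  intro hcheb P N q _ Y d hd σ₀ τ₀ hξ S' hpS' hNS' 𝕋 _ J _ _ _ Tr Φ0
  intro hB
  haveI : Fact P.p.Prime := ⟨P.pp⟩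
  have hp0 : (P.p : Y.O) ≠ 0 := Nat.cast_ne_zero.mpr P.pp.ne_zero
  obtain ⟨T0, i1, i2, i3, i4, j0, π, hj0, hπ, hAR⟩ := hBR Y.O d hd 𝕋 Φ0 hB.nil (P.p : Y.O) hp0
  refine rthk_b_out Y hcheb d hd σ₀ τ₀ hξ S' hpS' hNS' 𝕋 J Tr Φ0 hB T0 j0 hj0 π hπ ?_
  intro k
  obtain ⟨n, hn⟩ := hAR k
  refine ⟨n, fun x hx => ?_⟩
  have := hn x hx
  rwa [map_natCast] at this

/-- **HK-ABS-B** (unconditional; BASE-AR = helper12's `rthk_ar_baseRing`). -/
theorem stmtHkAbsB : StmtHkAbsB := stmtHkAbsB_of rthk_ar_baseRing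

end Fermat.Agent.RT
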