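import Fermat.Agent.RT.Hecke.AbsLPlan
import Fermat.Agent.RT.Interp.AbsIrr
import Fermat.Agent.S53.BurnsideRep

/-!
# K-machine, HECKE-asm, HK-ABS-L, piece HK-L-RES (helper22)

`stmtHkLRes : StmtHkLRes` : the base change `ρbar.baseChangeAlong ι` of a residual representation
along a homomorphism of fields `ι : k →+* K` is irreducible if `ρbar` is absolutely irreducible
(Burnside: the matrices of `ρbar` span `M₂(k)`, hence their images span `M₂(K)`), and its trace,
determinant and characteristic polynomial are the images under `ι`.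
-/

set_option autoImplicit false
set_option linter.style.haveILetI false

namespace Fermat.Agent.RT

open IsLocalRing Fermat.Agent.ES

open Module TensorProduct

/-- Burnside, matrix form: the matrices of an absolutely irreducible residual representation
span all `2 × 2` matrices. -/
theorem rthklr_span_toMatrix {k : Type} [Field k] (ρbar : ResidualGaloisRep k)
    (habs : ρbar.IsAbsolutelyIrreducible) (b : Basis (Fin 2) k ρbar.V) :
    Submodule.span k (Set.range fun g : AlgebraicClosure ℚ ≃ₐ[ℚ] AlgebraicClosure ℚ =>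
      LinearMap.toMatrix b b (ρbar.ρ g)) = ⊤ := by
  have h := Fermat.Agent.S53.Burnside.span_range_eq_top ρbar habs
  have h1 : (Set.range fun g : AlgebraicClosure ℚ ≃ₐ[ℚ] AlgebraicClosure ℚ =>
      LinearMap.toMatrix b b (ρbar.ρ g)) =
      ((LinearMap.toMatrix b b : Module.End k ρbar.V ≃ₗ[k] Matrix (Fin 2) (Fin 2) k) :
        Module.End k ρbar.V →ₗ[k] Matrix (Fin 2) (Fin 2) k) '' (Set.range ρbar.ρ) := by
    ext M
    constructor
    · rintro ⟨g, rfl⟩
      exact ⟨ρbar.ρ g, ⟨g, rfl⟩, rfl⟩
    · rintro ⟨_, ⟨g, rfl⟩, rfl⟩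
      exact ⟨g, rfl⟩
  rw [h1, Submodule.span_image, h, Submodule.map_top, LinearEquiv.range]

/-- **HK-L-RES.** -/
theorem stmtHkLRes : StmtHkLRes := by
  intro k K _ _ ι ρbar
  letI : Algebra k K := ι.toAlgebra
  refine ⟨fun habs => ?_, fun g => ?_, fun g => ?_, fun g => ?_⟩
  · classical
    let b : Basis (Fin 2) k ρbar.V := Module.finBasisOfFinrankEq k ρbar.V ρbar.finrank_eq
    have hspan := rthklr_span_toMatrix ρbar habs b
    let bK : Basis (Fin 2) K (K ⊗[k] ρbar.V) := Algebra.TensorProduct.basis K b
    intro W hW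
    refine Fermat.Agent.RT.Interp.rtint_irr_of_span ι
      (fun g => LinearMap.toMatrix b b (ρbar.ρ g)) hspan bK W ?_
    intro g x hx
    have key : Matrix.toLin bK bK ((LinearMap.toMatrix b b (ρbar.ρ g)).map ι) =
        (ρbar.ρ g).baseChange K := by
      apply (LinearMap.toMatrix bK bK).injective
      rw [LinearMap.toMatrix_toLin, LinearMap.toMatrix_baseChange]
      rfl
    rw [key]
    exact hW g x hx
  · show LinearMap.trace K _ ((ρbar.ρ g).baseChange K) = _
    rw [LinearMap.trace_baseChange]
    rfl
  · show LinearMap.det ((ρbar.ρ g).baseChange K) = _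
    rw [LinearMap.det_baseChange]
    rfl
  · show LinearMap.charpoly ((ρbar.ρ g).baseChange K) = _
    rw [LinearMap.charpoly_baseChange]
    rfl

end Fermat.Agent.RT
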