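import Fermat.Agent.RT.Hecke.AbsL
import Fermat.Agent.RT.Hecke.AbsLRes

/-!
# K-machine, HECKE-asm, piece HK-ABS-L: the unconditional form

`stmtHkAbsL : StmtHkAbsL` (`RT/Hecke/Plan.lean`): the module side at level `n` (`HkLevel`) gives
the Galois side at level `n` (`HkOut`).  Assembly: `RT/Hecke/AbsL.lean` (helper46); sub-pieces:
`RT/Hecke/AbsLRes.lean` (helper22), `RT/Hecke/AbsLSmall.lean` (helper15).
Consumers discharge weak Chebotarev with `Cheb.weakChebotarev_holds` (`Cheb/Final.lean`).
-/

set_option autoImplicit false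

namespace Fermat.Agent.RT

/-- **HK-ABS-L.** -/
theorem stmtHkAbsL : StmtHkAbsL := stmtHkAbsL_of_res stmtHkLRes

end Fermat.Agent.RT
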