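import Fermat.Agent.RT.Hecke.PlanFinal
import Fermat.Agent.RT.Prod.HaPack

/-!
# K-machine, HECKE-asm: `StmtHkPack` from helper70's `rtha_pack_std`
-/

set_option autoImplicit false

namespace Fermat.Agent.RT

open IsLocalRing Fermat.Agent.RT.Prod

/-- **HECKE-PACK** (helper70's `Prod.rtha_pack_std` in the shape of the final assembly). -/
theorem stmtHkPack : StmtHkPack := by
  intro P N q _ Y h d n Q T0 _ _ j0 Sig0 Phi0 A₀ _ _ _ ιA ρ b φ1 φχ H
  have : Fact P.p.Prime := ⟨P.pp⟩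
  exact rtha_pack_std P.p Y.lam Y.ρbar Y.hyp.habs Y.Smin Q Y.r Y.r_inj Y.σ Y.φ Y.tχ h d n j0
    Sig0 Phi0 ιA ρ b φ1 φχ H

end Fermat.Agent.RT
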