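import Fermat.Agent.RT.Hecke.Plan

/-!
# K-machine, HECKE-asm: the two remaining contracts of the final assembly

* `StmtHkPack` (HECKE-PACK, helper70): `HkOut` at level `n` (actions on `S ⧸ 𝔪 ^ n`,
  `m = h + 4 |ι|` variables) gives `Prod.TWGal` at level `n`: framing ring
  `A = A₀[z]/(z)^(n+1)`, `β_r = 1 + Z_r`, base change of `ρ` (flat by `rtk7f_ann_map`),
  `π1, πχ` = the extensions of `φ1, φχ` with `z ↦ w`.
* `StmtHkRes` (HK-RES, helper97): the residual inputs from a setup: a base point `σ₀, τ₀` with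
  `ξ(σ₀, τ₀) ≠ 0` and unipotency of `ρ̄` on the inertia groups at `2`.
-/

set_option autoImplicit false

namespace Fermat.Agent.RT

open IsLocalRing Fermat.Agent.ES Fermat.Agent.S30 Fermat.Agent.W1 Fermat.Agent.TW
open Fermat.Agent.RT.Prod ExtCitation
open WeierstrassCurve WeierstrassCurve.Affine WeierstrassCurve.Affine.Point

/-- **HECKE-PACK.** -/
def StmtHkPack : Prop :=
  ∀ (P : FreyPackage) (N q : ℕ) [NeZero N] (Y : KSetup P N q) (h d n : ℕ) (Q : Finset ℕ)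
    (T0 : Type) [CommRing T0] [Algebra Y.O T0]
    (j0 : T0 →ₐ[Y.O] Matrix (Fin d) (Fin d) Y.O)
    (Sig0 Phi0 : Y.ι → Matrix (Fin 2) (Fin 2) T0)
    (A₀ : Type) [CommRing A₀] [IsLocalRing A₀] [Algebra Y.O A₀]
    (ιA : ResidueField Y.O →+* ResidueField A₀)
    (ρ : GaloisRepAdic A₀) (b : Module.Basis (Fin 2) A₀ ρ.V)
    (φ1 φχ : A₀ →ₐ[Y.O] Matrix (Fin d) (Fin d) (RthkSn Y.O (Y.m h) n)),
    haveI : Fact P.p.Prime := ⟨P.pp⟩
    HkOut P.p Y.lam Y.ρbar Y.Smin (Q ∪ Finset.univ.image Y.r) Y.σ Y.φ Y.tχ (Y.m h) h d n j0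
      Sig0 Phi0 ιA ρ b φ1 φχ →
    ∃ (A : Type) (_ : CommRing A) (_ : IsLocalRing A) (_ : Algebra Y.O A)
      (ιA' : ResidueField Y.O →+* ResidueField A) (ρ' : GaloisRepAdic A)
      (b' : Module.Basis (Fin 2) A ρ'.V) (β βi : ℕ → Matrix (Fin 2) (Fin 2) A)
      (π1 πχ : A →ₐ[Y.O] Matrix (Fin d) (Fin d)
        (RttwS Y.O (Y.m h) ⧸ maximalIdeal (RttwS Y.O (Y.m h)) ^ n)),
      TWGal P.p Y.ρbar Y.Smin Q Y.r Y.σ Y.φ Y.tχ Y.lam (Y.m h) d j0 Sig0 Phi0 n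
        (rttwEvenQ Y.O (Y.m h) h n) ιA' ρ' b' β βi π1 πχ

/-- **HK-RES.** -/
def StmtHkRes : Prop :=
  ∀ (P : FreyPackage) (N q : ℕ) [NeZero N] (Y : KSetup P N q),
    (∃ σ₀ τ₀ : GQ,
      rtk7Xi (fun g => LinearMap.trace (ResidueField Y.O) Y.ρbar.V (Y.ρbar.ρ g))
        complexConjugation (residue Y.O Y.half) σ₀ τ₀ ≠ 0) ∧
    ∀ A : ValuationSubring (AlgebraicClosure ℚ), A.LiesOverPrime 2 →
      ∀ s ∈ A.inertiaSubgroupIn ℚ,
        LinearMap.charpoly (Y.ρbar.ρ s) = (Polynomial.X - 1) ^ 2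

end Fermat.Agent.RT
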