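/-
K-machine, HECKE-asm, piece HK-RES (helper97): the residual inputs of HECKE-asm from a
`KSetup` (`RT/Prod/FinalPlan.lean`).

For `Y : KSetup P N q`, `k = ResidueField Y.O`, `c = complexConjugation`:
* (R1) `rthk_r_base`      : a base point `σ₀, τ₀` with `ξ(σ₀, τ₀) ≠ 0`
                            (also after base change: `rthk_r_base_bc`);
* (R2) `rthk_r_unip`      : `ρbar` is unipotent on the inertia groups at `2` (field `hunip2`),
       `rthk_r_unipSmin`  : the hypothesis on `Smin` of `StmtHkAbsL` / K7-U2;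
* (R3) `rthk_r_det`, `rthk_r_irr`, `rthk_r_irr_bc`, `rthk_r_det_bc` : determinant and
       irreducibility in the form of `StmtK7Main`;
* (R4) `rthk_r_nonEis`    : for every finite `S` there is a prime `ℓ₀ ∉ S` with
                            `tr ρbar(Frob) ≠ ℓ₀ + 1` for all Frobenius elements at `ℓ₀`.
General forms (any residual representation over a field): `rthkr_*`.
-/
import Fermat.Agent.RT.Hecke.PlanFinal
import Fermat.Agent.RT.Prod.HaUnit
import Fermat.Agent.RT.K7.Main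
import Fermat.Agent.RT.K7.Uniq
import Fermat.Agent.S31.Lucas
import Fermat.Agent.S04.FreyInt
import Fermat.Agent.Cheb.Final

set_option autoImplicit false
set_option linter.unusedSectionVars false
set_option linter.unusedVariables false
set_option linter.style.haveILetI false

noncomputable section

namespace Fermat.Agent.RT

open IsLocalRing Polynomial Fermat.Agent.S36 Fermat.Agent.RT.Prod Fermat.Agent.ES

/-! ### General forms -/

section general

variable {k : Type} [Field k] (ρbar : ResidualGaloisRep k) (p : ℕ) [hp : Fact p.Prime]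

/-- Cayley–Hamilton for an invertible `2 × 2` matrix (copy of `rtk7g_ch_mat`, `RT/K7/GRA.lean`,
to keep the imports light). -/
theorem rthkr_ch_mat (M M' : Matrix (Fin 2) (Fin 2) k) (h : M * M' = 1) :
    M + M.det • M' = M.trace • (1 : Matrix (Fin 2) (Fin 2) k) := by
  have h1 : M.adjugate = M.det • M' := by
    calc M.adjugate = M.adjugate * (M * M') := by rw [h, mul_one]
      _ = (M.adjugate * M) * M' := by rw [mul_assoc]
      _ = M.det • M' := by rw [Matrix.adjugate_mul, Matrix.smul_mul, one_mul]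
  rw [← h1, Matrix.adjugate_fin_two]
  ext i j
  fin_cases i <;> fin_cases j <;>
    simp [Matrix.trace_fin_two] <;> ring

/-- Cayley–Hamilton for an invertible endomorphism of a plane. -/
theorem rthkr_ch_end {V : Type*} [AddCommGroup V] [Module k V]
    (hV : Module.finrank k V = 2) (f f' : Module.End k V) (h : f * f' = 1) :
    f + LinearMap.det f • f' = LinearMap.trace k V f • (1 : Module.End k V) := by
  have : Module.Finite k V := Module.finite_of_finrank_eq_succ hV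
  let b : Module.Basis (Fin 2) k V := Module.finBasisOfFinrankEq k V hV
  apply (LinearMap.toMatrixAlgEquiv b).injective
  rw [map_add, map_smul, map_smul, map_one]
  have hM : LinearMap.toMatrixAlgEquiv b f * LinearMap.toMatrixAlgEquiv b f' = 1 := by
    rw [← map_mul, h, map_one]
  have e := rthkr_ch_mat _ _ hM
  have e1 : (LinearMap.toMatrixAlgEquiv b f).det = LinearMap.det f :=
    LinearMap.det_toMatrix b f
  have e2 : (LinearMap.toMatrixAlgEquiv b f).trace = LinearMap.trace k V f :=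
    (LinearMap.trace_eq_matrix_trace k b f).symm
  rw [e1, e2] at e
  exact e

/-- `p = 0` in `k` -/
theorem rthkr_p_eq_zero
    (hdet : (GaloisRepAdic.ofResidualGaloisRep ρbar).DetIsCyclotomic p) : (p : k) = 0 := by
  by_contra h0
  exact hdet.1 (isUnit_iff_ne_zero.2 h0)

/-- **(R3)** the determinant is the cyclotomic character modulo `p` -/
theorem rthkr_det (hdet : (GaloisRepAdic.ofResidualGaloisRep ρbar).DetIsCyclotomic p)
    (s : GQ) (a : ℕ) (h : ∀ μ : AlgebraicClosure ℚ, μ ^ p = 1 → s μ = μ ^ a) :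
    LinearMap.det (ρbar.ρ s) = (a : k) := by
  have h1 := hdet.2 1 s a (fun μ hμ => h μ (by rwa [pow_one] at hμ))
  rw [pow_one, rthkr_p_eq_zero ρbar p hdet, Ideal.span_singleton_eq_bot.2 rfl, Ideal.mem_bot,
    sub_eq_zero] at h1
  exact h1

/-- `det ρbar(c) = -1` -/
theorem rthkr_det_conj (hdet : (GaloisRepAdic.ofResidualGaloisRep ρbar).DetIsCyclotomic p) :
    LinearMap.det (ρbar.ρ complexConjugation) = -1 := by
  have h := rthkr_det ρbar p hdet complexConjugation (p - 1) (fun μ hμ => by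
    rw [Fermat.Agent.S30.complexConj_root p μ hp.out.ne_zero hμ]
    apply inv_eq_of_mul_eq_one_right
    rw [← pow_succ', Nat.sub_add_cancel hp.out.one_le, hμ])
  rw [h, Nat.cast_sub hp.out.one_le, rthkr_p_eq_zero ρbar p hdet, Nat.cast_one, zero_sub]

/-- **(R3)** absolutely irreducible ⇒ irreducible -/
theorem rthkr_irr (habs : ρbar.IsAbsolutelyIrreducible) : ρbar.IsIrreducible := by
  classical
  let b : Module.Basis (Fin 2) k ρbar.V := Module.finBasisOfFinrankEq k ρbar.V ρbar.finrank_eq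
  have hspan := rthu_span_toMatrix ρbar habs b
  intro W hW
  refine Fermat.Agent.RT.Interp.rtint_irr_of_span (RingHom.id k)
    (fun g => LinearMap.toMatrix b b (ρbar.ρ g)) hspan b W ?_
  intro g x hx
  have key : Matrix.toLin b b ((LinearMap.toMatrix b b (ρbar.ρ g)).map (RingHom.id k)) =
      ρbar.ρ g := by
    have : (LinearMap.toMatrix b b (ρbar.ρ g)).map (RingHom.id k) =
        LinearMap.toMatrix b b (ρbar.ρ g) := by
      ext i j
      simp
    rw [this, Matrix.toLin_toMatrix]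
  rw [key]
  exact hW g x hx

/-- no stable line in an irreducible plane -/
theorem rthkr_no_line (hirr : ρbar.IsIrreducible) (v : ρbar.V) (hv : v ≠ 0) :
    ∃ g, ∀ a : k, ρbar.ρ g v ≠ a • v := by
  by_contra hcon
  push Not at hcon
  have hst : ∀ σ : GQ, ∀ x ∈ Submodule.span k {v}, ρbar.ρ σ x ∈ Submodule.span k {v} := by
    intro σ x hx
    obtain ⟨a, rfl⟩ := Submodule.mem_span_singleton.mp hx
    obtain ⟨b, hb⟩ := hcon σ
    rw [map_smul, hb, smul_smul]
    exact Submodule.mem_span_singleton.mpr ⟨_, rfl⟩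
  rcases hirr _ hst with h0 | h0
  · exact hv ((Submodule.span_singleton_eq_bot).mp h0)
  · have h1 : Module.finrank k (Submodule.span k {v}) = 1 := finrank_span_singleton hv
    rw [h0, finrank_top, ρbar.finrank_eq] at h1
    exact absurd h1 (by norm_num)

/-- **(R1)** the base point -/
theorem rthkr_base (habs : ρbar.IsAbsolutelyIrreducible)
    (hdet : (GaloisRepAdic.ofResidualGaloisRep ρbar).DetIsCyclotomic p)
    (i2 : k) (hi2 : 2 * i2 = 1) :
    ∃ σ₀ τ₀ : GQ, rtk7Xi (fun g => LinearMap.trace k ρbar.V (ρbar.ρ g)) complexConjugation i2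
      σ₀ τ₀ ≠ 0 := by
  have hirr := rthkr_irr ρbar habs
  haveI : Nontrivial ρbar.V :=
    Module.nontrivial_of_finrank_pos (R := k) (by rw [ρbar.finrank_eq]; norm_num)
  set ε : GQ →* k := (LinearMap.det : Module.End k ρbar.V →* k).comp ρbar.ρ with hε
  set t : GQ → k := fun g => LinearMap.trace k ρbar.V (ρbar.ρ g) with ht
  have hc : complexConjugation * complexConjugation = 1 := complexConjugation_mul_self
  have hεc : ε complexConjugation = -1 := rthkr_det_conj ρbar p hdet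
  have h2 : ∀ x y, t (x * y) = t (y * x) := fun x y => by
    show LinearMap.trace k ρbar.V (ρbar.ρ (x * y)) = LinearMap.trace k ρbar.V (ρbar.ρ (y * x))
    rw [map_mul ρbar.ρ, map_mul ρbar.ρ, LinearMap.trace_mul_comm]
  have h3 : ∀ x y, t (x * y) + ε y * t (x * y⁻¹) = t x * t y := fun x y =>
    rtk7m_trace_pseudo ρbar.finrank_eq ρbar.ρ x y
  have hCH : S36CH ρbar.ρ (fun g => ε g) t complexConjugation :=
    S36CH.of_exact (fun σ => rthkr_ch_end ρbar.finrank_eq _ _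
      (by rw [← map_mul, mul_inv_cancel, map_one])) (fun x y => map_mul ε x y) hc hεc
  have h2ne : (2 : k) ≠ 0 := by
    intro h0
    rw [h0, zero_mul] at hi2
    exact zero_ne_one hi2
  have hi2ne : i2 ≠ 0 := by
    intro h0
    rw [h0, mul_zero] at hi2
    exact zero_ne_one hi2
  obtain ⟨x, y, hxy⟩ := rtk7_exists_xi_ne_zero h2ne ρbar.ρ (fun g => ε g) t complexConjugation
    hCH (rtk7_xi'_eq ε t complexConjugation h2 h3 hc hεc) (rthkr_no_line ρbar hirr)
  refine ⟨x, y, ?_⟩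
  rw [rtk7Xi_eq t complexConjugation i2 hi2]
  exact mul_ne_zero (mul_ne_zero hi2ne hi2ne) hxy

/-- `ρbar` is constant on the classes modulo a finite level -/
theorem rthkr_finite_level :
    ∃ L : IntermediateField ℚ (AlgebraicClosure ℚ), FiniteDimensional ℚ L ∧
      ∀ g h : GQ, (∀ x ∈ L, g x = h x) → ρbar.ρ g = ρbar.ρ h := by
  obtain ⟨L, hLfin, hker⟩ := ρbar.factorsThroughFiniteLevel
  refine ⟨L, hLfin, fun g h hgh => ?_⟩
  have hu : ∀ a ∈ L, (h⁻¹ * g) a = a := by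
    intro a ha
    rw [AlgEquiv.mul_apply, hgh a ha, ← AlgEquiv.mul_apply, inv_mul_cancel,
      AlgEquiv.one_apply]
  calc ρbar.ρ g = ρbar.ρ (h * (h⁻¹ * g)) := by rw [mul_inv_cancel_left]
    _ = ρbar.ρ h * ρbar.ρ (h⁻¹ * g) := map_mul _ _ _
    _ = ρbar.ρ h := by rw [hker _ hu, mul_one]

/-- the determinant of an endomorphism of a plane with characteristic polynomial
`X² − aX + d` is `d` -/
theorem rthkr_det_of_charpoly (f : Module.End k ρbar.V) (a d : k)
    (h : LinearMap.charpoly f = X ^ 2 - C a * X + C d) : LinearMap.det f = d := by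
  rw [LinearMap.det_eq_sign_charpoly_coeff, ρbar.finrank_eq, h]
  simp [Polynomial.coeff_C]

/-- **(R4), the Eisenstein case is impossible**: the trace is not `1 + det`. -/
theorem rthkr_not_eis (habs : ρbar.IsAbsolutelyIrreducible)
    (hdet : (GaloisRepAdic.ofResidualGaloisRep ρbar).DetIsCyclotomic p)
    (i2 : k) (hi2 : 2 * i2 = 1) :
    ¬ ∀ g : GQ, LinearMap.trace k ρbar.V (ρbar.ρ g) = 1 + LinearMap.det (ρbar.ρ g) := by
  intro hE
  obtain ⟨σ₀, τ₀, hξ⟩ := rthkr_base ρbar p habs hdet i2 hi2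
  apply hξ
  have hεc := rthkr_det_conj ρbar p hdet
  have hA : ∀ x : GQ, rtk7A (fun g => LinearMap.trace k ρbar.V (ρbar.ρ g)) complexConjugation
      i2 x = 1 := by
    intro x
    show i2 * (LinearMap.trace k ρbar.V (ρbar.ρ x)
      + LinearMap.trace k ρbar.V (ρbar.ρ (x * complexConjugation))) = 1
    rw [hE, hE, map_mul, map_mul, hεc]
    linear_combination hi2
  show rtk7A _ _ _ (σ₀ * τ₀) - rtk7A _ _ _ σ₀ * rtk7A _ _ _ τ₀ = 0
  rw [hA, hA, hA]
  ring

/-- **(R4)** a non-Eisenstein prime outside any finite set: if the characteristic polynomials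
of the Frobenius elements at the primes outside `S₀` are `X² − a_ℓ X + ℓ`, then for every finite
`S` there is a prime `ℓ₀ ∉ S ∪ S₀` with `a_ℓ₀ ≠ ℓ₀ + 1`. -/
theorem rthkr_nonEis (hcheb : Cheb.WeakChebotarev) (habs : ρbar.IsAbsolutelyIrreducible)
    (hdet : (GaloisRepAdic.ofResidualGaloisRep ρbar).DetIsCyclotomic p)
    (i2 : k) (hi2 : 2 * i2 = 1) (S₀ : Finset ℕ) (a : ℕ → k)
    (hfrob : ∀ ℓ : ℕ, ℓ.Prime → ℓ ∉ S₀ →
      ∀ 𝔄 : ValuationSubring (AlgebraicClosure ℚ), 𝔄.LiesOverPrime ℓ →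
        ∀ τ : GQ, 𝔄.IsFrobeniusAt τ ℓ →
          LinearMap.charpoly (ρbar.ρ τ) = X ^ 2 - C (a ℓ) * X + C (ℓ : k))
    (S : Finset ℕ) :
    ∃ ℓ₀ : ℕ, ℓ₀.Prime ∧ ℓ₀ ∉ S ∧ ℓ₀ ∉ S₀ ∧ a ℓ₀ ≠ (ℓ₀ : k) + 1 := by
  by_contra hcon
  push Not at hcon
  refine rthkr_not_eis ρbar p habs hdet i2 hi2 ?_
  set ε : GQ →* k := (LinearMap.det : Module.End k ρbar.V →* k).comp ρbar.ρ with hε
  have h1 : (fun g => LinearMap.trace k ρbar.V (ρbar.ρ g)) 1 = 2 := by
    show LinearMap.trace k ρbar.V (ρbar.ρ 1) = 2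
    rw [map_one, LinearMap.trace_one, ρbar.finrank_eq]
    norm_num
  have h3 : ∀ x y : GQ, (fun g => LinearMap.trace k ρbar.V (ρbar.ρ g)) (x * y)
      + (fun g => ε g) y * (fun g => LinearMap.trace k ρbar.V (ρbar.ρ g)) (x * y⁻¹)
      = (fun g => LinearMap.trace k ρbar.V (ρbar.ρ g)) x
        * (fun g => LinearMap.trace k ρbar.V (ρbar.ρ g)) y := fun x y =>
    rtk7m_trace_pseudo ρbar.finrank_eq ρbar.ρ x y
  have h1' : (fun g => 1 + ε g) 1 = 2 := by
    show 1 + ε 1 = 2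
    rw [map_one]
    norm_num
  have h3' : ∀ x y : GQ, (fun g => 1 + ε g) (x * y)
      + (fun g => ε g) y * (fun g => 1 + ε g) (x * y⁻¹)
      = (fun g => 1 + ε g) x * (fun g => 1 + ε g) y := by
    intro x y
    show 1 + ε (x * y) + ε y * (1 + ε (x * y⁻¹)) = (1 + ε x) * (1 + ε y)
    have hyy : ε y * ε y⁻¹ = 1 := by rw [← map_mul, mul_inv_cancel, map_one]
    rw [map_mul, map_mul]
    linear_combination (ε x) * hyy
  obtain ⟨L, hLfin, hL⟩ := rthkr_finite_level ρbar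
  have key := rtk7uq_eq_of_finite hcheb (fun g => ε g)
    (fun g => LinearMap.trace k ρbar.V (ρbar.ρ g)) (fun g => 1 + ε g) h1 h3 h1' h3'
    ⟨L, hLfin, fun g h hgh => by
      show LinearMap.trace k ρbar.V (ρbar.ρ g) = LinearMap.trace k ρbar.V (ρbar.ρ h)
      rw [hL g h hgh]⟩
    ⟨L, hLfin, fun g h hgh => by
      show 1 + LinearMap.det (ρbar.ρ g) = 1 + LinearMap.det (ρbar.ρ h)
      rw [hL g h hgh]⟩
    (S ∪ S₀) (fun ℓ hℓ hℓS 𝔄 h𝔄 τ hτ => by
      rw [Finset.mem_union, not_or] at hℓS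
      have hch := hfrob ℓ hℓ hℓS.2 𝔄 h𝔄 τ hτ
      show LinearMap.trace k ρbar.V (ρbar.ρ τ) = 1 + LinearMap.det (ρbar.ρ τ)
      rw [Fermat.Agent.S31.trace_of_charpoly ρbar.finrank_eq _ _ _ hch,
        rthkr_det_of_charpoly ρbar _ _ _ hch, hcon ℓ hℓ hℓS.1 hℓS.2]
      ring)
  intro g
  exact congrFun key g

end general

/-! ### The residual inputs from a `KSetup` -/

section setup

variable {P : FreyPackage} {N q : ℕ} (Y : KSetup P N q)

/-- `2 · (1/2) = 1` in the residue field -/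
theorem rthk_r_half : 2 * residue Y.O Y.half = 1 := by
  have h := Y.h2.unit.mul_inv
  rw [IsUnit.unit_spec] at h
  have h' := congrArg (residue Y.O) h
  rw [map_mul, map_one] at h'
  have h2' : residue Y.O (2 : Y.O) = 2 := map_ofNat _ 2
  rw [h2'] at h'
  exact h'

/-- **(R1)** the base point of a setup -/
theorem rthk_r_base : ∃ σ₀ τ₀ : GQ,
    rtk7Xi (fun g => LinearMap.trace (ResidueField Y.O) Y.ρbar.V (Y.ρbar.ρ g))
      complexConjugation (residue Y.O Y.half) σ₀ τ₀ ≠ 0 :=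
  haveI : Fact P.p.Prime := ⟨P.pp⟩
  rthkr_base Y.ρbar P.p Y.hyp.habs Y.hyp.hdet _ (rthk_r_half Y)

/-- **(R2)** `ρbar` is unipotent on the inertia groups at `2` -/
theorem rthk_r_unip (A : ValuationSubring (AlgebraicClosure ℚ)) (hA : A.LiesOverPrime 2)
    (s : GQ) (hs : s ∈ A.inertiaSubgroupIn ℚ) :
    LinearMap.charpoly (Y.ρbar.ρ s) = (Polynomial.X - 1) ^ 2 :=
  Y.hunip2 A hA s hs

/-- **(R2)** in the form of `StmtHkAbsL` / K7-U2 -/
theorem rthk_r_unipSmin : ∀ r ∈ Y.Smin, r.Prime → r ≠ P.p → ¬ P.p ∣ r ^ 2 - 1 ∧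
    ∀ A : ValuationSubring (AlgebraicClosure ℚ), A.LiesOverPrime r →
      ∀ s ∈ A.inertiaSubgroupIn ℚ,
        LinearMap.charpoly (Y.ρbar.ρ s) = (Polynomial.X - 1) ^ 2 := by
  intro r hr _ hrp
  rw [Y.hSmin, Finset.mem_insert, Finset.mem_singleton] at hr
  rcases hr with rfl | rfl
  · refine ⟨fun hdvd => ?_, Y.hunip2⟩
    have h5 := P.hp5
    have := Nat.le_of_dvd (by norm_num) hdvd
    omega
  · exact absurd rfl hrp

/-- **(R3)** the determinant of `ρbar` -/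
theorem rthk_r_det (s : GQ) (a : ℕ)
    (h : ∀ μ : AlgebraicClosure ℚ, μ ^ P.p = 1 → s μ = μ ^ a) :
    LinearMap.det (Y.ρbar.ρ s) = (a : ResidueField Y.O) :=
  haveI : Fact P.p.Prime := ⟨P.pp⟩
  rthkr_det Y.ρbar P.p Y.hyp.hdet s a h

/-- **(R3)** `ρbar` is irreducible -/
theorem rthk_r_irr : Y.ρbar.IsIrreducible := rthkr_irr Y.ρbar Y.hyp.habs

/-- the discriminant of the model of a setup -/
theorem rthk_r_Δ_ne_zero : Y.W.Δ ≠ 0 := by
  obtain ⟨C, hC⟩ := Y.hW
  intro h0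
  have h1 : (C • P.freyCurve).Δ = 0 := by
    rw [hC, WeierstrassCurve.map_Δ, h0, _root_.map_zero]
  rw [WeierstrassCurve.variableChange_Δ] at h1
  have hu : ((C.u⁻¹ : ℚˣ) : ℚ) ^ 12 ≠ 0 := pow_ne_zero _ (Units.ne_zero _)
  have hE : P.freyCurve.Δ ≠ 0 := by
    rw [← Fermat.Agent.S04.freyCurveInt_map, WeierstrassCurve.map_Δ]
    have := Fermat.Agent.S04.freyCurveInt_Δ_ne_zero P
    simpa using this
  exact hE ((mul_eq_zero.1 h1).resolve_left hu)

/-- **(R4)** a non-Eisenstein prime: for every finite `S` there is a prime `ℓ₀ ∉ S`, `ℓ₀ ≠ p`,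
of good reduction, with `a_ℓ₀ ≢ ℓ₀ + 1`; the trace of every Frobenius element at `ℓ₀` is then
different from `ℓ₀ + 1`. -/
theorem rthk_r_nonEis (hcheb : Cheb.WeakChebotarev) (S : Finset ℕ) :
    ∃ ℓ₀ : ℕ, ℓ₀.Prime ∧ ℓ₀ ∉ S ∧ ℓ₀ ≠ P.p ∧ Y.W.IsGoodPrimeFor ℓ₀ ∧
      ((Y.W.apOfModel ℓ₀ : ℤ) : ResidueField Y.O) ≠ (ℓ₀ : ResidueField Y.O) + 1 ∧
      ∀ 𝔄 : ValuationSubring (AlgebraicClosure ℚ), 𝔄.LiesOverPrime ℓ₀ →
        ∀ τ : GQ, 𝔄.IsFrobeniusAt τ ℓ₀ →
          LinearMap.trace (ResidueField Y.O) Y.ρbar.V (Y.ρbar.ρ τ)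
            ≠ (ℓ₀ : ResidueField Y.O) + 1 := by
  haveI : Fact P.p.Prime := ⟨P.pp⟩
  have hΔ := rthk_r_Δ_ne_zero Y
  have hgood : ∀ ℓ : ℕ, ℓ.Prime → ℓ ∉ insert P.p Y.W.Δ.natAbs.primeFactors →
      ℓ ≠ P.p ∧ Y.W.IsGoodPrimeFor ℓ := by
    intro ℓ hℓ hmem
    rw [Finset.mem_insert, not_or] at hmem
    refine ⟨hmem.1, fun hdvd => hmem.2 ?_⟩
    rw [Nat.mem_primeFactors]
    exact ⟨hℓ, Int.natCast_dvd.mp hdvd, fun h0 => hΔ (Int.natAbs_eq_zero.mp h0)⟩
  obtain ⟨ℓ₀, hℓ₀, hℓ₀S, hℓ₀S₀, hne⟩ := rthkr_nonEis Y.ρbar P.p hcheb Y.hyp.habs Y.hyp.hdet _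
    (rthk_r_half Y) (insert P.p Y.W.Δ.natAbs.primeFactors)
    (fun ℓ => ((Y.W.apOfModel ℓ : ℤ) : ResidueField Y.O))
    (fun ℓ hℓ hℓS 𝔄 h𝔄 τ hτ =>
      Y.hbar ℓ hℓ (hgood ℓ hℓ hℓS).1 (hgood ℓ hℓ hℓS).2 𝔄 h𝔄 τ hτ) S
  refine ⟨ℓ₀, hℓ₀, hℓ₀S, (hgood ℓ₀ hℓ₀ hℓ₀S₀).1, (hgood ℓ₀ hℓ₀ hℓ₀S₀).2, hne, ?_⟩
  intro 𝔄 h𝔄 τ hτ
  rw [Fermat.Agent.S31.trace_of_charpoly Y.ρbar.finrank_eq _ _ _
    (Y.hbar ℓ₀ hℓ₀ (hgood ℓ₀ hℓ₀ hℓ₀S₀).1 (hgood ℓ₀ hℓ₀ hℓ₀S₀).2 𝔄 h𝔄 τ hτ)]
  exact hne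

/-- **HK-RES.** -/
theorem stmtHkRes : StmtHkRes := fun P N q _ Y => ⟨rthk_r_base Y, Y.hunip2⟩

end setup

end Fermat.Agent.RT

end
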