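import Fermat.Agent.RT.Hecke.Final
import Fermat.Agent.RT.Hecke.AbsB
import Fermat.Agent.RT.Hecke.AbsLFinal
import Fermat.Agent.RT.Hecke.Resid
import Fermat.Agent.RT.Hecke.Pack
import Fermat.Agent.Cheb.Final

/-!
# K-machine, HECKE-asm: `StmtHecke` from the module side alone

`rthk_final` (RT/Hecke/Final.lean) with the proved inputs filled in:
`Cheb.weakChebotarev_holds`, `stmtHkAbsB` (helper27, RT/Hecke/AbsB.lean),
`stmtHkAbsL` (helper46, helper22, helper15, RT/Hecke/AbsL*.lean),
`stmtHkPack` (RT/Hecke/Pack.lean, from helper70's `rtha_pack_std`), `stmtHkRes` (helper97,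
RT/Hecke/Resid.lean).  LEFT: `StmtHkModSide` (the module side, HK-CONC).
-/

set_option autoImplicit false

namespace Fermat.Agent.RT

/-- **HECKE-asm**: `StmtHecke` from the module side. -/
theorem rthk_final_inst (hMod : StmtHkModSide) : Prod.StmtHecke :=
  rthk_final Fermat.Agent.Cheb.weakChebotarev_holds stmtHkAbsB stmtHkAbsL stmtHkPack
    stmtHkRes hMod

end Fermat.Agent.RT
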