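import Fermat.Agent.ES1.Group

/-!
# K-machine, HK-CONC, layer (B) (helper9): the concrete objects, part 3 (the arithmetic)

Generic in a finite index type `κ`, the primes `v : κ → ℕ` of the diamonds, the exponents
`k : κ → ℕ` and a level `M` with `v x ∣ M`:

* `rthkdM v = ∏ x, v x`;
* `rthkdH p v k M hM ≤ (ℤ/M)ˣ` : the units whose image modulo `v x` is a `p ^ k x`-th power, for
  every `x`  (`rthkd_mem_H`);
* `rthkd_pow_mem_H` : `c ^ (p ^ ν) ∈ H'` if `k x ≤ ν` for all `x`;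
  `rthkd_neg_one_mem_H`, `rthkd_pmH` : `−1 ∈ H'` and `pmH H' = H'` (`p` odd);
* `rthkdE p ν = (p ^ ν + 1) / 2`, `rthkd_two_E : 2 * e = p ^ ν + 1`, `rthkd_two_E_sub`;
* `rthkd_pow_E_mem` : `c ^ (2 * e - 1) ∈ pmH H'`.

In the K-machine: `κ = Fin h ⊕ Y.ι`, `v = Sum.elim qv Y.r`, `k = Sum.elim (fun _ => n + 1)
(fun _ => 1)`, `ν = n + 1`, `M = rthkdM v = (∏ qv j) * ∏ Y.r i`, `L = N * ∏ qv j`.
-/

set_option autoImplicit false
set_option linter.unusedSectionVars false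

namespace Fermat.Agent.RT

open Fermat.Agent.ES1 (pmH)

section arith

variable {κ : Type} [Fintype κ] (p : ℕ) (v k : κ → ℕ)

/-- `M = ∏ v x` -/
def rthkdM : ℕ := ∏ x, v x

theorem rthkd_dvd_M (x : κ) : v x ∣ rthkdM v :=
  Finset.dvd_prod_of_mem v (Finset.mem_univ x)

theorem rthkdM_ne_zero (hv : ∀ x, v x ≠ 0) : rthkdM v ≠ 0 :=
  Finset.prod_ne_zero_iff.mpr fun x _ => hv x

theorem rthkdM_sum {α β : Type} [Fintype α] [Fintype β] (a : α → ℕ) (b : β → ℕ) :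
    rthkdM (Sum.elim a b) = rthkdM a * rthkdM b := by
  rw [rthkdM, rthkdM, rthkdM, Fintype.prod_sum_type]
  rfl

/-- the product of distinct primes dividing `N` divides `N` -/
theorem rthkdM_dvd_of_primes (hv : ∀ x, (v x).Prime) (hinj : Function.Injective v) {N : ℕ}
    (hN : ∀ x, v x ∣ N) : rthkdM v ∣ N := by
  classical
  have hz : (∏ x, (v x : ℤ)) ∣ (N : ℤ) :=
    Finset.prod_dvd_of_coprime
      (fun x _ y _ hxy => Nat.isCoprime_iff_coprime.mpr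
        ((Nat.coprime_primes (hv x) (hv y)).mpr fun e => hxy (hinj e)))
      (fun x _ => Int.natCast_dvd_natCast.mpr (hN x))
  rw [rthkdM]
  exact_mod_cast hz

variable (M : ℕ) (hM : ∀ x, v x ∣ M)

/-- **the group `H'`**: the units which are `p ^ k x`-th powers modulo `v x`, for every `x` -/
def rthkdH : Subgroup (ZMod M)ˣ :=
  ⨅ x, ((powMonoidHom (p ^ k x) : (ZMod (v x))ˣ →* (ZMod (v x))ˣ).range).comap
    (ZMod.unitsMap (hM x))

variable {p v k M hM}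

theorem rthkd_mem_H {c : (ZMod M)ˣ} :
    c ∈ rthkdH p v k M hM ↔
      ∀ x, ∃ a : (ZMod (v x))ˣ, a ^ (p ^ k x) = ZMod.unitsMap (hM x) c := by
  rw [rthkdH, Subgroup.mem_iInf]
  refine forall_congr' fun x => ?_
  rw [Subgroup.mem_comap, MonoidHom.mem_range]
  rfl

/-- `p ^ ν`-th powers are in `H'` -/
theorem rthkd_pow_mem_H {ν : ℕ} (hk : ∀ x, k x ≤ ν) (c : (ZMod M)ˣ) :
    c ^ (p ^ ν) ∈ rthkdH p v k M hM := by
  rw [rthkd_mem_H]
  intro x
  refine ⟨(ZMod.unitsMap (hM x) c) ^ (p ^ (ν - k x)), ?_⟩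
  rw [← pow_mul, ← pow_add, Nat.sub_add_cancel (hk x), map_pow]

theorem rthkd_neg_one_mem_H (hp : Odd p) : (-1 : (ZMod M)ˣ) ∈ rthkdH p v k M hM := by
  rw [rthkd_mem_H]
  intro x
  refine ⟨-1, ?_⟩
  rw [Odd.neg_one_pow (hp.pow)]
  refine Units.ext ?_
  rw [ZMod.unitsMap_def, Units.coe_map]
  show (-1 : ZMod (v x)) = ZMod.castHom (hM x) (ZMod (v x)) (-1)
  rw [map_neg, map_one]

theorem rthkd_pmH (hp : Odd p) : pmH (rthkdH p v k M hM) = rthkdH p v k M hM := by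
  rw [pmH, sup_eq_left, Subgroup.zpowers_le]
  exact rthkd_neg_one_mem_H hp

variable (p)

/-- the exponent `e = (p ^ ν + 1) / 2` of the twist -/
def rthkdE (ν : ℕ) : ℕ := (p ^ ν + 1) / 2

variable {p}

theorem rthkd_two_E (hp : Odd p) (ν : ℕ) : 2 * rthkdE p ν = p ^ ν + 1 := by
  rw [rthkdE]
  have h : Even (p ^ ν + 1) := (hp.pow).add_one
  exact Nat.two_mul_div_two_of_even h

theorem rthkd_two_E_sub (hp : Odd p) (ν : ℕ) : 2 * rthkdE p ν - 1 = p ^ ν := by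
  rw [rthkd_two_E hp, Nat.add_sub_cancel]

theorem rthkd_pow_E_mem (hp : Odd p) {ν : ℕ} (hk : ∀ x, k x ≤ ν) (c : (ZMod M)ˣ) :
    c ^ (2 * rthkdE p ν - 1) ∈ pmH (rthkdH p v k M hM) := by
  rw [rthkd_two_E_sub hp, rthkd_pmH hp]
  exact rthkd_pow_mem_H hk c

end arith

end Fermat.Agent.RT
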