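import Fermat.Agent.RT.Hecke.Plan

/-!
# K-machine, HECKE-asm, HK-CONC, the BASE side (helper22): abstract half

`HkBase` (`RT/Hecke/Plan.lean`) from the module side of the base in its NATURAL form.

* `X` an `𝒪`-module with a basis `b : Basis (Fin r) 𝒪 X` (the base module `X_P(N; 𝒪)`, the
  `Θ`-part of `Hom(Γ₀(N), 𝒪)`), `act : 𝕋 →+* End_𝒪 X` the Hecke action;
* `rthkcbBlock 𝒪 h r` : `M_r(𝒪) →+* M_{2^h r}(𝒪)`, the block-diagonal embedding (`2 ^ h` equal
  blocks), with the indexing `finProdFinEquiv (s, i)`, `s : Fin (2 ^ h)` the block, `i : Fin r`;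
* `rthkcbPhi b h act : 𝕋 →+* M_{2^h r}(𝒪)` : `x ↦` the block-diagonal matrix of `act x` in the
  basis `b`;  `rthkcbPhi_apply` : its entries
  `Φ0 x (s, i) (s', j) = if s = s' then (b.repr (act x (b j))) i else 0`;
  `rthkcb_act_eq` : `act x (b j) = ∑ i, Φ0 x (s, i) (s, j) • b i`;
* `HkBaseSide` : the fields of `HkBase` as statements about `(X, act)`;
* `rthkcb_base : HkBaseSide … act → HkBase … (rthkcbPhi b h act)`.
-/

set_option autoImplicit false
set_option linter.unusedSectionVars false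
set_option linter.style.haveILetI false

noncomputable section

namespace Fermat.Agent.RT

open IsLocalRing Fermat.Agent.ES Fermat.Agent.S30 Fermat.Agent.W1 Fermat.Agent.TW
open Fermat.Agent.RT.Prod ExtCitation

section Block

variable (O : Type) [CommRing O] (h r : ℕ)

/-- the index equivalence `Fin r × Fin (2 ^ h) ≃ Fin (2 ^ h * r)`, `(i, s) ↦ (s, i)` -/
def rthkcbIdx : Fin r × Fin (2 ^ h) ≃ Fin (2 ^ h * r) :=
  (Equiv.prodComm (Fin r) (Fin (2 ^ h))).trans finProdFinEquiv

/-- the block-diagonal embedding `M_r(𝒪) →+* M_{2^h r}(𝒪)` -/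
def rthkcbBlock : Matrix (Fin r) (Fin r) O →+* Matrix (Fin (2 ^ h * r)) (Fin (2 ^ h * r)) O :=
  ((Matrix.reindexAlgEquiv O O (rthkcbIdx h r)).toAlgHom.toRingHom).comp
    ((Matrix.blockDiagonalRingHom (Fin r) (Fin (2 ^ h)) O).comp
      (Pi.constRingHom (Fin (2 ^ h)) (Matrix (Fin r) (Fin r) O)))

variable {O h r}

theorem rthkcbBlock_apply (A : Matrix (Fin r) (Fin r) O) (s s' : Fin (2 ^ h)) (i j : Fin r) :
    rthkcbBlock O h r A (finProdFinEquiv (s, i)) (finProdFinEquiv (s', j)) =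
      if s = s' then A i j else 0 := by
  show (Matrix.reindex (rthkcbIdx h r) (rthkcbIdx h r)
    (Matrix.blockDiagonal fun _ : Fin (2 ^ h) => A)) _ _ = _
  rw [Matrix.reindex_apply, Matrix.submatrix_apply]
  have e1 : ∀ (t : Fin (2 ^ h)) (k : Fin r),
      (rthkcbIdx h r).symm (finProdFinEquiv (t, k)) = (k, t) := by
    intro t k
    rw [Equiv.symm_apply_eq]
    rfl
  rw [e1, e1, Matrix.blockDiagonal_apply]

/-- every entry of the block-diagonal matrix is an entry of the block or zero -/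
theorem rthkcbBlock_entry (A : Matrix (Fin r) (Fin r) O) (a b : Fin (2 ^ h * r)) :
    rthkcbBlock O h r A a b = 0 ∨ ∃ i j, rthkcbBlock O h r A a b = A i j := by
  obtain ⟨⟨s, i⟩, rfl⟩ := finProdFinEquiv.surjective a
  obtain ⟨⟨s', j⟩, rfl⟩ := finProdFinEquiv.surjective b
  rw [rthkcbBlock_apply]
  by_cases hs : s = s'
  · rw [if_pos hs]
    exact Or.inr ⟨i, j, rfl⟩
  · rw [if_neg hs]
    exact Or.inl rfl

/-- the entries of the block-diagonal matrix lie in every ideal containing the entries of the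
block -/
theorem rthkcbBlock_mem (I : Ideal O) (A : Matrix (Fin r) (Fin r) O) (hA : ∀ i j, A i j ∈ I)
    (a b : Fin (2 ^ h * r)) : rthkcbBlock O h r A a b ∈ I := by
  rcases rthkcbBlock_entry A a b with h0 | ⟨i, j, hij⟩
  · rw [h0]
    exact I.zero_mem
  · rw [hij]
    exact hA i j

theorem rthkcbBlock_algebraMap (c : O) :
    rthkcbBlock O h r (algebraMap O (Matrix (Fin r) (Fin r) O) c) =
      algebraMap O (Matrix (Fin (2 ^ h * r)) (Fin (2 ^ h * r)) O) c := by
  ext a b
  obtain ⟨⟨s, i⟩, rfl⟩ := finProdFinEquiv.surjective a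
  obtain ⟨⟨s', j⟩, rfl⟩ := finProdFinEquiv.surjective b
  rw [rthkcbBlock_apply, Matrix.algebraMap_matrix_apply, Matrix.algebraMap_matrix_apply]
  by_cases hs : s = s'
  · subst hs
    by_cases hij : i = j
    · subst hij
      simp
    · have : finProdFinEquiv (s, i) ≠ finProdFinEquiv (s, j) := fun hh =>
        hij (Prod.mk.inj (finProdFinEquiv.injective hh)).2
      simp [hij, this]
  · have : finProdFinEquiv (s, i) ≠ finProdFinEquiv (s', j) := fun hh =>
      hs (Prod.mk.inj (finProdFinEquiv.injective hh)).1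
    simp [hs, this]

end Block

section Phi

variable {O : Type} [CommRing O] {𝕋 : Type} [CommRing 𝕋] {X : Type} [AddCommGroup X]
  [Module O X] {r : ℕ}

/-- the matrices of the base: `x ↦` the block-diagonal matrix (`2 ^ h` blocks) of `act x` in the
basis `b` -/
def rthkcbPhi (b : Module.Basis (Fin r) O X) (h : ℕ) (act : 𝕋 →+* Module.End O X) :
    𝕋 →+* Matrix (Fin (2 ^ h * r)) (Fin (2 ^ h * r)) O :=
  (rthkcbBlock O h r).comp ((LinearMap.toMatrixAlgEquiv b).toAlgHom.toRingHom.comp act)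

theorem rthkcbPhi_eq (b : Module.Basis (Fin r) O X) (h : ℕ) (act : 𝕋 →+* Module.End O X)
    (x : 𝕋) : rthkcbPhi b h act x = rthkcbBlock O h r (LinearMap.toMatrix b b (act x)) := rfl

theorem rthkcbPhi_apply (b : Module.Basis (Fin r) O X) (h : ℕ) (act : 𝕋 →+* Module.End O X)
    (x : 𝕋) (s s' : Fin (2 ^ h)) (i j : Fin r) :
    rthkcbPhi b h act x (finProdFinEquiv (s, i)) (finProdFinEquiv (s', j)) =
      if s = s' then b.repr (act x (b j)) i else 0 := by
  rw [rthkcbPhi_eq, rthkcbBlock_apply, LinearMap.toMatrix_apply]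

/-- the defining property of the base matrices: `act x (b j) = ∑ i, Φ0 x (s, i) (s, j) • b i` -/
theorem rthkcb_act_eq (b : Module.Basis (Fin r) O X) (h : ℕ) (act : 𝕋 →+* Module.End O X)
    (x : 𝕋) (s : Fin (2 ^ h)) (j : Fin r) :
    act x (b j) = ∑ i, rthkcbPhi b h act x (finProdFinEquiv (s, i)) (finProdFinEquiv (s, j)) • b i := by
  conv_lhs => rw [← b.sum_repr (act x (b j))]
  refine Finset.sum_congr rfl fun i _ => ?_
  rw [rthkcbPhi_apply, if_pos rfl]

/-- `(Φ0 x − c) ^ e` is the block-diagonal matrix of `(act x − c) ^ e` -/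
theorem rthkcbPhi_sub_pow (b : Module.Basis (Fin r) O X) (h : ℕ) (act : 𝕋 →+* Module.End O X)
    (x : 𝕋) (c : O) (e : ℕ) :
    (rthkcbPhi b h act x - algebraMap O (Matrix (Fin (2 ^ h * r)) (Fin (2 ^ h * r)) O) c) ^ e =
      rthkcbBlock O h r
        (LinearMap.toMatrix b b ((act x - algebraMap O (Module.End O X) c) ^ e)) := by
  have h1 : LinearMap.toMatrix b b ((act x - algebraMap O (Module.End O X) c) ^ e) =
      (LinearMap.toMatrix b b (act x) - algebraMap O (Matrix (Fin r) (Fin r) O) c) ^ e := by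
    have := map_pow (LinearMap.toMatrixAlgEquiv b) (act x - algebraMap O (Module.End O X) c) e
    rw [map_sub, AlgEquiv.commutes] at this
    exact this
  rw [h1, map_pow, map_sub, rthkcbBlock_algebraMap, rthkcbPhi_eq]

/-- the coordinates of an element of `I • X` lie in `I` -/
theorem rthkcb_repr_mem (b : Module.Basis (Fin r) O X) (I : Ideal O) {v : X}
    (hv : v ∈ (I • ⊤ : Submodule O X)) (i : Fin r) : b.repr v i ∈ I := by
  refine Submodule.smul_induction_on hv (fun a ha w _ => ?_) (fun u w hu hw => ?_)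
  · rw [map_smul, Finsupp.smul_apply, smul_eq_mul]
    exact I.mul_mem_right _ ha
  · rw [map_add, Finsupp.add_apply]
    exact I.add_mem hu hw

end Phi

section Side

variable {O : Type} [CommRing O] [IsLocalRing O]

/-- **The module side of the base in its natural form**: the fields of `HkBase` as statements
about the Hecke action `act : 𝕋 →+* End_𝒪 X` on the base module. -/
structure HkBaseSide (p : ℕ) [Fact p.Prime] (ρbar : ResidualGaloisRep (ResidueField O)) (N : ℕ)
    [NeZero N] (S' : Finset ℕ) {𝕋 : Type} [CommRing 𝕋] (J : Type) [AddCommGroup J] [Module 𝕋 J]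
    [DistribMulAction GQ J] (Tr : ℕ → 𝕋) {X : Type} [AddCommGroup X] [Module O X]
    (act : 𝕋 →+* Module.End O X) : Prop where
  pkg : Rtk7bPkg p N J Tr
  primes : ∀ q : ℕ, q.Prime → q ∉ S' → ¬ q ∣ N * p
  model : ∀ k : ℕ, ∃ (X : Type) (_ : AddCommGroup X) (_ : Finite X) (act : GQ → X → X),
      (∀ s x x', act s (x + x') = act s x + act s x') ∧
      (∀ s s' x, act (s * s') x = act s (act s' x)) ∧
      HasFiniteFlatModel (GaloisRep.ratLocalizedAt p) X act ∧
      ∀ e : GQ →₀ ℤ, (∀ x : X, (e.sum fun g z => z • act g x) = 0) →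
        ∀ x : J, p ^ k • x = 0 → (e.sum fun g z => z • g • x) = 0
  /-- HK-FAITH, adic form: `x` kills `J[p^{n₀}]` ⇒ `x X ⊆ pᵏ X` -/
  faith : ∀ k : ℕ, ∃ n₀ : ℕ, ∀ x : 𝕋, (∀ y : J, p ^ n₀ • y = 0 → x • y = 0) →
    ∀ v : X, ∃ v' : X, act x v = (p : O) ^ k • v'
  /-- K5-LOC: a power of `x − c` maps `X` into `𝔪 X` -/
  nil : ∀ x : 𝕋, ∃ (c : O) (e : ℕ), ∀ v : X,
    ((act x - algebraMap O (Module.End O X) c) ^ e) v ∈ (maximalIdeal O • ⊤ : Submodule O X)
  /-- the residual Frobenius traces -/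
  resid : ∀ ℓ : ℕ, ℓ.Prime → ℓ ∉ S' →
    ∀ P : ValuationSubring (AlgebraicClosure ℚ), P.LiesOverPrime ℓ →
      ∀ τ : GQ, P.IsFrobeniusAt τ ℓ → ∃ (c : O) (e : ℕ),
        residue O c = LinearMap.trace (ResidueField O) ρbar.V (ρbar.ρ τ) ∧
        ∀ v : X, ((act (Tr ℓ) - algebraMap O (Module.End O X) c) ^ e) v
          ∈ (maximalIdeal O • ⊤ : Submodule O X)
  /-- BASE-BRIDGE -/
  occ : ∀ t ∈ MvPolynomial.supported ℤ (Fermat.Agent.S31.outsideVars (↑S' : Set ℕ)),
    CuspForm.heckeEvalForms N 2 t = 0 →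
      act (MvPolynomial.aeval (fun ℓ : Nat.Primes => Tr (ℓ : ℕ)) t) = 0

variable {p : ℕ} [Fact p.Prime] {ρbar : ResidualGaloisRep (ResidueField O)} {N : ℕ}
  [NeZero N] {S' : Finset ℕ} {𝕋 : Type} [CommRing 𝕋] {J : Type} [AddCommGroup J] [Module 𝕋 J]
  [DistribMulAction GQ J] {Tr : ℕ → 𝕋} {X : Type} [AddCommGroup X] [Module O X]
  {act : 𝕋 →+* Module.End O X} {r : ℕ}

/-- **HK-CONC, base side (abstract half).** -/
theorem rthkcb_base (b : Module.Basis (Fin r) O X) (h : ℕ)
    (H : HkBaseSide p ρbar N S' J Tr act) :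
    HkBase p ρbar N S' (2 ^ h * r) J Tr (rthkcbPhi b h act) where
  pkg := H.pkg
  primes := H.primes
  model := H.model
  faith := fun k => by
    obtain ⟨n₀, hn₀⟩ := H.faith k
    refine ⟨n₀, fun x hx i j => ?_⟩
    rw [rthkcbPhi_eq]
    refine rthkcbBlock_mem _ _ (fun i' j' => ?_) i j
    obtain ⟨v', hv'⟩ := hn₀ x hx (b j')
    rw [LinearMap.toMatrix_apply, hv', map_smul, Finsupp.smul_apply, smul_eq_mul]
    exact Ideal.mul_mem_right _ _ (Ideal.subset_span rfl)
  nil := fun x => by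
    obtain ⟨c, e, hce⟩ := H.nil x
    refine ⟨c, e, fun i j => ?_⟩
    rw [rthkcbPhi_sub_pow]
    refine rthkcbBlock_mem _ _ (fun i' j' => ?_) i j
    rw [LinearMap.toMatrix_apply]
    exact rthkcb_repr_mem b _ (hce (b j')) i'
  resid := fun ℓ hℓ hℓS P hP τ hτ => by
    obtain ⟨c, e, hc, hce⟩ := H.resid ℓ hℓ hℓS P hP τ hτ
    refine ⟨c, e, hc, fun i j => ?_⟩
    rw [rthkcbPhi_sub_pow]
    refine rthkcbBlock_mem _ _ (fun i' j' => ?_) i j
    rw [LinearMap.toMatrix_apply]
    exact rthkcb_repr_mem b _ (hce (b j')) i'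
  occ := fun t ht h0 => by
    show rthkcbBlock O h r (LinearMap.toMatrixAlgEquiv b (act _)) = 0
    rw [H.occ t ht h0, map_zero, map_zero]

end Side

end Fermat.Agent.RT
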