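import Fermat.Agent.RT.K5.Act
import Fermat.Agent.RT.K5.NatFam

/-!
# K-machine, HK-CONC, layer (B) (helper9): the concrete objects, part 1 (module side)

Generic in the level `(L, M, H')`, the coefficient ring `𝒪` and the Hecke operator `𝔲`:

* `RthkdC 𝒪 ν = 𝒪 ⧸ 𝔪 ^ ν` (the algebra structure of `S ⧸ 𝔪_S ^ ν` over it is `rthkcaAlg`,
  `RT/Hecke/ConcAlg.lean`);
* `rthkdX 𝔲 ℓ₀ H' ν` : the `Θ`-part `etaPart (thetaN 𝔲 ℓ₀ (𝒪 ⧸ 𝔪 ^ ν) H')` of `Hom(Γ_{H'}(L), 𝒪 ⧸ 𝔪 ^ ν)`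
  as a submodule over `𝒪 ⧸ 𝔪 ^ ν`;  `X = ↥(rthkdX …)`;
* `rthkdRes f hf` : the restriction of an endomorphism to a stable submodule;
* `RthkdDelta M H' = (ZMod M)ˣ ⧸ pmH H'` (a finite commutative group);
* `rthkdD 𝔲 ℓ₀ H' ν : RthkdDelta M H' →* AddMonoid.End X`, the diamonds `K5.diamU` on `X`
  (`rthkdD_mk_coe`).
-/

set_option autoImplicit false
set_option linter.unusedSectionVars false
set_option linter.style.haveILetI false

noncomputable section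

namespace Fermat.Agent.RT

open IsLocalRing Fermat.Agent.RT.K5
open Fermat.Agent.ES1 (gammaH diamHom pmH)

/-! ## the coefficient ring -/

section coeff

variable (O : Type) [CommRing O] [IsLocalRing O] (ν : ℕ)

/-- `𝒪 ⧸ 𝔪 ^ ν` -/
abbrev RthkdC : Type := O ⧸ maximalIdeal O ^ ν

end coeff

/-! ## restriction of endomorphisms -/

section res

variable {C : Type} [CommRing C] {V : Type} [AddCommGroup V] [Module C V]

/-- the restriction of an additive endomorphism to a stable submodule -/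
def rthkdRes (X : Submodule C V) (f : V →+ V) (hf : ∀ x ∈ X, f x ∈ X) : AddMonoid.End X where
  toFun x := ⟨f (x : V), hf x x.2⟩
  map_zero' := Subtype.ext (map_zero f)
  map_add' x y := Subtype.ext (map_add f (x : V) (y : V))

@[simp] theorem rthkdRes_coe (X : Submodule C V) (f : V →+ V) (hf : ∀ x ∈ X, f x ∈ X) (x : X) :
    ((rthkdRes X f hf x : X) : V) = f (x : V) := rfl

end res

/-! ## the module -/

section module

variable {O : Type} [CommRing O] [IsLocalRing O] {L M : ℕ} [NeZero L] [hML : Fact (M ∣ L)]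
  (𝔲 : NatFam O L M) (ℓ₀ : ℕ) [NeZero ℓ₀] (H' : Subgroup (ZMod M)ˣ) (ν : ℕ)

/-- the `Θ`-part of `Hom(Γ_{H'}(L), 𝒪 ⧸ 𝔪 ^ ν)`, as a submodule -/
def rthkdX : Submodule (RthkdC O ν) (HomS (gammaH L M H') (RthkdC O ν)) where
  carrier := etaPart (thetaN 𝔲 ℓ₀ (RthkdC O ν) H')
  add_mem' := fun ha hb => AddSubgroup.add_mem _ ha hb
  zero_mem' := AddSubgroup.zero_mem _
  smul_mem' := fun c φ hφ => by
    obtain ⟨c, rfl⟩ := Ideal.Quotient.mk_surjective c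
    have h := k5s_intertwine_mem (thetaN 𝔲 ℓ₀ (RthkdC O ν) H') (thetaN 𝔲 ℓ₀ (RthkdC O ν) H')
      (DistribSMul.toAddMonoidHom (HomS (gammaH L M H') (RthkdC O ν)) c)
      (fun x => (k5n_theta_smul 𝔲 ℓ₀ H' c x).symm) hφ
    exact h

theorem rthkd_mem_X {φ : HomS (gammaH L M H') (RthkdC O ν)} :
    φ ∈ rthkdX 𝔲 ℓ₀ H' ν ↔ φ ∈ etaPart (thetaN 𝔲 ℓ₀ (RthkdC O ν) H') := Iff.rfl

/-- the diamond group -/
abbrev RthkdDelta (M : ℕ) (H' : Subgroup (ZMod M)ˣ) : Type := (ZMod M)ˣ ⧸ pmH H'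

instance rthkdDeltaFintype [NeZero M] : Fintype (RthkdDelta M H') := Fintype.ofFinite _

theorem rthkd_diamU_mem (u : (ZMod M)ˣ) {φ : HomS (gammaH L M H') (RthkdC O ν)}
    (hφ : φ ∈ rthkdX 𝔲 ℓ₀ H' ν) : diamU L M H' (RthkdC O ν) u φ ∈ rthkdX 𝔲 ℓ₀ H' ν :=
  k5act_thetaS_mem L M H' (RthkdC O ν) (𝔲.fam (RthkdC O ν)) ℓ₀ u hφ

/-- the diamonds on `X`, before the quotient -/
def rthkdD0 : (ZMod M)ˣ →* AddMonoid.End (rthkdX 𝔲 ℓ₀ H' ν) where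
  toFun u := rthkdRes (rthkdX 𝔲 ℓ₀ H' ν) (diamU L M H' (RthkdC O ν) u)
    (fun _ hx => rthkd_diamU_mem 𝔲 ℓ₀ H' ν u hx)
  map_one' := by
    refine AddMonoidHom.ext fun x => Subtype.ext ?_
    show diamU L M H' (RthkdC O ν) 1 (x : HomS (gammaH L M H') (RthkdC O ν)) = x
    rw [map_one]
    rfl
  map_mul' u v := by
    refine AddMonoidHom.ext fun x => Subtype.ext ?_
    show diamU L M H' (RthkdC O ν) (u * v) (x : HomS (gammaH L M H') (RthkdC O ν))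
      = diamU L M H' (RthkdC O ν) u (diamU L M H' (RthkdC O ν) v x)
    rw [map_mul]
    rfl

theorem rthkdD0_coe (u : (ZMod M)ˣ) (x : rthkdX 𝔲 ℓ₀ H' ν) :
    ((rthkdD0 𝔲 ℓ₀ H' ν u x : rthkdX 𝔲 ℓ₀ H' ν) : HomS (gammaH L M H') (RthkdC O ν))
      = diamU L M H' (RthkdC O ν) u x := rfl

theorem rthkdD0_of_mem {u : (ZMod M)ˣ} (hu : u ∈ pmH H') : rthkdD0 𝔲 ℓ₀ H' ν u = 1 := by
  refine AddMonoidHom.ext fun x => Subtype.ext ?_
  show diamU L M H' (RthkdC O ν) u (x : HomS (gammaH L M H') (RthkdC O ν)) = x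
  exact k5act_diamU_of_mem_apply L M H' (RthkdC O ν) hu _

/-- **the diamonds** `D : Δ →* End X` -/
def rthkdD : RthkdDelta M H' →* AddMonoid.End (rthkdX 𝔲 ℓ₀ H' ν) :=
  QuotientGroup.lift (pmH H') (rthkdD0 𝔲 ℓ₀ H' ν) (fun _ hu => rthkdD0_of_mem 𝔲 ℓ₀ H' ν hu)

theorem rthkdD_mk (u : (ZMod M)ˣ) :
    rthkdD 𝔲 ℓ₀ H' ν (QuotientGroup.mk u) = rthkdD0 𝔲 ℓ₀ H' ν u := rfl

theorem rthkdD_mk_coe (u : (ZMod M)ˣ) (x : rthkdX 𝔲 ℓ₀ H' ν) :
    ((rthkdD 𝔲 ℓ₀ H' ν (QuotientGroup.mk u) x : rthkdX 𝔲 ℓ₀ H' ν) :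
        HomS (gammaH L M H') (RthkdC O ν))
      = diamU L M H' (RthkdC O ν) u x := rfl

/-- the diamonds are linear -/
theorem rthkdD_smul (δ : RthkdDelta M H') (c : RthkdC O ν) (x : rthkdX 𝔲 ℓ₀ H' ν) :
    rthkdD 𝔲 ℓ₀ H' ν δ (c • x) = c • rthkdD 𝔲 ℓ₀ H' ν δ x := by
  obtain ⟨u, rfl⟩ := QuotientGroup.mk_surjective δ
  exact Subtype.ext rfl

end module

end Fermat.Agent.RT

end
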