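import Fermat.Agent.RT.Hecke.ConcFree
import Fermat.Agent.RT.Hecke.ConcDefs
import Fermat.Agent.RT.Hecke.ConcBaseAbs

/-!
# K-machine, HECKE-asm, HK-CONC: the fields `free`, `act_comm`, `base` for the concrete module
`X = ↥(rthkdX 𝔲 ℓ₀ H' ν)` of `RT/Hecke/ConcDefs.lean` (helper88)

* `rthkcf_model` : `X = ↥(rthkdX 𝔲 ℓ₀ H' ν)`, `Δ = RthkdDelta M H'`, `D = rthkdD 𝔲 ℓ₀ H' ν` is a
  model of the `Θ`-part in the sense of `RthkcfModel` (`RT/Hecke/ConcFree.lean`);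
* `rthkcf_block_eq` : a matrix with the entries `if s = s' then mk (a i i') else 0` is the
  reduction of the block diagonal matrix `rthkcbBlock 𝒪 h r a` (`RT/Hecke/ConcBaseAbs.lean`);
* `rthkcf_X` : **the fields `free` and `base`**: for a basis `c` of the base level (over `𝒪`,
  with reductions bases of the `Θ`-part modulo `𝔪 ^ n`) and a Taylor–Wiles list `Q` of length
  `h`: there is `b : Fin (2 ^ h * r) → X` with `RthkmFree C D b` such that for every prime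
  `ℓ ∉ Q`, every matrix `a` of `tS ℓ` in the basis `c`, and every `𝔱 : End X` acting as
  `diamU u ∘ tS ℓ`:  `rthkmMat free 1 𝔱 = (rthkcbBlock 𝒪 h r a).map (algebraMap 𝒪 C)`;
* `rthkcf_X_comm` : the field `act_comm` for an action `act` which is the restriction of a family
  of operators commuting with the scalars, such that every diamond is `act d`.
-/

set_option autoImplicit false
set_option linter.style.haveILetI false
set_option linter.unusedSectionVars false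
set_option linter.unusedVariables false

noncomputable section

namespace Fermat.Agent.RT

open CongruenceSubgroup Matrix
open scoped MatrixGroups
open Fermat.Agent.ES1 (gammaH diamHom pmH)
open Fermat.Agent.RT.K5

section model

variable {O : Type} [CommRing O] [IsLocalRing O] {L M : ℕ} [NeZero L] [hML : Fact (M ∣ L)]
  (𝔲 : NatFam O L M) (ℓ₀ : ℕ) [NeZero ℓ₀] (H' : Subgroup (ZMod M)ˣ) (ν : ℕ)

/-- the concrete module of `ConcDefs.lean` is a model of the `Θ`-part -/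
theorem rthkcf_model :
    RthkcfModel (Δ := RthkdDelta M H') H' (RthkdC O ν) (thetaN 𝔲 ℓ₀ (RthkdC O ν) H')
      (QuotientGroup.mk' (pmH H'))
      (rthkdD 𝔲 ℓ₀ H' ν) (rthkdX 𝔲 ℓ₀ H' ν).subtype.toAddMonoidHom where
  inj := Subtype.val_injective
  smul _ _ := rfl
  mem x := x.2
  surj ψ hψ := ⟨⟨ψ, hψ⟩, rfl⟩
  pi_surj := QuotientGroup.mk'_surjective _
  pi_ker u := QuotientGroup.eq_one_iff u
  diam u x := rthkdD_mk_coe 𝔲 ℓ₀ H' ν u x

end model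

section block

variable {O : Type} [CommRing O] {C : Type} [CommRing C] [Algebra O C] {h r : ℕ}

/-- a matrix with the entries of the reduction of a block diagonal matrix -/
theorem rthkcf_block_eq (a : Matrix (Fin r) (Fin r) O)
    (A : Matrix (Fin (2 ^ h * r)) (Fin (2 ^ h * r)) C)
    (hA : ∀ (s s' : Fin (2 ^ h)) (i i' : Fin r),
      A (finProdFinEquiv (s, i)) (finProdFinEquiv (s', i'))
        = if s = s' then algebraMap O C (a i i') else 0) :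
    A = (rthkcbBlock O h r a).map (algebraMap O C) := by
  ext x x'
  obtain ⟨⟨s, i⟩, rfl⟩ := (finProdFinEquiv (m := 2 ^ h) (n := r)).surjective x
  obtain ⟨⟨s', i'⟩, rfl⟩ := (finProdFinEquiv (m := 2 ^ h) (n := r)).surjective x'
  rw [Matrix.map_apply, rthkcbBlock_apply, hA]
  split_ifs
  · rfl
  · rw [map_zero]

end block

section main

variable (p : ℕ) [Fact p.Prime] (𝒪 : Type) [CommRing 𝒪] [IsDomain 𝒪]
  [IsDiscreteValuationRing 𝒪] [Finite (IsLocalRing.ResidueField 𝒪)]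
  (N₀ M₀ ℓ₀ : ℕ) [NeZero N₀] [NeZero ℓ₀] [hML : Fact (M₀ ∣ N₀)]

/-- **HK-CONC, the fields `free` and `base`** for the concrete module of `ConcDefs.lean`. -/
theorem rthkcf_X (e : HExpr 𝒪) (hℓ₀ : ℓ₀.Prime) (hℓ₀N : ¬ ℓ₀ ∣ N₀) (Q : List ℕ) (h : ℕ)
    (hlen : Q.length = h)
    (hnd : Q.Nodup) (hQ : ∀ q ∈ Q, q.Prime ∧ ¬ q ∣ N₀ ∧ q ≠ ℓ₀ ∧ e.Avoids q) (N M : ℕ)
    [NeZero N] [NeZero M] [hMN : Fact (M ∣ N)] (hN : N = N₀ * Q.prod)
    (H' : Subgroup (ZMod M)ˣ) (k : ℕ)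
    (hyp : FreeHyp p 𝒪 N M ℓ₀ H' ⊤ k) (n : ℕ) (hn : 0 < n)
    (hc : K5TWCond 𝒪 N₀ M₀ ℓ₀ e Q (RthkdC 𝒪 n)) {r : ℕ}
    (c : Fin r → HomS (gammaH N₀ M₀ (⊤ : Subgroup (ZMod M₀)ˣ)) 𝒪)
    (hy : K5IsBasis (RthkdC 𝒪 n)
      (etaPart (thetaN (e.eval N₀ M₀) ℓ₀ (RthkdC 𝒪 n) ⊤))
      (fun i => mapS (Submodule.mkQ (IsLocalRing.maximalIdeal 𝒪 ^ n)).toAddMonoidHom (c i))) :
    ∃ (b : Fin (2 ^ h * r) → rthkdX ((e.twist Q).eval N M) ℓ₀ H' n)
      (free : RthkmFree (Δ := RthkdDelta M H') (RthkdC 𝒪 n)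
        (rthkdD ((e.twist Q).eval N M) ℓ₀ H' n) b),
      ∀ (ℓ : ℕ) [NeZero ℓ], ℓ.Prime → ℓ ∉ Q → ∀ a : Matrix (Fin r) (Fin r) 𝒪,
        (∀ i', tS N₀ M₀ ℓ ⊤ 𝒪 (c i') = ∑ i, a i i' • c i) →
        ∀ 𝔱 : AddMonoid.End (rthkdX ((e.twist Q).eval N M) ℓ₀ H' n),
          (∀ x, ∃ u : (ZMod M)ˣ,
            ((𝔱 x : rthkdX ((e.twist Q).eval N M) ℓ₀ H' n) : HomS (gammaH N M H') (RthkdC 𝒪 n))
              = diamU N M H' (RthkdC 𝒪 n) u (tS N M ℓ H' (RthkdC 𝒪 n) x)) →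
          rthkmMat (Δ := RthkdDelta M H') free (1 : RthkdDelta M H' →* RthkdC 𝒪 n) 𝔱
            = (rthkcbBlock 𝒪 h r a).map (algebraMap 𝒪 (RthkdC 𝒪 n)) := by
  obtain ⟨b, free, hb⟩ := rthkcf_exists (Δ := RthkdDelta M H') p 𝒪 N₀ M₀ ℓ₀ e hℓ₀ hℓ₀N Q h hlen
    hnd hQ N M hN H' k hyp n
    hn hc c hy (QuotientGroup.mk' (pmH H')) (rthkdD ((e.twist Q).eval N M) ℓ₀ H' n)
    (rthkdX ((e.twist Q).eval N M) ℓ₀ H' n).subtype.toAddMonoidHom
    (rthkcf_model ((e.twist Q).eval N M) ℓ₀ H' n)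
  refine ⟨b, free, ?_⟩
  intro ℓ _ hℓ hℓQ a ha 𝔱 h𝔱
  exact rthkcf_block_eq a _ (hb ℓ hℓ hℓQ a ha 𝔱 h𝔱)

end main

section comm

variable {O : Type} [CommRing O] [IsLocalRing O] {L M : ℕ} [NeZero L] [hML : Fact (M ∣ L)]
  (𝔲 : NatFam O L M) (ℓ₀ : ℕ) [NeZero ℓ₀] (H' : Subgroup (ZMod M)ˣ) (ν : ℕ)

/-- **HK-CONC, the field `act_comm`**: an action of a commutative ring `𝕋` on `X` which is the
restriction of operators `E t` of `Hom(Γ_{H'}(L), C)` commuting with the scalars, and such that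
every diamond operator `diamU u` is (on `X`) some `E d`. -/
theorem rthkcf_X_comm {𝕋 : Type} [CommRing 𝕋]
    (act : 𝕋 →+* AddMonoid.End (rthkdX 𝔲 ℓ₀ H' ν))
    (E : 𝕋 → HomS (gammaH L M H') (RthkdC O ν) →+ HomS (gammaH L M H') (RthkdC O ν))
    (hact : ∀ (t : 𝕋) (x : rthkdX 𝔲 ℓ₀ H' ν),
      ((act t x : rthkdX 𝔲 ℓ₀ H' ν) : HomS (gammaH L M H') (RthkdC O ν)) = E t x)
    (hE : ∀ (t : 𝕋) (c : RthkdC O ν) (ψ : HomS (gammaH L M H') (RthkdC O ν)),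
      E t (c • ψ) = c • E t ψ)
    (hD : ∀ u : (ZMod M)ˣ, ∃ d : 𝕋, ∀ x : rthkdX 𝔲 ℓ₀ H' ν,
      diamU L M H' (RthkdC O ν) u x = E d x) (t : 𝕋) :
    act t ∈ rthkmComm (Δ := RthkdDelta M H') (RthkdC O ν) (rthkdD 𝔲 ℓ₀ H' ν) := by
  refine rthkcf_act_comm (Δ := RthkdDelta M H') act ?_ ?_ t
  · intro t c x
    apply Subtype.ext
    rw [hact]
    show E t (c • (x : HomS (gammaH L M H') (RthkdC O ν))) = c • ((act t x : rthkdX 𝔲 ℓ₀ H' ν) :
      HomS (gammaH L M H') (RthkdC O ν))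
    rw [hE, hact]
  · intro δ
    obtain ⟨u, rfl⟩ := QuotientGroup.mk_surjective δ
    obtain ⟨d, hd⟩ := hD u
    refine ⟨d, AddMonoidHom.ext fun x => Subtype.ext ?_⟩
    exact (rthkdD_mk_coe 𝔲 ℓ₀ H' ν u x).trans ((hd x).trans (hact d x).symm)

end comm

end Fermat.Agent.RT
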