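import Fermat.Agent.RT.Hecke.ConcTr5
import Fermat.Agent.RT.Hecke.ConcFinalPlan

/-!
# K-machine, HK-CONC: the K6 side `StmtHkfTr` of the final glue (helper69)

`rthkt_final : RT.K6.StmtChiJDiv5 → StmtHkfTr` — contract 2 of `RT/Hecke/ConcFinalPlan.lean`
(helper9): the characters `ψ1, ψχ` and the fields `cong`, `aug`, `trT`, `trQ` of `HkConcSide`
at the concrete level `L = N * ∏ qv j`, `M = ∏ qv j * ∏ r i`, `H' = rthkfH Y qv n`, from what
K6 delivers (`stmtChiJDiv5_of_rigid`).  It is `rthkt_chars_tr5` (`RT/Hecke/ConcTr5.lean`) with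
`rthkt_not_sq_dvd_L`, `rthkt_p_not_dvd_L` (`RT/Hecke/ConcTr.lean`).
-/

set_option autoImplicit false
set_option linter.unusedSectionVars false
set_option linter.unusedVariables false
set_option linter.style.haveILetI false

noncomputable section

namespace Fermat.Agent.RT

open IsLocalRing Fermat.Agent.RT.K5 Fermat.Agent.RT.K6 Fermat.Agent.RT.K7F Fermat.Agent.ES
  Fermat.Agent.ES1 Fermat.Agent.S30 Fermat.Agent.TW Fermat.Agent.RT.Prod

/-- **The K6 side of the final glue**, from `StmtChiJDiv5`. -/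
theorem rthkt_final (hChi : StmtChiJDiv5) : StmtHkfTr := by
  intro P N q _ hN hpN hq hq2 hqN Y h n qv hqv i1 i2 i3 i4 𝔲 ℓ₀ i5
  exact rthkt_chars_tr5 (L := N * rthkdM qv) (M := rthkdM (Sum.elim qv Y.r)) Y hChi hqv
    (rthkd_dvd_M _)
    (fun x => rthkt_not_sq_dvd_L Y hN hqv (rthkcg_v_prime Y hqv x))
    (rthkt_p_not_dvd_L Y hpN hqv) 𝔲 ℓ₀

/-- the same from the unrestricted form `StmtChiJDiv`. -/
theorem rthkt_final_of_chiJDiv (hChi : StmtChiJDiv) : StmtHkfTr := by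
  intro P N q _ hN hpN hq hq2 hqN Y h n qv hqv i1 i2 i3 i4 𝔲 ℓ₀ i5
  exact rthkt_chars_tr (L := N * rthkdM qv) (M := rthkdM (Sum.elim qv Y.r)) Y hChi hqv
    (rthkd_dvd_M _)
    (fun x => rthkt_not_sq_dvd_L Y hN hqv (rthkcg_v_prime Y hqv x))
    (rthkt_p_not_dvd_L Y hpN hqv) 𝔲 ℓ₀

end Fermat.Agent.RT
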