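import Fermat.Agent.RT.Hecke.ConcFinalB
import Fermat.Agent.RT.Hecke.ConcTrFinal

/-!
# K-machine, HK-CONC (helper9): the module side from its three open inputs

* `rthkf_concTop : K7F.StmtFlatH → K6.StmtChiJDiv5 → StmtHkfK5' → StmtHkConcTop`;
* `rthkf_modSide : … → StmtHkModSide`;
* `rthkf_hecke : … → Prod.StmtHecke`.

(`StmtHkfK5'` : the K5 side, RT/Hecke/ConcFinalB.lean; `rthkt_final` : the K6 side, helper69.)
-/

set_option autoImplicit false

namespace Fermat.Agent.RT

open Fermat.Agent.RT.K7F

/-- the concrete contract from the three open inputs -/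
theorem rthkf_concTop (hflat : StmtFlatH) (hChi : K6.StmtChiJDiv5) (hK5 : StmtHkfK5') :
    StmtHkConcTop :=
  rthkf_top' hflat hK5 (rthkt_final hChi)

/-- the module side from the three open inputs -/
theorem rthkf_modSide (hflat : StmtFlatH) (hChi : K6.StmtChiJDiv5) (hK5 : StmtHkfK5') :
    StmtHkModSide :=
  rthkct_modSide (rthkf_concTop hflat hChi hK5)

/-- **HECKE-asm** from the three open inputs -/
theorem rthkf_hecke (hflat : StmtFlatH) (hChi : K6.StmtChiJDiv5) (hK5 : StmtHkfK5') :
    Prod.StmtHecke :=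
  rthkct_hecke (rthkf_concTop hflat hChi hK5)

end Fermat.Agent.RT
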