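import Fermat.Agent.RT.Hecke.ConcIndep
import Fermat.Agent.RT.K5.NoTorsUnit
import Fermat.Agent.Cheb.Final

/-!
# K-machine, HECKE-asm, HK-CONC, contract `StmtHkfK5'`: the FAMILY half (helper7)

The base half (helper22) chooses an admissible base pair `(e₀, ℓ₁)` — a Hecke expression and a
non-Eisenstein prime whose `Θ`-parts `X₀(n) ≤ Hom(Γ₀(N), 𝒪 ⧸ 𝔪 ^ n)` have the intrinsic
description `K5inIntr` — and a family `c` in `Hom(Γ₀(N), 𝒪)` whose reductions are bases of the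
`X₀(n)`.

`rthkk5f_family` : for every Taylor–Wiles family `qv` of level `n` there are a Hecke expression
`e` and a non-Eisenstein prime `ℓ₀`, both avoiding `qv`, such that
* the Taylor–Wiles condition `K5TWCond` holds on the `Θ_{e, ℓ₀}`-part with coefficients
  `𝒪 ⧸ 𝔪 ^ (n + 1)` (`k5in_twcond2`), and
* the `Θ_{e, ℓ₀}`-part is `X₀(n + 1)` (K5-INDEP, `k5in_indep`), so that the reductions of `c`
  are a basis of it.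
This is the last clause of `StmtHkfK5'` (RT/Hecke/ConcFinalB.lean).
-/

set_option autoImplicit false
set_option linter.unusedSectionVars false
set_option linter.style.haveILetI false
set_option linter.unusedVariables false

noncomputable section

namespace Fermat.Agent.RT

open IsLocalRing Fermat.Agent.ES Fermat.Agent.ES1 Fermat.Agent.RT.K5 Fermat.Agent.S48
open Fermat.Agent.TW Fermat.Agent.RT.Prod Fermat.Agent.S31 Fermat.Agent.RT.K7F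
open CongruenceSubgroup Polynomial
open scoped MatrixGroups

section family

variable {P : FreyPackage} {N q : ℕ} [NeZero N] (Y : KSetup P N q)

/-- the coefficient rings `𝒪 ⧸ 𝔪 ^ n` are finite -/
theorem rthkk5f_finite (n : ℕ) : Finite (RthkdC Y.O n) := by
  haveI : Finite (Y.O ⧸ IsLocalRing.maximalIdeal Y.O) :=
    (inferInstance : Finite (IsLocalRing.ResidueField Y.O))
  exact Ideal.finite_quotient_pow (IsNoetherian.noetherian _) n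

/-- the non-Eisenstein condition in the form of K5-INDEP -/
theorem rthkk5f_hne {ℓ : ℕ}
    (h : ((Y.W.apOfModel ℓ : ℤ) : ResidueField Y.O) ≠ (ℓ : ResidueField Y.O) + 1) :
    residue Y.O (rthkinA Y ℓ) ≠ (ℓ : ResidueField Y.O) + 1 := by
  have e : residue Y.O (rthkinA Y ℓ) = ((Y.W.apOfModel ℓ : ℤ) : ResidueField Y.O) :=
    map_intCast (residue Y.O) _
  rw [e]
  exact h

/-- **StmtHkfK5', the family half**, core form (one family, the base data at the level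
`n + 1` only). -/
theorem rthkk5f_core (hN : Squarefree N) (M₀ : ℕ) [NeZero M₀] [hM₀ : Fact (M₀ ∣ N)]
    (S₀ : Finset ℕ) (hpS : P.p ∈ S₀) (hNS : ∀ ℓ : ℕ, ℓ.Prime → ℓ ∣ N → ℓ ∈ S₀)
    (hgood : ∀ ℓ : ℕ, ℓ.Prime → ℓ ∉ S₀ → Y.W.IsGoodPrimeFor ℓ)
    (e₀ : HExpr Y.O) (he₀ : e₀.IsPrimes) (ℓ₁ : ℕ) [NeZero ℓ₁] (hℓ₁ : ℓ₁.Prime)
    (hℓ₁S : ℓ₁ ∉ S₀)
    (hne₁ : ((Y.W.apOfModel ℓ₁ : ℤ) : ResidueField Y.O) ≠ (ℓ₁ : ResidueField Y.O) + 1)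
    (S₁ : Finset ℕ) {r : ℕ}
    (c : Fin r → HomS (gammaH N M₀ (⊤ : Subgroup (ZMod M₀)ˣ)) Y.O)
    {h : ℕ} (n : ℕ) (qv : Fin h → ℕ)
    (hqv : IsTWFamily P.p Y.ρbar (Y.Smin ∪ Finset.univ.image Y.r) n h qv)
    (hIntr₁ : K5inIntr N M₀ (RthkdC Y.O (n + 1)) (rthkinA Y) S₀ S₁ ℓ₁
      (etaPart (thetaN (e₀.eval N M₀) ℓ₁ (RthkdC Y.O (n + 1)) ⊤)))
    (hc : K5IsBasis (RthkdC Y.O (n + 1))
      (etaPart (thetaN (e₀.eval N M₀) ℓ₁ (RthkdC Y.O (n + 1)) ⊤))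
      (fun i => mapS (Submodule.mkQ (maximalIdeal Y.O ^ (n + 1))).toAddMonoidHom (c i))) :
    ∃ (e : HExpr Y.O) (ℓ₀ : ℕ) (_ : NeZero ℓ₀), e.IsPrimes ∧ ℓ₀.Prime ∧ ¬ ℓ₀ ∣ N ∧
      ℓ₀ ≠ P.p ∧ (∀ j, qv j ≠ ℓ₀ ∧ e.Avoids (qv j)) ∧
      K5TWCond Y.O N M₀ ℓ₀ e (List.ofFn qv) (RthkdC Y.O (n + 1)) ∧
      K5IsBasis (RthkdC Y.O (n + 1))
        (etaPart (thetaN (e.eval N M₀) ℓ₀ (RthkdC Y.O (n + 1)) ⊤))
        (fun i => mapS (Submodule.mkQ (maximalIdeal Y.O ^ (n + 1))).toAddMonoidHom (c i)) := by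
  classical
  haveI : Fact P.p.Prime := ⟨P.pp⟩
  have hcheb := Cheb.weakChebotarev_holds
  have hp𝔪 : (P.p : Y.O) ∈ maximalIdeal Y.O := Y.hyp.hp𝒪
  obtain ⟨ℓ₀, hℓ₀, hℓ₀S, hℓ₀p, -, hne, -⟩ :=
    rthk_r_nonEis Y hcheb (S₀ ∪ Finset.univ.image qv)
  rw [Finset.mem_union, not_or] at hℓ₀S
  haveI : NeZero ℓ₀ := ⟨hℓ₀.ne_zero⟩
  have hℓ₀N : ¬ ℓ₀ ∣ N := fun hd => hℓ₀S.1 (hNS ℓ₀ hℓ₀ hd)
  have hℓ₁N : ¬ ℓ₁ ∣ N := fun hd => hℓ₁S (hNS ℓ₁ hℓ₁ hd)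
  have hℓ₁p : ℓ₁ ≠ P.p := fun h => hℓ₁S (h ▸ hpS)
  have hNT : ∀ m : ℕ, NoTors (gammaH N M₀ (⊤ : Subgroup (ZMod M₀)ˣ))
      (Y.O ⧸ IsLocalRing.maximalIdeal Y.O ^ m) :=
    fun m => k5nt_noTors_quot P.pp P.hp5 hp𝔪 _ m
  obtain ⟨e, he, hav, hIntr⟩ := k5in_exists_expr N M₀ (rthkinA Y) S₀ (Finset.univ.image qv)
    ℓ₀ hℓ₀ hℓ₀N hNT
  have R := rthkin_res Y S₀ hpS hNS hgood
  have D := rthkin_data hp𝔪 e he ℓ₀ hℓ₀ hℓ₀N hN Y.hyp.hp2 hℓ₀p (n + 1) (hNT (n + 1))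
  have D₁ := rthkin_data hp𝔪 e₀ he₀ ℓ₁ hℓ₁ hℓ₁N hN Y.hyp.hp2 hℓ₁p (n + 1) (hNT (n + 1))
  haveI : Finite (RthkdC Y.O (n + 1)) := rthkk5f_finite Y (n + 1)
  have hnil : ∀ (ℓ : ℕ) [NeZero ℓ], ℓ.Prime → ℓ ∉ S₀ → ℓ ∉ Finset.univ.image qv →
      ∀ v ∈ etaPart (thetaN (e.eval N M₀) ℓ₀ (RthkdC Y.O (n + 1)) ⊤),
        v ∈ k5lcKer (k5lcS N M₀ ℓ (rthkinA Y ℓ) (RthkdC Y.O (n + 1)) ⊤) :=
    fun ℓ _ hℓ h1 h2 v hv => ((hIntr (n + 1) v).mp hv).2 ℓ hℓ h1 h2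
  have hTW := k5in_twcond2 hcheb e ℓ₀ D R (Finset.univ.image qv) hnil (List.ofFn qv)
    (rthkin_tw_hQ hqv) (rthkin_tw_hQs hqv)
  have hX := k5in_indep hcheb D D₁ R (k5in_hA_quot (n + 1)) (Finset.univ.image qv) S₁
    hℓ₀ hℓ₁ hℓ₀S.1 hℓ₁S (rthkk5f_hne Y hne) (rthkk5f_hne Y hne₁) (hIntr (n + 1)) hIntr₁
  refine ⟨e, ℓ₀, inferInstance, he, hℓ₀, hℓ₀N, hℓ₀p, fun j => ⟨fun hj => ?_, ?_⟩, hTW, ?_⟩
  · exact hℓ₀S.2 (hj ▸ Finset.mem_image_of_mem qv (Finset.mem_univ j))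
  · exact hav (qv j) (Or.inr (Finset.mem_image_of_mem qv (Finset.mem_univ j)))
  · rw [hX]
    exact hc

/-- **StmtHkfK5', the family half** (= the last clause of `StmtHkfK5'`, in the interface of the
base half, helper22). -/
theorem rthkk5f_family (hcheb : Cheb.WeakChebotarev) (hcond : P.IsConductorLevel N)
    (hpN : ¬ P.p ∣ N) (hq : q.Prime) (hq2 : q ≠ 2) (hqN : q ∣ N)
    (hmod : P.ModularRepOfLevel N) (h : ℕ)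
    (M₀ : ℕ) [NeZero M₀] [hM₀ : Fact (M₀ ∣ N)]
    (S₀ : Finset ℕ) (hpS : P.p ∈ S₀) (hNS : ∀ ℓ : ℕ, ℓ.Prime → ℓ ∣ N → ℓ ∈ S₀)
    (hgood : ∀ ℓ : ℕ, ℓ.Prime → ℓ ∉ S₀ → Y.W.IsGoodPrimeFor ℓ)
    (e₀ : HExpr Y.O) (he₀ : e₀.IsPrimes) (ℓ₀₀ : ℕ) [NeZero ℓ₀₀] (hℓ₀₀ : ℓ₀₀.Prime)
    (hℓ₀₀S : ℓ₀₀ ∉ S₀)
    (hne₀ : residue Y.O (rthkinA Y ℓ₀₀) ≠ (ℓ₀₀ : ResidueField Y.O) + 1) (S₁ : Finset ℕ)
    (hIntr₀ : ∀ n : ℕ, K5inIntr N M₀ (Y.O ⧸ maximalIdeal Y.O ^ n) (rthkinA Y) S₀ S₁ ℓ₀₀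
      (etaPart (thetaN (e₀.eval N M₀) ℓ₀₀ (Y.O ⧸ maximalIdeal Y.O ^ n) ⊤)))
    {r : ℕ} (c : Fin r → HomS (gammaH N M₀ (⊤ : Subgroup (ZMod M₀)ˣ)) Y.O)
    (hcn : ∀ n : ℕ, K5IsBasis (Y.O ⧸ maximalIdeal Y.O ^ n)
      (etaPart (thetaN (e₀.eval N M₀) ℓ₀₀ (Y.O ⧸ maximalIdeal Y.O ^ n) ⊤))
      (fun i => mapS (Submodule.mkQ (maximalIdeal Y.O ^ n)).toAddMonoidHom (c i))) :
    ∀ (n : ℕ) (qv : Fin h → ℕ),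
      IsTWFamily P.p Y.ρbar (Y.Smin ∪ Finset.univ.image Y.r) n h qv →
      ∃ (e : HExpr Y.O) (ℓ₀ : ℕ) (_ : NeZero ℓ₀), e.IsPrimes ∧ ℓ₀.Prime ∧ ¬ ℓ₀ ∣ N ∧
        ℓ₀ ≠ P.p ∧ (∀ j, qv j ≠ ℓ₀ ∧ e.Avoids (qv j)) ∧
        K5TWCond Y.O N M₀ ℓ₀ e (List.ofFn qv) (RthkdC Y.O (n + 1)) ∧
        K5IsBasis (RthkdC Y.O (n + 1))
          (etaPart (thetaN (e.eval N M₀) ℓ₀ (RthkdC Y.O (n + 1)) ⊤))
          (fun i => mapS (Submodule.mkQ (maximalIdeal Y.O ^ (n + 1))).toAddMonoidHom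
            (c i)) := by
  intro n qv hqv
  have hne₁ : ((Y.W.apOfModel ℓ₀₀ : ℤ) : ResidueField Y.O) ≠ (ℓ₀₀ : ResidueField Y.O) + 1 := by
    have e : residue Y.O (rthkinA Y ℓ₀₀) = ((Y.W.apOfModel ℓ₀₀ : ℤ) : ResidueField Y.O) :=
      map_intCast (residue Y.O) _
    rw [← e]
    exact hne₀
  exact rthkk5f_core Y hcond.squarefree M₀ S₀ hpS hNS hgood e₀ he₀ ℓ₀₀ hℓ₀₀ hℓ₀₀S hne₁ S₁ c n qv
    hqv (hIntr₀ (n + 1)) (hcn (n + 1))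

end family

end Fermat.Agent.RT

end
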