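import Fermat.Agent.RT.Hecke.ConcK5
import Fermat.Agent.RT.Hecke.ConcK5Fam

/-!
# K-machine, HECKE-asm, HK-CONC: the K5 side `StmtHkfK5'` from K7-FLAT alone (helper22)

* `stmtHkK5F : StmtHkK5F` : the FAMILY leaf (helper7's `rthkk5f_family`);
* `rthkk5_main : StmtFlatH → StmtHkfK5'` : the K5 side of the concrete module side.
-/

set_option autoImplicit false
set_option linter.unusedSectionVars false
set_option linter.style.haveILetI false
set_option linter.unusedVariables false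

noncomputable section

namespace Fermat.Agent.RT

open IsLocalRing Fermat.Agent.ES Fermat.Agent.ES1 Fermat.Agent.RT.K5 Fermat.Agent.S48
open Fermat.Agent.S30 Fermat.Agent.W1 Fermat.Agent.TW Fermat.Agent.RT.Prod Fermat.Agent.RT.K7F
open ExtCitation CongruenceSubgroup ModularCurve.Period
open scoped MatrixGroups

/-- **The FAMILY leaf** (helper7). -/
theorem stmtHkK5F : StmtHkK5F :=
  fun P N q _ hcond hpN hq hq2 hqN hmod Y h M₀ _ _ S₀ hpS hNS hgood e₀ he₀ ℓ₀₀ _ hℓ₀₀ hℓ₀₀S
      hne S₁ hIntr _ c hcn =>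
    rthkk5f_family Y Fermat.Agent.Cheb.weakChebotarev_holds hcond hpN hq hq2 hqN hmod h M₀ S₀
      hpS hNS hgood e₀ he₀ ℓ₀₀ hℓ₀₀ hℓ₀₀S hne S₁ hIntr c hcn

/-- **The K5 side of HK-CONC**, from K7-FLAT. -/
theorem rthkk5_main (hflat : StmtFlatH) : StmtHkfK5' := rthkk5_of_family hflat stmtHkK5F

end Fermat.Agent.RT

end
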