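import Fermat.Agent.RT.Hecke.ConcSide
import Fermat.Agent.RT.Hecke.FinalInst

/-!
# K-machine, HECKE-asm, HK-CONC: the top of the module side

`StmtHkConcTop` : for every setup `Y` and every `h` there are the base data (`HkBase`) and, for
every Taylor–Wiles family `qv` of level `n`, a level `(L, M, H')`, a family `𝔲 : NatFam 𝒪 L M`,
an auxiliary prime `ℓ₀`, a package `(J, Tr)` over `HDAlg M`, a family `b` in the `Θ`-part
`X = ↥(rthkdX 𝔲 ℓ₀ H' (n + 1))` and two characters `ψ1, ψχ` of `Δ = (ℤ/M)ˣ ⧸ ±H'` with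
`HkConcSide` (RT/Hecke/ConcSide.lean: all the fields are statements on `Hom(Γ_{H'}(L), 𝒪 ⧸ 𝔪ⁿ⁺¹)`).

* `rthkct_modSide : StmtHkConcTop → StmtHkModSide` (through `rthk_conc_side`, `rthk_conc`,
  `rthk_sub`);
* **`rthkct_hecke : StmtHkConcTop → Prod.StmtHecke`**.
-/

set_option autoImplicit false
set_option linter.unusedSectionVars false
set_option linter.style.haveILetI false

noncomputable section

namespace Fermat.Agent.RT

open IsLocalRing Fermat.Agent.ES Fermat.Agent.S30 Fermat.Agent.W1 Fermat.Agent.TW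
open Fermat.Agent.ES1 Fermat.Agent.RT.K5 Fermat.Agent.RT.Prod
open ExtCitation WeierstrassCurve WeierstrassCurve.Affine WeierstrassCurve.Affine.Point
open scoped MatrixGroups

/-- **HK-CONC, the concrete contract**: the module side in terms of the `Θ`-parts of
`Hom(Γ_{H'}(L), 𝒪 ⧸ 𝔪ⁿ⁺¹)`. -/
def StmtHkConcTop : Prop :=
  ∀ (P : FreyPackage) (N q : ℕ) [NeZero N], P.IsConductorLevel N → ¬ P.p ∣ N → q.Prime →
    q ≠ 2 → q ∣ N → GaloisRepIsIrreducible (K := AlgebraicClosure ℚ) ℚ P.freyCurve P.p →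
    P.ModularRepOfLevel N →
    (∀ r : ℕ, r.Prime → r ≠ 2 → r ∣ N → Fermat.Agent.RIB.IsTrivialPrime P r) →
    ∀ (Y : KSetup P N q) (h : ℕ),
      haveI : Fact P.p.Prime := ⟨P.pp⟩
      ∃ (d : ℕ) (_ : 0 < d) (S' : Finset ℕ) (_ : P.p ∈ S')
        (_ : ∀ ℓ : ℕ, ℓ.Prime → ℓ ∣ N → ℓ ∈ S')
        (𝕋₀ : Type) (_ : CommRing 𝕋₀) (J₀ : Type) (_ : AddCommGroup J₀) (_ : Module 𝕋₀ J₀)
        (_ : DistribMulAction GQ J₀) (Tr₀ : ℕ → 𝕋₀)
        (Φ0 : 𝕋₀ →+* Matrix (Fin d) (Fin d) Y.O),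
        HkBase P.p Y.ρbar N S' d J₀ Tr₀ Φ0 ∧
        ∀ (n : ℕ) (qv : Fin h → ℕ),
          IsTWFamily P.p Y.ρbar (Y.Smin ∪ Finset.univ.image Y.r) n h qv →
          ∃ (L M : ℕ) (_ : NeZero L) (_ : NeZero M) (_ : Fact (M ∣ L))
            (𝔲 : NatFam Y.O L M) (ℓ₀ : ℕ) (_ : NeZero ℓ₀) (H' : Subgroup (ZMod M)ˣ)
            (J : Type) (_ : AddCommGroup J) (_ : Module (HDAlg M) J)
            (_ : DistribMulAction GQ J) (Tr : ℕ → HDAlg M)
            (b : Fin d → rthkdX 𝔲 ℓ₀ H' (n + 1))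
            (ψ1 ψχ : RthkdDelta M H' →* RthkSn Y.O (Y.m h) (n + 1)),
            HkConcSide P.p Y.lam Y.ρbar
              (Y.Smin ∪ (Finset.univ.image qv ∪ Finset.univ.image Y.r)) Y.σ Y.tχ (Y.m h) h d
              (n + 1) (fun ℓ => Φ0 (Tr₀ ℓ)) L M 𝔲 ℓ₀ H' J Tr b ψ1 ψχ

/-- **HK-CONC**: the concrete contract gives the module side. -/
theorem rthkct_modSide (hTop : StmtHkConcTop) : StmtHkModSide := by
  intro P N q _ hN hpN hq hq2 hqN hirr hmod htriv Y h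
  haveI : Fact P.p.Prime := ⟨P.pp⟩
  obtain ⟨d, hd, S', hpS', hNS', 𝕋₀, i1, J₀, i2, i3, i4, Tr₀, Φ0, hbase, hlev⟩ :=
    hTop P N q hN hpN hq hq2 hqN hirr hmod htriv Y h
  refine ⟨d, hd, S', hpS', hNS', 𝕋₀, i1, J₀, i2, i3, i4, Tr₀, Φ0, hbase, ?_⟩
  intro n qv hqv
  obtain ⟨L, M, j1, j2, j3, 𝔲, ℓ₀, j4, H', J, j5, j6, j7, Tr, b, ψ1, ψχ, hside⟩ :=
    hlev n qv hqv
  letI := rthkcaAlg Y.O (Y.m h) (n + 1)
  haveI := rthkca_tower Y.O (Y.m h) (n + 1)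
  have hconc := rthk_conc_side hside
  have hW := rthk_conc hconc
  exact ⟨L, _, _, J, _, _, _, _, _, _, rthk_sub hW⟩

/-- **HECKE-asm from the concrete contract.** -/
theorem rthkct_hecke (hTop : StmtHkConcTop) : Prod.StmtHecke :=
  rthk_final_inst (rthkct_modSide hTop)

end Fermat.Agent.RT
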