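import Fermat.Agent.RT.Hecke.AbsLPlan

/-!
# K-machine, HECKE-asm, HK-ABS-L small pieces (helper15)

* `stmtHkLNilp`   : the maximal ideal of a finite local ring is nilpotent (Artinian);
* `stmtHkLPowLe`  : `T0` local, finite over a discrete valuation ring `𝒪`: a power of `𝔪_{T0}` lies
  in `lamⁿ T0` (every prime over `lam` is maximal by integrality, `𝔪_{T0}` is finitely
  generated);
* `stmtHkLTrCont` : the trace of an adic representation is left-invariant modulo `𝔪 ^ k` under
  an open subgroup (`ρ(σ) − 1` maps `V` into `𝔪ᵏ V`).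
-/

set_option autoImplicit false
set_option linter.style.haveILetI false

namespace Fermat.Agent.RT

open IsLocalRing Fermat.Agent.ES

/-- **HK-L-NILP.** -/
theorem stmtHkLNilp : StmtHkLNilp := by
  intro A _ _ _
  have h := IsArtinianRing.isNilpotent_jacobson_bot (R := A)
  rw [IsLocalRing.jacobson_eq_maximalIdeal (⊥ : Ideal A) bot_ne_top] at h
  obtain ⟨k, hk⟩ := h
  exact ⟨k, hk⟩

/-- **HK-L-POWLE.** -/
theorem stmtHkLPowLe : StmtHkLPowLe := by
  intro O _ _ _ lam hlam T0 _ _ _ _ n
  have hlam0 : lam ≠ 0 := by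
    rintro rfl
    apply IsDiscreteValuationRing.not_a_field O
    rw [hlam]
    simp
  haveI : IsNoetherianRing T0 :=
    isNoetherian_of_tower O (isNoetherian_of_isNoetherianRing_of_finite O T0)
  haveI : Algebra.IsIntegral O T0 := Algebra.IsIntegral.of_finite O T0
  refine Ideal.exists_pow_le_of_le_radical_of_fg ?_ (IsNoetherian.noetherian _)
  rw [Ideal.radical_eq_sInf]
  refine le_sInf ?_
  rintro P ⟨hP, hPprime⟩
  haveI := hPprime
  -- `lam ∈ P ∩ 𝒪`
  have hlamP : algebraMap O T0 lam ∈ P := by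
    rcases Nat.eq_zero_or_pos n with rfl | hn
    · exfalso
      apply hPprime.ne_top
      rw [Ideal.eq_top_iff_one]
      apply hP
      rw [pow_zero, map_one]
      exact Ideal.subset_span rfl
    · have h1 : algebraMap O T0 (lam ^ n) ∈ P := hP (Ideal.subset_span rfl)
      rw [map_pow] at h1
      exact hPprime.mem_of_pow_mem n h1
  -- the contraction of `P` is the maximal ideal of `𝒪`
  have hcomap : (Ideal.comap (algebraMap O T0) P).IsMaximal := by
    have hprime : (Ideal.comap (algebraMap O T0) P).IsPrime := Ideal.comap_isPrime _ P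
    refine hprime.isMaximal ?_
    intro hbot
    have : lam ∈ Ideal.comap (algebraMap O T0) P := hlamP
    rw [hbot] at this
    exact hlam0 this
  have hmax : P.IsMaximal := Ideal.isMaximal_of_isIntegral_of_isMaximal_comap P hcomap
  exact (IsLocalRing.eq_maximalIdeal hmax).ge

/-- a linear form maps `I V` into `I` -/
theorem rthkls_form_mem {A V : Type*} [CommRing A] [AddCommGroup V] [Module A V] (I : Ideal A)
    (f : V →ₗ[A] A) {v : V} (hv : v ∈ I • (⊤ : Submodule A V)) : f v ∈ I := by
  refine Submodule.smul_induction_on hv (fun r hr w _ => ?_) (fun x y hx hy => ?_)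
  · rw [map_smul, smul_eq_mul]
    exact I.mul_mem_right _ hr
  · rw [map_add]
    exact I.add_mem hx hy

/-- the trace of an endomorphism with image in `I V` lies in `I` -/
theorem rthkls_trace_mem {A V : Type*} [CommRing A] [AddCommGroup V] [Module A V]
    [Module.Free A V] [Module.Finite A V] (I : Ideal A) (f : V →ₗ[A] V)
    (hf : ∀ v, f v ∈ I • (⊤ : Submodule A V)) : LinearMap.trace A V f ∈ I := by
  classical
  let b := Module.Free.chooseBasis A V
  rw [LinearMap.trace_eq_matrix_trace A b f, Matrix.trace]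
  refine Ideal.sum_mem _ fun i _ => ?_
  rw [Matrix.diag_apply, LinearMap.toMatrix_apply]
  exact rthkls_form_mem I (b.coord i) (hf (b i))

/-- **HK-L-TRCONT.** -/
theorem stmtHkLTrCont : StmtHkLTrCont := by
  intro A _ _ ρ k
  obtain ⟨E, hE, h⟩ := ρ.isAdicContinuous k
  refine ⟨E, hE, fun σ hσ x => ?_⟩
  have e : LinearMap.trace A ρ.V (ρ.ρ (σ * x)) - LinearMap.trace A ρ.V (ρ.ρ x)
      = LinearMap.trace A ρ.V ((ρ.ρ σ - 1) * ρ.ρ x) := by
    rw [map_mul, sub_mul, one_mul, map_sub]
  rw [e]
  refine rthkls_trace_mem _ _ fun v => ?_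
  show (ρ.ρ σ - 1) (ρ.ρ x v) ∈ _
  rw [LinearMap.sub_apply, Module.End.one_apply]
  exact h σ hσ (ρ.ρ x v)

end Fermat.Agent.RT
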