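import Fermat.Agent.RT.K7.Uniq
import Fermat.Agent.RT.K7.WilesLocal
import Fermat.Agent.Cheb.Final

/-!
# K-machine, HECKE-asm, piece HK-COMPAT (helper46): base compatibility from Frobenius values

`R` a ring (NOT necessarily commutative; in the application `R = M_d(O / λⁿ)`), `A₀`, `T0`
commutative rings, `f : A₀ →+* R`, `g : T0 →+* R`, pseudo-characters `t : G_ℚ → A₀`,
`t0 : G_ℚ → T0` with determinants `εA`, `ε0`, `f ∘ εA = g ∘ ε0`, `f ∘ t` and `g ∘ t0` invariant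
under an open subgroup, and `f (t τ) = g (t0 τ)` at the Frobenius elements `τ` of the primes
outside a finite set `S`.

* `rthk_c_lucas` : `f (s_m(a, d)) = g (s_m(a', d'))` if `f a = g a'`, `f d = g d'`;
* `rthk_c_trace` (CLAIM (a)) : `f (t x) = g (t0 x)` for all `x` (weak Chebotarev + Lucas);
* `rthk_c_i2`, `rthk_c_u`, `rthk_c_A`, `rthk_c_D`, `rthk_c_Xi` : the constants and the entries;
* `rthk_c_mat` (CLAIM (b)) : `f (rtk7Mat t … x a b) = g (rtk7Mat t0 … x a b)`;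
* `rthk_c_exists` (CLAIM (c)) : if `A₀` is generated over `O` by the values of `t` (`f`, `g`
  `O`-linear) then every `f a` is a `g b`.

The forms `rthk_c_trace'`, `rthk_c_mat'`, `rthk_c_exists'` take the weak Chebotarev theorem as a
hypothesis (they do not depend on `Cheb/`).
-/

set_option autoImplicit false
set_option linter.unusedSectionVars false

namespace Fermat.Agent.RT

open Fermat.Agent.S31 Fermat.Agent.ES Fermat.Agent.S36 Matrix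

section Lucas

variable {R A₀ T0 : Type*} [Ring R] [CommRing A₀] [CommRing T0] (f : A₀ →+* R) (g : T0 →+* R)

/-- the Lucas sequence and a pair of homomorphisms to a (non-commutative) ring -/
theorem rthk_c_lucas {a d : A₀} {a' d' : T0} (ha : f a = g a') (hd : f d = g d') (m : ℕ) :
    f (lucasS a d m) = g (lucasS a' d' m) := by
  induction m using Nat.twoStepInduction with
  | zero => rw [lucasS_zero, lucasS_zero, map_ofNat, map_ofNat]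
  | one => rw [lucasS_one, lucasS_one, ha]
  | more j h0 h1 =>
    rw [lucasS_add_two, lucasS_add_two, map_sub, map_mul, map_mul, map_sub, map_mul, map_mul,
      h0, h1, ha, hd]

end Lucas

section Trace

variable {R A₀ T0 : Type*} [Ring R] [CommRing A₀] [CommRing T0] (f : A₀ →+* R) (g : T0 →+* R)
  (εA : GQ →* A₀) (ε0 : GQ →* T0) (t : GQ → A₀) (t0 : GQ → T0)
  (h1 : t 1 = 2) (h3 : ∀ x y : GQ, t (x * y) + εA y * t (x * y⁻¹) = t x * t y)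
  (h1' : t0 1 = 2) (h3' : ∀ x y : GQ, t0 (x * y) + ε0 y * t0 (x * y⁻¹) = t0 x * t0 y)
  (hε : ∀ x, f (εA x) = g (ε0 x))
  (hcont : ∃ E : IntermediateField ℚ (AlgebraicClosure ℚ), FiniteDimensional ℚ E ∧
    ∀ σ : GQ, (∀ a ∈ E, σ a = a) → ∀ x, f (t (σ * x)) = f (t x) ∧ g (t0 (σ * x)) = g (t0 x))
  (S : Finset ℕ)
  (hfrob : ∀ ℓ : ℕ, ℓ.Prime → ℓ ∉ S →
    ∀ 𝔄 : ValuationSubring (AlgebraicClosure ℚ), 𝔄.LiesOverPrime ℓ →
      ∀ τ : GQ, 𝔄.IsFrobeniusAt τ ℓ → f (t τ) = g (t0 τ))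

include h1 h3 in
/-- left-invariance under an open subgroup gives local constancy, after a homomorphism -/
theorem rthk_c_locConst (E : IntermediateField ℚ (AlgebraicClosure ℚ))
    (hE : ∀ σ : GQ, (∀ a ∈ E, σ a = a) → ∀ x, f (t (σ * x)) = f (t x))
    (x y : GQ) (hxy : ∀ a ∈ E, x a = y a) : f (t x) = f (t y) := by
  have h := rtk7uq_locConst (RingHom.ker f) εA t h1 h3 E
    (fun σ hσ z => by rw [RingHom.mem_ker, map_sub, hE σ hσ z, sub_self]) x y hxy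
  rw [RingHom.mem_ker, map_sub, sub_eq_zero] at h
  exact h

include h1 h3 h1' h3' hε hcont hfrob in
/-- **HK-COMPAT (a)**, with the weak Chebotarev theorem as a hypothesis. -/
theorem rthk_c_trace' (hcheb : Cheb.WeakChebotarev) (x : GQ) : f (t x) = g (t0 x) := by
  obtain ⟨E, hEfin, hE⟩ := hcont
  obtain ⟨F, hFfin, hFgal, hEF, -, -⟩ := exists_galois_hull E E E
  obtain ⟨ℓ, 𝔄, τ, m, hℓ, hℓS, h𝔄, hτ, hx⟩ := hcheb F S x
  have e1 : f (t x) = f (t (τ ^ m)) :=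
    rthk_c_locConst f εA t h1 h3 E (fun σ hσ z => (hE σ hσ z).1) x (τ ^ m)
      fun a ha => (hx a (hEF ha)).symm
  have e2 : g (t0 x) = g (t0 (τ ^ m)) :=
    rthk_c_locConst g ε0 t0 h1' h3' E (fun σ hσ z => (hE σ hσ z).2) x (τ ^ m)
      fun a ha => (hx a (hEF ha)).symm
  rw [e1, e2, rtk7uq_pow εA t h1 h3, rtk7uq_pow ε0 t0 h1' h3']
  exact rthk_c_lucas f g (hfrob ℓ hℓ hℓS 𝔄 h𝔄 τ hτ) (hε τ) m

include h1 h3 h1' h3' hε hcont hfrob in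
/-- **HK-COMPAT (a)**: `f ∘ t = g ∘ t0`. -/
theorem rthk_c_trace (x : GQ) : f (t x) = g (t0 x) :=
  rthk_c_trace' f g εA ε0 t t0 h1 h3 h1' h3' hε hcont S hfrob
    Fermat.Agent.Cheb.weakChebotarev_holds x

end Trace

section Entries

variable {G R A₀ T0 : Type*} [Group G] [Ring R] [CommRing A₀] [CommRing T0]
  (f : A₀ →+* R) (g : T0 →+* R) (t : G → A₀) (t0 : G → T0) (c : G)
  (htr : ∀ x, f (t x) = g (t0 x))
  (i2 : A₀) (i2₀ : T0) (hi2 : 2 * i2 = 1) (hi2₀ : 2 * i2₀ = 1)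
  (σ₀ τ₀ : G) (u : A₀) (u0 : T0) (hu : u * rtk7Xi t c i2 σ₀ τ₀ = 1)
  (hu0 : u0 * rtk7Xi t0 c i2₀ σ₀ τ₀ = 1)

include hi2 hi2₀ in
theorem rthk_c_i2 : f i2 = g i2₀ := by
  have e1 : f i2 * 2 = 1 := by
    rw [← map_ofNat f 2, ← map_mul, mul_comm, hi2, map_one]
  have e2 : (2 : R) * g i2₀ = 1 := by
    rw [← map_ofNat g 2, ← map_mul, hi2₀, map_one]
  calc f i2 = f i2 * (2 * g i2₀) := by rw [e2, mul_one]
    _ = (f i2 * 2) * g i2₀ := by rw [mul_assoc]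
    _ = g i2₀ := by rw [e1, one_mul]

include htr hi2 hi2₀ in
theorem rthk_c_A (x : G) : f (rtk7A t c i2 x) = g (rtk7A t0 c i2₀ x) := by
  rw [rtk7A, rtk7A, map_mul, map_add, map_mul, map_add, htr, htr,
    rthk_c_i2 f g i2 i2₀ hi2 hi2₀]

include htr hi2 hi2₀ in
theorem rthk_c_D (x : G) : f (rtk7D t c i2 x) = g (rtk7D t0 c i2₀ x) := by
  rw [rtk7D, rtk7D, map_mul, map_sub, map_mul, map_sub, htr, htr,
    rthk_c_i2 f g i2 i2₀ hi2 hi2₀]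

include htr hi2 hi2₀ in
theorem rthk_c_Xi (x y : G) : f (rtk7Xi t c i2 x y) = g (rtk7Xi t0 c i2₀ x y) := by
  rw [rtk7Xi, rtk7Xi, map_sub, map_mul, map_sub, map_mul,
    rthk_c_A f g t t0 c htr i2 i2₀ hi2 hi2₀, rthk_c_A f g t t0 c htr i2 i2₀ hi2 hi2₀,
    rthk_c_A f g t t0 c htr i2 i2₀ hi2 hi2₀]

include htr hi2 hi2₀ hu hu0 in
theorem rthk_c_u : f u = g u0 := by
  have e1 : f u * g (rtk7Xi t0 c i2₀ σ₀ τ₀) = 1 := by
    rw [← rthk_c_Xi f g t t0 c htr i2 i2₀ hi2 hi2₀, ← map_mul, hu, map_one]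
  have e2 : g (rtk7Xi t0 c i2₀ σ₀ τ₀) * g u0 = 1 := by
    rw [← map_mul, mul_comm, hu0, map_one]
  calc f u = f u * (g (rtk7Xi t0 c i2₀ σ₀ τ₀) * g u0) := by rw [e2, mul_one]
    _ = (f u * g (rtk7Xi t0 c i2₀ σ₀ τ₀)) * g u0 := by rw [mul_assoc]
    _ = g u0 := by rw [e1, one_mul]

include htr hi2 hi2₀ hu hu0 in
/-- **HK-COMPAT (b)**, from `f ∘ t = g ∘ t0`: the entries of Wiles' matrices. -/
theorem rthk_c_mat_of_trace (x : G) (a b : Fin 2) :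
    f (rtk7Mat t c i2 σ₀ τ₀ u x a b) = g (rtk7Mat t0 c i2₀ σ₀ τ₀ u0 x a b) := by
  have hA := rthk_c_A f g t t0 c htr i2 i2₀ hi2 hi2₀ x
  have hD := rthk_c_D f g t t0 c htr i2 i2₀ hi2 hi2₀ x
  have hX1 := rthk_c_Xi f g t t0 c htr i2 i2₀ hi2 hi2₀ x τ₀
  have hX2 := rthk_c_Xi f g t t0 c htr i2 i2₀ hi2 hi2₀ σ₀ x
  have hU := rthk_c_u f g t t0 c htr i2 i2₀ hi2 hi2₀ σ₀ τ₀ u u0 hu hu0
  fin_cases a <;> fin_cases b
  · simpa [rtk7Mat] using hA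
  · simp only [rtk7Mat, Fin.zero_eta, Fin.isValue, Fin.mk_one, of_apply, cons_val', cons_val_one,
      cons_val_fin_one, cons_val_zero, map_mul, hX1, hU]
  · simpa [rtk7Mat] using hX2
  · simpa [rtk7Mat] using hD

end Entries

section Mat

variable {R A₀ T0 : Type*} [Ring R] [CommRing A₀] [CommRing T0] (f : A₀ →+* R) (g : T0 →+* R)
  (εA : GQ →* A₀) (ε0 : GQ →* T0) (t : GQ → A₀) (t0 : GQ → T0)
  (h1 : t 1 = 2) (h3 : ∀ x y : GQ, t (x * y) + εA y * t (x * y⁻¹) = t x * t y)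
  (h1' : t0 1 = 2) (h3' : ∀ x y : GQ, t0 (x * y) + ε0 y * t0 (x * y⁻¹) = t0 x * t0 y)
  (hε : ∀ x, f (εA x) = g (ε0 x))
  (hcont : ∃ E : IntermediateField ℚ (AlgebraicClosure ℚ), FiniteDimensional ℚ E ∧
    ∀ σ : GQ, (∀ a ∈ E, σ a = a) → ∀ x, f (t (σ * x)) = f (t x) ∧ g (t0 (σ * x)) = g (t0 x))
  (S : Finset ℕ)
  (hfrob : ∀ ℓ : ℕ, ℓ.Prime → ℓ ∉ S →
    ∀ 𝔄 : ValuationSubring (AlgebraicClosure ℚ), 𝔄.LiesOverPrime ℓ →
      ∀ τ : GQ, 𝔄.IsFrobeniusAt τ ℓ → f (t τ) = g (t0 τ))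
  (c : GQ) (i2 : A₀) (i2₀ : T0) (hi2 : 2 * i2 = 1) (hi2₀ : 2 * i2₀ = 1)
  (σ₀ τ₀ : GQ) (u : A₀) (u0 : T0) (hu : u * rtk7Xi t c i2 σ₀ τ₀ = 1)
  (hu0 : u0 * rtk7Xi t0 c i2₀ σ₀ τ₀ = 1)

include h1 h3 h1' h3' hε hcont hfrob hi2 hi2₀ hu hu0 in
/-- **HK-COMPAT (b)**, with the weak Chebotarev theorem as a hypothesis. -/
theorem rthk_c_mat' (hcheb : Cheb.WeakChebotarev) (x : GQ) (a b : Fin 2) :
    f (rtk7Mat t c i2 σ₀ τ₀ u x a b) = g (rtk7Mat t0 c i2₀ σ₀ τ₀ u0 x a b) :=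
  rthk_c_mat_of_trace f g t t0 c
    (rthk_c_trace' f g εA ε0 t t0 h1 h3 h1' h3' hε hcont S hfrob hcheb)
    i2 i2₀ hi2 hi2₀ σ₀ τ₀ u u0 hu hu0 x a b

include h1 h3 h1' h3' hε hcont hfrob hi2 hi2₀ hu hu0 in
/-- **HK-COMPAT (b)**: the entries of Wiles' matrices are compatible. -/
theorem rthk_c_mat (x : GQ) (a b : Fin 2) :
    f (rtk7Mat t c i2 σ₀ τ₀ u x a b) = g (rtk7Mat t0 c i2₀ σ₀ τ₀ u0 x a b) :=
  rthk_c_mat' f g εA ε0 t t0 h1 h3 h1' h3' hε hcont S hfrob c i2 i2₀ hi2 hi2₀ σ₀ τ₀ u u0 hu hu0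
    Fermat.Agent.Cheb.weakChebotarev_holds x a b

end Mat

section Gen

variable {O R A₀ T0 : Type*} [CommRing O] [Ring R] [Algebra O R] [CommRing A₀] [Algebra O A₀]
  [CommRing T0] [Algebra O T0] (f : A₀ →ₐ[O] R) (g : T0 →ₐ[O] R)

/-- **HK-COMPAT (c)**, algebra: if `f` maps a set of generators of `A₀` into the image of `g`
then it maps `A₀` into the image of `g`. -/
theorem rthk_c_exists_of_gen {G : Type*} (t : G → A₀) (t0 : G → T0)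
    (htr : ∀ x, f (t x) = g (t0 x)) (hgen : Algebra.adjoin O (Set.range t) = ⊤) (a : A₀) :
    ∃ b : T0, f a = g b := by
  have hle : Algebra.adjoin O (Set.range t) ≤ g.range.comap f := by
    refine Algebra.adjoin_le ?_
    rintro _ ⟨x, rfl⟩
    exact ⟨t0 x, (htr x).symm⟩
  have ha : a ∈ g.range.comap f := hle (hgen ▸ Algebra.mem_top)
  obtain ⟨b, hb⟩ := ha
  exact ⟨b, hb.symm⟩

variable (εA : GQ →* A₀) (ε0 : GQ →* T0) (t : GQ → A₀) (t0 : GQ → T0)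
  (h1 : t 1 = 2) (h3 : ∀ x y : GQ, t (x * y) + εA y * t (x * y⁻¹) = t x * t y)
  (h1' : t0 1 = 2) (h3' : ∀ x y : GQ, t0 (x * y) + ε0 y * t0 (x * y⁻¹) = t0 x * t0 y)
  (hε : ∀ x, f (εA x) = g (ε0 x))
  (hcont : ∃ E : IntermediateField ℚ (AlgebraicClosure ℚ), FiniteDimensional ℚ E ∧
    ∀ σ : GQ, (∀ a ∈ E, σ a = a) → ∀ x, f (t (σ * x)) = f (t x) ∧ g (t0 (σ * x)) = g (t0 x))
  (S : Finset ℕ)
  (hfrob : ∀ ℓ : ℕ, ℓ.Prime → ℓ ∉ S →
    ∀ 𝔄 : ValuationSubring (AlgebraicClosure ℚ), 𝔄.LiesOverPrime ℓ →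
      ∀ τ : GQ, 𝔄.IsFrobeniusAt τ ℓ → f (t τ) = g (t0 τ))
  (hgen : Algebra.adjoin O (Set.range t) = ⊤)

include h1 h3 h1' h3' hε hcont hfrob hgen in
/-- **HK-COMPAT (c)**, with the weak Chebotarev theorem as a hypothesis. -/
theorem rthk_c_exists' (hcheb : Cheb.WeakChebotarev) (a : A₀) : ∃ b : T0, f a = g b :=
  rthk_c_exists_of_gen f g t t0
    (rthk_c_trace' (f : A₀ →+* R) (g : T0 →+* R) εA ε0 t t0 h1 h3 h1' h3' hε hcont S hfrob hcheb)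
    hgen a

include h1 h3 h1' h3' hε hcont hfrob hgen in
/-- **HK-COMPAT (c)**: if `A₀` is generated over `O` by the values of `t`, every `f a` is a
`g b`. -/
theorem rthk_c_exists (a : A₀) : ∃ b : T0, f a = g b :=
  rthk_c_exists' f g εA ε0 t t0 h1 h3 h1' h3' hε hcont S hfrob hgen
    Fermat.Agent.Cheb.weakChebotarev_holds a

end Gen

end Fermat.Agent.RT
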