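import Fermat.Agent.RT.Hecke.AbsLPlan
import Fermat.Agent.RT.Hecke.AbsLRing
import Fermat.Agent.RT.K2c.Quot

/-!
# K-machine, HECKE-asm, piece HK-ABS-L (helper46): auxiliary lemmas

* `rthk_l_ringHom_ext`, `rthk_l_exists_of_gen` : two ring homomorphisms (to a possibly
  non-commutative ring) which agree on `𝒪` and on generators of an `𝒪`-algebra agree; the image
  of generators.
* `rthk_l_det_compat` : the determinants of two representations with cyclotomic determinant
  agree after homomorphisms to a ring killed by a power of `p`.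
* `rthk_l_trace_one`, `rthk_l_trace_pseudo` : the trace of a `GaloisRepAdic` is a
  pseudo-character with determinant `det`.
* `rthk_l_sn_finite`, `rthk_l_sn_nontrivial`, `rthk_l_sn_pow` : the ring `S ⧸ 𝔪 ^ n`.
-/

set_option autoImplicit false
set_option linter.unusedSectionVars false

namespace Fermat.Agent.RT

open IsLocalRing Fermat.Agent.ES Fermat.Agent.S30

section Ext

variable {O A R : Type*} [CommRing O] [CommRing A] [Algebra O A] [Ring R]

/-- two ring homomorphisms which agree on `𝒪` and on generators agree -/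
theorem rthk_l_ringHom_ext (F G : A →+* R) (S : Set A) (hS : Algebra.adjoin O S = ⊤)
    (halg : ∀ r : O, F (algebraMap O A r) = G (algebraMap O A r))
    (hgen : ∀ s ∈ S, F s = G s) (a : A) : F a = G a := by
  have ha : a ∈ Algebra.adjoin O S := hS ▸ Algebra.mem_top
  induction ha using Algebra.adjoin_induction with
  | mem y hy => exact hgen y hy
  | algebraMap r => exact halg r
  | add y z _ _ ihy ihz => rw [map_add, map_add, ihy, ihz]
  | mul y z _ _ ihy ihz => rw [map_mul, map_mul, ihy, ihz]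

/-- if `F` maps `𝒪` and generators of `A` into the image of `G` then it maps `A` into it -/
theorem rthk_l_exists_of_gen {T : Type*} [CommRing T] [Algebra O T] (F : A →+* R) (G : T →+* R)
    (S : Set A) (hS : Algebra.adjoin O S = ⊤)
    (halg : ∀ r : O, F (algebraMap O A r) = G (algebraMap O T r))
    (hgen : ∀ s ∈ S, ∃ t : T, F s = G t) (a : A) : ∃ t : T, F a = G t := by
  have ha : a ∈ Algebra.adjoin O S := hS ▸ Algebra.mem_top
  induction ha using Algebra.adjoin_induction with
  | mem y hy => exact hgen y hy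
  | algebraMap r => exact ⟨algebraMap O T r, halg r⟩
  | add y z _ _ ihy ihz =>
    obtain ⟨t, ht⟩ := ihy
    obtain ⟨t', ht'⟩ := ihz
    exact ⟨t + t', by rw [map_add, map_add, ht, ht']⟩
  | mul y z _ _ ihy ihz =>
    obtain ⟨t, ht⟩ := ihy
    obtain ⟨t', ht'⟩ := ihz
    exact ⟨t * t', by rw [map_mul, map_mul, ht, ht']⟩

/-- scalar matrices and entrywise ring homomorphisms -/
theorem rthk_l_map_algebraMap {α β : Type*} [CommRing α] [CommRing β] [Algebra O α]
    [Algebra O β] (ψ : α →+* β) (hψ : ∀ r, ψ (algebraMap O α r) = algebraMap O β r) (d : ℕ)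
    (r : O) :
    (algebraMap O (Matrix (Fin d) (Fin d) α) r).map ψ
      = algebraMap O (Matrix (Fin d) (Fin d) β) r := by
  ext i j
  simp only [Matrix.map_apply, Matrix.algebraMap_matrix_apply]
  split_ifs
  · exact hψ r
  · exact map_zero ψ

end Ext

section Det

variable {p : ℕ} [Fact p.Prime]

/-- the determinant of a representation with cyclotomic determinant, modulo `p ^ n` -/
theorem rthk_l_det_cycE {A : Type} [CommRing A] [IsLocalRing A] (ρ : GaloisRepAdic A)
    (hρ : ρ.DetIsCyclotomic p) (n : ℕ) (σ : GQ) :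
    LinearMap.det (ρ.ρ σ) - ((cycE p n σ : ℕ) : A) ∈ Ideal.span {((p ^ n : ℕ) : A)} :=
  hρ.2 n σ (cycE p n σ) fun _ hμ => padicCyclo_spec p σ n hμ

/-- **the determinants agree** after homomorphisms to a ring killed by `p ^ n` -/
theorem rthk_l_det_compat {A T : Type} [CommRing A] [IsLocalRing A] [CommRing T] [IsLocalRing T]
    {R : Type*} [Ring R] (ρ : GaloisRepAdic A) (ρ0 : GaloisRepAdic T)
    (hρ : ρ.DetIsCyclotomic p) (hρ0 : ρ0.DetIsCyclotomic p) (f : A →+* R) (g : T →+* R)
    (n : ℕ) (hpn : ((p ^ n : ℕ) : R) = 0) (σ : GQ) :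
    f (LinearMap.det (ρ.ρ σ)) = g (LinearMap.det (ρ0.ρ σ)) := by
  have key : ∀ {B : Type} [CommRing B] (h : B →+* R) (x : B),
      x - ((cycE p n σ : ℕ) : B) ∈ Ideal.span {((p ^ n : ℕ) : B)} →
      h x = ((cycE p n σ : ℕ) : R) := by
    intro B _ h x hx
    obtain ⟨y, hy⟩ := Ideal.mem_span_singleton'.mp hx
    have e := congrArg h hy
    rw [map_mul, map_natCast, hpn, mul_zero, map_sub, map_natCast] at e
    exact (sub_eq_zero.mp e.symm)
  rw [key f _ (rthk_l_det_cycE ρ hρ n σ), key g _ (rthk_l_det_cycE ρ0 hρ0 n σ)]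

end Det

section Pseudo

variable {A : Type} [CommRing A] [IsLocalRing A] (ρ : GaloisRepAdic A)

theorem rthk_l_trace_one : LinearMap.trace A ρ.V (ρ.ρ 1) = 2 := by
  rw [map_one, LinearMap.trace_one, ρ.finrank_eq]
  norm_num

/-- the pseudo-character identity for `2 × 2` matrices -/
theorem rthk_l_mat_pseudo {k : Type*} [CommRing k] (X Y Y' : Matrix (Fin 2) (Fin 2) k)
    (h : Y * Y' = 1) :
    (X * Y).trace + Y.det * (X * Y').trace = X.trace * Y.trace := by
  have h1 : Y.adjugate = Y.det • Y' := by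
    calc Y.adjugate = Y.adjugate * (Y * Y') := by rw [h, mul_one]
      _ = (Y.adjugate * Y) * Y' := by rw [mul_assoc]
      _ = Y.det • Y' := by rw [Matrix.adjugate_mul, Matrix.smul_mul, one_mul]
  have h2 : Y.det * (X * Y').trace = (X * Y.adjugate).trace := by
    rw [h1, Matrix.mul_smul, Matrix.trace_smul, smul_eq_mul]
  rw [h2, Matrix.adjugate_fin_two]
  simp only [Matrix.trace_fin_two, Matrix.mul_apply, Fin.sum_univ_two, Matrix.of_apply,
    Matrix.cons_val', Matrix.cons_val_zero, Matrix.cons_val_one, Matrix.cons_val_fin_one]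
  ring

/-- the trace of a `GaloisRepAdic` is a pseudo-character with determinant `det` -/
theorem rthk_l_trace_pseudo (x y : GQ) :
    LinearMap.trace A ρ.V (ρ.ρ (x * y))
      + (LinearMap.det.comp ρ.ρ) y * LinearMap.trace A ρ.V (ρ.ρ (x * y⁻¹))
      = LinearMap.trace A ρ.V (ρ.ρ x) * LinearMap.trace A ρ.V (ρ.ρ y) := by
  classical
  let b : Module.Basis (Fin 2) A ρ.V := Module.finBasisOfFinrankEq A ρ.V ρ.finrank_eq
  have hyy : LinearMap.toMatrix b b (ρ.ρ y) * LinearMap.toMatrix b b (ρ.ρ y⁻¹) = 1 := by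
    rw [← LinearMap.toMatrix_mul, ← map_mul, mul_inv_cancel, map_one]
    exact LinearMap.toMatrix_one b
  have key := rthk_l_mat_pseudo (LinearMap.toMatrix b b (ρ.ρ x)) _ _ hyy
  rw [LinearMap.trace_eq_matrix_trace A b, LinearMap.trace_eq_matrix_trace A b,
    LinearMap.trace_eq_matrix_trace A b, LinearMap.trace_eq_matrix_trace A b,
    MonoidHom.comp_apply, ← LinearMap.det_toMatrix b, map_mul ρ.ρ x y, map_mul ρ.ρ x y⁻¹,
    LinearMap.toMatrix_mul, LinearMap.toMatrix_mul]
  exact key

end Pseudo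

section Sn

variable (O : Type) [CommRing O] [IsDomain O] [IsDiscreteValuationRing O]
  [IsAdicComplete (maximalIdeal O) O] [Finite (ResidueField O)] (m n : ℕ)

theorem rthk_l_sn_finite : Finite (RthkSn O m n) := by
  have : Finite (ResidueField (RttwS O m)) := Fermat.Agent.RT.K2c.rtk2c_finite_residueField
  exact Fermat.Agent.RT.K2c.rtk2c_finite_quotient_pow n

theorem rthk_l_sn_nontrivial (hn : 0 < n) : Nontrivial (RthkSn O m n) := by
  refine Ideal.Quotient.nontrivial_iff.mpr ?_
  intro h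
  have h1 : (1 : RttwS O m) ∈ maximalIdeal (RttwS O m) ^ n := h ▸ Submodule.mem_top
  have h2 : (1 : RttwS O m) ∈ maximalIdeal (RttwS O m) :=
    Ideal.pow_le_self hn.ne' h1
  exact (mem_maximalIdeal _).mp h2 isUnit_one

variable {O}

/-- the elements of `𝔪_𝒪` are nilpotent in `S ⧸ Q`, `𝔪 ^ n ≤ Q` -/
theorem rthk_l_sn_pow (Q : Ideal (RttwS O m)) (hQ : maximalIdeal (RttwS O m) ^ n ≤ Q) (c : O)
    (hc : c ∈ maximalIdeal O) : (algebraMap O (RttwS O m ⧸ Q) c) ^ n = 0 := by
  have h1 : (MvPowerSeries.C c : RttwS O m) ∈ maximalIdeal (RttwS O m) := by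
    rw [mem_maximalIdeal, mem_nonunits_iff, MvPowerSeries.isUnit_iff_constantCoeff,
      MvPowerSeries.constantCoeff_C]
    exact (mem_maximalIdeal c).mp hc
  have h2 : (MvPowerSeries.C c : RttwS O m) ^ n ∈ Q := hQ (Ideal.pow_mem_pow h1 n)
  have e : algebraMap O (RttwS O m ⧸ Q) c
      = Ideal.Quotient.mk _ (MvPowerSeries.C c : RttwS O m) := rfl
  rw [e, ← map_pow]
  exact Ideal.Quotient.eq_zero_iff_mem.mpr h2

/-- scalar matrices from `𝔪_𝒪` are nilpotent -/
theorem rthk_l_mat_pow (Q : Ideal (RttwS O m)) (hQ : maximalIdeal (RttwS O m) ^ n ≤ Q) (d : ℕ)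
    (c : O) (hc : c ∈ maximalIdeal O) :
    (algebraMap O (Matrix (Fin d) (Fin d) (RttwS O m ⧸ Q)) c) ^ n = 0 := by
  have h := rthk_l_sn_pow m n Q hQ c hc
  rw [← map_pow] at h ⊢
  ext i j
  rw [Matrix.algebraMap_matrix_apply, h]
  simp

/-- a natural number divisible by `p ^ n` vanishes in the matrices over `S ⧸ Q` -/
theorem rthk_l_mat_natCast (Q : Ideal (RttwS O m)) (hQ : maximalIdeal (RttwS O m) ^ n ≤ Q)
    (d : ℕ) (p : ℕ) (hp : (p : O) ∈ maximalIdeal O) :
    ((p ^ n : ℕ) : Matrix (Fin d) (Fin d) (RttwS O m ⧸ Q)) = 0 := by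
  have h := rthk_l_mat_pow m n Q hQ d (p : O) hp
  rw [map_natCast] at h
  rw [Nat.cast_pow]
  exact h

end Sn

end Fermat.Agent.RT
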