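import Fermat.Agent.RT.Hecke.Plan

/-!
# K-machine, HECKE-asm, piece HK-ABS-L (helper46): sub-pieces (interface)

`StmtHkAbsL` (`RT/Hecke/Plan.lean`) is assembled in `RT/Hecke/AbsL.lean` from `stmtK7Main`,
`stmtK7U2`, HK-COMPAT (`RT/Hecke/Compat.lean`), the ring `A₀ = 𝒪[(Φ1 x, Φχ x)]`
(`RT/Hecke/AbsLRing.lean`) and the following small independent pieces.

* `StmtHkLRes`   : the base change `ρbar.baseChangeAlong ι` of a residual representation along a
  homomorphism of fields: irreducible if `ρbar` is absolutely irreducible; trace, determinant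
  and characteristic polynomial are the images under `ι`.
* `StmtHkLTrCont` : the trace of a `GaloisRepAdic A` is left-invariant modulo `𝔪 ^ k` under an
  open subgroup.
* `StmtHkLPowLe` : `T0` local, finite over the discrete valuation ring `𝒪` with uniformizer
  `lam`: for every `n` some power of `𝔪_{T0}` lies in `lamⁿ T0`.
* `StmtHkLNilp`  : the maximal ideal of a finite local ring is nilpotent.
-/

set_option autoImplicit false

namespace Fermat.Agent.RT

open IsLocalRing Fermat.Agent.ES

/-- **HK-L-RES**: base change of a residual representation along a homomorphism of fields. -/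
def StmtHkLRes : Prop :=
  ∀ (k K : Type) [Field k] [Field K] (ι : k →+* K) (ρbar : ResidualGaloisRep k),
    (ρbar.IsAbsolutelyIrreducible → (ρbar.baseChangeAlong ι).IsIrreducible) ∧
    (∀ g : GQ, LinearMap.trace K (ρbar.baseChangeAlong ι).V ((ρbar.baseChangeAlong ι).ρ g)
      = ι (LinearMap.trace k ρbar.V (ρbar.ρ g))) ∧
    (∀ g : GQ, LinearMap.det ((ρbar.baseChangeAlong ι).ρ g) = ι (LinearMap.det (ρbar.ρ g))) ∧
    (∀ g : GQ, LinearMap.charpoly ((ρbar.baseChangeAlong ι).ρ g)
      = (LinearMap.charpoly (ρbar.ρ g)).map ι)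

/-- **HK-L-TRCONT**: the trace of an adic representation is left-invariant modulo `𝔪 ^ k` under
an open subgroup. -/
def StmtHkLTrCont : Prop :=
  ∀ (A : Type) [CommRing A] [IsLocalRing A] (ρ : GaloisRepAdic A) (k : ℕ),
    ∃ E : IntermediateField ℚ (AlgebraicClosure ℚ), FiniteDimensional ℚ E ∧
      ∀ σ : GQ, (∀ a ∈ E, σ a = a) → ∀ x : GQ,
        LinearMap.trace A ρ.V (ρ.ρ (σ * x)) - LinearMap.trace A ρ.V (ρ.ρ x)
          ∈ maximalIdeal A ^ k

/-- **HK-L-POWLE**: `T0` local and finite over a discrete valuation ring `𝒪`: for every `n` some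
power of the maximal ideal of `T0` lies in `lamⁿ T0`. -/
def StmtHkLPowLe : Prop :=
  ∀ (O : Type) [CommRing O] [IsDomain O] [IsDiscreteValuationRing O] (lam : O),
    maximalIdeal O = Ideal.span {lam} →
  ∀ (T0 : Type) [CommRing T0] [IsLocalRing T0] [Algebra O T0] [Module.Finite O T0] (n : ℕ),
    ∃ k : ℕ, maximalIdeal T0 ^ k ≤ Ideal.span {algebraMap O T0 (lam ^ n)}

/-- **HK-L-NILP**: the maximal ideal of a finite local ring is nilpotent. -/
def StmtHkLNilp : Prop :=
  ∀ (A : Type) [CommRing A] [IsLocalRing A] [Finite A], ∃ k : ℕ, maximalIdeal A ^ k = ⊥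

end Fermat.Agent.RT
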