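/-
RT-HECKE / HK-CHARS (helper27): the characters of the diamond group
`Δ' = ∀ x, Multiplicative (ZMod (p ^ k x))`.
-/
import Mathlib

/-!
# K-machine, HECKE-asm, piece HK-CHARS: the characters of the diamond group of level `Q`

Sub-captain helper59.  `p` a prime, `κ` a finite index type, `k : κ → ℕ`,
`Δ' = RthkchGrp p k = ∀ x : κ, Multiplicative (ZMod (p ^ k x))`; `Sn` a commutative ring and
`w : κ → Sn` with `w x ^ (p ^ k x) = 1`.

* `rthkchPsi w hw : Δ' →* Sn`, `δ ↦ ∏ x, w x ^ (δ x).toAdd.val`;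
* `rthkch_psi_gen` : `ψ (Pi.mulSingle x (ofAdd 1)) = w x`;
* `rthkch_unique`, `rthkch_existsUnique` : `ψ` is the unique such homomorphism;
* `rthkch_congr` : `w ≡ w'` modulo `I` ⇒ `ψ ≡ ψ'` modulo `I`; `rthkch_sub_one_mem`;
* `rthkch_inv_mul` : `ψ δ⁻¹ * ψ δ = 1`; `rthkchPsiU : Δ' →* Snˣ`.
-/

set_option autoImplicit false

namespace Fermat.Agent.RT

/-- the diamond group `Δ' = ∏_x ℤ/p^{k x}` (multiplicative notation) -/
abbrev RthkchGrp (p : ℕ) {κ : Type*} (k : κ → ℕ) : Type _ :=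
  ∀ x : κ, Multiplicative (ZMod (p ^ k x))

section Pow

variable {Sn : Type*} [CommRing Sn]

/-- `w ^ m` depends on `m` modulo `n` only, if `w ^ n = 1` -/
theorem rthkch_pow_mod {w : Sn} {n : ℕ} (hw : w ^ n = 1) (m : ℕ) : w ^ (m % n) = w ^ m := by
  conv_rhs => rw [← Nat.div_add_mod m n, pow_add, pow_mul, hw, one_pow, one_mul]

theorem rthkch_pow_val_add {w : Sn} {n : ℕ} [NeZero n] (hw : w ^ n = 1) (a b : ZMod n) :
    w ^ (a + b).val = w ^ a.val * w ^ b.val := by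
  rw [ZMod.val_add, rthkch_pow_mod hw, pow_add]

end Pow

section Chars

variable {p : ℕ} [Fact p.Prime] {κ : Type*} [Fintype κ] {k : κ → ℕ}
  {Sn : Type*} [CommRing Sn]

instance rthkch_neZero (x : κ) : NeZero (p ^ k x) :=
  ⟨pow_ne_zero _ (Fact.out : p.Prime).ne_zero⟩

/-- **the character** of `Δ'` with `ψ (e_x) = w x` -/
noncomputable def rthkchPsi (w : κ → Sn) (hw : ∀ x, w x ^ (p ^ k x) = 1) :
    RthkchGrp p k →* Sn where
  toFun δ := ∏ x, w x ^ (Multiplicative.toAdd (δ x)).val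
  map_one' := by
    refine Finset.prod_eq_one fun x _ => ?_
    show w x ^ (0 : ZMod (p ^ k x)).val = 1
    rw [ZMod.val_zero, pow_zero]
  map_mul' δ δ' := by
    rw [← Finset.prod_mul_distrib]
    refine Finset.prod_congr rfl fun x _ => ?_
    exact rthkch_pow_val_add (hw x) _ _

theorem rthkchPsi_apply (w : κ → Sn) (hw : ∀ x, w x ^ (p ^ k x) = 1) (δ : RthkchGrp p k) :
    rthkchPsi w hw δ = ∏ x, w x ^ (Multiplicative.toAdd (δ x)).val := rfl

/-- the value on an element supported at `x` -/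
theorem rthkch_psi_single [DecidableEq κ] (w : κ → Sn) (hw : ∀ x, w x ^ (p ^ k x) = 1) (x : κ)
    (a : Multiplicative (ZMod (p ^ k x))) :
    rthkchPsi w hw (Pi.mulSingle x a) = w x ^ (Multiplicative.toAdd a).val := by
  rw [rthkchPsi_apply, Finset.prod_eq_single x]
  · rw [Pi.mulSingle_eq_same]
  · intro y _ hy
    rw [Pi.mulSingle_eq_of_ne hy]
    show w y ^ (0 : ZMod (p ^ k y)).val = 1
    rw [ZMod.val_zero, pow_zero]
  · intro hx
    exact absurd (Finset.mem_univ _) hx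

/-- **the generators**: `ψ (e_x) = w x` -/
theorem rthkch_psi_gen [DecidableEq κ] (w : κ → Sn) (hw : ∀ x, w x ^ (p ^ k x) = 1) (x : κ) :
    rthkchPsi w hw (Pi.mulSingle x (Multiplicative.ofAdd (1 : ZMod (p ^ k x)))) = w x := by
  rw [rthkch_psi_single, toAdd_ofAdd]
  have h1 : ((1 : ZMod (p ^ k x))).val = 1 % (p ^ k x) := by
    have := ZMod.val_natCast (p ^ k x) 1
    rwa [Nat.cast_one] at this
  rw [h1, rthkch_pow_mod (hw x), pow_one]

/-- every element of `Multiplicative (ZMod n)` is a power of `ofAdd 1` -/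
theorem rthkch_eq_pow {n : ℕ} [NeZero n] (a : Multiplicative (ZMod n)) :
    a = Multiplicative.ofAdd (1 : ZMod n) ^ (Multiplicative.toAdd a).val := by
  rw [← ofAdd_nsmul, nsmul_eq_mul, mul_one, ZMod.natCast_zmod_val, ofAdd_toAdd]

/-- **uniqueness** -/
theorem rthkch_unique [DecidableEq κ] (w : κ → Sn) (hw : ∀ x, w x ^ (p ^ k x) = 1)
    (ψ : RthkchGrp p k →* Sn)
    (hψ : ∀ x, ψ (Pi.mulSingle x (Multiplicative.ofAdd (1 : ZMod (p ^ k x)))) = w x) :
    ψ = rthkchPsi w hw := by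
  refine MonoidHom.ext fun δ => ?_
  have h1 : δ = ∏ x, Pi.mulSingle x (δ x) := (Finset.univ_prod_mulSingle δ).symm
  rw [rthkchPsi_apply]
  conv_lhs => rw [h1]
  rw [map_prod]
  refine Finset.prod_congr rfl fun x _ => ?_
  have h2 : Pi.mulSingle x (δ x)
      = (Pi.mulSingle x (Multiplicative.ofAdd (1 : ZMod (p ^ k x))) : RthkchGrp p k)
        ^ (Multiplicative.toAdd (δ x)).val := by
    conv_lhs => rw [rthkch_eq_pow (δ x)]
    exact map_pow (MonoidHom.mulSingle (fun y : κ => Multiplicative (ZMod (p ^ k y))) x) _ _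
  rw [h2, map_pow, hψ]

/-- a character of `Δ'` is determined by its values on the generators -/
theorem rthkch_ext [DecidableEq κ] (ψ ψ' : RthkchGrp p k →* Sn)
    (h : ∀ x, ψ (Pi.mulSingle x (Multiplicative.ofAdd (1 : ZMod (p ^ k x))))
      = ψ' (Pi.mulSingle x (Multiplicative.ofAdd (1 : ZMod (p ^ k x))))) : ψ = ψ' := by
  have hw : ∀ x, (ψ' (Pi.mulSingle x (Multiplicative.ofAdd (1 : ZMod (p ^ k x)))))
      ^ (p ^ k x) = 1 := by
    intro x
    rw [← map_pow, ← Pi.mulSingle_pow, ← ofAdd_nsmul, nsmul_eq_mul, mul_one,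
      ZMod.natCast_self, ofAdd_zero, Pi.mulSingle_one, map_one]
  exact (rthkch_unique _ hw ψ h).trans (rthkch_unique _ hw ψ' fun _ => rfl).symm

/-- **existence and uniqueness** -/
theorem rthkch_existsUnique [DecidableEq κ] (w : κ → Sn) (hw : ∀ x, w x ^ (p ^ k x) = 1) :
    ∃! ψ : RthkchGrp p k →* Sn,
      ∀ x, ψ (Pi.mulSingle x (Multiplicative.ofAdd (1 : ZMod (p ^ k x)))) = w x :=
  ⟨rthkchPsi w hw, rthkch_psi_gen w hw, fun ψ hψ => rthkch_unique w hw ψ hψ⟩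

/-- **congruence**: `w ≡ w'` modulo `I` ⇒ `ψ ≡ ψ'` modulo `I` -/
theorem rthkch_congr (I : Ideal Sn) (w w' : κ → Sn) (hw : ∀ x, w x ^ (p ^ k x) = 1)
    (hw' : ∀ x, w' x ^ (p ^ k x) = 1) (h : ∀ x, w x - w' x ∈ I) (δ : RthkchGrp p k) :
    rthkchPsi w hw δ - rthkchPsi w' hw' δ ∈ I := by
  rw [← Ideal.Quotient.eq, rthkchPsi_apply, rthkchPsi_apply, map_prod, map_prod]
  refine Finset.prod_congr rfl fun x _ => ?_
  rw [map_pow, map_pow, Ideal.Quotient.eq.mpr (h x)]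

/-- the trivial character -/
theorem rthkch_psi_one (hw : ∀ x : κ, (1 : Sn) ^ (p ^ k x) = 1) :
    rthkchPsi (p := p) (k := k) (fun _ : κ => (1 : Sn)) hw = 1 := by
  refine MonoidHom.ext fun δ => ?_
  rw [rthkchPsi_apply, MonoidHom.one_apply]
  exact Finset.prod_eq_one fun x _ => one_pow _

/-- `w ≡ 1` modulo `I` ⇒ `ψ ≡ 1` modulo `I` -/
theorem rthkch_sub_one_mem (I : Ideal Sn) (w : κ → Sn) (hw : ∀ x, w x ^ (p ^ k x) = 1)
    (h : ∀ x, w x - 1 ∈ I) (δ : RthkchGrp p k) : rthkchPsi w hw δ - 1 ∈ I := by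
  have h1 := rthkch_congr I w (fun _ => 1) hw (fun _ => one_pow _) h δ
  rwa [rthkch_psi_one, MonoidHom.one_apply] at h1

theorem rthkch_inv_mul (w : κ → Sn) (hw : ∀ x, w x ^ (p ^ k x) = 1) (δ : RthkchGrp p k) :
    rthkchPsi w hw δ⁻¹ * rthkchPsi w hw δ = 1 := by
  rw [← map_mul, inv_mul_cancel, map_one]

theorem rthkch_mul_inv (w : κ → Sn) (hw : ∀ x, w x ^ (p ^ k x) = 1) (δ : RthkchGrp p k) :
    rthkchPsi w hw δ * rthkchPsi w hw δ⁻¹ = 1 := by
  rw [← map_mul, mul_inv_cancel, map_one]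

/-- the character with values in the units -/
noncomputable def rthkchPsiU (w : κ → Sn) (hw : ∀ x, w x ^ (p ^ k x) = 1) :
    RthkchGrp p k →* Snˣ :=
  (rthkchPsi w hw).toHomUnits

theorem rthkchPsiU_coe (w : κ → Sn) (hw : ∀ x, w x ^ (p ^ k x) = 1) (δ : RthkchGrp p k) :
    ((rthkchPsiU w hw δ : Snˣ) : Sn) = rthkchPsi w hw δ := rfl

/-- functoriality in the coefficients -/
theorem rthkch_map {Sn' : Type*} [CommRing Sn'] (φ : Sn →+* Sn') (w : κ → Sn)
    (hw : ∀ x, w x ^ (p ^ k x) = 1) (hw' : ∀ x, (φ (w x)) ^ (p ^ k x) = 1)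
    (δ : RthkchGrp p k) :
    φ (rthkchPsi w hw δ) = rthkchPsi (fun x => φ (w x)) hw' δ := by
  rw [rthkchPsi_apply, rthkchPsi_apply, map_prod]
  refine Finset.prod_congr rfl fun x _ => ?_
  rw [map_pow]

end Chars

end Fermat.Agent.RT
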