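/-
RT-HECKE / CHARS-INST (helper27): the two characters `ψ1, ψχ` of the diamond group of level `Q`
with values in `S ⧸ 𝔪 ^ ν`, and the fields `cong`, `aug`, and the values in `trT`, `trQ` of
`HkConc` (`RT/Hecke/Conc.lean`).
-/
import Fermat.Agent.RT.Hecke.Chars
import Fermat.Agent.RT.Hecke.Plan
import Fermat.Agent.RT.Prod.HaUnit
import Fermat.Agent.RT.Prod.FinalNum

/-!
# K-machine, HECKE-asm, piece CHARS-INST

Sub-captain helper59 (table v2).  `O` a local ring, `2 ∈ Oˣ`, `p ∈ 𝔪_O`, `ζ ^ p = 1`;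
`S = O[[w_1, …, w_m]]`, `Sn = S ⧸ 𝔪 ^ ν`, `h ≤ m`;
`κ = Fin h ⊕ ι`, `k (inl j) = ν`, `k (inr i) = 1`, `Δ' = RthkchGrp p k`.

* `rthkciU` : the Taylor–Wiles unit `u_j` at the variable `j` (`rthu_exists_unit`), with
  `rthkci_u_mul_v`, `rthkci_u_sub_v`, `rthkci_u_pow`, `rthkci_u_sub_one_mem`;
* `rthkciW1`, `rthkciWχ` : the values on the generators (`u_j` at `inl j`; `1` resp. `ζ` at
  `inr i`), `rthkci_w1_pow`, `rthkci_wχ_pow`;
* `rthkciPsi1`, `rthkciPsiχ : Δ' →* Sn`;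
* `rthkci_cong`, `rthkci_aug`, `rthkci_valT`, `rthkci_valQ1`, `rthkci_valQχ` : the fields of
  `HkConc` on `Δ'`;
* `rthkci_cong_comp`, `rthkci_aug_comp`, `rthkci_valT_comp`, `rthkci_valQ_comp` : the same for
  `ψ ∘ κ`, `κ : Δ →* Δ'` (HK-GRP), at every `δ` with `κ δ = e_x`;
* `KSetup` forms : `rthkciPsi1Y`, `rthkciPsiχY`, `rthkci_Y_cong`, `rthkci_Y_aug`, `rthkci_Y_valT`,
  `rthkci_Y_valQ`.
-/

set_option autoImplicit false
set_option linter.unusedSectionVars false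
set_option linter.unusedVariables false

namespace Fermat.Agent.RT

open IsLocalRing Fermat.Agent.RT.Prod

noncomputable section

/-! ### The Taylor–Wiles unit -/

section TWUnit

variable {O : Type} [CommRing O] [IsLocalRing O]

/-- **the Taylor–Wiles unit** `u` at the variable `i`: `u − u⁻¹ = w_i`, `u ^ (p ^ ν) = 1` -/
def rthkciU (h2 : IsUnit (2 : O)) (p : ℕ) (hp : (p : O) ∈ maximalIdeal O) (m ν : ℕ)
    (i : Fin m) : RthkSn O m ν :=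
  (rthu_exists_unit h2 p hp m ν i).choose

/-- the inverse of the Taylor–Wiles unit -/
def rthkciV (h2 : IsUnit (2 : O)) (p : ℕ) (hp : (p : O) ∈ maximalIdeal O) (m ν : ℕ)
    (i : Fin m) : RthkSn O m ν :=
  (rthu_exists_unit h2 p hp m ν i).choose_spec.choose

variable (h2 : IsUnit (2 : O)) (p : ℕ) (hp : (p : O) ∈ maximalIdeal O) (m ν : ℕ) (i : Fin m)

theorem rthkci_u_mul_v : rthkciU h2 p hp m ν i * rthkciV h2 p hp m ν i = 1 :=
  (rthu_exists_unit h2 p hp m ν i).choose_spec.choose_spec.1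

theorem rthkci_u_sub_v :
    rthkciU h2 p hp m ν i - rthkciV h2 p hp m ν i =
      Ideal.Quotient.mk (maximalIdeal (RttwS O m) ^ ν) (MvPowerSeries.X i) :=
  (rthu_exists_unit h2 p hp m ν i).choose_spec.choose_spec.2.1

theorem rthkci_u_const :
    ∃ f : RttwS O m, MvPowerSeries.constantCoeff f = 1 ∧
      rthkciU h2 p hp m ν i = Ideal.Quotient.mk (maximalIdeal (RttwS O m) ^ ν) f :=
  (rthu_exists_unit h2 p hp m ν i).choose_spec.choose_spec.2.2.1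

theorem rthkci_u_pow : rthkciU h2 p hp m ν i ^ p ^ ν = 1 :=
  (rthu_exists_unit h2 p hp m ν i).choose_spec.choose_spec.2.2.2.1

theorem rthkci_u_add_v_sq :
    (rthkciU h2 p hp m ν i + rthkciV h2 p hp m ν i) ^ 2 =
      Ideal.Quotient.mk (maximalIdeal (RttwS O m) ^ ν) (MvPowerSeries.X i) ^ 2 + 4 :=
  (rthu_exists_unit h2 p hp m ν i).choose_spec.choose_spec.2.2.2.2

/-- `u ≡ 1` modulo `𝔞` -/
theorem rthkci_u_sub_one_mem :
    rthkciU h2 p hp m ν i - 1 ∈ RingHom.ker (Ideal.Quotient.factor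
      (le_sup_right : maximalIdeal (RttwS O m) ^ ν ≤
        rttwAug O m ⊔ maximalIdeal (RttwS O m) ^ ν)) := by
  obtain ⟨f, hf, hu⟩ := rthkci_u_const h2 p hp m ν i
  rw [RingHom.mem_ker, hu, map_sub, map_one, Ideal.Quotient.factor_mk, sub_eq_zero,
    ← map_one (Ideal.Quotient.mk (rttwAug O m ⊔ maximalIdeal (RttwS O m) ^ ν)),
    Ideal.Quotient.eq]
  refine Ideal.mem_sup_left ?_
  show f - 1 ∈ RingHom.ker _
  rw [RingHom.mem_ker, map_sub, hf, map_one, sub_self]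

/-- inverses in a commutative ring are unique -/
theorem rthkci_inv_unique {R : Type*} [CommRing R] {a b c : R} (h1 : a * b = 1)
    (h2 : a * c = 1) : b = c := by
  calc b = b * (a * c) := by rw [h2, mul_one]
    _ = (a * b) * c := by ring
    _ = c := by rw [h1, one_mul]

end TWUnit

/-! ### The characters on `Δ'` -/

section Abs

variable {O : Type} [CommRing O] [IsLocalRing O]

/-- the exponents: `ν` at the Taylor–Wiles primes, `1` at the trivial primes -/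
def rthkciExp (h : ℕ) (ι : Type) (ν : ℕ) : Fin h ⊕ ι → ℕ :=
  Sum.elim (fun _ => ν) (fun _ => 1)

@[simp] theorem rthkciExp_inl (h : ℕ) (ι : Type) (ν : ℕ) (j : Fin h) :
    rthkciExp h ι ν (Sum.inl j) = ν := rfl

@[simp] theorem rthkciExp_inr (h : ℕ) (ι : Type) (ν : ℕ) (i : ι) :
    rthkciExp h ι ν (Sum.inr i) = 1 := rfl

/-- the values of `ψ1` on the generators: `u_j` at the Taylor–Wiles primes, `1` at the trivial
primes -/
def rthkciW1 (h2 : IsUnit (2 : O)) (p : ℕ) (hp : (p : O) ∈ maximalIdeal O) {m h : ℕ}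
    (hm : h ≤ m) (ι : Type) (ν : ℕ) : Fin h ⊕ ι → RthkSn O m ν :=
  Sum.elim (fun j => rthkciU h2 p hp m ν (Fin.castLE hm j)) (fun _ => 1)

/-- the values of `ψχ` on the generators: `u_j` at the Taylor–Wiles primes, `ζ` at the trivial
primes -/
def rthkciWχ (h2 : IsUnit (2 : O)) (p : ℕ) (hp : (p : O) ∈ maximalIdeal O) {m h : ℕ}
    (hm : h ≤ m) (ι : Type) (ν : ℕ) (ζ : O) : Fin h ⊕ ι → RthkSn O m ν :=
  Sum.elim (fun j => rthkciU h2 p hp m ν (Fin.castLE hm j))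
    (fun _ => algebraMap O (RthkSn O m ν) ζ)

variable (h2 : IsUnit (2 : O)) (p : ℕ) (hp : (p : O) ∈ maximalIdeal O) {m h : ℕ}
  (hm : h ≤ m) (ι : Type) (ν : ℕ) (ζ : O)

theorem rthkci_w1_pow (x : Fin h ⊕ ι) :
    rthkciW1 h2 p hp hm ι ν x ^ (p ^ rthkciExp h ι ν x) = 1 := by
  rcases x with j | i
  · exact rthkci_u_pow h2 p hp m ν (Fin.castLE hm j)
  · exact one_pow _

theorem rthkci_wχ_pow (hζ : ζ ^ p = 1) (x : Fin h ⊕ ι) :
    rthkciWχ h2 p hp hm ι ν ζ x ^ (p ^ rthkciExp h ι ν x) = 1 := by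
  rcases x with j | i
  · exact rthkci_u_pow h2 p hp m ν (Fin.castLE hm j)
  · show (algebraMap O (RthkSn O m ν) ζ) ^ (p ^ 1) = 1
    rw [pow_one, ← map_pow, hζ, map_one]

variable [Fact p.Prime] [Fintype ι]

/-- **the character `ψ1`** of `Δ'` -/
def rthkciPsi1 : RthkchGrp p (rthkciExp h ι ν) →* RthkSn O m ν :=
  rthkchPsi (rthkciW1 h2 p hp hm ι ν) (rthkci_w1_pow h2 p hp hm ι ν)

/-- **the character `ψχ`** of `Δ'` -/
def rthkciPsiχ (hζ : ζ ^ p = 1) : RthkchGrp p (rthkciExp h ι ν) →* RthkSn O m ν :=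
  rthkchPsi (rthkciWχ h2 p hp hm ι ν ζ) (rthkci_wχ_pow h2 p hp hm ι ν ζ hζ)

/-- `ζ ≡ 1` modulo `λ` in `S ⧸ 𝔪 ^ ν` -/
theorem rthkci_zeta_mem {lam : O} (hlam : maximalIdeal O = Ideal.span {lam})
    (hζ1 : ζ - 1 ∈ maximalIdeal O) :
    (1 : RthkSn O m ν) - algebraMap O (RthkSn O m ν) ζ ∈
      RingHom.ker (Ideal.Quotient.factor
        (le_sup_right : maximalIdeal (RttwS O m) ^ ν ≤
          rttwLam m lam ⊔ maximalIdeal (RttwS O m) ^ ν)) := by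
  rw [hlam, Ideal.mem_span_singleton'] at hζ1
  obtain ⟨c, hc⟩ := hζ1
  have e1 : algebraMap O (RthkSn O m ν) ζ
      = Ideal.Quotient.mk (maximalIdeal (RttwS O m) ^ ν) (MvPowerSeries.C ζ) := rfl
  rw [RingHom.mem_ker, e1, map_sub, map_one, Ideal.Quotient.factor_mk, sub_eq_zero,
    ← map_one (Ideal.Quotient.mk (rttwLam m lam ⊔ maximalIdeal (RttwS O m) ^ ν)),
    Ideal.Quotient.eq]
  refine Ideal.mem_sup_left ?_
  rw [rttwLam, Ideal.mem_span_singleton']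
  refine ⟨-MvPowerSeries.C c, ?_⟩
  rw [neg_mul, ← map_mul, hc, map_sub, map_one]
  ring

/-- **`cong`** : `ψ1 ≡ ψχ` modulo `λ` -/
theorem rthkci_cong (hζ : ζ ^ p = 1) {lam : O} (hlam : maximalIdeal O = Ideal.span {lam})
    (hζ1 : ζ - 1 ∈ maximalIdeal O) (δ : RthkchGrp p (rthkciExp h ι ν)) :
    Ideal.Quotient.factor (le_sup_right : maximalIdeal (RttwS O m) ^ ν ≤
        rttwLam m lam ⊔ maximalIdeal (RttwS O m) ^ ν) (rthkciPsi1 h2 p hp hm ι ν δ) =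
      Ideal.Quotient.factor (le_sup_right : maximalIdeal (RttwS O m) ^ ν ≤
        rttwLam m lam ⊔ maximalIdeal (RttwS O m) ^ ν) (rthkciPsiχ h2 p hp hm ι ν ζ hζ δ) := by
  have key := rthkch_congr (RingHom.ker (Ideal.Quotient.factor
      (le_sup_right : maximalIdeal (RttwS O m) ^ ν ≤
        rttwLam m lam ⊔ maximalIdeal (RttwS O m) ^ ν)))
    (rthkciW1 h2 p hp hm ι ν) (rthkciWχ h2 p hp hm ι ν ζ) (rthkci_w1_pow h2 p hp hm ι ν)
    (rthkci_wχ_pow h2 p hp hm ι ν ζ hζ) (fun x => by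
      rcases x with j | i
      · show rthkciU h2 p hp m ν (Fin.castLE hm j) - rthkciU h2 p hp m ν (Fin.castLE hm j) ∈ _
        rw [sub_self]
        exact Ideal.zero_mem _
      · exact rthkci_zeta_mem ν ζ hlam hζ1) δ
  rw [RingHom.mem_ker, map_sub, sub_eq_zero] at key
  exact key

/-- **`aug`** : `ψ1 ≡ 1` modulo `𝔞` -/
theorem rthkci_aug (δ : RthkchGrp p (rthkciExp h ι ν)) :
    Ideal.Quotient.factor (le_sup_right : maximalIdeal (RttwS O m) ^ ν ≤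
        rttwAug O m ⊔ maximalIdeal (RttwS O m) ^ ν) (rthkciPsi1 h2 p hp hm ι ν δ) = 1 := by
  have key := rthkch_sub_one_mem (RingHom.ker (Ideal.Quotient.factor
      (le_sup_right : maximalIdeal (RttwS O m) ^ ν ≤
        rttwAug O m ⊔ maximalIdeal (RttwS O m) ^ ν)))
    (rthkciW1 h2 p hp hm ι ν) (rthkci_w1_pow h2 p hp hm ι ν) (fun x => by
      rcases x with j | i
      · exact rthkci_u_sub_one_mem h2 p hp m ν (Fin.castLE hm j)
      · show (1 : RthkSn O m ν) - 1 ∈ _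
        rw [sub_self]
        exact Ideal.zero_mem _) δ
  rw [RingHom.mem_ker, map_sub, map_one, sub_eq_zero] at key
  exact key

variable [DecidableEq (Fin h ⊕ ι)]

/-- the generator `e_x` of `Δ'` -/
def rthkciGen (p : ℕ) (h : ℕ) (ι : Type) (ν : ℕ) [DecidableEq (Fin h ⊕ ι)] (x : Fin h ⊕ ι) :
    RthkchGrp p (rthkciExp h ι ν) :=
  Pi.mulSingle x (Multiplicative.ofAdd (1 : ZMod (p ^ rthkciExp h ι ν x)))

theorem rthkci_psi1_gen (x : Fin h ⊕ ι) :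
    rthkciPsi1 h2 p hp hm ι ν (rthkciGen p h ι ν x) = rthkciW1 h2 p hp hm ι ν x :=
  rthkch_psi_gen _ _ x

theorem rthkci_psiχ_gen (hζ : ζ ^ p = 1) (x : Fin h ⊕ ι) :
    rthkciPsiχ h2 p hp hm ι ν ζ hζ (rthkciGen p h ι ν x) = rthkciWχ h2 p hp hm ι ν ζ x :=
  rthkch_psi_gen _ _ x

/-- the value of a character at the inverse -/
theorem rthkci_psi_inv {Δ : Type*} [Group Δ] {R : Type*} [CommRing R] (ψ : Δ →* R) (δ : Δ)
    {a b : R} (ha : ψ δ = a) (hab : a * b = 1) : ψ δ⁻¹ = b := by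
  have h1 : ψ δ * ψ δ⁻¹ = 1 := by rw [← map_mul, mul_inv_cancel, map_one]
  rw [ha] at h1
  exact rthkci_inv_unique h1 hab

/-- **`valT`** : the values at the generators of the trivial primes -/
theorem rthkci_valT (hζ : ζ ^ p = 1) (t : O) (ht : 2 * t = ζ + ζ ^ (p - 1)) (i : ι) :
    rthkciPsi1 h2 p hp hm ι ν (rthkciGen p h ι ν (Sum.inr i)) = 1 ∧
      rthkciPsiχ h2 p hp hm ι ν ζ hζ (rthkciGen p h ι ν (Sum.inr i))
          + rthkciPsiχ h2 p hp hm ι ν ζ hζ (rthkciGen p h ι ν (Sum.inr i))⁻¹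
        = algebraMap O (RthkSn O m ν) (2 * t) := by
  have hp1 : 1 ≤ p := (Fact.out : p.Prime).one_le
  refine ⟨rthkci_psi1_gen h2 p hp hm ι ν (Sum.inr i), ?_⟩
  have h1 : rthkciPsiχ h2 p hp hm ι ν ζ hζ (rthkciGen p h ι ν (Sum.inr i))
      = algebraMap O (RthkSn O m ν) ζ := rthkci_psiχ_gen h2 p hp hm ι ν ζ hζ (Sum.inr i)
  have h3 : algebraMap O (RthkSn O m ν) ζ * algebraMap O (RthkSn O m ν) (ζ ^ (p - 1)) = 1 := by
    rw [← map_mul, ← pow_succ', Nat.sub_add_cancel hp1, hζ, map_one]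
  have h4 := rthkci_psi_inv (rthkciPsiχ h2 p hp hm ι ν ζ hζ) _ h1 h3
  rw [h1, h4, ← map_add, ht]

/-- **`valQ`** for `ψ1` : the values at the generators of the Taylor–Wiles primes -/
theorem rthkci_valQ1 (j : Fin m) (hj : (j : ℕ) < h) :
    rthkciPsi1 h2 p hp hm ι ν (rthkciGen p h ι ν (Sum.inl ⟨j, hj⟩))
        - rthkciPsi1 h2 p hp hm ι ν (rthkciGen p h ι ν (Sum.inl ⟨j, hj⟩))⁻¹
      = Ideal.Quotient.mk (maximalIdeal (RttwS O m) ^ ν) (MvPowerSeries.X j) := by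
  have hc : Fin.castLE hm ⟨(j : ℕ), hj⟩ = j := Fin.ext rfl
  have h1 : rthkciPsi1 h2 p hp hm ι ν (rthkciGen p h ι ν (Sum.inl ⟨j, hj⟩))
      = rthkciU h2 p hp m ν j := by
    rw [rthkci_psi1_gen]
    show rthkciU h2 p hp m ν (Fin.castLE hm ⟨(j : ℕ), hj⟩) = _
    rw [hc]
  have h4 := rthkci_psi_inv (rthkciPsi1 h2 p hp hm ι ν) _ h1 (rthkci_u_mul_v h2 p hp m ν j)
  rw [h1, h4, rthkci_u_sub_v]

/-- **`valQ`** for `ψχ` -/
theorem rthkci_valQχ (hζ : ζ ^ p = 1) (j : Fin m) (hj : (j : ℕ) < h) :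
    rthkciPsiχ h2 p hp hm ι ν ζ hζ (rthkciGen p h ι ν (Sum.inl ⟨j, hj⟩))
        - rthkciPsiχ h2 p hp hm ι ν ζ hζ (rthkciGen p h ι ν (Sum.inl ⟨j, hj⟩))⁻¹
      = Ideal.Quotient.mk (maximalIdeal (RttwS O m) ^ ν) (MvPowerSeries.X j) := by
  have hc : Fin.castLE hm ⟨(j : ℕ), hj⟩ = j := Fin.ext rfl
  have h1 : rthkciPsiχ h2 p hp hm ι ν ζ hζ (rthkciGen p h ι ν (Sum.inl ⟨j, hj⟩))
      = rthkciU h2 p hp m ν j := by
    rw [rthkci_psiχ_gen]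
    show rthkciU h2 p hp m ν (Fin.castLE hm ⟨(j : ℕ), hj⟩) = _
    rw [hc]
  have h4 := rthkci_psi_inv (rthkciPsiχ h2 p hp hm ι ν ζ hζ) _ h1
    (rthkci_u_mul_v h2 p hp m ν j)
  rw [h1, h4, rthkci_u_sub_v]

/-! ### Transport along `κ : Δ →* Δ'` (HK-GRP) -/

variable {Δ : Type*} [Group Δ] (κ : Δ →* RthkchGrp p (rthkciExp h ι ν))

/-- `cong` for `ψ ∘ κ` -/
theorem rthkci_cong_comp (hζ : ζ ^ p = 1) {lam : O} (hlam : maximalIdeal O = Ideal.span {lam})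
    (hζ1 : ζ - 1 ∈ maximalIdeal O) (δ : Δ) :
    Ideal.Quotient.factor (le_sup_right : maximalIdeal (RttwS O m) ^ ν ≤
        rttwLam m lam ⊔ maximalIdeal (RttwS O m) ^ ν)
        (((rthkciPsi1 h2 p hp hm ι ν).comp κ) δ) =
      Ideal.Quotient.factor (le_sup_right : maximalIdeal (RttwS O m) ^ ν ≤
        rttwLam m lam ⊔ maximalIdeal (RttwS O m) ^ ν)
        (((rthkciPsiχ h2 p hp hm ι ν ζ hζ).comp κ) δ) :=
  rthkci_cong h2 p hp hm ι ν ζ hζ hlam hζ1 (κ δ)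

/-- `aug` for `ψ1 ∘ κ` -/
theorem rthkci_aug_comp (δ : Δ) :
    Ideal.Quotient.factor (le_sup_right : maximalIdeal (RttwS O m) ^ ν ≤
        rttwAug O m ⊔ maximalIdeal (RttwS O m) ^ ν)
      (((rthkciPsi1 h2 p hp hm ι ν).comp κ) δ) = 1 :=
  rthkci_aug h2 p hp hm ι ν (κ δ)

/-- `valT` for `ψ ∘ κ` at a `δ` over the generator `e_{inr i}` -/
theorem rthkci_valT_comp (hζ : ζ ^ p = 1) (t : O) (ht : 2 * t = ζ + ζ ^ (p - 1)) (i : ι)
    (δ : Δ) (hδ : κ δ = rthkciGen p h ι ν (Sum.inr i)) :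
    ((rthkciPsi1 h2 p hp hm ι ν).comp κ) δ = 1 ∧
      ((rthkciPsiχ h2 p hp hm ι ν ζ hζ).comp κ) δ
          + ((rthkciPsiχ h2 p hp hm ι ν ζ hζ).comp κ) δ⁻¹
        = algebraMap O (RthkSn O m ν) (2 * t) := by
  have key := rthkci_valT h2 p hp hm ι ν ζ hζ t ht i
  simp only [MonoidHom.comp_apply, map_inv, hδ]
  exact key

/-- `valQ` for `ψ ∘ κ` at a `δ` over the generator `e_{inl j}` -/
theorem rthkci_valQ_comp (hζ : ζ ^ p = 1) (j : Fin m) (hj : (j : ℕ) < h)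
    (δ : Δ) (hδ : κ δ = rthkciGen p h ι ν (Sum.inl ⟨j, hj⟩)) :
    ((rthkciPsi1 h2 p hp hm ι ν).comp κ) δ - ((rthkciPsi1 h2 p hp hm ι ν).comp κ) δ⁻¹
        = Ideal.Quotient.mk (maximalIdeal (RttwS O m) ^ ν) (MvPowerSeries.X j) ∧
      ((rthkciPsiχ h2 p hp hm ι ν ζ hζ).comp κ) δ
          - ((rthkciPsiχ h2 p hp hm ι ν ζ hζ).comp κ) δ⁻¹
        = Ideal.Quotient.mk (maximalIdeal (RttwS O m) ^ ν) (MvPowerSeries.X j) := by
  have k1 := rthkci_valQ1 h2 p hp hm ι ν j hj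
  have k2 := rthkci_valQχ h2 p hp hm ι ν ζ hζ j hj
  simp only [MonoidHom.comp_apply, map_inv, hδ]
  exact ⟨k1, k2⟩

end Abs

/-! ### The `KSetup` forms -/

section Setup

variable {P : FreyPackage} {N q : ℕ} (Y : KSetup P N q) (h ν : ℕ)

theorem rthkci_Y_le : h ≤ Y.m h := Nat.le_add_right _ _

/-- the diamond group `Δ'` of the setup: `∏_{j < h} ℤ/p^ν × ∏_{i} ℤ/p` -/
abbrev RthkciGrpY : Type := RthkchGrp P.p (rthkciExp h Y.ι ν)

/-- **`ψ1`** over a setup -/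
def rthkciPsi1Y [Fact P.p.Prime] : RthkciGrpY Y h ν →* RthkSn Y.O (Y.m h) ν :=
  rthkciPsi1 Y.h2 P.p Y.hyp.hp𝒪 (rthkci_Y_le Y h) Y.ι ν

/-- **`ψχ`** over a setup -/
def rthkciPsiχY [Fact P.p.Prime] : RthkciGrpY Y h ν →* RthkSn Y.O (Y.m h) ν :=
  rthkciPsiχ Y.h2 P.p Y.hyp.hp𝒪 (rthkci_Y_le Y h) Y.ι ν Y.ζ Y.hζ.pow_eq_one

variable [Fact P.p.Prime]

/-- **`cong`** (verbatim the field of `HkConc`, on `Δ'`) -/
theorem rthkci_Y_cong (δ : RthkciGrpY Y h ν) :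
    Ideal.Quotient.factor (le_sup_right : maximalIdeal (RttwS Y.O (Y.m h)) ^ ν ≤
        rttwLam (Y.m h) Y.lam ⊔ maximalIdeal (RttwS Y.O (Y.m h)) ^ ν) (rthkciPsi1Y Y h ν δ) =
      Ideal.Quotient.factor (le_sup_right : maximalIdeal (RttwS Y.O (Y.m h)) ^ ν ≤
        rttwLam (Y.m h) Y.lam ⊔ maximalIdeal (RttwS Y.O (Y.m h)) ^ ν)
        (rthkciPsiχY Y h ν δ) :=
  rthkci_cong Y.h2 P.p Y.hyp.hp𝒪 (rthkci_Y_le Y h) Y.ι ν Y.ζ Y.hζ.pow_eq_one Y.hlam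
    Y.zeta_sub_one_mem δ

/-- **`aug`** (verbatim the field of `HkConc`, on `Δ'`) -/
theorem rthkci_Y_aug (δ : RthkciGrpY Y h ν) :
    Ideal.Quotient.factor (le_sup_right : maximalIdeal (RttwS Y.O (Y.m h)) ^ ν ≤
        rttwAug Y.O (Y.m h) ⊔ maximalIdeal (RttwS Y.O (Y.m h)) ^ ν)
      (rthkciPsi1Y Y h ν δ) = 1 :=
  rthkci_aug Y.h2 P.p Y.hyp.hp𝒪 (rthkci_Y_le Y h) Y.ι ν δ

theorem rthkci_Y_two_tχ (i : Y.ι) : 2 * Y.tχ i = Y.ζ + Y.ζ ^ (P.p - 1) := by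
  show 2 * (Y.half * (Y.ζ + Y.ζ ^ (P.p - 1))) = _
  rw [← mul_assoc, Y.two_mul_half, one_mul]

variable [DecidableEq (Fin h ⊕ Y.ι)]

/-- **`valT`** : the values of `ψ1`, `ψχ` at the generator `e_{inr i}` -/
theorem rthkci_Y_valT (i : Y.ι) :
    rthkciPsi1Y Y h ν (rthkciGen P.p h Y.ι ν (Sum.inr i)) = 1 ∧
      rthkciPsiχY Y h ν (rthkciGen P.p h Y.ι ν (Sum.inr i))
          + rthkciPsiχY Y h ν (rthkciGen P.p h Y.ι ν (Sum.inr i))⁻¹
        = algebraMap Y.O (RthkSn Y.O (Y.m h) ν) (2 * Y.tχ i) :=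
  rthkci_valT Y.h2 P.p Y.hyp.hp𝒪 (rthkci_Y_le Y h) Y.ι ν Y.ζ Y.hζ.pow_eq_one (Y.tχ i)
    (rthkci_Y_two_tχ Y i) i

/-- **`valQ`** : the values of `ψ1`, `ψχ` at the generator `e_{inl j}` -/
theorem rthkci_Y_valQ (j : Fin (Y.m h)) (hj : (j : ℕ) < h) :
    rthkciPsi1Y Y h ν (rthkciGen P.p h Y.ι ν (Sum.inl ⟨j, hj⟩))
          - rthkciPsi1Y Y h ν (rthkciGen P.p h Y.ι ν (Sum.inl ⟨j, hj⟩))⁻¹
        = Ideal.Quotient.mk (maximalIdeal (RttwS Y.O (Y.m h)) ^ ν) (MvPowerSeries.X j) ∧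
      rthkciPsiχY Y h ν (rthkciGen P.p h Y.ι ν (Sum.inl ⟨j, hj⟩))
          - rthkciPsiχY Y h ν (rthkciGen P.p h Y.ι ν (Sum.inl ⟨j, hj⟩))⁻¹
        = Ideal.Quotient.mk (maximalIdeal (RttwS Y.O (Y.m h)) ^ ν) (MvPowerSeries.X j) :=
  ⟨rthkci_valQ1 Y.h2 P.p Y.hyp.hp𝒪 (rthkci_Y_le Y h) Y.ι ν j hj,
    rthkci_valQχ Y.h2 P.p Y.hyp.hp𝒪 (rthkci_Y_le Y h) Y.ι ν Y.ζ Y.hζ.pow_eq_one j hj⟩

/-- **CHARS-INST, packaged for HK-CONC**: for every `κ : Δ →* Δ'` (HK-GRP), the characters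
`ψ1 := ψ1' ∘ κ`, `ψχ := ψχ' ∘ κ` satisfy `cong`, `aug` and have the values required in `trT`,
`trQ` at every `δ` over a generator. -/
theorem rthkci_Y_main {Δ : Type*} [Group Δ] (κ : Δ →* RthkciGrpY Y h ν) :
    (∀ δ : Δ,
      Ideal.Quotient.factor (le_sup_right : maximalIdeal (RttwS Y.O (Y.m h)) ^ ν ≤
          rttwLam (Y.m h) Y.lam ⊔ maximalIdeal (RttwS Y.O (Y.m h)) ^ ν)
          (((rthkciPsi1Y Y h ν).comp κ) δ) =
        Ideal.Quotient.factor (le_sup_right : maximalIdeal (RttwS Y.O (Y.m h)) ^ ν ≤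
          rttwLam (Y.m h) Y.lam ⊔ maximalIdeal (RttwS Y.O (Y.m h)) ^ ν)
          (((rthkciPsiχY Y h ν).comp κ) δ)) ∧
    (∀ δ : Δ,
      Ideal.Quotient.factor (le_sup_right : maximalIdeal (RttwS Y.O (Y.m h)) ^ ν ≤
          rttwAug Y.O (Y.m h) ⊔ maximalIdeal (RttwS Y.O (Y.m h)) ^ ν)
        (((rthkciPsi1Y Y h ν).comp κ) δ) = 1) ∧
    (∀ (i : Y.ι) (δ : Δ), κ δ = rthkciGen P.p h Y.ι ν (Sum.inr i) →
      ((rthkciPsi1Y Y h ν).comp κ) δ = 1 ∧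
        ((rthkciPsiχY Y h ν).comp κ) δ + ((rthkciPsiχY Y h ν).comp κ) δ⁻¹
          = algebraMap Y.O (RthkSn Y.O (Y.m h) ν) (2 * Y.tχ i)) ∧
    (∀ (j : Fin (Y.m h)) (hj : (j : ℕ) < h) (δ : Δ),
      κ δ = rthkciGen P.p h Y.ι ν (Sum.inl ⟨j, hj⟩) →
      ((rthkciPsi1Y Y h ν).comp κ) δ - ((rthkciPsi1Y Y h ν).comp κ) δ⁻¹
          = Ideal.Quotient.mk (maximalIdeal (RttwS Y.O (Y.m h)) ^ ν) (MvPowerSeries.X j) ∧
        ((rthkciPsiχY Y h ν).comp κ) δ - ((rthkciPsiχY Y h ν).comp κ) δ⁻¹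
          = Ideal.Quotient.mk (maximalIdeal (RttwS Y.O (Y.m h)) ^ ν) (MvPowerSeries.X j)) := by
  refine ⟨fun δ => rthkci_Y_cong Y h ν (κ δ), fun δ => rthkci_Y_aug Y h ν (κ δ),
    fun i δ hδ => ?_, fun j hj δ hδ => ?_⟩
  · have key := rthkci_Y_valT Y h ν i
    simp only [MonoidHom.comp_apply, map_inv, hδ]
    exact key
  · have key := rthkci_Y_valQ Y h ν j hj
    simp only [MonoidHom.comp_apply, map_inv, hδ]
    exact key

end Setup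

end

end Fermat.Agent.RT
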