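import Fermat.Agent.RT.Hecke.GrpK5
import Fermat.Agent.RT.Hecke.ConcArith
import Fermat.Agent.RT.Hecke.ConcDefs
import Fermat.Agent.RT.Hecke.Chars

/-!
# K-machine, HECKE-asm, HK-GRP: bridge to the concrete objects of HK-CONC

helper9's `rthkdH p v k M hM` (`RT/Hecke/ConcArith.lean`) IS the canonical `H'` of HK-GRP
(`rthkgH p k hM`, `RT/Hecke/GrpGen.lean`): `rthkg_H_eq` is `rfl`.  All results of HK-GRP for it,
with source `RthkdDelta M H'` (`RT/Hecke/ConcDefs.lean`) and target `RthkchGrp p k`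
(`RT/Hecke/Chars.lean`):

* `rthkgb_equiv` : `κ_γ : RthkdDelta M (rthkdH p v k M hM) ≃* RthkchGrp p k` with
  `κ_γ (mk (γ x)) = Pi.mulSingle x (ofAdd 1)`;
* `rthkgb_k7fLevel`, `rthkgb_isStarStable`, `rthkgb_isTameAt`, `rthkgb_index`,
  `rthkgb_freeHyp_index`, `rthkgb_exists_transversal`, `rthkgb_squarefree`.
-/

set_option autoImplicit false
set_option linter.unusedSectionVars false
set_option linter.style.haveILetI false

namespace Fermat.Agent.RT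

open Fermat.Agent.ES1 Fermat.Agent.RT.K5 Fermat.Agent.RT.K6 Fermat.Agent.RT.K7F

section Bridge

variable {κ : Type} [Fintype κ] {p : ℕ} {v k : κ → ℕ} {M : ℕ}

/-- the two definitions of `H'` agree (by `rfl`) -/
theorem rthkg_H_eq (hM : ∀ x, v x ∣ M) : rthkdH p v k M hM = rthkgH p k hM := rfl

/-- **`κ_γ`** for the concrete objects. -/
theorem rthkgb_equiv [DecidableEq κ] (hp : p.Prime) (hp2 : p ≠ 2)
    (hv : Function.Injective v) (hvp : ∀ x, (v x).Prime) (hk : ∀ x, p ^ k x ∣ v x - 1)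
    (hM0 : M ≠ 0) (hM : ∀ x, v x ∣ M) (γ : κ → (ZMod M)ˣ)
    (hγ1 : ∀ x y, y ≠ x → ZMod.unitsMap (hM y) (γ x) = 1)
    (hγ2 : ∀ x, k x ≠ 0 → ¬ ∃ y : (ZMod (v x))ˣ, y ^ p = ZMod.unitsMap (hM x) (γ x)) :
    ∃ κγ : RthkdDelta M (rthkdH p v k M hM) ≃* RthkchGrp p k,
      (∀ x, κγ (QuotientGroup.mk (γ x)) = Pi.mulSingle x (Multiplicative.ofAdd 1)) ∧
      (∀ (x : κ) (u u' : (ZMod M)ˣ), ZMod.unitsMap (hM x) u = ZMod.unitsMap (hM x) u' →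
        κγ (QuotientGroup.mk u) x = κγ (QuotientGroup.mk u') x) :=
  let ⟨κγ, h1, h2, _⟩ := rthkg_exists_equiv hp hp2 hv hvp hk hM0 hM γ hγ1 hγ2
  ⟨κγ, h1, h2⟩

theorem rthkgb_isStarStable (hp : p.Prime) (hp2 : p ≠ 2) (hv : Function.Injective v)
    (hvp : ∀ x, (v x).Prime) (hk : ∀ x, p ^ k x ∣ v x - 1) (hM0 : M ≠ 0) (hM : ∀ x, v x ∣ M)
    {r : ℕ} (hr : r.Prime) (hrM : r ∣ M) : IsStarStable M r (rthkdH p v k M hM) :=
  rthkgH_isStarStable hp hp2 hv hvp hk hM0 hM hr hrM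

theorem rthkgb_isTameAt (hp : p.Prime) (h5 : 5 ≤ p) {L : ℕ} (hpL : ¬ p ∣ L)
    (hM : ∀ x, v x ∣ M) (r : ℕ) : IsTameAt L M r (rthkdH p v k M hM) :=
  rthkgH_isTameAt hp h5 hpL hM r

theorem rthkgb_index (hp : p.Prime) (hp2 : p ≠ 2) (hv : Function.Injective v)
    (hvp : ∀ x, (v x).Prime) (hk : ∀ x, p ^ k x ∣ v x - 1) (hM0 : M ≠ 0) (hM : ∀ x, v x ∣ M) :
    (pmH (rthkdH p v k M hM)).index = p ^ ∑ x, k x :=
  rthkgH_index hp hp2 hv hvp hk hM0 hM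

theorem rthkgb_k7fLevel {L : ℕ} (hL : 2 ≤ L) (hML : M ∣ L) (hp : p.Prime) (hp2 : p ≠ 2)
    (hpL : ¬ p ∣ L) (h5 : 5 ≤ p ∨ (5 - p) ∣ L) (hsq : Squarefree M)
    (hv : Function.Injective v) (hvp : ∀ x, (v x).Prime) (hk : ∀ x, p ^ k x ∣ v x - 1)
    (hM : ∀ x, v x ∣ M) : K7FLevel L M (rthkdH p v k M hM) p :=
  rthkgH_k7fLevel hL hML hp hp2 hpL h5 hsq hv hvp hk hM

theorem rthkgb_freeHyp_index (hp : p.Prime) (hp2 : p ≠ 2) (hv : Function.Injective v)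
    (hvp : ∀ x, (v x).Prime) (hk : ∀ x, p ^ k x ∣ v x - 1) (hM0 : M ≠ 0) (hM : ∀ x, v x ∣ M) :
    ((pmH (rthkdH p v k M hM)).subgroupOf (pmH ⊤)).index = p ^ ∑ x, k x :=
  rthkgH_freeHyp_index hp hp2 hv hvp hk hM0 hM

theorem rthkgb_exists_transversal (hp : p.Prime) (hp2 : p ≠ 2) (hv : Function.Injective v)
    (hvp : ∀ x, (v x).Prime) (hk : ∀ x, p ^ k x ∣ v x - 1) (hM0 : M ≠ 0) (hM : ∀ x, v x ∣ M) :
    ∃ (u : Fin (p ^ ∑ x, k x) → (ZMod M)ˣ)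
      (e : Fin (p ^ ∑ x, k x) ≃ RthkdDelta M (rthkdH p v k M hM)),
      (∀ j, e j = QuotientGroup.mk (u j)) ∧ IsTransversal (rthkdH p v k M hM) ⊤ u :=
  rthkgH_exists_transversal hp hp2 hv hvp hk hM0 hM

/-- the level `M = ∏ v x` is squarefree -/
theorem rthkgb_squarefree (hv : Function.Injective v) (hvp : ∀ x, (v x).Prime) :
    Squarefree (rthkdM v) := by
  unfold rthkdM
  refine Finset.squarefree_prod_of_pairwise_isCoprime (fun x _ y _ hxy => ?_)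
    (fun x _ => (hvp x).squarefree)
  exact Nat.coprime_iff_isRelPrime.mp
    ((Nat.coprime_primes (hvp x) (hvp y)).mpr fun h => hxy (hv h))

end Bridge

end Fermat.Agent.RT
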