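/-
RT-HECKE / CHARS-GRP (helper27): the two characters `ψ1, ψχ` on the CONCRETE diamond group
`RthkdDelta M (rthkdH p v k M hM)` of HK-CONC, from CHARS-INST (`CharsInst.lean`) and HK-GRP
(`GrpBridge.lean`, helper8).
-/
import Fermat.Agent.RT.Hecke.CharsInst
import Fermat.Agent.RT.Hecke.GrpBridge

/-!
# K-machine, HECKE-asm, piece CHARS-GRP

`Y : KSetup P N q`, `h n`, `qv : Fin h → ℕ` a Taylor–Wiles family of level `n`;
`κ = Fin h ⊕ Y.ι`, `v = rthkcgV Y qv = Sum.elim qv Y.r`, `k = rthkciExp h Y.ι (n + 1)`.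

* `rthkcg_v_prime`, `rthkcg_v_inj`, `rthkcg_pow_dvd` : the hypotheses `hvp`, `hv`, `hk` of HK-GRP;
* `rthkcg_exists` : for every `M ≠ 0` with `v x ∣ M` and every system of generators
  `γ : κ → (ℤ/M)ˣ` with (G1), (G2) there are
  `ψ1, ψχ : RthkdDelta M (rthkdH P.p v k M hM) →* S ⧸ 𝔪 ^ (n + 1)` with `cong`, `aug` (verbatim the
  fields of `HkConc`) and the values required in `trT`, `trQ` at `δ = mk (γ x)`.
-/

set_option autoImplicit false
set_option linter.unusedSectionVars false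
set_option linter.unusedVariables false
set_option linter.style.haveILetI false

namespace Fermat.Agent.RT

open IsLocalRing Fermat.Agent.RT.Prod Fermat.Agent.TW

section Arith

variable {P : FreyPackage} {N q : ℕ} (Y : KSetup P N q) {h : ℕ} (qv : Fin h → ℕ)

/-- the primes of the diamonds: the Taylor–Wiles primes and the trivial primes -/
def rthkcgV : Fin h ⊕ Y.ι → ℕ := Sum.elim qv Y.r

@[simp] theorem rthkcgV_inl (j : Fin h) : rthkcgV Y qv (Sum.inl j) = qv j := rfl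

@[simp] theorem rthkcgV_inr (i : Y.ι) : rthkcgV Y qv (Sum.inr i) = Y.r i := rfl

variable {qv} {n : ℕ}

theorem rthkcg_v_prime
    (hTW : IsTWFamily P.p Y.ρbar (Y.Smin ∪ Finset.univ.image Y.r) n h qv)
    (x : Fin h ⊕ Y.ι) : (rthkcgV Y qv x).Prime := by
  rcases x with j | i
  · exact (hTW.2.1 j).1
  · exact Y.r_prime i

theorem rthkcg_v_inj
    (hTW : IsTWFamily P.p Y.ρbar (Y.Smin ∪ Finset.univ.image Y.r) n h qv) :
    Function.Injective (rthkcgV Y qv) := by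
  have hne : ∀ (j : Fin h) (i : Y.ι), qv j ≠ Y.r i := by
    intro j i e
    refine (hTW.2.1 j).2.1 (Finset.mem_union_right _ ?_)
    rw [e]
    exact Y.mem_T i
  rintro (j | i) (j' | i') e
  · exact congrArg Sum.inl (hTW.1 e)
  · exact absurd e (hne j i')
  · exact absurd e.symm (hne j' i)
  · exact congrArg Sum.inr (Y.r_inj e)

theorem rthkcg_pow_dvd
    (hTW : IsTWFamily P.p Y.ρbar (Y.Smin ∪ Finset.univ.image Y.r) n h qv)
    (x : Fin h ⊕ Y.ι) : P.p ^ rthkciExp h Y.ι (n + 1) x ∣ rthkcgV Y qv x - 1 := by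
  rcases x with j | i
  · exact (hTW.2.1 j).2.2
  · show P.p ^ 1 ∣ Y.r i - 1
    rw [pow_one]
    exact Y.p_dvd i

theorem rthkcg_exp_le (ν : ℕ) (hν : 1 ≤ ν) (x : Fin h ⊕ Y.ι) : rthkciExp h Y.ι ν x ≤ ν := by
  rcases x with j | i
  · exact le_rfl
  · exact hν

end Arith

section Chars

variable {P : FreyPackage} {N q : ℕ} (Y : KSetup P N q) {h : ℕ} {qv : Fin h → ℕ} {n : ℕ}

/-- **CHARS-GRP**: the two characters on the concrete diamond group, with `cong`, `aug` and the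
values at the classes of the generators `γ x`. -/
theorem rthkcg_exists [Fact P.p.Prime]
    (hTW : IsTWFamily P.p Y.ρbar (Y.Smin ∪ Finset.univ.image Y.r) n h qv)
    {M : ℕ} (hM0 : M ≠ 0) (hM : ∀ x, rthkcgV Y qv x ∣ M) (γ : Fin h ⊕ Y.ι → (ZMod M)ˣ)
    (hγ1 : ∀ x y, y ≠ x → ZMod.unitsMap (hM y) (γ x) = 1)
    (hγ2 : ∀ x, ¬ ∃ y : (ZMod (rthkcgV Y qv x))ˣ, y ^ P.p = ZMod.unitsMap (hM x) (γ x)) :
    ∃ ψ1 ψχ : RthkdDelta M (rthkdH P.p (rthkcgV Y qv) (rthkciExp h Y.ι (n + 1)) M hM) →*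
        RthkSn Y.O (Y.m h) (n + 1),
      (∀ δ, Ideal.Quotient.factor
          (le_sup_right : maximalIdeal (RttwS Y.O (Y.m h)) ^ (n + 1) ≤
            rttwLam (Y.m h) Y.lam ⊔ maximalIdeal (RttwS Y.O (Y.m h)) ^ (n + 1)) (ψ1 δ) =
        Ideal.Quotient.factor
          (le_sup_right : maximalIdeal (RttwS Y.O (Y.m h)) ^ (n + 1) ≤
            rttwLam (Y.m h) Y.lam ⊔ maximalIdeal (RttwS Y.O (Y.m h)) ^ (n + 1)) (ψχ δ)) ∧
      (∀ δ, Ideal.Quotient.factor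
          (le_sup_right : maximalIdeal (RttwS Y.O (Y.m h)) ^ (n + 1) ≤
            rttwAug Y.O (Y.m h) ⊔ maximalIdeal (RttwS Y.O (Y.m h)) ^ (n + 1)) (ψ1 δ) = 1) ∧
      (∀ i : Y.ι,
        ψ1 (QuotientGroup.mk (γ (Sum.inr i))) = 1 ∧
        ψχ (QuotientGroup.mk (γ (Sum.inr i))) + ψχ (QuotientGroup.mk (γ (Sum.inr i)))⁻¹
          = algebraMap Y.O (RthkSn Y.O (Y.m h) (n + 1)) (2 * Y.tχ i)) ∧
      (∀ (j : Fin (Y.m h)) (hj : (j : ℕ) < h),
        ψ1 (QuotientGroup.mk (γ (Sum.inl ⟨j, hj⟩)))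
            - ψ1 (QuotientGroup.mk (γ (Sum.inl ⟨j, hj⟩)))⁻¹
          = Ideal.Quotient.mk (maximalIdeal (RttwS Y.O (Y.m h)) ^ (n + 1))
              (MvPowerSeries.X j) ∧
        ψχ (QuotientGroup.mk (γ (Sum.inl ⟨j, hj⟩)))
            - ψχ (QuotientGroup.mk (γ (Sum.inl ⟨j, hj⟩)))⁻¹
          = Ideal.Quotient.mk (maximalIdeal (RttwS Y.O (Y.m h)) ^ (n + 1))
              (MvPowerSeries.X j)) := by
  classical
  obtain ⟨κγ, hgen, -⟩ := rthkgb_equiv (p := P.p) (k := rthkciExp h Y.ι (n + 1)) P.pp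
    Y.hyp.hp2 (rthkcg_v_inj Y hTW) (rthkcg_v_prime Y hTW) (rthkcg_pow_dvd Y hTW) hM0 hM γ hγ1
    (fun x _ => hγ2 x)
  obtain ⟨h1, h2, h3, h4⟩ := rthkci_Y_main Y h (n + 1) κγ.toMonoidHom
  refine ⟨(rthkciPsi1Y Y h (n + 1)).comp κγ.toMonoidHom,
    (rthkciPsiχY Y h (n + 1)).comp κγ.toMonoidHom, h1, h2, fun i => ?_, fun j hj => ?_⟩
  · exact h3 i _ (hgen (Sum.inr i))
  · exact h4 j hj _ (hgen (Sum.inl ⟨j, hj⟩))

end Chars

end Fermat.Agent.RT
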