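/-
RT-HECKE / HK-MAT (helper27): matrices of `Δ`-linear operators on a free `C[Δ]`-module.
-/
import Mathlib

/-!
# K-machine, HECKE-asm, piece HK-MAT: matrices of `Δ`-linear operators

Sub-captain helper59 (`NOTES/RT-K7.md`, HECKE-asm).

`C` a commutative ring, `Δ` a finite commutative group, `X` a `C`-module with an action
`D : Δ →* AddMonoid.End X` by `C`-linear maps and `b : Fin r → X` with the UNIQUE EXPANSION
property `RthkmFree C D b` (every `ψ : X` is `∑ c (i, δ) • D δ (b i)` for a unique `c`), i.e.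
`X` is free over `C[Δ]` with basis `b`.  `Sn` a commutative `C`-algebra, `χ : Δ →* Sn`.

* `rthkmCoef h ψ : Fin r × Δ → C` : the coefficients of `ψ`;
* `rthkmEv h χ ψ : Fin r → Sn`, `rthkmEv h χ ψ i = ∑ δ, c (i, δ) · χ δ` : the `χ`-coordinates;
* `rthkmComm C D : Subring (AddMonoid.End X)` : the commutant of `C` and `Δ`;
* `rthkmMat h χ 𝔱 : Matrix (Fin r) (Fin r) Sn`, `(i', i) ↦ rthkmEv h χ (𝔱 (b i)) i'`;
* `rthkmPhi h χ : rthkmComm C D →+* Matrix (Fin r) (Fin r) Sn` : the ring homomorphism `Φ_χ`;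
* `rthk_m_phi_scalar`, `rthk_m_phi_D` : `Φ_χ (c • 1) = c • 1`, `Φ_χ (D δ) = χ δ • 1`;
* `rthk_m_phi_congr` : `χ ≡ χ'` modulo `I` ⇒ `Φ_χ ≡ Φ_χ'` entrywise modulo `I`;
* `rthk_m_coinv` : for `χ = 1`, `Sn = C`: `Φ_1 (𝔱)` is the matrix of `𝔱` on the coinvariants.
-/

set_option autoImplicit false

namespace Fermat.Agent.RT

/-- **The unique expansion property**: `X` is free over `C[Δ]` with basis `b`. -/
def RthkmFree (C : Type*) [CommRing C] {Δ : Type*} [CommGroup Δ] [Fintype Δ] {X : Type*}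
    [AddCommGroup X] [Module C X] (D : Δ →* AddMonoid.End X) {r : ℕ} (b : Fin r → X) : Prop :=
  (∀ (δ : Δ) (c : C) (x : X), D δ (c • x) = c • D δ x) ∧
  ∀ ψ : X, ∃! c : Fin r × Δ → C, ψ = ∑ x : Fin r × Δ, c x • D x.2 (b x.1)

section Comm

variable (C : Type*) [CommRing C] {Δ : Type*} [CommGroup Δ] {X : Type*}
  [AddCommGroup X] [Module C X] (D : Δ →* AddMonoid.End X)

/-- the commutant of `C` and `Δ` in the endomorphisms of `X` -/
def rthkmComm : Subring (AddMonoid.End X) where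
  carrier := {𝔱 | (∀ (c : C) (x : X), 𝔱 (c • x) = c • 𝔱 x) ∧ ∀ (δ : Δ) (x : X), 𝔱 (D δ x) = D δ (𝔱 x)}
  mul_mem' := by
    rintro 𝔱 𝔰 ⟨h1, h2⟩ ⟨h1', h2'⟩
    refine ⟨fun c x => ?_, fun δ x => ?_⟩
    · show 𝔱 (𝔰 (c • x)) = c • 𝔱 (𝔰 x)
      rw [h1', h1]
    · show 𝔱 (𝔰 (D δ x)) = D δ (𝔱 (𝔰 x))
      rw [h2', h2]
  one_mem' := ⟨fun _ _ => rfl, fun _ _ => rfl⟩
  add_mem' := by
    rintro 𝔱 𝔰 ⟨h1, h2⟩ ⟨h1', h2'⟩
    refine ⟨fun c x => ?_, fun δ x => ?_⟩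
    · show 𝔱 (c • x) + 𝔰 (c • x) = c • (𝔱 x + 𝔰 x)
      rw [h1, h1', smul_add]
    · show 𝔱 (D δ x) + 𝔰 (D δ x) = D δ (𝔱 x + 𝔰 x)
      rw [h2, h2', map_add]
  zero_mem' := by
    refine ⟨fun c x => ?_, fun δ x => ?_⟩
    · show (0 : X) = c • (0 : X)
      rw [smul_zero]
    · show (0 : X) = D δ (0 : X)
      rw [map_zero]
  neg_mem' := by
    rintro 𝔱 ⟨h1, h2⟩
    refine ⟨fun c x => ?_, fun δ x => ?_⟩
    · show -(𝔱 (c • x)) = c • (-(𝔱 x))
      rw [h1, smul_neg]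
    · show -(𝔱 (D δ x)) = D δ (-(𝔱 x))
      rw [h2, map_neg]

variable {C D}

theorem rthk_m_mem_comm {𝔱 : AddMonoid.End X} :
    𝔱 ∈ rthkmComm C D ↔
      (∀ (c : C) (x : X), 𝔱 (c • x) = c • 𝔱 x) ∧ ∀ (δ : Δ) (x : X), 𝔱 (D δ x) = D δ (𝔱 x) :=
  Iff.rfl

/-- the scalars are in the commutant (if `Δ` acts by `C`-linear maps) -/
theorem rthk_m_scalar_mem (hlin : ∀ (δ : Δ) (c : C) (x : X), D δ (c • x) = c • D δ x) (c : C) :
    Module.toAddMonoidEnd C X c ∈ rthkmComm C D := by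
  refine ⟨fun c' x => ?_, fun δ x => ?_⟩
  · show c • c' • x = c' • c • x
    rw [smul_comm]
  · show c • D δ x = D δ (c • x)
    rw [hlin]

/-- the operators `D δ` are in the commutant (if `Δ` acts by `C`-linear maps) -/
theorem rthk_m_D_mem (hlin : ∀ (δ : Δ) (c : C) (x : X), D δ (c • x) = c • D δ x) (δ : Δ) :
    D δ ∈ rthkmComm C D := by
  refine ⟨fun c x => hlin δ c x, fun δ' x => ?_⟩
  show (D δ * D δ') x = (D δ' * D δ) x
  rw [← map_mul, ← map_mul, mul_comm]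

end Comm

section OfBij

variable {C : Type*} [CommRing C] {Δ : Type*} [CommGroup Δ] [Fintype Δ] {X : Type*}
  [AddCommGroup X] [Module C X] {D : Δ →* AddMonoid.End X} {r : ℕ} {b : Fin r → X}

/-- the unique expansion property from an injective and surjective expansion map indexed by a
transversal `e : ι ≃ Δ` (the shape of K5's `IsFreeBasis`) -/
theorem rthk_m_free_of_bij (hlin : ∀ (δ : Δ) (c : C) (x : X), D δ (c • x) = c • D δ x)
    {ι : Type*} [Fintype ι] (e : ι ≃ Δ)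
    (hinj : Function.Injective (fun c : Fin r × ι → C =>
      ∑ x : Fin r × ι, c x • D (e x.2) (b x.1)))
    (hsurj : ∀ ψ : X, ∃ c : Fin r × ι → C, ψ = ∑ x : Fin r × ι, c x • D (e x.2) (b x.1)) :
    RthkmFree C D b := by
  have key : ∀ c : Fin r × Δ → C, ∑ x : Fin r × Δ, c x • D x.2 (b x.1)
      = ∑ y : Fin r × ι, c (y.1, e y.2) • D (e y.2) (b y.1) := by
    intro c
    refine (Fintype.sum_equiv ((Equiv.refl (Fin r)).prodCongr e) _ _ ?_).symm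
    intro y
    rfl
  refine ⟨hlin, fun ψ => ?_⟩
  obtain ⟨c', hc'⟩ := hsurj ψ
  refine ⟨fun x => c' (x.1, e.symm x.2), ?_, ?_⟩
  · show ψ = _
    rw [key]
    simpa using hc'
  · intro c₂ hc₂
    rw [key] at hc₂
    have h1 : (fun y : Fin r × ι => c₂ (y.1, e y.2)) = c' := by
      apply hinj
      show ∑ x : Fin r × ι, c₂ (x.1, e x.2) • D (e x.2) (b x.1)
        = ∑ x : Fin r × ι, c' x • D (e x.2) (b x.1)
      rw [← hc₂, ← hc']
    funext x
    have := congrFun h1 (x.1, e.symm x.2)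
    simpa using this

end OfBij

section HkMat

variable {C : Type*} [CommRing C] {Δ : Type*} [CommGroup Δ] [Fintype Δ] {X : Type*}
  [AddCommGroup X] [Module C X] {D : Δ →* AddMonoid.End X} {r : ℕ} {b : Fin r → X}

/-- the coefficients of `ψ` -/
noncomputable def rthkmCoef (h : RthkmFree C D b) (ψ : X) : Fin r × Δ → C :=
  (h.2 ψ).exists.choose

theorem rthk_m_expand (h : RthkmFree C D b) (ψ : X) :
    ψ = ∑ x : Fin r × Δ, rthkmCoef h ψ x • D x.2 (b x.1) :=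
  (h.2 ψ).exists.choose_spec

theorem rthk_m_coef_eq (h : RthkmFree C D b) {ψ : X} {c : Fin r × Δ → C}
    (hc : ψ = ∑ x : Fin r × Δ, c x • D x.2 (b x.1)) : rthkmCoef h ψ = c :=
  (h.2 ψ).unique (rthk_m_expand h ψ) hc

theorem rthk_m_coef_add (h : RthkmFree C D b) (ψ ψ' : X) :
    rthkmCoef h (ψ + ψ') = rthkmCoef h ψ + rthkmCoef h ψ' := by
  apply rthk_m_coef_eq
  simp only [Pi.add_apply, add_smul, Finset.sum_add_distrib]
  rw [← rthk_m_expand h ψ, ← rthk_m_expand h ψ']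

theorem rthk_m_coef_smul (h : RthkmFree C D b) (c : C) (ψ : X) :
    rthkmCoef h (c • ψ) = c • rthkmCoef h ψ := by
  apply rthk_m_coef_eq
  simp only [Pi.smul_apply, smul_eq_mul, mul_smul]
  rw [← Finset.smul_sum, ← rthk_m_expand h ψ]

theorem rthk_m_coef_zero (h : RthkmFree C D b) : rthkmCoef h (0 : X) = 0 := by
  apply rthk_m_coef_eq
  simp

theorem rthk_m_coef_sum (h : RthkmFree C D b) {ι : Type*} (s : Finset ι) (f : ι → X) :
    rthkmCoef h (∑ i ∈ s, f i) = ∑ i ∈ s, rthkmCoef h (f i) := by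
  classical
  induction s using Finset.induction_on with
  | empty => simp [rthk_m_coef_zero]
  | insert a s ha ih => rw [Finset.sum_insert ha, Finset.sum_insert ha, rthk_m_coef_add, ih]

/-- the coefficients of `D δ ψ`: a shift -/
theorem rthk_m_coef_D (h : RthkmFree C D b) (δ : Δ) (ψ : X) (x : Fin r × Δ) :
    rthkmCoef h (D δ ψ) x = rthkmCoef h ψ (x.1, δ⁻¹ * x.2) := by
  have key : rthkmCoef h (D δ ψ) = fun x : Fin r × Δ => rthkmCoef h ψ (x.1, δ⁻¹ * x.2) := by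
    apply rthk_m_coef_eq
    conv_lhs => rw [rthk_m_expand h ψ]
    rw [map_sum]
    have e : ∀ x : Fin r × Δ, D δ (rthkmCoef h ψ x • D x.2 (b x.1))
        = rthkmCoef h ψ x • D (δ * x.2) (b x.1) := by
      intro x
      rw [h.1, map_mul]
      rfl
    simp only [e]
    refine Fintype.sum_equiv ((Equiv.refl (Fin r)).prodCongr (Equiv.mulLeft δ)) _ _ ?_
    intro x
    simp
  rw [key]

/-- the coefficients of a basis vector -/
theorem rthk_m_coef_b (h : RthkmFree C D b) [DecidableEq Δ] (i : Fin r) :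
    rthkmCoef h (b i) = Pi.single (i, (1 : Δ)) (1 : C) := by
  classical
  apply rthk_m_coef_eq
  rw [Finset.sum_eq_single (i, (1 : Δ))]
  · simp
  · intro x _ hx
    rw [Pi.single_eq_of_ne hx, zero_smul]
  · intro hx
    exact absurd (Finset.mem_univ _) hx

variable {Sn : Type*} [CommRing Sn] [Algebra C Sn]

/-- the `χ`-coordinates of `ψ` -/
noncomputable def rthkmEv (h : RthkmFree C D b) (χ : Δ →* Sn) (ψ : X) : Fin r → Sn :=
  fun i => ∑ δ : Δ, algebraMap C Sn (rthkmCoef h ψ (i, δ)) * χ δ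

theorem rthk_m_ev_add (h : RthkmFree C D b) (χ : Δ →* Sn) (ψ ψ' : X) :
    rthkmEv h χ (ψ + ψ') = rthkmEv h χ ψ + rthkmEv h χ ψ' := by
  funext i
  simp only [rthkmEv, rthk_m_coef_add, Pi.add_apply, map_add, add_mul, Finset.sum_add_distrib]

theorem rthk_m_ev_zero (h : RthkmFree C D b) (χ : Δ →* Sn) : rthkmEv h χ (0 : X) = 0 := by
  funext i
  simp [rthkmEv, rthk_m_coef_zero]

theorem rthk_m_ev_smul (h : RthkmFree C D b) (χ : Δ →* Sn) (c : C) (ψ : X) :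
    rthkmEv h χ (c • ψ) = algebraMap C Sn c • rthkmEv h χ ψ := by
  funext i
  simp only [rthkmEv, rthk_m_coef_smul, Pi.smul_apply, smul_eq_mul, map_mul, Finset.mul_sum,
    mul_assoc]

theorem rthk_m_ev_sum (h : RthkmFree C D b) (χ : Δ →* Sn) {ι : Type*} (s : Finset ι)
    (f : ι → X) : rthkmEv h χ (∑ i ∈ s, f i) = ∑ i ∈ s, rthkmEv h χ (f i) := by
  classical
  induction s using Finset.induction_on with
  | empty => simp [rthk_m_ev_zero]
  | insert a s ha ih => rw [Finset.sum_insert ha, Finset.sum_insert ha, rthk_m_ev_add, ih]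

/-- `D δ` acts on the `χ`-coordinates through `χ δ` -/
theorem rthk_m_ev_D (h : RthkmFree C D b) (χ : Δ →* Sn) (δ : Δ) (ψ : X) :
    rthkmEv h χ (D δ ψ) = χ δ • rthkmEv h χ ψ := by
  funext i
  simp only [rthkmEv, Pi.smul_apply, smul_eq_mul, rthk_m_coef_D, Finset.mul_sum]
  refine Fintype.sum_equiv (Equiv.mulLeft δ⁻¹) _ _ ?_
  intro δ'
  simp only [Equiv.coe_mulLeft]
  have e : χ δ' = χ δ * χ (δ⁻¹ * δ') := by rw [← map_mul, mul_inv_cancel_left]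
  rw [e]
  ring

/-- the `χ`-coordinates of a basis vector -/
theorem rthk_m_ev_b (h : RthkmFree C D b) (χ : Δ →* Sn) (i : Fin r) :
    rthkmEv h χ (b i) = Pi.single i 1 := by
  classical
  funext i'
  simp only [rthkmEv, rthk_m_coef_b h i]
  by_cases hi : i' = i
  · subst hi
    rw [Pi.single_eq_same, Finset.sum_eq_single (1 : Δ)]
    · simp
    · intro δ _ hδ
      rw [Pi.single_eq_of_ne (by simpa using hδ), map_zero, zero_mul]
    · intro hx
      exact absurd (Finset.mem_univ _) hx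
  · rw [Pi.single_eq_of_ne hi]
    refine Finset.sum_eq_zero fun δ _ => ?_
    rw [Pi.single_eq_of_ne (by simp [hi]), map_zero, zero_mul]

/-- the matrix of `𝔱` in the `χ`-coordinates -/
noncomputable def rthkmMat (h : RthkmFree C D b) (χ : Δ →* Sn) (𝔱 : AddMonoid.End X) :
    Matrix (Fin r) (Fin r) Sn :=
  Matrix.of fun i' i => rthkmEv h χ (𝔱 (b i)) i'

theorem rthkmMat_apply (h : RthkmFree C D b) (χ : Δ →* Sn) (𝔱 : AddMonoid.End X) (i' i : Fin r) :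
    rthkmMat h χ 𝔱 i' i = rthkmEv h χ (𝔱 (b i)) i' := rfl

/-- **the key formula**: an operator of the commutant acts on the `χ`-coordinates through its
matrix -/
theorem rthk_m_ev_apply (h : RthkmFree C D b) (χ : Δ →* Sn) {𝔱 : AddMonoid.End X}
    (h𝔱 : 𝔱 ∈ rthkmComm C D) (ψ : X) :
    rthkmEv h χ (𝔱 ψ) = (rthkmMat h χ 𝔱).mulVec (rthkmEv h χ ψ) := by
  have e1 : 𝔱 ψ = ∑ x : Fin r × Δ, rthkmCoef h ψ x • D x.2 (𝔱 (b x.1)) := by
    conv_lhs => rw [rthk_m_expand h ψ]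
    rw [map_sum]
    refine Finset.sum_congr rfl fun x _ => ?_
    rw [h𝔱.1, h𝔱.2]
  rw [e1, rthk_m_ev_sum]
  funext i'
  rw [Finset.sum_apply, Matrix.mulVec, dotProduct, Fintype.sum_prod_type]
  refine Finset.sum_congr rfl fun i _ => ?_
  simp only [rthk_m_ev_smul, rthk_m_ev_D, Pi.smul_apply, smul_eq_mul, rthkmMat_apply]
  have e2 : rthkmEv h χ ψ i = ∑ δ : Δ, algebraMap C Sn (rthkmCoef h ψ (i, δ)) * χ δ := rfl
  rw [e2, Finset.mul_sum]
  refine Finset.sum_congr rfl fun δ _ => ?_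
  ring

theorem rthkmMat_one (h : RthkmFree C D b) (χ : Δ →* Sn) :
    rthkmMat h χ (1 : AddMonoid.End X) = 1 := by
  classical
  ext i' i
  rw [rthkmMat_apply]
  show rthkmEv h χ (b i) i' = _
  rw [rthk_m_ev_b, Matrix.one_apply, Pi.single_apply]

theorem rthkmMat_mul (h : RthkmFree C D b) (χ : Δ →* Sn) {𝔱 : AddMonoid.End X}
    (h𝔱 : 𝔱 ∈ rthkmComm C D) (𝔰 : AddMonoid.End X) :
    rthkmMat h χ (𝔱 * 𝔰) = rthkmMat h χ 𝔱 * rthkmMat h χ 𝔰 := by
  ext i' i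
  rw [rthkmMat_apply]
  show rthkmEv h χ (𝔱 (𝔰 (b i))) i' = _
  rw [rthk_m_ev_apply h χ h𝔱, Matrix.mul_apply, Matrix.mulVec, dotProduct]
  rfl

theorem rthkmMat_zero (h : RthkmFree C D b) (χ : Δ →* Sn) :
    rthkmMat h χ (0 : AddMonoid.End X) = 0 := by
  ext i' i
  rw [rthkmMat_apply]
  show rthkmEv h χ (0 : X) i' = _
  rw [rthk_m_ev_zero]
  rfl

theorem rthkmMat_add (h : RthkmFree C D b) (χ : Δ →* Sn) (𝔱 𝔰 : AddMonoid.End X) :
    rthkmMat h χ (𝔱 + 𝔰) = rthkmMat h χ 𝔱 + rthkmMat h χ 𝔰 := by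
  ext i' i
  rw [rthkmMat_apply]
  show rthkmEv h χ (𝔱 (b i) + 𝔰 (b i)) i' = _
  rw [rthk_m_ev_add]
  rfl

/-- **`Φ_χ`**: the ring homomorphism from the commutant to the matrices. -/
noncomputable def rthkmPhi (h : RthkmFree C D b) (χ : Δ →* Sn) :
    rthkmComm C D →+* Matrix (Fin r) (Fin r) Sn where
  toFun 𝔱 := rthkmMat h χ (𝔱 : AddMonoid.End X)
  map_one' := rthkmMat_one h χ
  map_mul' 𝔱 𝔰 := rthkmMat_mul h χ 𝔱.2 𝔰
  map_zero' := rthkmMat_zero h χ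
  map_add' 𝔱 𝔰 := rthkmMat_add h χ 𝔱 𝔰

theorem rthkmPhi_apply (h : RthkmFree C D b) (χ : Δ →* Sn) (𝔱 : rthkmComm C D) :
    rthkmPhi h χ 𝔱 = rthkmMat h χ (𝔱 : AddMonoid.End X) := rfl

/-- **scalars**: `Φ_χ (c • 1) = c • 1` -/
theorem rthk_m_mat_scalar (h : RthkmFree C D b) (χ : Δ →* Sn) (c : C) :
    rthkmMat h χ (Module.toAddMonoidEnd C X c) = algebraMap C Sn c • (1 : Matrix _ _ Sn) := by
  classical
  ext i' i
  rw [rthkmMat_apply]
  show rthkmEv h χ (c • b i) i' = _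
  rw [rthk_m_ev_smul, rthk_m_ev_b, Matrix.smul_apply, Matrix.one_apply, Pi.smul_apply,
    Pi.single_apply]

/-- **the group**: `Φ_χ (D δ) = χ δ • 1` -/
theorem rthk_m_mat_D (h : RthkmFree C D b) (χ : Δ →* Sn) (δ : Δ) :
    rthkmMat h χ (D δ) = χ δ • (1 : Matrix _ _ Sn) := by
  classical
  ext i' i
  rw [rthkmMat_apply, rthk_m_ev_D, rthk_m_ev_b, Matrix.smul_apply, Matrix.one_apply,
    Pi.smul_apply, Pi.single_apply]

theorem rthk_m_phi_scalar (h : RthkmFree C D b) (χ : Δ →* Sn) (c : C) :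
    rthkmPhi h χ ⟨Module.toAddMonoidEnd C X c, rthk_m_scalar_mem h.1 c⟩
      = algebraMap C Sn c • (1 : Matrix _ _ Sn) :=
  rthk_m_mat_scalar h χ c

theorem rthk_m_phi_D (h : RthkmFree C D b) (χ : Δ →* Sn) (δ : Δ) :
    rthkmPhi h χ ⟨D δ, rthk_m_D_mem h.1 δ⟩ = χ δ • (1 : Matrix _ _ Sn) :=
  rthk_m_mat_D h χ δ

/-- **congruence** of the coordinates -/
theorem rthk_m_ev_congr (h : RthkmFree C D b) (I : Ideal Sn) (χ χ' : Δ →* Sn)
    (hχ : ∀ δ, χ δ - χ' δ ∈ I) (ψ : X) (i : Fin r) :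
    rthkmEv h χ ψ i - rthkmEv h χ' ψ i ∈ I := by
  simp only [rthkmEv]
  rw [← Finset.sum_sub_distrib]
  refine Ideal.sum_mem _ fun δ _ => ?_
  rw [← mul_sub]
  exact Ideal.mul_mem_left _ _ (hχ δ)

/-- **congruence**: `χ ≡ χ'` modulo `I` ⇒ `Φ_χ ≡ Φ_χ'` entrywise modulo `I` -/
theorem rthk_m_mat_congr (h : RthkmFree C D b) (I : Ideal Sn) (χ χ' : Δ →* Sn)
    (hχ : ∀ δ, χ δ - χ' δ ∈ I) (𝔱 : AddMonoid.End X) (i' i : Fin r) :
    rthkmMat h χ 𝔱 i' i - rthkmMat h χ' 𝔱 i' i ∈ I :=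
  rthk_m_ev_congr h I χ χ' hχ _ _

theorem rthk_m_phi_congr (h : RthkmFree C D b) (I : Ideal Sn) (χ χ' : Δ →* Sn)
    (hχ : ∀ δ, χ δ - χ' δ ∈ I) (𝔱 : rthkmComm C D) (i' i : Fin r) :
    rthkmPhi h χ 𝔱 i' i - rthkmPhi h χ' 𝔱 i' i ∈ I :=
  rthk_m_mat_congr h I χ χ' hχ _ _ _

/-- **functoriality** in the coefficients -/
theorem rthk_m_ev_map (h : RthkmFree C D b) {Sn' : Type*} [CommRing Sn'] [Algebra C Sn']
    (φ : Sn →ₐ[C] Sn') (χ : Δ →* Sn) (ψ : X) (i : Fin r) :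
    φ (rthkmEv h χ ψ i) = rthkmEv h ((φ : Sn →* Sn').comp χ) ψ i := by
  simp only [rthkmEv, map_sum, map_mul, AlgHom.commutes, MonoidHom.comp_apply]
  rfl

theorem rthk_m_mat_map (h : RthkmFree C D b) {Sn' : Type*} [CommRing Sn'] [Algebra C Sn']
    (φ : Sn →ₐ[C] Sn') (χ : Δ →* Sn) (𝔱 : AddMonoid.End X) :
    (rthkmMat h χ 𝔱).map φ = rthkmMat h ((φ : Sn →* Sn').comp χ) 𝔱 := by
  ext i' i
  rw [Matrix.map_apply, rthkmMat_apply, rthkmMat_apply, rthk_m_ev_map]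

/-- **`χ`-equivariant maps**: an additive map `N : X → Y` into an `Sn`-module which is
`C`-semilinear and through which `Δ` acts by `χ` is determined by the `N (b i)`. -/
theorem rthk_m_equivariant (h : RthkmFree C D b) (χ : Δ →* Sn) {Y : Type*} [AddCommGroup Y]
    [Module Sn Y] (N : X →+ Y) (hN1 : ∀ (c : C) (x : X), N (c • x) = algebraMap C Sn c • N x)
    (hN2 : ∀ (δ : Δ) (x : X), N (D δ x) = χ δ • N x) (ψ : X) :
    N ψ = ∑ i : Fin r, rthkmEv h χ ψ i • N (b i) := by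
  conv_lhs => rw [rthk_m_expand h ψ]
  rw [map_sum, Fintype.sum_prod_type]
  refine Finset.sum_congr rfl fun i _ => ?_
  rw [rthkmEv, Finset.sum_smul]
  refine Finset.sum_congr rfl fun δ _ => ?_
  rw [hN1, hN2, smul_smul]

/-- **the coinvariants** (`χ = 1`, `Sn = C`): for a `C`-linear `N : X → Y` with `N ∘ D δ = N`
(e.g. the corestriction), `Φ_1 (𝔱)` is the matrix of `𝔱` in the family `N (b i)`:
`N (𝔱 (b i)) = ∑ i', Φ_1 (𝔱) i' i • N (b i')`. -/
theorem rthk_m_coinv (h : RthkmFree C D b) {Y : Type*} [AddCommGroup Y] [Module C Y]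
    (N : X →+ Y) (hN1 : ∀ (c : C) (x : X), N (c • x) = c • N x)
    (hN2 : ∀ (δ : Δ) (x : X), N (D δ x) = N x) (𝔱 : AddMonoid.End X) (i : Fin r) :
    N (𝔱 (b i)) = ∑ i' : Fin r, rthkmMat h (1 : Δ →* C) 𝔱 i' i • N (b i') :=
  rthk_m_equivariant h (1 : Δ →* C) N (fun c x => by rw [hN1]; rfl)
    (fun δ x => by rw [hN2, MonoidHom.one_apply, one_smul]) _

/-- the coinvariants: if moreover `𝔱' ∘ N = N ∘ 𝔱`, then `𝔱' (N (b i)) = ∑ Φ_1 (𝔱) i' i • N (b i')` -/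
theorem rthk_m_coinv' (h : RthkmFree C D b) {Y : Type*} [AddCommGroup Y] [Module C Y]
    (N : X →+ Y) (hN1 : ∀ (c : C) (x : X), N (c • x) = c • N x)
    (hN2 : ∀ (δ : Δ) (x : X), N (D δ x) = N x) (𝔱 : AddMonoid.End X) (𝔱' : AddMonoid.End Y)
    (hcomm : ∀ x, 𝔱' (N x) = N (𝔱 x)) (i : Fin r) :
    𝔱' (N (b i)) = ∑ i' : Fin r, rthkmMat h (1 : Δ →* C) 𝔱 i' i • N (b i') := by
  rw [hcomm]
  exact rthk_m_coinv h N hN1 hN2 𝔱 i

/-- the `χ`-coordinates of a combination of the basis vectors -/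
theorem rthk_m_ev_comb (h : RthkmFree C D b) (χ : Δ →* Sn) (c : Fin r → C) :
    rthkmEv h χ (∑ i : Fin r, c i • b i) = fun i => algebraMap C Sn (c i) := by
  classical
  rw [rthk_m_ev_sum]
  funext i'
  rw [Finset.sum_apply, Finset.sum_eq_single i']
  · rw [rthk_m_ev_smul, rthk_m_ev_b, Pi.smul_apply, Pi.single_eq_same, smul_eq_mul, mul_one]
  · intro i _ hi
    rw [rthk_m_ev_smul, rthk_m_ev_b, Pi.smul_apply, Pi.single_eq_of_ne (Ne.symm hi), smul_zero]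
  · intro hx
    exact absurd (Finset.mem_univ _) hx

variable (D) in
/-- the augmentation subgroup `⟨D δ x − x⟩` -/
def rthkmAug : AddSubgroup X := AddSubgroup.closure {y | ∃ (δ : Δ) (x : X), y = D δ x - x}

/-- the trivial coordinates of `ψ` -/
theorem rthk_m_ev_one (h : RthkmFree C D b) (ψ : X) (i : Fin r) :
    rthkmEv h (1 : Δ →* C) ψ i = ∑ δ : Δ, rthkmCoef h ψ (i, δ) := by
  simp [rthkmEv]

/-- modulo the augmentation subgroup, `ψ` is the combination of the `b i` with the trivial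
coordinates -/
theorem rthk_m_sub_mem_aug (h : RthkmFree C D b) (ψ : X) :
    ψ - ∑ i : Fin r, rthkmEv h (1 : Δ →* C) ψ i • b i ∈ rthkmAug D := by
  have e : ψ - ∑ i : Fin r, rthkmEv h (1 : Δ →* C) ψ i • b i
      = ∑ x : Fin r × Δ, (D x.2 (rthkmCoef h ψ x • b x.1) - rthkmCoef h ψ x • b x.1) := by
    rw [Finset.sum_sub_distrib, Fintype.sum_prod_type (f := fun x : Fin r × Δ =>
      rthkmCoef h ψ x • b x.1)]
    congr 1
    · conv_lhs => rw [rthk_m_expand h ψ]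
      refine Finset.sum_congr rfl fun x _ => ?_
      rw [h.1]
    · refine Finset.sum_congr rfl fun i _ => ?_
      rw [rthk_m_ev_one, Finset.sum_smul]
  rw [e]
  refine AddSubgroup.sum_mem _ fun x _ => ?_
  exact AddSubgroup.subset_closure ⟨x.2, _, rfl⟩

/-- the trivial coordinates vanish on the augmentation subgroup -/
theorem rthk_m_ev_eq_zero_of_mem_aug (h : RthkmFree C D b) {ψ : X} (hψ : ψ ∈ rthkmAug D) :
    rthkmEv h (1 : Δ →* C) ψ = 0 := by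
  induction hψ using AddSubgroup.closure_induction with
  | mem y hy =>
    obtain ⟨δ, x, rfl⟩ := hy
    have e : D δ x = (D δ x - x) + x := by abel
    have h1 := rthk_m_ev_D h (1 : Δ →* C) δ x
    rw [e, rthk_m_ev_add, MonoidHom.one_apply, one_smul] at h1
    exact add_eq_right.mp h1
  | zero => exact rthk_m_ev_zero h _
  | add x y _ _ hx hy => rw [rthk_m_ev_add, hx, hy, add_zero]
  | neg x _ hx =>
    have h1 := rthk_m_ev_add h (1 : Δ →* C) x (-x)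
    rw [add_neg_cancel, rthk_m_ev_zero, hx, zero_add] at h1
    exact h1.symm

/-- **the coinvariants are free on the images of the `b i`**: `ψ ∈ ⟨D δ x − x⟩` iff the trivial
coordinates of `ψ` vanish -/
theorem rthk_m_mem_aug_iff (h : RthkmFree C D b) (ψ : X) :
    ψ ∈ rthkmAug D ↔ rthkmEv h (1 : Δ →* C) ψ = 0 := by
  refine ⟨rthk_m_ev_eq_zero_of_mem_aug h, fun h0 => ?_⟩
  have h1 := rthk_m_sub_mem_aug h ψ
  rw [h0] at h1
  simpa using h1

/-- `Φ_1 (𝔱)` is the matrix of `𝔱` on the coinvariants `X ⧸ ⟨D δ x − x⟩` in the images of the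
`b i` -/
theorem rthk_m_coinv_aug (h : RthkmFree C D b) (𝔱 : AddMonoid.End X) (i : Fin r) :
    𝔱 (b i) - ∑ i' : Fin r, rthkmMat h (1 : Δ →* C) 𝔱 i' i • b i' ∈ rthkmAug D :=
  rthk_m_sub_mem_aug h (𝔱 (b i))

/-- `Φ_χ` on a ring acting on `X` through the commutant -/
noncomputable def rthkmPhiOf (h : RthkmFree C D b) (χ : Δ →* Sn) {𝕋 : Type*} [Ring 𝕋]
    (act : 𝕋 →+* AddMonoid.End X) (hact : ∀ t, act t ∈ rthkmComm C D) :
    𝕋 →+* Matrix (Fin r) (Fin r) Sn :=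
  (rthkmPhi h χ).comp (act.codRestrict (rthkmComm C D) hact)

theorem rthkmPhiOf_apply (h : RthkmFree C D b) (χ : Δ →* Sn) {𝕋 : Type*} [Ring 𝕋]
    (act : 𝕋 →+* AddMonoid.End X) (hact : ∀ t, act t ∈ rthkmComm C D) (t : 𝕋) :
    rthkmPhiOf h χ act hact t = rthkmMat h χ (act t) := rfl

end HkMat

section Base

variable {C : Type*} [CommRing C] {Δ : Type*} [CommGroup Δ] [Fintype Δ] {X : Type*}
  [AddCommGroup X] [Module C X] {D : Δ →* AddMonoid.End X} {r : ℕ} {b : Fin r → X}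
  {C' : Type*} [CommRing C'] {X' : Type*} [AddCommGroup X'] [Module C' X']
  {D' : Δ →* AddMonoid.End X'} {b' : Fin r → X'}
  {Sn : Type*} [CommRing Sn] [Algebra C Sn] {Sn' : Type*} [CommRing Sn'] [Algebra C' Sn']

/-- **base change** of the coefficients: `ρ : X → X'` semilinear over `φ : C → C'`,
`Δ`-equivariant, `ρ (b i) = b' i` -/
theorem rthk_m_coef_base (h : RthkmFree C D b) (h' : RthkmFree C' D' b') (φ : C →+* C')
    (ρ : X →+ X') (hρ1 : ∀ (c : C) (x : X), ρ (c • x) = φ c • ρ x)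
    (hρ2 : ∀ (δ : Δ) (x : X), ρ (D δ x) = D' δ (ρ x)) (hρ3 : ∀ i, ρ (b i) = b' i) (ψ : X) :
    rthkmCoef h' (ρ ψ) = fun x => φ (rthkmCoef h ψ x) := by
  apply rthk_m_coef_eq
  conv_lhs => rw [rthk_m_expand h ψ]
  rw [map_sum]
  refine Finset.sum_congr rfl fun x _ => ?_
  rw [hρ1, hρ2, hρ3]

theorem rthk_m_ev_base (h : RthkmFree C D b) (h' : RthkmFree C' D' b') (φ : C →+* C')
    (ρ : X →+ X') (hρ1 : ∀ (c : C) (x : X), ρ (c • x) = φ c • ρ x)
    (hρ2 : ∀ (δ : Δ) (x : X), ρ (D δ x) = D' δ (ρ x)) (hρ3 : ∀ i, ρ (b i) = b' i)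
    (g : Sn →+* Sn') (hg : ∀ c : C, g (algebraMap C Sn c) = algebraMap C' Sn' (φ c))
    (χ : Δ →* Sn) (χ' : Δ →* Sn') (hχ : ∀ δ, χ' δ = g (χ δ)) (ψ : X) (i : Fin r) :
    rthkmEv h' χ' (ρ ψ) i = g (rthkmEv h χ ψ i) := by
  simp only [rthkmEv, rthk_m_coef_base h h' φ ρ hρ1 hρ2 hρ3, map_sum, map_mul, hg, hχ]

/-- **base change** of the matrices -/
theorem rthk_m_mat_base (h : RthkmFree C D b) (h' : RthkmFree C' D' b') (φ : C →+* C')
    (ρ : X →+ X') (hρ1 : ∀ (c : C) (x : X), ρ (c • x) = φ c • ρ x)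
    (hρ2 : ∀ (δ : Δ) (x : X), ρ (D δ x) = D' δ (ρ x)) (hρ3 : ∀ i, ρ (b i) = b' i)
    (g : Sn →+* Sn') (hg : ∀ c : C, g (algebraMap C Sn c) = algebraMap C' Sn' (φ c))
    (χ : Δ →* Sn) (χ' : Δ →* Sn') (hχ : ∀ δ, χ' δ = g (χ δ))
    (𝔱 : AddMonoid.End X) (𝔱' : AddMonoid.End X') (h𝔱 : ∀ x, 𝔱' (ρ x) = ρ (𝔱 x)) :
    rthkmMat h' χ' 𝔱' = (rthkmMat h χ 𝔱).map g := by
  ext i' i
  rw [Matrix.map_apply, rthkmMat_apply, rthkmMat_apply, ← hρ3, h𝔱,
    rthk_m_ev_base h h' φ ρ hρ1 hρ2 hρ3 g hg χ χ' hχ]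

end Base

end Fermat.Agent.RT
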