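import Fermat.Agent.RT.Hecke.Sub
import Fermat.Agent.RT.Hecke.Mat

/-!
# K-machine, HECKE-asm, HK-CONC (skeleton): from a free `C[Δ]`-module with Hecke action to the
module side `HkLevelW`

`HkConc` : the module side in its NATURAL form.  `C` the coefficient ring (`𝒪 ⧸ 𝔪 ^ n`), `Δ` the
diamond group (a finite commutative `p`-group), `X` the `Θ`-part of `Hom(Γ_{H'}(L), C)` with
`D : Δ →* End X`, free over `C[Δ]` with basis `b` (`RthkmFree`, K5 `stmtFreeFin`),
`act : 𝕋 →+* End X` the Hecke action, `ψ1, ψχ : Δ →* S ⧸ 𝔪 ^ n` the two characters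
(`[δ_q]^e ↦ u_q`; `Δ_T → 1` resp. `ζ`).  Fields:

* `faith`, `nil`, `resid` : as operators on `X` (HK-FAITH, K5-LOC);
* `cong` : `ψ1 ≡ ψχ` modulo `λ`;  `aug` : `ψ1 ≡ 1` modulo `𝔞`;
* `trT`, `trQ` : K6: the exact representative `x` of `σ` acts as `D δ + D δ⁻¹`
  (`x = δ_c^e + δ_c^{−e}`, `δ` = the class of `c^e`), with the values of `ψ1, ψχ` on `δ`;
* `base` : the matrix of `Tr ℓ` on the coinvariants (`χ = 1`) is the base matrix `a0 ℓ`
  (`rthk_m_coinv'` + K5-BASE/TWIter).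

`rthk_conc : HkConc … → HkLevelW … (rthkcPhi … ψ1) (rthkcPhi … ψχ)`.
-/

set_option autoImplicit false
set_option linter.unusedSectionVars false

namespace Fermat.Agent.RT

open IsLocalRing Fermat.Agent.ES Fermat.Agent.S30 Fermat.Agent.W1 Fermat.Agent.TW
open Fermat.Agent.RT.Prod

section Conc

variable {O : Type} [CommRing O] [IsLocalRing O]

/-- **The module side in its natural form.** -/
structure HkConc (p : ℕ) [Fact p.Prime] (lam : O) (ρbar : ResidualGaloisRep (ResidueField O))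
    (Sbad : Finset ℕ) {ι : Type} (σ : ι → GQ) (tχ : ι → O) (m h d n : ℕ)
    (a0 : ℕ → Matrix (Fin d) (Fin d) O)
    (L : ℕ) {𝕋 : Type} [CommRing 𝕋] (J : Type) [AddCommGroup J] [Module 𝕋 J]
    [DistribMulAction GQ J] (Tr : ℕ → 𝕋)
    (C : Type) [CommRing C] [Algebra O C] [Algebra C (RthkSn O m n)]
    [IsScalarTower O C (RthkSn O m n)]
    {Δ : Type} [CommGroup Δ] [Fintype Δ] {X : Type} [AddCommGroup X] [Module C X]
    (D : Δ →* AddMonoid.End X) (b : Fin d → X) (act : 𝕋 →+* AddMonoid.End X)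
    (ψ1 ψχ : Δ →* RthkSn O m n) : Prop where
  pkg : Rtk7bPkg p L J Tr
  primes : ∀ q : ℕ, q.Prime → q ∉ Sbad → ¬ q ∣ L * p
  model : ∀ k : ℕ, ∃ (X : Type) (_ : AddCommGroup X) (_ : Finite X) (act : GQ → X → X),
      (∀ s x x', act s (x + x') = act s x + act s x') ∧
      (∀ s s' x, act (s * s') x = act s (act s' x)) ∧
      HasFiniteFlatModel (GaloisRep.ratLocalizedAt p) X act ∧
      ∀ e : GQ →₀ ℤ, (∀ x : X, (e.sum fun g z => z • act g x) = 0) →
        ∀ x : J, p ^ k • x = 0 → (e.sum fun g z => z • g • x) = 0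
  /-- `X` is free over `C[Δ]` with basis `b` -/
  free : RthkmFree C D b
  /-- the Hecke operators commute with `C` and `Δ` -/
  act_comm : ∀ x, act x ∈ rthkmComm C D
  faith : ∃ n₀ : ℕ, ∀ x ∈ rthksE p J (𝕋 := 𝕋), (∀ y : J, p ^ n₀ • y = 0 → x • y = 0) →
    act x = 0
  nil : ∀ x ∈ rthksE p J (𝕋 := 𝕋), ∃ c : O,
    IsNilpotent (act x - Module.toAddMonoidEnd C X (algebraMap O C c))
  resid : ∀ ℓ : ℕ, ℓ.Prime → ¬ ℓ ∣ L * p →
    ∀ P : ValuationSubring (AlgebraicClosure ℚ), P.LiesOverPrime ℓ →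
      ∀ τ : GQ, P.IsFrobeniusAt τ ℓ → ∃ c : O,
        residue O c = LinearMap.trace (ResidueField O) ρbar.V (ρbar.ρ τ) ∧
        IsNilpotent (act (Tr ℓ) - Module.toAddMonoidEnd C X (algebraMap O C c))
  /-- `ψ1 ≡ ψχ` modulo `λ` -/
  cong : ∀ δ : Δ,
    Ideal.Quotient.factor (le_sup_right : maximalIdeal (RttwS O m) ^ n ≤
        rttwLam m lam ⊔ maximalIdeal (RttwS O m) ^ n) (ψ1 δ) =
      Ideal.Quotient.factor (le_sup_right : maximalIdeal (RttwS O m) ^ n ≤
        rttwLam m lam ⊔ maximalIdeal (RttwS O m) ^ n) (ψχ δ)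
  /-- `ψ1 ≡ 1` modulo `𝔞` -/
  aug : ∀ δ : Δ,
    Ideal.Quotient.factor (le_sup_right : maximalIdeal (RttwS O m) ^ n ≤
        rttwAug O m ⊔ maximalIdeal (RttwS O m) ^ n) (ψ1 δ) = 1
  /-- K6 at the trivial primes -/
  trT : ∀ i, ∃ (x : 𝕋) (δ : Δ),
    (∀ k, Rtk7bApprox p J (fun n g => ((cycE p n g : ℕ) : 𝕋)) k (σ i) x) ∧
    act x = D δ + D δ⁻¹ ∧ ψ1 δ = 1 ∧
    ψχ δ + ψχ δ⁻¹ = algebraMap O (RthkSn O m n) (2 * tχ i)
  /-- K6 at the Taylor–Wiles primes -/
  trQ : ∀ j : Fin m, (j : ℕ) < h → ∃ (g : GQ) (x : 𝕋) (δ : Δ),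
    (∀ k, Rtk7bApprox p J (fun n g => ((cycE p n g : ℕ) : 𝕋)) k g x) ∧
    act x = D δ + D δ⁻¹ ∧
    ψ1 δ - ψ1 δ⁻¹ = Ideal.Quotient.mk _ (MvPowerSeries.X j) ∧
    ψχ δ - ψχ δ⁻¹ = Ideal.Quotient.mk _ (MvPowerSeries.X j)
  /-- the base: the matrix of `Tr ℓ` on the coinvariants -/
  base : ∀ ℓ : ℕ, ℓ.Prime → ¬ ℓ ∣ L * p →
    rthkmMat free (1 : Δ →* C) (act (Tr ℓ)) = (a0 ℓ).map (algebraMap O C)

variable {d m n : ℕ} {𝕋 : Type} [CommRing 𝕋]
  {C : Type} [CommRing C] [Algebra O C] [Algebra C (RthkSn O m n)]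
  [IsScalarTower O C (RthkSn O m n)]
  {Δ : Type} [CommGroup Δ] [Fintype Δ] {X : Type} [AddCommGroup X] [Module C X]
  {D : Δ →* AddMonoid.End X} {b : Fin d → X}

/-- the matrices of the Hecke operators in the `χ`-coordinates -/
noncomputable def rthkcPhi (hfree : RthkmFree C D b) (act : 𝕋 →+* AddMonoid.End X)
    (hact : ∀ x, act x ∈ rthkmComm C D) (χ : Δ →* RthkSn O m n) :
    𝕋 →+* Matrix (Fin d) (Fin d) (RthkSn O m n) :=
  (rthkmPhi hfree χ).comp (act.codRestrict (rthkmComm C D) hact)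

theorem rthkcPhi_apply (hfree : RthkmFree C D b) (act : 𝕋 →+* AddMonoid.End X)
    (hact : ∀ x, act x ∈ rthkmComm C D) (χ : Δ →* RthkSn O m n) (x : 𝕋) :
    rthkcPhi hfree act hact χ x = rthkmMat hfree χ (act x) := rfl

/-- scalars of `𝒪` -/
theorem rthkc_scalar (hfree : RthkmFree C D b) (χ : Δ →* RthkSn O m n) (c : O) :
    rthkmMat hfree χ (Module.toAddMonoidEnd C X (algebraMap O C c))
      = algebraMap O (Matrix (Fin d) (Fin d) (RthkSn O m n)) c := by
  rw [rthk_m_mat_scalar, ← IsScalarTower.algebraMap_apply]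
  ext i j
  rw [Matrix.smul_apply, Matrix.algebraMap_matrix_apply, Matrix.one_apply]
  split_ifs <;> simp

/-- scalars of `S ⧸ 𝔪 ^ n` -/
theorem rthkc_smul_one (s : RthkSn O m n) :
    s • (1 : Matrix (Fin d) (Fin d) (RthkSn O m n))
      = algebraMap (RthkSn O m n) (Matrix (Fin d) (Fin d) (RthkSn O m n)) s := by
  ext i j
  rw [Matrix.smul_apply, Matrix.algebraMap_matrix_apply, Matrix.one_apply]
  split_ifs <;> simp

/-- nilpotency passes to the matrices -/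
theorem rthkc_nil (hfree : RthkmFree C D b) (act : 𝕋 →+* AddMonoid.End X)
    (hact : ∀ x, act x ∈ rthkmComm C D) (χ : Δ →* RthkSn O m n) (x : 𝕋) (c : O)
    (hnil : IsNilpotent (act x - Module.toAddMonoidEnd C X (algebraMap O C c))) :
    IsNilpotent (rthkcPhi hfree act hact χ x
      - algebraMap O (Matrix (Fin d) (Fin d) (RthkSn O m n)) c) := by
  let t : rthkmComm C D :=
    ⟨act x, hact x⟩ - ⟨Module.toAddMonoidEnd C X (algebraMap O C c),
      rthk_m_scalar_mem hfree.1 _⟩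
  have ht : IsNilpotent t := by
    rw [← IsNilpotent.map_iff (f := (rthkmComm C D).subtype) Subtype.val_injective]
    exact hnil
  have h1 := ht.map (rthkmPhi hfree χ)
  have e : rthkmPhi hfree χ t = rthkcPhi hfree act hact χ x
      - algebraMap O (Matrix (Fin d) (Fin d) (RthkSn O m n)) c := by
    rw [map_sub, rthkmPhi_apply, rthkmPhi_apply, rthkc_scalar]
    rfl
  rw [e] at h1
  exact h1

/-- the operator `D δ + D δ⁻¹` -/
theorem rthkc_chi (hfree : RthkmFree C D b) (act : 𝕋 →+* AddMonoid.End X)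
    (hact : ∀ x, act x ∈ rthkmComm C D) (χ : Δ →* RthkSn O m n) (x : 𝕋) (δ : Δ)
    (hx : act x = D δ + D δ⁻¹) :
    rthkcPhi hfree act hact χ x
      = algebraMap (RthkSn O m n) (Matrix (Fin d) (Fin d) (RthkSn O m n)) (χ δ + χ δ⁻¹) := by
  rw [rthkcPhi_apply, hx, rthkmMat_add, rthk_m_mat_D, rthk_m_mat_D, ← add_smul, rthkc_smul_one]

/-- **HK-CONC, abstract half**: the natural form gives the module side. -/
theorem rthk_conc {p : ℕ} [Fact p.Prime] {lam : O}
    {ρbar : ResidualGaloisRep (ResidueField O)} {Sbad : Finset ℕ} {ι : Type} {σ : ι → GQ}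
    {tχ : ι → O} {h : ℕ} {a0 : ℕ → Matrix (Fin d) (Fin d) O} {L : ℕ}
    {J : Type} [AddCommGroup J] [Module 𝕋 J] [DistribMulAction GQ J] {Tr : ℕ → 𝕋}
    {act : 𝕋 →+* AddMonoid.End X} {ψ1 ψχ : Δ →* RthkSn O m n}
    (H : HkConc p lam ρbar Sbad σ tχ m h d n a0 L J Tr C D b act ψ1 ψχ) :
    HkLevelW p lam ρbar Sbad σ tχ m h d n a0 L J Tr
      (rthkcPhi H.free act H.act_comm ψ1) (rthkcPhi H.free act H.act_comm ψχ) where
  pkg := H.pkg
  primes := H.primes
  model := H.model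
  faith := by
    obtain ⟨n₀, hn₀⟩ := H.faith
    refine ⟨n₀, fun x hx hkill => ?_⟩
    have h0 := hn₀ x hx hkill
    constructor
    · rw [rthkcPhi_apply, h0]; exact rthkmMat_zero _ _
    · rw [rthkcPhi_apply, h0]; exact rthkmMat_zero _ _
  nil x hx := by
    obtain ⟨c, hc⟩ := H.nil x hx
    exact ⟨c, rthkc_nil H.free act H.act_comm ψ1 x c hc,
      rthkc_nil H.free act H.act_comm ψχ x c hc⟩
  resid ℓ hℓ hℓL P hP τ hτ := by
    obtain ⟨c, hc1, hc2⟩ := H.resid ℓ hℓ hℓL P hP τ hτ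
    exact ⟨c, hc1, rthkc_nil H.free act H.act_comm ψ1 (Tr ℓ) c hc2⟩
  cong x _ := by
    ext i' i
    rw [Matrix.map_apply, Matrix.map_apply, ← sub_eq_zero, ← map_sub]
    have hI := rthk_m_mat_congr H.free
      (RingHom.ker (Ideal.Quotient.factor (le_sup_right : maximalIdeal (RttwS O m) ^ n ≤
        rttwLam m lam ⊔ maximalIdeal (RttwS O m) ^ n))) ψ1 ψχ
      (fun δ => by rw [RingHom.mem_ker, map_sub, sub_eq_zero]; exact H.cong δ) (act x) i' i
    exact hI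
  trT i := by
    obtain ⟨x, δ, hx, hact, h1, h2⟩ := H.trT i
    refine ⟨x, hx, ?_, ?_⟩
    · rw [rthkc_chi H.free act H.act_comm ψ1 x δ hact]
      have h1' : ψ1 δ⁻¹ = 1 := by
        have := map_mul ψ1 δ δ⁻¹
        rw [mul_inv_cancel, map_one, h1, one_mul] at this
        exact this.symm
      rw [h1, h1', one_add_one_eq_two, map_ofNat]
    · rw [rthkc_chi H.free act H.act_comm ψχ x δ hact, h2]
      exact (IsScalarTower.algebraMap_apply O (RthkSn O m n)
        (Matrix (Fin d) (Fin d) (RthkSn O m n)) _).symm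
  trQ j hj := by
    obtain ⟨g, x, δ, hx, hact, h1, h2⟩ := H.trQ j hj
    have key : ∀ χ : Δ →* RthkSn O m n,
        χ δ - χ δ⁻¹ = Ideal.Quotient.mk _ (MvPowerSeries.X j) →
        rthkcPhi H.free act H.act_comm χ x ^ 2 - 4
          = algebraMap (RthkSn O m n) (Matrix (Fin d) (Fin d) (RthkSn O m n))
            (Ideal.Quotient.mk _ (MvPowerSeries.X j) ^ 2) := by
      intro χ hχ
      have huv : χ δ * χ δ⁻¹ = 1 := by rw [← map_mul, mul_inv_cancel, map_one]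
      rw [rthkc_chi H.free act H.act_comm χ x δ hact, ← map_pow, ← hχ]
      have e4 : (4 : Matrix (Fin d) (Fin d) (RthkSn O m n))
          = algebraMap (RthkSn O m n) (Matrix (Fin d) (Fin d) (RthkSn O m n)) 4 := by
        rw [map_ofNat]
      rw [e4, ← map_sub]
      congr 1
      linear_combination 4 * huv
    exact ⟨g, x, hx, key ψ1 h1, key ψχ h2⟩
  base ℓ hℓ hℓL := by
    have hb := H.base ℓ hℓ hℓL
    ext i' i
    rw [Matrix.map_apply, rthkcPhi_apply, rthkmMat_apply]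
    have hb' := congrFun (congrFun hb i') i
    rw [rthkmMat_apply, Matrix.map_apply, rthk_m_ev_one] at hb'
    simp only [rthkmEv, map_sum, map_mul, H.aug, mul_one]
    rw [← map_sum, ← map_sum, hb', ← IsScalarTower.algebraMap_apply]
    rfl

end Conc

end Fermat.Agent.RT
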