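import Fermat.Agent.RT.Hecke.ConcDefs
import Fermat.Agent.ES1.Inf.PkgOp

/-!
# K-machine, HECKE-asm, HK-CONC, layer (B), part 2: the Hecke action on the module side

On top of helper9's `RT/Hecke/ConcDefs.lean` (`RthkdC`, `rthkdX`, `RthkdDelta`, `rthkdD`):

* `rthkdStab X`, `rthkdResHom X` : the subring of the additive endomorphisms preserving a
  submodule `X`, and the restriction as a ring homomorphism;
* `rthkdEval p L M H' A : HDAlg M →+* AddMonoid.End (Hom(Γ_{H'}(L), A))` : the Hecke–diamond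
  polynomials (`es1infHomEval`, ES1/Inf/PkgOp.lean) as additive endomorphisms;
* **`rthkdAct p 𝔲 ℓ₀ H' ν hst : HDAlg M →+* AddMonoid.End ↥(rthkdX 𝔲 ℓ₀ H' ν)`** : the `act` of
  `HkConc`; `hst` = the stability of the `Θ`-part under the Hecke–diamond polynomials
  (`es1inffk_expr_mem` for `𝔲 = E.eval L M`, `E.IsPrimes`, `ℓ₀` prime, `ℓ₀ ∤ L`);
  `rthkdAct_coe : (act t x : V) = es1infHomEval L M H' _ p C t x` (by `rfl`);
* `rthkdAct_smul` : the action is linear over `𝒪 ⧸ 𝔪 ^ ν` (the first half of `act_comm`).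
-/

set_option autoImplicit false
set_option linter.unusedSectionVars false

noncomputable section

namespace Fermat.Agent.RT

open IsLocalRing Fermat.Agent.ES1 Fermat.Agent.RT.K5
open scoped MatrixGroups

/-! ### Restriction of endomorphisms to a stable submodule, as a ring homomorphism -/

section generic

variable {R : Type*} [Ring R] {V : Type*} [AddCommGroup V] [Module R V] (X : Submodule R V)

/-- the additive endomorphisms of `V` preserving `X` -/
def rthkdStab : Subring (AddMonoid.End V) where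
  carrier := {f | ∀ x ∈ X, f x ∈ X}
  mul_mem' := fun {_ g} hf hg x hx => hf (g x) (hg x hx)
  one_mem' := fun _ hx => hx
  add_mem' := fun {_ _} hf hg x hx => X.add_mem (hf x hx) (hg x hx)
  zero_mem' := fun _ _ => X.zero_mem
  neg_mem' := fun {_} hf x hx => X.neg_mem (hf x hx)

theorem rthkd_mem_stab {f : AddMonoid.End V} : f ∈ rthkdStab X ↔ ∀ x ∈ X, f x ∈ X := Iff.rfl

/-- the restriction to `X` of the endomorphisms preserving `X` -/
def rthkdResHom : rthkdStab X →+* AddMonoid.End X where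
  toFun f := AddMonoidHom.mk' (fun x : X => (⟨(f : AddMonoid.End V) x, f.2 x x.2⟩ : X))
    (fun x y => Subtype.ext (map_add (f : AddMonoid.End V) (x : V) (y : V)))
  map_one' := rfl
  map_mul' _ _ := rfl
  map_zero' := rfl
  map_add' _ _ := rfl

@[simp] theorem rthkdResHom_coe (f : rthkdStab X) (x : X) :
    ((rthkdResHom X f x : X) : V) = (f : AddMonoid.End V) (x : V) := rfl

end generic

/-! ### The Hecke action -/

section act

variable {O : Type} [CommRing O] [IsLocalRing O] (p : ℕ) {L M : ℕ} [NeZero L] [NeZero M]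
  [hML : Fact (M ∣ L)] (𝔲 : NatFam O L M) (ℓ₀ : ℕ) [NeZero ℓ₀] (H' : Subgroup (ZMod M)ˣ) (ν : ℕ)

variable (L M) in
/-- the Hecke–diamond polynomials as additive endomorphisms of `Hom(Γ_{H'}(L), A)` -/
def rthkdEval (A : Type) [AddCommGroup A] :
    HDAlg M →+* AddMonoid.End (HomS (gammaH L M H') A) :=
  (addMonoidEndRingEquivInt (HomS (gammaH L M H') A)).symm.toRingHom.comp
    (es1infHomEval L M H' hML.out p A).toRingHom

@[simp] theorem rthkdEval_apply (A : Type) [AddCommGroup A] (t : HDAlg M)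
    (ψ : HomS (gammaH L M H') A) :
    rthkdEval p L M H' A t ψ = es1infHomEval L M H' hML.out p A t ψ := rfl

/-- **the Hecke action** on the `Θ`-part; `hst` = the stability of the `Θ`-part under the
Hecke–diamond polynomials (`es1inffk_expr_mem`) -/
def rthkdAct
    (hst : ∀ (t : HDAlg M) (ψ : HomS (gammaH L M H') (RthkdC O ν)),
      ψ ∈ etaPart (thetaN 𝔲 ℓ₀ (RthkdC O ν) H') →
      es1infHomEval L M H' hML.out p (RthkdC O ν) t ψ
        ∈ etaPart (thetaN 𝔲 ℓ₀ (RthkdC O ν) H')) :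
    HDAlg M →+* AddMonoid.End (rthkdX 𝔲 ℓ₀ H' ν) :=
  (rthkdResHom (rthkdX 𝔲 ℓ₀ H' ν)).comp
    ((rthkdEval p L M H' (RthkdC O ν)).codRestrict
      (rthkdStab (rthkdX 𝔲 ℓ₀ H' ν)) (fun t ψ hψ => hst t ψ hψ))

variable {p 𝔲 ℓ₀ H' ν}

@[simp] theorem rthkdAct_coe
    (hst : ∀ (t : HDAlg M) (ψ : HomS (gammaH L M H') (RthkdC O ν)),
      ψ ∈ etaPart (thetaN 𝔲 ℓ₀ (RthkdC O ν) H') →
      es1infHomEval L M H' hML.out p (RthkdC O ν) t ψ
        ∈ etaPart (thetaN 𝔲 ℓ₀ (RthkdC O ν) H'))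
    (t : HDAlg M) (x : rthkdX 𝔲 ℓ₀ H' ν) :
    ((rthkdAct p 𝔲 ℓ₀ H' ν hst t x : rthkdX 𝔲 ℓ₀ H' ν) : HomS (gammaH L M H') (RthkdC O ν))
      = es1infHomEval L M H' hML.out p (RthkdC O ν) t (x : HomS (gammaH L M H') _) := rfl

/-- the Hecke action is linear over `𝒪 ⧸ 𝔪 ^ ν` (the first half of `act_comm`) -/
theorem rthkdAct_smul
    (hst : ∀ (t : HDAlg M) (ψ : HomS (gammaH L M H') (RthkdC O ν)),
      ψ ∈ etaPart (thetaN 𝔲 ℓ₀ (RthkdC O ν) H') →
      es1infHomEval L M H' hML.out p (RthkdC O ν) t ψ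
        ∈ etaPart (thetaN 𝔲 ℓ₀ (RthkdC O ν) H'))
    (t : HDAlg M) (c : RthkdC O ν) (x : rthkdX 𝔲 ℓ₀ H' ν) :
    rthkdAct p 𝔲 ℓ₀ H' ν hst t (c • x) = c • rthkdAct p 𝔲 ℓ₀ H' ν hst t x := by
  refine Subtype.ext ?_
  rw [rthkdAct_coe, Submodule.coe_smul, Submodule.coe_smul, rthkdAct_coe]
  exact es1infHomEval_comp hML.out
    (DistribSMul.toAddMonoidHom (RthkdC O ν) c) t (x : HomS (gammaH L M H') _)

/-- an element of the `Θ`-part as an element of `X` -/
def rthkdOf {ψ : HomS (gammaH L M H') (RthkdC O ν)}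
    (hψ : ψ ∈ etaPart (thetaN 𝔲 ℓ₀ (RthkdC O ν) H')) : rthkdX 𝔲 ℓ₀ H' ν := ⟨ψ, hψ⟩

@[simp] theorem rthkdOf_coe {ψ : HomS (gammaH L M H') (RthkdC O ν)}
    (hψ : ψ ∈ etaPart (thetaN 𝔲 ℓ₀ (RthkdC O ν) H')) :
    ((rthkdOf hψ : rthkdX 𝔲 ℓ₀ H' ν) : HomS (gammaH L M H') _) = ψ := rfl

end act

end Fermat.Agent.RT
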