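import Fermat.Agent.RT.Hecke.Plan

/-!
# K-machine, HECKE-asm, HK-CONC: the coefficient ring `C = 𝒪 ⧸ 𝔪 ^ n` as a ring under
`S ⧸ 𝔪_S ^ n`

`HkConc` (RT/Hecke/Conc.lean) takes a coefficient ring `C` with `[Algebra O C]`,
`[Algebra C (RthkSn O m n)]`, `[IsScalarTower O C (RthkSn O m n)]`.  For the concrete
`C = 𝒪 ⧸ 𝔪 ^ n` (`Algebra O C` = the quotient algebra of Mathlib):

* `rthkcaHom O m n : 𝒪 ⧸ 𝔪 ^ n →+* RthkSn O m n`, induced by the constants `𝒪 → S`;
* `rthkcaAlg O m n : Algebra (𝒪 ⧸ 𝔪 ^ n) (RthkSn O m n)` (a `def`, to be installed with `letI`);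
* `rthkca_tower O m n : IsScalarTower O (𝒪 ⧸ 𝔪 ^ n) (RthkSn O m n)` for this structure;
* `rthkca_algebraMap_mk` : `algebraMap C Sn (mk c) = algebraMap O Sn c`.
-/

set_option autoImplicit false

namespace Fermat.Agent.RT

open IsLocalRing

section ConcAlg

variable (O : Type) [CommRing O] [IsLocalRing O] (m n : ℕ)

/-- the constants map the maximal ideal of `𝒪` into the maximal ideal of `S` -/
theorem rthkca_algebraMap_mem {a : O} (ha : a ∈ maximalIdeal O) :
    algebraMap O (RttwS O m) a ∈ maximalIdeal (RttwS O m) := by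
  rw [mem_maximalIdeal, mem_nonunits_iff] at ha ⊢
  intro hu
  apply ha
  have h1 : IsUnit (MvPowerSeries.constantCoeff (algebraMap O (RttwS O m) a)) :=
    hu.map MvPowerSeries.constantCoeff
  rwa [MvPowerSeries.algebraMap_apply, Algebra.algebraMap_self, RingHom.id_apply,
    MvPowerSeries.constantCoeff_C] at h1

/-- `𝔪 ^ n` goes into `𝔪_S ^ n` -/
theorem rthkca_le_comap :
    maximalIdeal O ^ n ≤ (maximalIdeal (RttwS O m) ^ n).comap (algebraMap O (RttwS O m)) := by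
  rw [← Ideal.map_le_iff_le_comap, Ideal.map_pow]
  apply Ideal.pow_right_mono
  rw [Ideal.map_le_iff_le_comap]
  intro a ha
  exact rthkca_algebraMap_mem O m ha

/-- the ring homomorphism `𝒪 ⧸ 𝔪 ^ n → S ⧸ 𝔪_S ^ n` -/
noncomputable def rthkcaHom : (O ⧸ maximalIdeal O ^ n) →+* RthkSn O m n :=
  Ideal.quotientMap (maximalIdeal (RttwS O m) ^ n) (algebraMap O (RttwS O m))
    (rthkca_le_comap O m n)

@[simp] theorem rthkcaHom_mk (c : O) :
    rthkcaHom O m n (Ideal.Quotient.mk _ c)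
      = Ideal.Quotient.mk _ (algebraMap O (RttwS O m) c) := by
  rw [rthkcaHom, Ideal.quotientMap_mk]

/-- the algebra structure of `S ⧸ 𝔪_S ^ n` over `𝒪 ⧸ 𝔪 ^ n` (install with `letI`) -/
@[reducible] noncomputable def rthkcaAlg : Algebra (O ⧸ maximalIdeal O ^ n) (RthkSn O m n) :=
  (rthkcaHom O m n).toAlgebra

theorem rthkca_algebraMap_mk (c : O) :
    letI := rthkcaAlg O m n
    algebraMap (O ⧸ maximalIdeal O ^ n) (RthkSn O m n) (Ideal.Quotient.mk _ c)
      = algebraMap O (RthkSn O m n) c := by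
  letI := rthkcaAlg O m n
  show rthkcaHom O m n (Ideal.Quotient.mk _ c) = _
  rw [rthkcaHom_mk]
  rfl

/-- the tower `𝒪 → 𝒪 ⧸ 𝔪 ^ n → S ⧸ 𝔪_S ^ n` -/
theorem rthkca_tower :
    letI := rthkcaAlg O m n
    IsScalarTower O (O ⧸ maximalIdeal O ^ n) (RthkSn O m n) := by
  letI := rthkcaAlg O m n
  refine IsScalarTower.of_algebraMap_eq fun c => ?_
  rw [Ideal.Quotient.algebraMap_eq, rthkca_algebraMap_mk]

end ConcAlg

end Fermat.Agent.RT
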