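import Fermat.Agent.RT.Hecke.ConcBaseNil
import Fermat.Agent.ES1.Inf.TwPkg

/-!
# K-machine, HECKE-asm, HK-CONC, the BASE side (helper22): `HkBase` for the concrete base module

Base level `N` (squarefree, modulus `M ∣ N`, `H = ⊤`), `E : K5.HExpr 𝒪` with `IsPrimes`,
`ℓ₀ ∤ N` an auxiliary prime, `X = Θ_{E,ℓ₀}`-part of `Hom(Γ₀(N), 𝒪)`, `c` a basis of `X` whose
reduction modulo `𝔪` is a basis of the `Θ`-part of `Hom(Γ₀(N), 𝒪 ⧸ 𝔪)` (K5-BASE, `k5bs_base`).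

* `𝕋₀ = HDAlg M`, `J₀ = es1inftwJ N M ⊤ p χ`, `Tr₀ = es1inftwTr M 1` (`= T_ℓ` at the good primes),
  `Φ0 = rthkcbPhi (rthkcbBasis hc) h (rthkcbAct …)` : the block-diagonal matrices (`2 ^ h` blocks)
  of the Hecke action in the basis `c`;
* **`rthkcb_hkBase`** : `HkBase p ρbar N S' (2 ^ h * r) J₀ Tr₀ Φ0`, from
  `Es1inftwChar N M p 1 χ` (for `pkg`), the finite flat models (`model`, verbatim) and
  `RthkcbResid` (K5-LOC + K5-INDEP);
* `rthkcb_tS_eq`, `rthkcb_phi_off` (`ConcBaseAct.lean`) : `Φ0 (Tr₀ ℓ)` is the block-diagonal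
  matrix of `K5.tS ℓ` in the basis `c`.
-/

set_option autoImplicit false
set_option linter.unusedSectionVars false
set_option linter.style.haveILetI false
set_option linter.unusedVariables false

noncomputable section

namespace Fermat.Agent.RT

open IsLocalRing Fermat.Agent.ES Fermat.Agent.ES1 Fermat.Agent.RT.K5 Fermat.Agent.S48
open Fermat.Agent.S30 Fermat.Agent.W1 Fermat.Agent.TW ExtCitation
open CongruenceSubgroup ModularCurve.Period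
open scoped MatrixGroups

variable {O : Type} [CommRing O] [IsDomain O] [CharZero O] [IsDiscreteValuationRing O]
  [IsAdicComplete (IsLocalRing.maximalIdeal O) O] [Finite (IsLocalRing.ResidueField O)]
  {N M : ℕ} [NeZero N] [NeZero M] [hMN : Fact (M ∣ N)] {p : ℕ} [hp : Fact p.Prime]

/-- **HK-CONC, base side: the module side of the base in its natural form.** -/
theorem rthkcb_side (ρbar : ResidualGaloisRep (ResidueField O)) (S' : Finset ℕ)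
    (hpS' : p ∈ S') (hNS' : ∀ ℓ : ℕ, ℓ.Prime → ℓ ∣ N → ℓ ∈ S')
    (χ : GalQ →* (ZMod M)ˣ) (hχ : Es1inftwChar N M p 1 χ)
    (hmodel : ∀ k : ℕ, ∃ (X : Type) (_ : AddCommGroup X) (_ : Finite X) (act : GQ → X → X),
      (∀ s x x', act s (x + x') = act s x + act s x') ∧
      (∀ s s' x, act (s * s') x = act s (act s' x)) ∧
      HasFiniteFlatModel (GaloisRep.ratLocalizedAt p) X act ∧
      ∀ e : GQ →₀ ℤ, (∀ x : X, (e.sum fun g z => z • act g x) = 0) →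
        ∀ x : es1inftwJ N M ⊤ p χ, p ^ k • x = 0 → (e.sum fun g z => z • g • x) = 0)
    (hN : Squarefree N) (E : HExpr O) (hE : E.IsPrimes) (ℓ₀ : ℕ) [NeZero ℓ₀]
    (hℓ₀ : ℓ₀.Prime) (hℓ₀N : ¬ ℓ₀ ∣ N) {r : ℕ}
    {c : Fin r → HomS (gammaH N M (⊤ : Subgroup (ZMod M)ˣ)) O}
    (hc : K5IsBasis O (etaPart (thetaN (E.eval N M) ℓ₀ O ⊤)) c)
    (hc1 : K5IsBasis (O ⧸ maximalIdeal O ^ 1)
      (etaPart (thetaN (E.eval N M) ℓ₀ (O ⧸ maximalIdeal O ^ 1) ⊤))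
      (fun i => mapS (Submodule.mkQ (maximalIdeal O ^ 1)).toAddMonoidHom (c i)))
    (hres : RthkcbResid p ρbar N M (E.eval N M) ℓ₀) :
    HkBaseSide p ρbar N S' (es1inftwJ N M ⊤ p χ) (es1inftwTr M 1)
      (rthkcbAct (rthkcb_stab (p := p) E hE ℓ₀ hℓ₀ hℓ₀N O)) where
  pkg := es1inftw_pkg 1 le_rfl (fun c => le_pmH ⊤ (Subgroup.mem_top _)) χ hχ
  primes := fun q hq hqS hdvd => by
    rcases (Nat.Prime.dvd_mul hq).mp hdvd with h | h
    · exact hqS (hNS' q hq h)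
    · rw [(Nat.prime_dvd_prime_iff_eq hq hp.out).mp h] at hqS
      exact hqS hpS'
  model := hmodel
  faith := fun k => ⟨k, fun x hx v =>
    rthkcb_faith χ hN E hE ℓ₀ hℓ₀ hℓ₀N _ k x hx v⟩
  nil := fun x => rthkcb_nil hres _ (rthkcb_stab (p := p) E hE ℓ₀ hℓ₀ hℓ₀N _) hc hc1 x
  resid := fun ℓ hℓ hℓS P hP τ hτ =>
    rthkcb_resid hres _ (rthkcb_stab (p := p) E hE ℓ₀ hℓ₀ hℓ₀N _) hc hc1 ℓ hℓ
      (fun hdvd => by
        rcases (Nat.Prime.dvd_mul hℓ).mp hdvd with h | h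
        · exact hℓS (hNS' ℓ hℓ h)
        · rw [(Nat.prime_dvd_prime_iff_eq hℓ hp.out).mp h] at hℓS
          exact hℓS hpS') P hP τ hτ
  occ := fun t ht h0 =>
    rthkcb_occ hN E hE ℓ₀ hℓ₀ hℓ₀N _ S'
      (fun q hq hqS hdvd => by
        rcases (Nat.Prime.dvd_mul hq).mp hdvd with h | h
        · exact hqS (hNS' q hq h)
        · rw [(Nat.prime_dvd_prime_iff_eq hq hp.out).mp h] at hqS
          exact hqS hpS') t ht h0

/-- **HK-CONC, base side**: `HkBase` for the base module `X_E(N; 𝒪)` with the block-diagonal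
matrices in the basis `c`. -/
theorem rthkcb_hkBase (ρbar : ResidualGaloisRep (ResidueField O)) (S' : Finset ℕ)
    (hpS' : p ∈ S') (hNS' : ∀ ℓ : ℕ, ℓ.Prime → ℓ ∣ N → ℓ ∈ S')
    (χ : GalQ →* (ZMod M)ˣ) (hχ : Es1inftwChar N M p 1 χ)
    (hmodel : ∀ k : ℕ, ∃ (X : Type) (_ : AddCommGroup X) (_ : Finite X) (act : GQ → X → X),
      (∀ s x x', act s (x + x') = act s x + act s x') ∧
      (∀ s s' x, act (s * s') x = act s (act s' x)) ∧
      HasFiniteFlatModel (GaloisRep.ratLocalizedAt p) X act ∧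
      ∀ e : GQ →₀ ℤ, (∀ x : X, (e.sum fun g z => z • act g x) = 0) →
        ∀ x : es1inftwJ N M ⊤ p χ, p ^ k • x = 0 → (e.sum fun g z => z • g • x) = 0)
    (hN : Squarefree N) (E : HExpr O) (hE : E.IsPrimes) (ℓ₀ : ℕ) [NeZero ℓ₀]
    (hℓ₀ : ℓ₀.Prime) (hℓ₀N : ¬ ℓ₀ ∣ N) {r : ℕ}
    {c : Fin r → HomS (gammaH N M (⊤ : Subgroup (ZMod M)ˣ)) O}
    (hc : K5IsBasis O (etaPart (thetaN (E.eval N M) ℓ₀ O ⊤)) c)
    (hc1 : K5IsBasis (O ⧸ maximalIdeal O ^ 1)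
      (etaPart (thetaN (E.eval N M) ℓ₀ (O ⧸ maximalIdeal O ^ 1) ⊤))
      (fun i => mapS (Submodule.mkQ (maximalIdeal O ^ 1)).toAddMonoidHom (c i)))
    (hres : RthkcbResid p ρbar N M (E.eval N M) ℓ₀) (h : ℕ) :
    HkBase p ρbar N S' (2 ^ h * r) (es1inftwJ N M ⊤ p χ) (es1inftwTr M 1)
      (rthkcbPhi (rthkcbBasis hc) h
        (rthkcbAct (rthkcb_stab (p := p) E hE ℓ₀ hℓ₀ hℓ₀N O))) :=
  rthkcb_base (rthkcbBasis hc) h
    (rthkcb_side ρbar S' hpS' hNS' χ hχ hmodel hN E hE ℓ₀ hℓ₀ hℓ₀N hc hc1 hres)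

end Fermat.Agent.RT
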