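import Fermat.Agent.RT.Hecke.ConcBaseAbs
import Fermat.Agent.ES1.Inf.FaithK5Expr
import Fermat.Agent.ES1.Inf.BridgeFinal
import Fermat.Agent.RT.K5.Base
import Fermat.Agent.RT.Base.Theta

/-!
# K-machine, HECKE-asm, HK-CONC, the BASE side (helper22): the concrete action

Base level `N` (modulus `M ∣ N`, `H = ⊤`, so `Γ = Γ₀(N)`), `𝔲 : NatFam 𝒪 N M`,
`X = Θ_{𝔲,ℓ₀}`-part of `Hom(Γ₀(N), 𝒪)` as the `𝒪`-submodule `K5.k5fn_etaSub 𝔲 ℓ₀ 𝒪 ⊤`.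

* `rthkcb_eval_smul` : the Hecke–diamond polynomials are `𝒪`-linear on `Hom(Γ, A)`;
* `rthkcb_eval_Tr` : `es1inftwTr M 1 ℓ` acts as `K5.tS ℓ` on `Hom(Γ₀(N), A)` (`ℓ ∤ N p` prime);
* `rthkcb_eval_bad`, `rthkcb_eval_dGen` : the bad `T_ℓ` act by `0`, the diamonds by `1`;
* `rthkcbAct` : the action `HDAlg M →+* End_𝒪 X` (given the stability of `X`);
* `rthkcbBasis` : the basis of `X` attached to a `K5.K5IsBasis`;
* `rthkcb_tS_eq` : `tS ℓ (c j) = ∑ i, Φ0 (Tr ℓ) (s, i) (s, j) • c i`;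
* `rthkcb_occ` : BASE-BRIDGE for `X` (the field `occ`);
* `rthkcb_faith` : HK-FAITH, adic form, for `X` (the field `faith`).
-/

set_option autoImplicit false
set_option linter.unusedSectionVars false
set_option linter.style.haveILetI false
set_option linter.unusedVariables false

noncomputable section

namespace Fermat.Agent.RT

open IsLocalRing Fermat.Agent.ES Fermat.Agent.ES1 Fermat.Agent.RT.K5 Fermat.Agent.S48
open CongruenceSubgroup ModularCurve.Period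
open scoped MatrixGroups

section eval

variable (N M : ℕ) [NeZero N] [NeZero M] [hMN : Fact (M ∣ N)] (p : ℕ)

/-- the Hecke–diamond polynomials are `𝒪`-linear on `Hom(Γ, A)` -/
theorem rthkcb_eval_smul {O : Type} [CommRing O] {A : Type} [AddCommGroup A] [Module O A]
    (H : Subgroup (ZMod M)ˣ) (t : HDAlg M) (a : O) (φ : HomS (gammaH N M H) A) :
    es1infHomEval N M H hMN.out p A t (a • φ) = a • es1infHomEval N M H hMN.out p A t φ :=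
  es1infHomEval_comp hMN.out (DistribSMul.toAddMonoidHom A a) t φ

/-- `heckeGrp ℓ = K5.tSadj ℓ` -/
theorem rthkcb_heckeGrp_eq (H : Subgroup (ZMod M)ˣ) (ℓ : ℕ) [NeZero ℓ] {A : Type}
    [AddCommGroup A] (φ : HomS (gammaH N M H) A) :
    heckeGrp N M H ℓ hMN.out φ = tSadj N M ℓ H A φ :=
  es1inf_heckeGrp_eq_cores_res H hMN.out φ

/-- a good `T_ℓ` acts as `K5.tS ℓ` on `Hom(Γ₀(N), A)` -/
theorem rthkcb_eval_tGen {A : Type} [AddCommGroup A] (ℓ : Nat.Primes)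
    (hℓ : ¬ (ℓ : ℕ) ∣ N * p) (φ : HomS (gammaH N M (⊤ : Subgroup (ZMod M)ˣ)) A) :
    es1infHomEval N M ⊤ hMN.out p A (es1top_tGen M ℓ) φ =
      (haveI : NeZero (ℓ : ℕ) := ⟨ℓ.2.ne_zero⟩; tS N M (ℓ : ℕ) ⊤ A φ) := by
  haveI : NeZero (ℓ : ℕ) := ⟨ℓ.2.ne_zero⟩
  rw [es1infHomEval_tGen hMN.out hℓ φ]
  show heckeGrp N M ⊤ (ℓ : ℕ) hMN.out φ = tS N M (ℓ : ℕ) ⊤ A φ
  rw [rthkcb_heckeGrp_eq N M ⊤ (ℓ : ℕ) φ]
  exact ((stmtUQTop N M (ℓ : ℕ) A ℓ.2 (fun h => hℓ (h.mul_right p))).2.2.2.2.1 φ).symm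

/-- `Tr ℓ = es1inftwTr M 1 ℓ` is `T_ℓ` -/
theorem rthkcb_Tr_eq (ℓ : ℕ) (hℓ : ℓ.Prime) (hℓN : ¬ ℓ ∣ N * p) :
    es1inftwTr M 1 ℓ = es1top_tGen M ⟨ℓ, hℓ⟩ := by
  have hc : Nat.Coprime ℓ M := (Nat.Prime.coprime_iff_not_dvd hℓ).mpr
    (fun h => hℓN ((h.trans hMN.out).mul_right p))
  rw [es1inftwTr_eq M 1 hℓ hc, Nat.sub_self, pow_zero, one_mul]

/-- `Tr ℓ` acts as `K5.tS ℓ` on `Hom(Γ₀(N), A)` -/
theorem rthkcb_eval_Tr {A : Type} [AddCommGroup A] (ℓ : ℕ) [NeZero ℓ] (hℓ : ℓ.Prime)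
    (hℓN : ¬ ℓ ∣ N * p) (φ : HomS (gammaH N M (⊤ : Subgroup (ZMod M)ˣ)) A) :
    es1infHomEval N M ⊤ hMN.out p A (es1inftwTr M 1 ℓ) φ = tS N M ℓ ⊤ A φ := by
  rw [rthkcb_Tr_eq N M p ℓ hℓ hℓN]
  exact rthkcb_eval_tGen N M p ⟨ℓ, hℓ⟩ hℓN φ

/-- the bad `T_ℓ` act by `0` -/
theorem rthkcb_eval_bad {A : Type} [AddCommGroup A] (H : Subgroup (ZMod M)ˣ) (ℓ : Nat.Primes)
    (hℓ : (ℓ : ℕ) ∣ N * p) (φ : HomS (gammaH N M H) A) :
    es1infHomEval N M H hMN.out p A (MvPolynomial.X (Sum.inl ℓ)) φ = 0 := by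
  rw [es1infHomEval_X, es1infHomOp_bad hMN.out
    (fun h => (es1inf_inl_mem_goodVars.mp h) hℓ)]
  rfl

/-- the diamonds act trivially on `Hom(Γ₀(N), A)` -/
theorem rthkcb_eval_dGen {A : Type} [AddCommGroup A] (c : (ZMod M)ˣ)
    (φ : HomS (gammaH N M (⊤ : Subgroup (ZMod M)ˣ)) A) :
    es1infHomEval N M ⊤ hMN.out p A (MvPolynomial.X (Sum.inr c)) φ = φ := by
  rw [es1infHomEval_X, es1infHomOp_inr' hMN.out c φ]
  have hσ : es1g1opSigma hMN.out c ∈ gammaH N M (⊤ : Subgroup (ZMod M)ˣ) :=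
    ⟨es1g1opSigma_memL hMN.out c, es1g1opSigma_memM hMN.out c,
      le_pmH ⊤ (Subgroup.mem_top _)⟩
  exact diamGrp_of_mem N M ⊤ hσ φ

end eval

section act

variable {O : Type} [CommRing O] (N M : ℕ) [NeZero N] [NeZero M] [hMN : Fact (M ∣ N)] (p : ℕ)

/-- the stability of the `Θ`-part of `Hom(Γ₀(N), A)` under the Hecke–diamond polynomials -/
def RthkcbStab (𝔲 : NatFam O N M) (ℓ₀ : ℕ) [NeZero ℓ₀] (A : Type) [AddCommGroup A]
    [Module O A] : Prop :=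
  ∀ (t : HDAlg M) (v : HomS (gammaH N M (⊤ : Subgroup (ZMod M)ˣ)) A),
    v ∈ etaPart (thetaN 𝔲 ℓ₀ A ⊤) →
      es1infHomEval N M ⊤ hMN.out p A t v ∈ etaPart (thetaN 𝔲 ℓ₀ A ⊤)

variable {N M p}

/-- **the Hecke action on the `Θ`-part** of `Hom(Γ₀(N), A)` -/
def rthkcbAct {𝔲 : NatFam O N M} {ℓ₀ : ℕ} [NeZero ℓ₀] {A : Type} [AddCommGroup A]
    [Module O A] (hst : RthkcbStab N M p 𝔲 ℓ₀ A) :
    HDAlg M →+* Module.End O (k5fn_etaSub 𝔲 ℓ₀ A (⊤ : Subgroup (ZMod M)ˣ)) where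
  toFun t :=
    { toFun := fun v => ⟨es1infHomEval N M ⊤ hMN.out p A t v.1, hst t v.1 v.2⟩
      map_add' := fun v w => Subtype.ext (by
        show es1infHomEval N M ⊤ hMN.out p A t (v.1 + w.1) = _
        rw [map_add]
        rfl)
      map_smul' := fun a v => Subtype.ext (rthkcb_eval_smul N M p ⊤ t a v.1) }
  map_one' := by
    refine LinearMap.ext fun v => Subtype.ext ?_
    show es1infHomEval N M ⊤ hMN.out p A 1 v.1 = v.1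
    rw [map_one]
    rfl
  map_mul' s t := by
    refine LinearMap.ext fun v => Subtype.ext ?_
    show es1infHomEval N M ⊤ hMN.out p A (s * t) v.1 =
      es1infHomEval N M ⊤ hMN.out p A s (es1infHomEval N M ⊤ hMN.out p A t v.1)
    rw [map_mul]
    rfl
  map_zero' := by
    refine LinearMap.ext fun v => Subtype.ext ?_
    show es1infHomEval N M ⊤ hMN.out p A 0 v.1 = 0
    rw [map_zero]
    rfl
  map_add' s t := by
    refine LinearMap.ext fun v => Subtype.ext ?_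
    show es1infHomEval N M ⊤ hMN.out p A (s + t) v.1 =
      es1infHomEval N M ⊤ hMN.out p A s v.1 + es1infHomEval N M ⊤ hMN.out p A t v.1
    rw [map_add]
    rfl

theorem rthkcbAct_coe {𝔲 : NatFam O N M} {ℓ₀ : ℕ} [NeZero ℓ₀] {A : Type} [AddCommGroup A]
    [Module O A] (hst : RthkcbStab N M p 𝔲 ℓ₀ A)
    (t : HDAlg M) (v : k5fn_etaSub 𝔲 ℓ₀ A (⊤ : Subgroup (ZMod M)ˣ)) :
    ((rthkcbAct hst t v : k5fn_etaSub 𝔲 ℓ₀ A (⊤ : Subgroup (ZMod M)ˣ)) :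
      HomS (gammaH N M (⊤ : Subgroup (ZMod M)ˣ)) A) =
      es1infHomEval N M ⊤ hMN.out p A t v.1 := rfl

/-- the basis of the base module attached to a `K5IsBasis` -/
def rthkcbBasis {𝔲 : NatFam O N M} {ℓ₀ : ℕ} [NeZero ℓ₀] {r : ℕ}
    {c : Fin r → HomS (gammaH N M (⊤ : Subgroup (ZMod M)ˣ)) O}
    (hc : K5IsBasis O (etaPart (thetaN 𝔲 ℓ₀ O ⊤)) c) :
    Module.Basis (Fin r) O (k5fn_etaSub 𝔲 ℓ₀ O (⊤ : Subgroup (ZMod M)ˣ)) :=
  Module.Basis.mk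
    (v := fun i => (⟨c i, hc.1 i⟩ : k5fn_etaSub 𝔲 ℓ₀ O (⊤ : Subgroup (ZMod M)ˣ)))
    (by
      rw [Fintype.linearIndependent_iff]
      intro g hg i
      have h0 : ((∑ j, g j • (⟨c j, hc.1 j⟩ : k5fn_etaSub 𝔲 ℓ₀ O (⊤ : Subgroup (ZMod M)ˣ)) :
          k5fn_etaSub 𝔲 ℓ₀ O (⊤ : Subgroup (ZMod M)ˣ)) :
          HomS (gammaH N M (⊤ : Subgroup (ZMod M)ˣ)) O) = 0 := by
        rw [hg]
        rfl
      have h1 : ∑ j, g j • c j = ∑ j, (0 : Fin r → O) j • c j := by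
        simp only [Pi.zero_apply, zero_smul, Finset.sum_const_zero]
        rw [← h0]
        simp only [Submodule.coe_sum, Submodule.coe_smul]
      exact congrFun (hc.2.1 h1) i)
    (by
      rintro ⟨φ, hφ⟩ -
      obtain ⟨a, ha⟩ := hc.2.2 φ hφ
      rw [Submodule.mem_span_range_iff_exists_fun]
      refine ⟨a, Subtype.ext ?_⟩
      simp only [Submodule.coe_sum, Submodule.coe_smul]
      exact ha.symm)

theorem rthkcbBasis_coe {𝔲 : NatFam O N M} {ℓ₀ : ℕ} [NeZero ℓ₀] {r : ℕ}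
    {c : Fin r → HomS (gammaH N M (⊤ : Subgroup (ZMod M)ˣ)) O}
    (hc : K5IsBasis O (etaPart (thetaN 𝔲 ℓ₀ O ⊤)) c) (i : Fin r) :
    ((rthkcbBasis hc i : k5fn_etaSub 𝔲 ℓ₀ O (⊤ : Subgroup (ZMod M)ˣ)) :
      HomS (gammaH N M (⊤ : Subgroup (ZMod M)ˣ)) O) = c i := by
  rw [rthkcbBasis, Module.Basis.mk_apply]

/-- **the base matrices are the matrices of `T_ℓ` in the basis `c`** -/
theorem rthkcb_tS_eq {𝔲 : NatFam O N M} {ℓ₀ : ℕ} [NeZero ℓ₀] (hst : RthkcbStab N M p 𝔲 ℓ₀ O)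
    {r : ℕ} {c : Fin r → HomS (gammaH N M (⊤ : Subgroup (ZMod M)ˣ)) O}
    (hc : K5IsBasis O (etaPart (thetaN 𝔲 ℓ₀ O ⊤)) c) (h : ℕ) (ℓ : ℕ) [NeZero ℓ]
    (hℓ : ℓ.Prime) (hℓN : ¬ ℓ ∣ N * p) (s : Fin (2 ^ h)) (j : Fin r) :
    tS N M ℓ ⊤ O (c j) = ∑ i, rthkcbPhi (rthkcbBasis hc) h (rthkcbAct hst)
      (es1inftwTr M 1 ℓ) (finProdFinEquiv (s, i)) (finProdFinEquiv (s, j)) • c i := by
  have h1 := congrArg Subtype.val
    (rthkcb_act_eq (rthkcbBasis hc) h (rthkcbAct hst) (es1inftwTr M 1 ℓ) s j)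
  rw [rthkcbAct_coe, rthkcbBasis_coe, rthkcb_eval_Tr N M p ℓ hℓ hℓN] at h1
  rw [h1]
  simp only [Submodule.coe_sum, Submodule.coe_smul, rthkcbBasis_coe]

/-- the off-diagonal blocks of the base matrices vanish -/
theorem rthkcb_phi_off {𝔲 : NatFam O N M} {ℓ₀ : ℕ} [NeZero ℓ₀] (hst : RthkcbStab N M p 𝔲 ℓ₀ O)
    {r : ℕ} {c : Fin r → HomS (gammaH N M (⊤ : Subgroup (ZMod M)ˣ)) O}
    (hc : K5IsBasis O (etaPart (thetaN 𝔲 ℓ₀ O ⊤)) c) (h : ℕ) (x : HDAlg M)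
    {s s' : Fin (2 ^ h)} (hs : s ≠ s') (i j : Fin r) :
    rthkcbPhi (rthkcbBasis hc) h (rthkcbAct hst) x (finProdFinEquiv (s, i))
      (finProdFinEquiv (s', j)) = 0 := by
  rw [rthkcbPhi_apply, if_neg hs]

end act

section occ

variable {O : Type} [CommRing O] [IsDomain O] [CharZero O] {N M : ℕ} [NeZero N] [NeZero M]
  [hMN : Fact (M ∣ N)] {p : ℕ}

theorem rthkcb_torsionFree (n : ℕ) (a : O) (hn : n ≠ 0) (h : n • a = 0) : a = 0 := by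
  rw [nsmul_eq_mul] at h
  rcases mul_eq_zero.mp h with h | h
  · exact absurd (Nat.cast_eq_zero.mp h) hn
  · exact h

/-- **the field `occ`**: a Hecke polynomial outside `S'` which kills `S₂(Γ₀(N))` kills the base
module (BASE-BRIDGE) -/
theorem rthkcb_occ (hN : Squarefree N) (E : HExpr O) (hE : E.IsPrimes) (ℓ₀ : ℕ) [NeZero ℓ₀]
    (hℓ₀ : ℓ₀.Prime) (hℓ₀N : ¬ ℓ₀ ∣ N) (hst : RthkcbStab N M p (E.eval N M) ℓ₀ O)
    (S' : Finset ℕ) (hS' : ∀ q : ℕ, q.Prime → q ∉ S' → ¬ q ∣ N * p)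
    (t : MvPolynomial Nat.Primes ℤ)
    (ht : t ∈ MvPolynomial.supported ℤ (Fermat.Agent.S31.outsideVars (↑S' : Set ℕ)))
    (h0 : CuspForm.heckeEvalForms N 2 t = 0) :
    rthkcbAct hst (MvPolynomial.aeval (fun ℓ : Nat.Primes => es1inftwTr M 1 (ℓ : ℕ)) t) = 0 := by
  let X := k5fn_etaSub (E.eval N M) ℓ₀ O (⊤ : Subgroup (ZMod M)ˣ)
  let act' : HDAlg M →+* AddMonoid.End X :=
    { toFun := fun x => (rthkcbAct hst x).toAddMonoidHom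
      map_one' := by rw [map_one]; rfl
      map_mul' := fun x y => by rw [map_mul]; rfl
      map_zero' := by rw [map_zero]; rfl
      map_add' := fun x y => by rw [map_add]; rfl }
  have key := Fermat.Agent.RT.Base.stmtBridgePar N M O
    (fun n a hn h => rthkcb_torsionFree n a hn h) (↑S' : Set ℕ)
    (fun q hq hqN => by
      by_contra hqS
      exact hS' q hq (fun hh => hqS (Finset.mem_coe.mpr hh)) (hqN.mul_right p))
    (HDAlg M) X act' X.subtype.toAddMonoidHom (fun ℓ : Nat.Primes => es1inftwTr M 1 (ℓ : ℕ))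
    (fun m => Fermat.Agent.RT.Base.rtbb_thetaPart_par hN ℓ₀ hℓ₀ hℓ₀N
      (fun a h => rthkcb_torsionFree 2 a two_ne_zero h)
      (fun a h => rthkcb_torsionFree ℓ₀ a hℓ₀.ne_zero h) E hE m.1 m.2)
    (fun ℓ hℓS m => by
      haveI : NeZero (ℓ : ℕ) := ⟨ℓ.2.ne_zero⟩
      exact rthkcb_eval_Tr N M p (ℓ : ℕ) ℓ.2
        (hS' (ℓ : ℕ) ℓ.2 (fun hh => hℓS (Finset.mem_coe.mpr hh))) m.1)
    t ht h0
  refine LinearMap.ext fun v => Subtype.ext ?_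
  exact key v

end occ

section faith

variable {O : Type} [CommRing O] [IsDomain O] [CharZero O] [IsDiscreteValuationRing O]
  [IsAdicComplete (IsLocalRing.maximalIdeal O) O] [Finite (IsLocalRing.ResidueField O)]
  {N M : ℕ} [NeZero N] [NeZero M] [hMN : Fact (M ∣ N)] {p : ℕ} [hp : Fact p.Prime]

/-- the stability of the `Θ`-part of a Hecke expression -/
theorem rthkcb_stab (E : HExpr O) (hE : E.IsPrimes) (ℓ₀ : ℕ) [NeZero ℓ₀] (hℓ₀ : ℓ₀.Prime)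
    (hℓ₀N : ¬ ℓ₀ ∣ N) (A : Type) [AddCommGroup A] [Module O A] :
    RthkcbStab N M p (E.eval N M) ℓ₀ A :=
  fun t _ hv => es1inffk_expr_mem E hE ℓ₀ hℓ₀ hℓ₀N A ⊤ t hv

/-- **the field `faith`**: HK-FAITH, adic form, for the base module -/
theorem rthkcb_faith (χ : GalQ →* (ZMod M)ˣ) (hN : Squarefree N) (E : HExpr O)
    (hE : E.IsPrimes) (ℓ₀ : ℕ) [NeZero ℓ₀] (hℓ₀ : ℓ₀.Prime) (hℓ₀N : ¬ ℓ₀ ∣ N)
    (hst : RthkcbStab N M p (E.eval N M) ℓ₀ O) (k : ℕ) (x : HDAlg M)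
    (hx : ∀ y : es1inftwJ N M ⊤ p χ, p ^ k • y = 0 → x • y = 0)
    (v : k5fn_etaSub (E.eval N M) ℓ₀ O (⊤ : Subgroup (ZMod M)ˣ)) :
    ∃ v' : k5fn_etaSub (E.eval N M) ℓ₀ O (⊤ : Subgroup (ZMod M)ˣ),
      rthkcbAct hst x v = (p : O) ^ k • v' := by
  obtain ⟨v', hv', h⟩ := es1inffk_adic χ (E.eval N M) ℓ₀
    (fun w hw => Fermat.Agent.RT.Base.rtbb_thetaPart_par hN ℓ₀ hℓ₀ hℓ₀N
      (fun a h => rthkcb_torsionFree 2 a two_ne_zero h)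
      (fun a h => rthkcb_torsionFree ℓ₀ a hℓ₀.ne_zero h) E hE w hw)
    k x hx v.1 v.2 (hst x v.1 v.2)
  refine ⟨⟨v', hv'⟩, Subtype.ext ?_⟩
  rw [rthkcbAct_coe, h, Submodule.coe_smul, ← Nat.cast_pow, Nat.cast_smul_eq_nsmul]

end faith

end Fermat.Agent.RT
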