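import Fermat.Agent.RT.Hecke.Conc
import Fermat.Agent.RT.K7.Inst
import Fermat.Agent.Cheb.Final

/-!
# K-machine, HECKE-asm, HK-CONC: the field `nil` is FORMAL (helper15)

The field `nil` of `HkConc` (`RT/Hecke/Conc.lean`) follows from the fields `pkg`, `primes`,
`faith`, `resid` and `act_comm`:

* by K7b-inst (`rtk7i_exists_approx`, weak Chebotarev + Lucas) every `g : G_ℚ` has at the level
  `n₀` of `faith` a representative `h` in the subring generated by the `Tr ℓ` (`ℓ ∤ L p`);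
* if `x` has the exact representative `g`, then `x − h` kills `J[p^n₀]`, so `act x = act h`;
* `act (Tr ℓ) − c_ℓ` is nilpotent (`resid`), and "scalar + nilpotent" is stable under the ring
  operations (the operators commute).

Main results: `rthkn_closure` (generic), `rthkn_nil` (the field `nil`), `rthkn_nil_level`
(the same for matrices, the shape of `HkLevelW.nil`).
-/

set_option autoImplicit false
set_option linter.unusedSectionVars false

namespace Fermat.Agent.RT

open IsLocalRing Fermat.Agent.ES Fermat.Agent.S30 Fermat.Agent.W1 Fermat.Agent.TW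
open Fermat.Agent.RT.Prod

section generic

variable {O 𝕋 R : Type*} [CommRing O] [CommRing 𝕋] [Ring R]

/-- shifted elements commute -/
theorem rthkn_commute_shift (Φ : 𝕋 →+* R) (s : O →+* R) (hs : ∀ c x, Commute (s c) (Φ x))
    (x y : 𝕋) (c d : O) : Commute (Φ x - s c) (Φ y - s d) := by
  have h1 : Commute (Φ x) (Φ y) := by
    show Φ x * Φ y = Φ y * Φ x
    rw [← map_mul, ← map_mul, mul_comm]
  have h2 : Commute (Φ x) (s d) := (hs d x).symm
  have h3 : Commute (s c) (Φ y) := hs c y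
  have h4 : Commute (s c) (s d) := by
    show s c * s d = s d * s c
    rw [← map_mul, ← map_mul, mul_comm]
  exact (h1.sub_right h2).sub_left (h3.sub_right h4)

/-- **"scalar + nilpotent" is stable under the ring operations** -/
theorem rthkn_closure (Φ : 𝕋 →+* R) (s : O →+* R) (hs : ∀ c x, Commute (s c) (Φ x))
    (G : Set 𝕋) (h : ∀ g ∈ G, ∃ c : O, IsNilpotent (Φ g - s c)) (x : 𝕋)
    (hx : x ∈ Subring.closure G) : ∃ c : O, IsNilpotent (Φ x - s c) := by
  induction hx using Subring.closure_induction with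
  | mem g hg => exact h g hg
  | zero => exact ⟨0, by rw [map_zero, map_zero, sub_self]; exact IsNilpotent.zero⟩
  | one => exact ⟨1, by rw [map_one, map_one, sub_self]; exact IsNilpotent.zero⟩
  | add x y _ _ hx hy =>
    obtain ⟨c, hc⟩ := hx
    obtain ⟨d, hd⟩ := hy
    refine ⟨c + d, ?_⟩
    have e : Φ (x + y) - s (c + d) = (Φ x - s c) + (Φ y - s d) := by
      rw [map_add, map_add]; abel
    rw [e]
    exact (rthkn_commute_shift Φ s hs x y c d).isNilpotent_add hc hd
  | neg x _ hx =>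
    obtain ⟨c, hc⟩ := hx
    refine ⟨-c, ?_⟩
    have e : Φ (-x) - s (-c) = -(Φ x - s c) := by
      rw [map_neg, map_neg]; abel
    rw [e]
    exact hc.neg
  | mul x y _ _ hx hy =>
    obtain ⟨c, hc⟩ := hx
    obtain ⟨d, hd⟩ := hy
    refine ⟨c * d, ?_⟩
    have e : Φ (x * y) - s (c * d) = (Φ x - s c) * Φ y + s c * (Φ y - s d) := by
      rw [map_mul, map_mul, sub_mul, mul_sub]; abel
    rw [e]
    have hcy : Commute (Φ x - s c) (Φ y) := by
      have := rthkn_commute_shift Φ s hs x y c (0 : O)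
      rwa [map_zero, sub_zero] at this
    have hcd : Commute (s c) (Φ y - s d) := by
      have := rthkn_commute_shift Φ s hs 0 y (-c) d
      rwa [map_zero, map_neg, zero_sub, neg_neg] at this
    have hcomm : Commute ((Φ x - s c) * Φ y) (s c * (Φ y - s d)) := by
      have h1 : Commute (Φ x - s c) (Φ y - s d) := rthkn_commute_shift Φ s hs x y c d
      have h2 : Commute (Φ y) (Φ y - s d) := by
        have := rthkn_commute_shift Φ s hs y y (0 : O) d
        rwa [map_zero, sub_zero] at this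
      have h3 : Commute (Φ x - s c) (s c) := by
        have := rthkn_commute_shift Φ s hs x 0 c (-c)
        rwa [map_zero, map_neg, zero_sub, neg_neg] at this
      have h4 : Commute (Φ y) (s c) := (hs c y).symm
      exact (h3.mul_right h1).mul_left (h4.mul_right h2)
    exact hcomm.isNilpotent_add (hcy.isNilpotent_mul_right hc) (hcd.isNilpotent_mul_left hd)

end generic

section nil

variable {O : Type} [CommRing O]
  {p L : ℕ} [Fact p.Prime] {𝕋 : Type} [CommRing 𝕋] {J : Type} [AddCommGroup J]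
  [Module 𝕋 J] [DistribMulAction GQ J] {Tr : ℕ → 𝕋}

/-- the subring generated by the good `Tr ℓ` -/
def rthknB (L p : ℕ) (Tr : ℕ → 𝕋) : Subring 𝕋 :=
  Subring.closure {x : 𝕋 | ∃ ℓ : ℕ, ℓ.Prime ∧ ¬ ℓ ∣ L * p ∧ x = Tr ℓ}

/-- the good `Tr ℓ` generate a subring of the ring of exact representatives -/
theorem rthkn_B_le (hP : Rtk7bPkg p L J Tr) : rthknB L p Tr ≤ rthksE p J := by
  rw [rthknB, Subring.closure_le]
  rintro x ⟨ℓ, hℓ, hℓL, rfl⟩
  exact rthks_Tr_mem hP hℓ hℓL

/-- **every element of the ring of exact representatives agrees on `J[pⁿ]` with an element of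
the subring generated by the good `Tr ℓ`** (K7b-inst) -/
theorem rthkn_exists_rep (hP : Rtk7bPkg p L J Tr) (Sbad : Finset ℕ)
    (hgood : ∀ q : ℕ, q.Prime → q ∉ Sbad → ¬ q ∣ L * p) (n : ℕ) (x : 𝕋)
    (hx : x ∈ rthksE p J) :
    ∃ h ∈ rthknB L p Tr, ∀ y : J, p ^ n • y = 0 → x • y = h • y := by
  induction hx using Subring.closure_induction with
  | mem x hx =>
    obtain ⟨g, hg⟩ := hx
    obtain ⟨h, hB, hh⟩ := rtk7i_exists_approx Cheb.weakChebotarev_holds hP Sbad hgood
      (rthknB L p Tr)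
      (fun ℓ hℓ hℓS => Subring.subset_closure ⟨ℓ, hℓ, hgood ℓ hℓ hℓS, rfl⟩) n g
    exact ⟨h, hB, fun y hy => (hg n y hy).symm.trans (hh y hy)⟩
  | zero => exact ⟨0, Subring.zero_mem _, fun y _ => rfl⟩
  | one => exact ⟨1, Subring.one_mem _, fun y _ => rfl⟩
  | add x x' _ _ ih ih' =>
    obtain ⟨h, hB, hh⟩ := ih
    obtain ⟨h', hB', hh'⟩ := ih'
    exact ⟨h + h', Subring.add_mem _ hB hB', fun y hy => by
      rw [add_smul, add_smul, hh y hy, hh' y hy]⟩
  | neg x _ ih =>
    obtain ⟨h, hB, hh⟩ := ih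
    exact ⟨-h, Subring.neg_mem _ hB, fun y hy => by rw [neg_smul, neg_smul, hh y hy]⟩
  | mul x x' _ _ ih ih' =>
    obtain ⟨h, hB, hh⟩ := ih
    obtain ⟨h', hB', hh'⟩ := ih'
    refine ⟨h * h', Subring.mul_mem _ hB hB', fun y hy => ?_⟩
    rw [mul_smul, mul_smul, hh' y hy, hh (h' • y) (rtk7b_tors_hecke n h' hy)]

variable {C : Type} [CommRing C] [Algebra O C] {X : Type} [AddCommGroup X] [Module C X]

/-- the scalars of `𝒪` as endomorphisms of `X` -/
noncomputable def rthknScal (O C X : Type) [CommRing O] [CommRing C] [Algebra O C]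
    [AddCommGroup X] [Module C X] : O →+* AddMonoid.End X :=
  (Module.toAddMonoidEnd C X).comp (algebraMap O C)

theorem rthknScal_apply (c : O) :
    rthknScal O C X c = Module.toAddMonoidEnd C X (algebraMap O C c) := rfl

/-- **HK-CONC, the field `nil`** from `pkg`, `primes`, `faith`, the nilpotency part of `resid`
and the `C`-linearity of the Hecke operators. -/
theorem rthkn_nil (hP : Rtk7bPkg p L J Tr) (Sbad : Finset ℕ)
    (hgood : ∀ q : ℕ, q.Prime → q ∉ Sbad → ¬ q ∣ L * p)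
    (act : 𝕋 →+* AddMonoid.End X)
    (hlin : ∀ (x : 𝕋) (c : C) (ψ : X), act x (c • ψ) = c • act x ψ)
    (hfaith : ∃ n₀ : ℕ, ∀ x ∈ rthksE p J (𝕋 := 𝕋), (∀ y : J, p ^ n₀ • y = 0 → x • y = 0) →
      act x = 0)
    (hres : ∀ ℓ : ℕ, ℓ.Prime → ¬ ℓ ∣ L * p → ∃ c : O,
      IsNilpotent (act (Tr ℓ) - Module.toAddMonoidEnd C X (algebraMap O C c)))
    (x : 𝕋) (hx : x ∈ rthksE p J) :
    ∃ c : O, IsNilpotent (act x - Module.toAddMonoidEnd C X (algebraMap O C c)) := by
  have hs : ∀ (c : O) (x : 𝕋), Commute (rthknScal O C X c) (act x) := by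
    intro c x
    refine AddMonoidHom.ext fun ψ => ?_
    show algebraMap O C c • act x ψ = act x (algebraMap O C c • ψ)
    rw [hlin]
  obtain ⟨n₀, hn₀⟩ := hfaith
  obtain ⟨h, hB, hh⟩ := rthkn_exists_rep hP Sbad hgood n₀ x hx
  have e : act x = act h := by
    have h0 := hn₀ (x - h) (Subring.sub_mem _ hx (rthkn_B_le hP hB))
      (fun y hy => by rw [sub_smul, hh y hy, sub_self])
    rw [map_sub, sub_eq_zero] at h0
    exact h0
  rw [e]
  exact rthkn_closure act (rthknScal O C X) hs _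
    (fun g hg => by
      obtain ⟨ℓ, hℓ, hℓL, rfl⟩ := hg
      exact hres ℓ hℓ hℓL) h hB

end nil

section conc

variable {O : Type} [CommRing O] [IsLocalRing O]

/-- **HK-CONC, the field `nil`** in the shape of `HkConc.nil`, from the other fields. -/
theorem rthkn_nil_conc {p : ℕ} [Fact p.Prime] {ρbar : ResidualGaloisRep (ResidueField O)}
    {Sbad : Finset ℕ} {L : ℕ} {𝕋 : Type} [CommRing 𝕋] {J : Type} [AddCommGroup J] [Module 𝕋 J]
    [DistribMulAction GQ J] {Tr : ℕ → 𝕋}
    {C : Type} [CommRing C] [Algebra O C]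
    {Δ : Type} [CommGroup Δ] {X : Type} [AddCommGroup X] [Module C X]
    {D : Δ →* AddMonoid.End X} {act : 𝕋 →+* AddMonoid.End X}
    (pkg : Rtk7bPkg p L J Tr)
    (primes : ∀ q : ℕ, q.Prime → q ∉ Sbad → ¬ q ∣ L * p)
    (act_comm : ∀ x, act x ∈ rthkmComm C D)
    (faith : ∃ n₀ : ℕ, ∀ x ∈ rthksE p J (𝕋 := 𝕋), (∀ y : J, p ^ n₀ • y = 0 → x • y = 0) →
      act x = 0)
    (resid : ∀ ℓ : ℕ, ℓ.Prime → ¬ ℓ ∣ L * p →
      ∀ P : ValuationSubring (AlgebraicClosure ℚ), P.LiesOverPrime ℓ →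
        ∀ τ : GQ, P.IsFrobeniusAt τ ℓ → ∃ c : O,
          residue O c = LinearMap.trace (ResidueField O) ρbar.V (ρbar.ρ τ) ∧
          IsNilpotent (act (Tr ℓ) - Module.toAddMonoidEnd C X (algebraMap O C c))) :
    ∀ x ∈ rthksE p J (𝕋 := 𝕋), ∃ c : O,
      IsNilpotent (act x - Module.toAddMonoidEnd C X (algebraMap O C c)) := by
  intro x hx
  refine rthkn_nil pkg Sbad primes act (fun x c ψ => (act_comm x).1 c ψ) faith ?_ x hx
  intro ℓ hℓ hℓL
  obtain ⟨A, τ, hA, hτ⟩ := Fermat.Agent.Common.exists_isFrobeniusAt ℓ hℓ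
  obtain ⟨c, -, hc⟩ := resid ℓ hℓ hℓL A hA τ hτ
  exact ⟨c, hc⟩

end conc

end Fermat.Agent.RT
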