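import Fermat.Agent.RT.Hecke.ConcBaseAct
import Fermat.Agent.RT.Hecke.ConcNil
import Fermat.Agent.RT.K5.LocExpr
import Fermat.Agent.Common.FrobExists

/-!
# K-machine, HECKE-asm, HK-CONC, the BASE side (helper22): the fields `nil` and `resid`

Input (K5-LOC + K5-INDEP, the named hypothesis `RthkcbResid`): for every prime `ℓ ∤ N p` and every
Frobenius element `τ` at `ℓ` there is `a ∈ 𝒪` lifting `tr ρ̄(τ)` such that `T_ℓ − a` is nilpotent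
on the `Θ`-part of `Hom(Γ₀(N), 𝒪 ⧸ 𝔪)`.

* `rthkcb_pow_mem` (abstract): if `π : X → Y` intertwines `f` and `g`, `ker π ⊆ I X` and
  `g ^ e = 0`, then `f ^ e X ⊆ I X`;
* `rthkcbRed` : the reduction `X_𝒪 → X_{𝒪 ⧸ 𝔪}`; `rthkcb_red_ker` : its kernel is `𝔪 X_𝒪`
  (from the bases of K5-BASE);
* `rthkcb_gen_nil` : every variable of `HDAlg M` is "scalar + nilpotent" on `X_{𝒪 ⧸ 𝔪}` (the
  good `T_ℓ` by `RthkcbResid`, the bad `T_ℓ` act by `0`, the diamonds by `1`);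
* `rthkcb_nil`, `rthkcb_resid` : the fields `nil`, `resid` of `HkBaseSide`.
-/

set_option autoImplicit false
set_option linter.unusedSectionVars false
set_option linter.style.haveILetI false
set_option linter.unusedVariables false

noncomputable section

namespace Fermat.Agent.RT

open IsLocalRing Fermat.Agent.ES Fermat.Agent.ES1 Fermat.Agent.RT.K5 Fermat.Agent.S48
open CongruenceSubgroup ModularCurve.Period
open scoped MatrixGroups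

section abs

variable {O : Type} [CommRing O]

/-- if `π` intertwines `f` and `g`, `ker π ⊆ I X` and `g ^ e = 0`, then `f ^ e X ⊆ I X` -/
theorem rthkcb_pow_mem {X Y : Type} [AddCommGroup X] [Module O X] [AddCommGroup Y]
    [Module O Y] (I : Ideal O) (π : X →ₗ[O] Y)
    (hker : ∀ w : X, π w = 0 → w ∈ (I • ⊤ : Submodule O X))
    (f : Module.End O X) (g : Module.End O Y) (hfg : ∀ v, π (f v) = g (π v)) (e : ℕ)
    (hg : g ^ e = 0) (v : X) : (f ^ e) v ∈ (I • ⊤ : Submodule O X) := by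
  apply hker
  have h : ∀ (n : ℕ) (w : X), π ((f ^ n) w) = (g ^ n) (π w) := by
    intro n
    induction n with
    | zero =>
      intro w
      rw [pow_zero, pow_zero, Module.End.one_apply, Module.End.one_apply]
    | succ n ih =>
      intro w
      rw [pow_succ, pow_succ, Module.End.mul_apply, Module.End.mul_apply, ih, hfg]
  rw [h, hg, LinearMap.zero_apply]

/-- the variables generate the polynomial ring over `ℤ` as a ring -/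
theorem rthkcb_mem_closure {σ : Type} (x : MvPolynomial σ ℤ) :
    x ∈ Subring.closure (Set.range (MvPolynomial.X : σ → MvPolynomial σ ℤ)) := by
  induction x using MvPolynomial.induction_on with
  | C a =>
    rw [eq_intCast (MvPolynomial.C : ℤ →+* MvPolynomial σ ℤ) a]
    exact intCast_mem _ a
  | add p q hp hq => exact add_mem hp hq
  | mul_X p i hp => exact mul_mem hp (Subring.subset_closure ⟨i, rfl⟩)

end abs

section conc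

variable {O : Type} [CommRing O] [IsLocalRing O] {N M : ℕ} [NeZero N] [NeZero M]
  [hMN : Fact (M ∣ N)] {p : ℕ}

/-- **the residual hypothesis** (K5-LOC + K5-INDEP): for every prime `ℓ ∤ N p` and every
Frobenius element `τ` at `ℓ` some lift `a` of `tr ρ̄(τ)` has `T_ℓ − a` nilpotent on the `Θ`-part
of `Hom(Γ₀(N), 𝒪 ⧸ 𝔪)`. -/
def RthkcbResid (p : ℕ) (ρbar : ResidualGaloisRep (ResidueField O)) (N M : ℕ) [NeZero N]
    [Fact (M ∣ N)] (𝔲 : NatFam O N M) (ℓ₀ : ℕ) [NeZero ℓ₀] : Prop :=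
  ∀ (ℓ : ℕ) [NeZero ℓ], ℓ.Prime → ¬ ℓ ∣ N * p →
    ∀ P : ValuationSubring (AlgebraicClosure ℚ), P.LiesOverPrime ℓ →
      ∀ τ : GQ, P.IsFrobeniusAt τ ℓ → ∃ (a : O) (e : ℕ),
        residue O a = LinearMap.trace (ResidueField O) ρbar.V (ρbar.ρ τ) ∧
        ∀ ψ ∈ etaPart (thetaN 𝔲 ℓ₀ (O ⧸ maximalIdeal O ^ 1) (⊤ : Subgroup (ZMod M)ˣ)),
          k5s_pow (k5lcS N M ℓ a (O ⧸ maximalIdeal O ^ 1) (⊤ : Subgroup (ZMod M)ˣ)) e ψ = 0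

variable (𝔲 : NatFam O N M) (ℓ₀ : ℕ) [NeZero ℓ₀]

/-- the reduction modulo `𝔪` on the `Θ`-parts -/
def rthkcbRed : k5fn_etaSub 𝔲 ℓ₀ O (⊤ : Subgroup (ZMod M)ˣ) →ₗ[O]
    k5fn_etaSub 𝔲 ℓ₀ (O ⧸ maximalIdeal O ^ 1) (⊤ : Subgroup (ZMod M)ˣ) :=
  (k5fn_mapL (Γ := gammaH N M (⊤ : Subgroup (ZMod M)ˣ))
    (Submodule.mkQ (maximalIdeal O ^ 1))).restrict
    (fun v hv => k5s_intertwine_mem (thetaN 𝔲 ℓ₀ O ⊤)
      (thetaN 𝔲 ℓ₀ (O ⧸ maximalIdeal O ^ 1) ⊤)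
      (mapS (Submodule.mkQ (maximalIdeal O ^ 1)).toAddMonoidHom)
      (fun x => k5n_theta_nat 𝔲 ℓ₀ (Submodule.mkQ (maximalIdeal O ^ 1)) ⊤ x) hv)

theorem rthkcbRed_coe (v : k5fn_etaSub 𝔲 ℓ₀ O (⊤ : Subgroup (ZMod M)ˣ)) :
    ((rthkcbRed 𝔲 ℓ₀ v : k5fn_etaSub 𝔲 ℓ₀ (O ⧸ maximalIdeal O ^ 1) (⊤ : Subgroup (ZMod M)ˣ)) :
      HomS (gammaH N M (⊤ : Subgroup (ZMod M)ˣ)) (O ⧸ maximalIdeal O ^ 1)) =
      mapS (Submodule.mkQ (maximalIdeal O ^ 1)).toAddMonoidHom v.1 := rfl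

variable {𝔲 ℓ₀}

/-- the reduction intertwines the Hecke actions -/
theorem rthkcbRed_act (hst : RthkcbStab N M p 𝔲 ℓ₀ O)
    (hst1 : RthkcbStab N M p 𝔲 ℓ₀ (O ⧸ maximalIdeal O ^ 1)) (x : HDAlg M)
    (v : k5fn_etaSub 𝔲 ℓ₀ O (⊤ : Subgroup (ZMod M)ˣ)) :
    rthkcbRed 𝔲 ℓ₀ (rthkcbAct hst x v) = rthkcbAct hst1 x (rthkcbRed 𝔲 ℓ₀ v) :=
  Subtype.ext (es1infHomEval_comp hMN.out
    (Submodule.mkQ (maximalIdeal O ^ 1)).toAddMonoidHom x v.1).symm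

/-- the kernel of the reduction is `𝔪 X` -/
theorem rthkcb_red_ker {r : ℕ} {c : Fin r → HomS (gammaH N M (⊤ : Subgroup (ZMod M)ˣ)) O}
    (hc : K5IsBasis O (etaPart (thetaN 𝔲 ℓ₀ O ⊤)) c)
    (hc1 : K5IsBasis (O ⧸ maximalIdeal O ^ 1)
      (etaPart (thetaN 𝔲 ℓ₀ (O ⧸ maximalIdeal O ^ 1) ⊤))
      (fun i => mapS (Submodule.mkQ (maximalIdeal O ^ 1)).toAddMonoidHom (c i)))
    (w : k5fn_etaSub 𝔲 ℓ₀ O (⊤ : Subgroup (ZMod M)ˣ)) (hw : rthkcbRed 𝔲 ℓ₀ w = 0) :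
    w ∈ (maximalIdeal O • ⊤ : Submodule O (k5fn_etaSub 𝔲 ℓ₀ O (⊤ : Subgroup (ZMod M)ˣ))) := by
  obtain ⟨a, ha⟩ := hc.2.2 w.1 w.2
  have h2 : mapS (Submodule.mkQ (maximalIdeal O ^ 1)).toAddMonoidHom w.1 = 0 :=
    congrArg Subtype.val hw
  have h1 : ∑ i, Ideal.Quotient.mk (maximalIdeal O ^ 1) (a i) •
        mapS (Submodule.mkQ (maximalIdeal O ^ 1)).toAddMonoidHom (c i)
      = ∑ i, (0 : Fin r → O ⧸ maximalIdeal O ^ 1) i •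
        mapS (Submodule.mkQ (maximalIdeal O ^ 1)).toAddMonoidHom (c i) := by
    rw [ha, map_sum] at h2
    simp only [k5bs_red_smul] at h2
    rw [h2]
    simp only [Pi.zero_apply, zero_smul, Finset.sum_const_zero]
  have h3 := hc1.2.1 h1
  have h4 : ∀ i, a i ∈ maximalIdeal O := fun i => by
    have h5 : Ideal.Quotient.mk (maximalIdeal O ^ 1) (a i) = 0 := congrFun h3 i
    have h6 : a i ∈ maximalIdeal O ^ 1 := Ideal.Quotient.eq_zero_iff_mem.mp h5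
    rwa [pow_one] at h6
  have h7 : w = ∑ i, a i • (⟨c i, hc.1 i⟩ : k5fn_etaSub 𝔲 ℓ₀ O (⊤ : Subgroup (ZMod M)ˣ)) := by
    refine Subtype.ext ?_
    simp only [Submodule.coe_sum, Submodule.coe_smul]
    exact ha
  rw [h7]
  exact Submodule.sum_mem _ (fun i _ => Submodule.smul_mem_smul (h4 i) Submodule.mem_top)

/-- powers of `T_ℓ − a` on the `Θ`-part -/
theorem rthkcb_pow_val {A : Type} [AddCommGroup A] [Module O A]
    (hstA : RthkcbStab N M p 𝔲 ℓ₀ A) (ℓ : ℕ) [NeZero ℓ] (hℓ : ℓ.Prime) (hℓN : ¬ ℓ ∣ N * p)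
    (a : O) (n : ℕ) (ψ : k5fn_etaSub 𝔲 ℓ₀ A (⊤ : Subgroup (ZMod M)ˣ)) :
    ((((rthkcbAct hstA (es1top_tGen M ⟨ℓ, hℓ⟩) -
        algebraMap O (Module.End O (k5fn_etaSub 𝔲 ℓ₀ A (⊤ : Subgroup (ZMod M)ˣ))) a) ^ n) ψ :
        k5fn_etaSub 𝔲 ℓ₀ A (⊤ : Subgroup (ZMod M)ˣ)) :
      HomS (gammaH N M (⊤ : Subgroup (ZMod M)ˣ)) A) =
      k5s_pow (k5lcS N M ℓ a A (⊤ : Subgroup (ZMod M)ˣ)) n ψ.1 := by
  induction n generalizing ψ with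
  | zero => rw [pow_zero, Module.End.one_apply, k5s_pow_zero]
  | succ n ih =>
    rw [pow_succ, Module.End.mul_apply, ih, k5s_pow_succ]
    congr 1
    rw [LinearMap.sub_apply, Module.algebraMap_end_apply, Submodule.coe_sub, Submodule.coe_smul,
      rthkcbAct_coe, k5lcS_apply]
    congr 1
    exact rthkcb_eval_tGen N M p ⟨ℓ, hℓ⟩ hℓN ψ.1

/-- every variable is "scalar + nilpotent" on the `Θ`-part of `Hom(Γ₀(N), 𝒪 ⧸ 𝔪)` -/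
theorem rthkcb_gen_nil {ρbar : ResidualGaloisRep (ResidueField O)}
    (hres : RthkcbResid p ρbar N M 𝔲 ℓ₀)
    (hst1 : RthkcbStab N M p 𝔲 ℓ₀ (O ⧸ maximalIdeal O ^ 1)) (i : HDVar M) :
    ∃ c : O, IsNilpotent (rthkcbAct hst1 (MvPolynomial.X i) -
      algebraMap O (Module.End O
        (k5fn_etaSub 𝔲 ℓ₀ (O ⧸ maximalIdeal O ^ 1) (⊤ : Subgroup (ZMod M)ˣ))) c) := by
  rcases i with ℓ | c
  · by_cases hℓ : (ℓ : ℕ) ∣ N * p
    · refine ⟨0, ?_⟩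
      have h0 : rthkcbAct hst1 (MvPolynomial.X (Sum.inl ℓ)) = 0 := by
        refine LinearMap.ext fun ψ => Subtype.ext ?_
        rw [rthkcbAct_coe]
        exact rthkcb_eval_bad N M p ⊤ ℓ hℓ ψ.1
      refine ⟨1, (pow_one _).trans ?_⟩
      rw [map_zero]
      exact sub_eq_zero.mpr h0
    · haveI : NeZero (ℓ : ℕ) := ⟨ℓ.2.ne_zero⟩
      obtain ⟨P, τ, hP, hτ⟩ := Fermat.Agent.Common.exists_isFrobeniusAt (ℓ : ℕ) ℓ.2
      obtain ⟨a, e, -, h⟩ := hres (ℓ : ℕ) ℓ.2 hℓ P hP τ hτ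
      refine ⟨a, e, ?_⟩
      refine LinearMap.ext fun ψ => Subtype.ext ?_
      exact (rthkcb_pow_val hst1 (ℓ : ℕ) ℓ.2 hℓ a e ψ).trans (h ψ.1 ψ.2)
  · refine ⟨1, ?_⟩
    have h1 : rthkcbAct hst1 (MvPolynomial.X (Sum.inr c)) = 1 := by
      refine LinearMap.ext fun ψ => Subtype.ext ?_
      rw [rthkcbAct_coe]
      exact rthkcb_eval_dGen N M p c ψ.1
    refine ⟨1, (pow_one _).trans ?_⟩
    rw [map_one]
    exact sub_eq_zero.mpr h1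

set_option maxHeartbeats 1600000 in
/-- every polynomial is "scalar + nilpotent" on the `Θ`-part of `Hom(Γ₀(N), 𝒪 ⧸ 𝔪)` -/
theorem rthkcb_nil_red {ρbar : ResidualGaloisRep (ResidueField O)}
    (hres : RthkcbResid p ρbar N M 𝔲 ℓ₀)
    (hst1 : RthkcbStab N M p 𝔲 ℓ₀ (O ⧸ maximalIdeal O ^ 1)) (x : HDAlg M) :
    ∃ c : O, IsNilpotent (rthkcbAct hst1 x -
      algebraMap O (Module.End O
        (k5fn_etaSub 𝔲 ℓ₀ (O ⧸ maximalIdeal O ^ 1) (⊤ : Subgroup (ZMod M)ˣ))) c) :=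
by
  have hs : ∀ (c : O) (y : HDAlg M), Commute
      (algebraMap O (Module.End O
        (k5fn_etaSub 𝔲 ℓ₀ (O ⧸ maximalIdeal O ^ 1) (⊤ : Subgroup (ZMod M)ˣ))) c)
      (rthkcbAct hst1 y) := fun c y => Algebra.commute_algebraMap_left c _
  have hG : ∀ g ∈ Set.range (MvPolynomial.X : HDVar M → HDAlg M), ∃ c : O,
      IsNilpotent (rthkcbAct hst1 g - algebraMap O (Module.End O
        (k5fn_etaSub 𝔲 ℓ₀ (O ⧸ maximalIdeal O ^ 1) (⊤ : Subgroup (ZMod M)ˣ))) c) := by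
    rintro g ⟨i, rfl⟩
    exact rthkcb_gen_nil hres hst1 i
  exact rthkn_closure (R := Module.End O
      (k5fn_etaSub 𝔲 ℓ₀ (O ⧸ maximalIdeal O ^ 1) (⊤ : Subgroup (ZMod M)ˣ)))
    (rthkcbAct hst1) (algebraMap O (Module.End O
      (k5fn_etaSub 𝔲 ℓ₀ (O ⧸ maximalIdeal O ^ 1) (⊤ : Subgroup (ZMod M)ˣ))))
    hs (Set.range MvPolynomial.X) hG x (rthkcb_mem_closure x)

/-- the intertwining property of the shifted operators -/
theorem rthkcbRed_shift (hst : RthkcbStab N M p 𝔲 ℓ₀ O)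
    (hst1 : RthkcbStab N M p 𝔲 ℓ₀ (O ⧸ maximalIdeal O ^ 1)) (x : HDAlg M) (c : O)
    (v : k5fn_etaSub 𝔲 ℓ₀ O (⊤ : Subgroup (ZMod M)ˣ)) :
    rthkcbRed 𝔲 ℓ₀ ((rthkcbAct hst x -
        algebraMap O (Module.End O (k5fn_etaSub 𝔲 ℓ₀ O (⊤ : Subgroup (ZMod M)ˣ))) c :
        Module.End O (k5fn_etaSub 𝔲 ℓ₀ O (⊤ : Subgroup (ZMod M)ˣ))) v) =
      ((rthkcbAct hst1 x - algebraMap O (Module.End O
        (k5fn_etaSub 𝔲 ℓ₀ (O ⧸ maximalIdeal O ^ 1) (⊤ : Subgroup (ZMod M)ˣ))) c :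
        Module.End O (k5fn_etaSub 𝔲 ℓ₀ (O ⧸ maximalIdeal O ^ 1) (⊤ : Subgroup (ZMod M)ˣ))))
        (rthkcbRed 𝔲 ℓ₀ v) := by
  rw [LinearMap.sub_apply, LinearMap.sub_apply, Module.algebraMap_end_apply,
    Module.algebraMap_end_apply, map_sub, map_smul, rthkcbRed_act hst hst1]

/-- **the field `nil`** -/
theorem rthkcb_nil {ρbar : ResidualGaloisRep (ResidueField O)}
    (hres : RthkcbResid p ρbar N M 𝔲 ℓ₀) (hst : RthkcbStab N M p 𝔲 ℓ₀ O)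
    (hst1 : RthkcbStab N M p 𝔲 ℓ₀ (O ⧸ maximalIdeal O ^ 1)) {r : ℕ}
    {c : Fin r → HomS (gammaH N M (⊤ : Subgroup (ZMod M)ˣ)) O}
    (hc : K5IsBasis O (etaPart (thetaN 𝔲 ℓ₀ O ⊤)) c)
    (hc1 : K5IsBasis (O ⧸ maximalIdeal O ^ 1)
      (etaPart (thetaN 𝔲 ℓ₀ (O ⧸ maximalIdeal O ^ 1) ⊤))
      (fun i => mapS (Submodule.mkQ (maximalIdeal O ^ 1)).toAddMonoidHom (c i)))
    (x : HDAlg M) :
    ∃ (a : O) (e : ℕ), ∀ v : k5fn_etaSub 𝔲 ℓ₀ O (⊤ : Subgroup (ZMod M)ˣ),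
      ((rthkcbAct hst x -
        algebraMap O (Module.End O (k5fn_etaSub 𝔲 ℓ₀ O (⊤ : Subgroup (ZMod M)ˣ))) a) ^ e) v
        ∈ (maximalIdeal O • ⊤ :
          Submodule O (k5fn_etaSub 𝔲 ℓ₀ O (⊤ : Subgroup (ZMod M)ˣ))) := by
  obtain ⟨a, e, he⟩ := rthkcb_nil_red hres hst1 x
  exact ⟨a, e, rthkcb_pow_mem _ (rthkcbRed 𝔲 ℓ₀) (rthkcb_red_ker hc hc1) _ _
    (rthkcbRed_shift hst hst1 x a) e he⟩

/-- **the field `resid`** -/
theorem rthkcb_resid {ρbar : ResidualGaloisRep (ResidueField O)}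
    (hres : RthkcbResid p ρbar N M 𝔲 ℓ₀) (hst : RthkcbStab N M p 𝔲 ℓ₀ O)
    (hst1 : RthkcbStab N M p 𝔲 ℓ₀ (O ⧸ maximalIdeal O ^ 1)) {r : ℕ}
    {c : Fin r → HomS (gammaH N M (⊤ : Subgroup (ZMod M)ˣ)) O}
    (hc : K5IsBasis O (etaPart (thetaN 𝔲 ℓ₀ O ⊤)) c)
    (hc1 : K5IsBasis (O ⧸ maximalIdeal O ^ 1)
      (etaPart (thetaN 𝔲 ℓ₀ (O ⧸ maximalIdeal O ^ 1) ⊤))
      (fun i => mapS (Submodule.mkQ (maximalIdeal O ^ 1)).toAddMonoidHom (c i)))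
    (ℓ : ℕ) (hℓ : ℓ.Prime) (hℓN : ¬ ℓ ∣ N * p)
    (P : ValuationSubring (AlgebraicClosure ℚ)) (hP : P.LiesOverPrime ℓ) (τ : GQ)
    (hτ : P.IsFrobeniusAt τ ℓ) :
    ∃ (a : O) (e : ℕ), residue O a = LinearMap.trace (ResidueField O) ρbar.V (ρbar.ρ τ) ∧
      ∀ v : k5fn_etaSub 𝔲 ℓ₀ O (⊤ : Subgroup (ZMod M)ˣ),
        ((rthkcbAct hst (es1inftwTr M 1 ℓ) -
          algebraMap O (Module.End O (k5fn_etaSub 𝔲 ℓ₀ O (⊤ : Subgroup (ZMod M)ˣ))) a) ^ e) v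
          ∈ (maximalIdeal O • ⊤ :
            Submodule O (k5fn_etaSub 𝔲 ℓ₀ O (⊤ : Subgroup (ZMod M)ˣ))) := by
  haveI : NeZero ℓ := ⟨hℓ.ne_zero⟩
  obtain ⟨a, e, ha, h⟩ := hres ℓ hℓ hℓN P hP τ hτ
  refine ⟨a, e, ha, rthkcb_pow_mem _ (rthkcbRed 𝔲 ℓ₀) (rthkcb_red_ker hc hc1) _ _
    (rthkcbRed_shift hst hst1 (es1inftwTr M 1 ℓ) a) e ?_⟩
  rw [rthkcb_Tr_eq N M p ℓ hℓ hℓN]
  refine LinearMap.ext fun ψ => Subtype.ext ?_
  exact (rthkcb_pow_val hst1 ℓ hℓ hℓN a e ψ).trans (h ψ.1 ψ.2)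

end conc

end Fermat.Agent.RT
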