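import Fermat.Agent.RT.Hecke.ConcDefs
import Fermat.Agent.RT.Hecke.Mat
import Fermat.Agent.ES1.Inf.PkgOp

/-!
# K-machine, HK-CONC, field `act_comm` (helper32)

The Hecke–diamond polynomials `t : HDAlg M` act on `Hom(Γ_{H'}(L), A)` through
`ES1.es1infHomEval`.  This action commutes with the scalars of the coefficient module and with the
diamond action `K5.diamU` of `(ℤ/M)ˣ`; hence every action `act` on the `Θ`-part
`X = rthkdX 𝔲 ℓ₀ H' ν` that is the restriction of `es1infHomEval` lies in the commutant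
`rthkmComm C D` of `C = 𝒪 ⧸ 𝔪 ^ ν` and `D = rthkdD 𝔲 ℓ₀ H' ν` (the field `act_comm` of `HkConc`).

* `rthkcc_diamU_eq` : `diamU u = es1infHomEval (δ_{u⁻¹})`;
* `rthkcc_eval_diamU` : `es1infHomEval t ∘ diamU u = diamU u ∘ es1infHomEval t`;
* `rthkcc_eval_smul` : `es1infHomEval t (c • φ) = c • es1infHomEval t φ`;
* `rthkcc_act_comm` : `act t ∈ rthkmComm C D` for every `act` with
  `↑(act t x) = es1infHomEval (ι t) ↑x`
  (the concrete `act` is `rthkdAct`, `RT/Hecke/ConcAct.lean`).
-/

set_option autoImplicit false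
set_option linter.unusedSectionVars false
set_option linter.style.haveILetI false

noncomputable section

namespace Fermat.Agent.RT

open IsLocalRing Fermat.Agent.RT.K5 Fermat.Agent.ES1
open CongruenceSubgroup Matrix
open scoped MatrixGroups

section ambient

variable {L M : ℕ} [NeZero L] [NeZero M] [hML : Fact (M ∣ L)] (H' : Subgroup (ZMod M)ˣ)
  (p : ℕ)

/-- the diamond `diamU u` is the operator of the variable `δ_{u⁻¹}` -/
theorem rthkcc_diamU_eq {A : Type} [AddCommGroup A] (u : (ZMod M)ˣ)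
    (φ : HomS (gammaH L M H') A) :
    diamU L M H' A u φ = es1infHomEval L M H' hML.out p A (es1top_dGen M u⁻¹) φ := by
  rw [k5act_diamU_apply, es1inf_diamS_eq]
  refine (es1infHomEval_dGen hML.out u⁻¹ φ (k5act_rep L M u)⁻¹
    (inv_mem (k5act_rep_memL L M u)) (inv_mem (k5act_rep_memM L M u)) ?_).symm
  have h1 : (⟨(k5act_rep L M u)⁻¹, inv_mem (k5act_rep_memM L M u)⟩ : Gamma0 M)
      = (⟨k5act_rep L M u, k5act_rep_memM L M u⟩ : Gamma0 M)⁻¹ := rfl
  rw [h1, map_inv, k5act_rep_diam]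

/-- **the Hecke–diamond polynomials commute with the diamond action** -/
theorem rthkcc_eval_diamU {A : Type} [AddCommGroup A] (t : HDAlg M) (u : (ZMod M)ˣ)
    (φ : HomS (gammaH L M H') A) :
    es1infHomEval L M H' hML.out p A t (diamU L M H' A u φ)
      = diamU L M H' A u (es1infHomEval L M H' hML.out p A t φ) := by
  rw [rthkcc_diamU_eq H' p u φ, rthkcc_diamU_eq H' p u]
  rw [← Module.End.mul_apply, ← Module.End.mul_apply, ← map_mul, ← map_mul, mul_comm]

/-- **the Hecke–diamond polynomials are linear over the coefficients** -/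
theorem rthkcc_eval_smul {C : Type} [CommRing C] {A : Type} [AddCommGroup A] [Module C A]
    (t : HDAlg M) (c : C) (φ : HomS (gammaH L M H') A) :
    es1infHomEval L M H' hML.out p A t (c • φ)
      = c • es1infHomEval L M H' hML.out p A t φ := by
  have h := es1infHomEval_comp hML.out (H := H') (p := p)
    (DistribSMul.toAddMonoidHom A c) t φ
  exact h

end ambient

section restricted

variable {O : Type} [CommRing O] [IsLocalRing O] {L M : ℕ} [NeZero L] [NeZero M]
  [hML : Fact (M ∣ L)] (𝔲 : NatFam O L M) (ℓ₀ : ℕ) [NeZero ℓ₀] (H' : Subgroup (ZMod M)ˣ)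
  (ν : ℕ) (p : ℕ)

/-- **HK-CONC, field `act_comm`**: an action on `X` which is the restriction of the action of
the Hecke–diamond polynomials commutes with `C = 𝒪 ⧸ 𝔪 ^ ν` and with the diamonds `D`. -/
theorem rthkcc_act_comm {𝕋 : Type} [CommRing 𝕋] (ι : 𝕋 → HDAlg M)
    (act : 𝕋 →+* AddMonoid.End (rthkdX 𝔲 ℓ₀ H' ν))
    (hact : ∀ (t : 𝕋) (x : rthkdX 𝔲 ℓ₀ H' ν),
      ((act t x : rthkdX 𝔲 ℓ₀ H' ν) : HomS (gammaH L M H') (RthkdC O ν))
        = es1infHomEval L M H' hML.out p (RthkdC O ν) (ι t)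
            (x : HomS (gammaH L M H') (RthkdC O ν)))
    (t : 𝕋) : act t ∈ rthkmComm (Δ := RthkdDelta M H') (RthkdC O ν) (rthkdD 𝔲 ℓ₀ H' ν) := by
  refine ⟨fun c x => Subtype.ext ?_, fun δ x => Subtype.ext ?_⟩
  · rw [hact, Submodule.coe_smul, Submodule.coe_smul, hact]
    exact rthkcc_eval_smul H' p (ι t) c _
  · obtain ⟨u, rfl⟩ := QuotientGroup.mk_surjective δ
    rw [hact, rthkdD_mk_coe, rthkdD_mk_coe, hact]
    exact rthkcc_eval_diamU H' p (ι t) u _

end restricted

end Fermat.Agent.RT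

end
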