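import Fermat.Agent.RT.Hecke.ConcComm
import Fermat.Agent.RT.Hecke.ConcAct

/-!
# K-machine, HK-CONC, field `act_comm` for the concrete action `rthkdAct` (helper32)

`rthkcc_act_comm_inst : ∀ t, rthkdAct p 𝔲 ℓ₀ H' ν hst t ∈ rthkmComm C D` with
`C = 𝒪 ⧸ 𝔪 ^ ν`, `D = rthkdD 𝔲 ℓ₀ H' ν`: verbatim the field `act_comm` of `HkConc`
(`RT/Hecke/Conc.lean`) for `act = rthkdAct …` (`RT/Hecke/ConcAct.lean`).
Also `rthkcc_act_D` : `act t (D δ x) = D δ (act t x)`.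
-/

set_option autoImplicit false
set_option linter.unusedSectionVars false

noncomputable section

namespace Fermat.Agent.RT

open IsLocalRing Fermat.Agent.ES1 Fermat.Agent.RT.K5
open scoped MatrixGroups

variable {O : Type} [CommRing O] [IsLocalRing O] {p : ℕ} {L M : ℕ} [NeZero L] [NeZero M]
  [hML : Fact (M ∣ L)] {𝔲 : NatFam O L M} {ℓ₀ : ℕ} [NeZero ℓ₀] {H' : Subgroup (ZMod M)ˣ} {ν : ℕ}

/-- **HK-CONC, field `act_comm`** for the concrete Hecke action -/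
theorem rthkcc_act_comm_inst
    (hst : ∀ (t : HDAlg M) (ψ : HomS (gammaH L M H') (RthkdC O ν)),
      ψ ∈ etaPart (thetaN 𝔲 ℓ₀ (RthkdC O ν) H') →
      es1infHomEval L M H' hML.out p (RthkdC O ν) t ψ
        ∈ etaPart (thetaN 𝔲 ℓ₀ (RthkdC O ν) H'))
    (t : HDAlg M) :
    rthkdAct p 𝔲 ℓ₀ H' ν hst t
      ∈ rthkmComm (Δ := RthkdDelta M H') (RthkdC O ν) (rthkdD 𝔲 ℓ₀ H' ν) :=
  rthkcc_act_comm 𝔲 ℓ₀ H' ν p id (rthkdAct p 𝔲 ℓ₀ H' ν hst)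
    (fun t x => rthkdAct_coe hst t x) t

/-- the concrete Hecke action commutes with the diamonds -/
theorem rthkcc_act_D
    (hst : ∀ (t : HDAlg M) (ψ : HomS (gammaH L M H') (RthkdC O ν)),
      ψ ∈ etaPart (thetaN 𝔲 ℓ₀ (RthkdC O ν) H') →
      es1infHomEval L M H' hML.out p (RthkdC O ν) t ψ
        ∈ etaPart (thetaN 𝔲 ℓ₀ (RthkdC O ν) H'))
    (t : HDAlg M) (δ : RthkdDelta M H') (x : rthkdX 𝔲 ℓ₀ H' ν) :
    rthkdAct p 𝔲 ℓ₀ H' ν hst t (rthkdD 𝔲 ℓ₀ H' ν δ x)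
      = rthkdD 𝔲 ℓ₀ H' ν δ (rthkdAct p 𝔲 ℓ₀ H' ν hst t x) :=
  (rthkcc_act_comm_inst hst t).2 δ x

/-- the diamonds `D δ` as values of the concrete Hecke action: `D (class of u) = act (δ_{u⁻¹})` -/
theorem rthkcc_D_eq_act
    (hst : ∀ (t : HDAlg M) (ψ : HomS (gammaH L M H') (RthkdC O ν)),
      ψ ∈ etaPart (thetaN 𝔲 ℓ₀ (RthkdC O ν) H') →
      es1infHomEval L M H' hML.out p (RthkdC O ν) t ψ
        ∈ etaPart (thetaN 𝔲 ℓ₀ (RthkdC O ν) H'))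
    (u : (ZMod M)ˣ) :
    rthkdD 𝔲 ℓ₀ H' ν (QuotientGroup.mk u) = rthkdAct p 𝔲 ℓ₀ H' ν hst (es1top_dGen M u⁻¹) := by
  refine AddMonoidHom.ext fun x => Subtype.ext ?_
  exact (rthkdD_mk_coe 𝔲 ℓ₀ H' ν u x).trans
    ((rthkcc_diamU_eq H' p u _).trans (rthkdAct_coe hst (es1top_dGen M u⁻¹) x).symm)

end Fermat.Agent.RT

end
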