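import Fermat.Agent.RT.Hecke.ConcDone
import Fermat.Agent.RT.K7F.Final

/-!
# K-machine, HK-CONC (helper9): the module side from its two open inputs

K7-FLAT is closed (`K7F.stmtFlatH`, helper34 & co).  Hence

* `rthkf_concTop2 : K6.StmtChiJDiv5 → StmtHkfK5' → StmtHkConcTop`;
* `rthkf_modSide2 : … → StmtHkModSide`;  `rthkf_hecke2 : … → Prod.StmtHecke`.
-/

set_option autoImplicit false

namespace Fermat.Agent.RT

/-- the concrete contract from K6 and the K5 side -/
theorem rthkf_concTop2 (hChi : K6.StmtChiJDiv5) (hK5 : StmtHkfK5') : StmtHkConcTop :=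
  rthkf_concTop K7F.stmtFlatH hChi hK5

/-- the module side from K6 and the K5 side -/
theorem rthkf_modSide2 (hChi : K6.StmtChiJDiv5) (hK5 : StmtHkfK5') : StmtHkModSide :=
  rthkf_modSide K7F.stmtFlatH hChi hK5

/-- **HECKE-asm** from K6 and the K5 side -/
theorem rthkf_hecke2 (hChi : K6.StmtChiJDiv5) (hK5 : StmtHkfK5') : Prod.StmtHecke :=
  rthkf_hecke K7F.stmtFlatH hChi hK5

end Fermat.Agent.RT
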