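import Fermat.Agent.RT.Hecke.ConcAct
import Fermat.Agent.ES1.Inf.FaithK5Expr

/-!
# K-machine, HECKE-asm, HK-CONC: the field `faith` (helper38)

For `𝔲 = E.eval L M` (`E : K5.HExpr 𝒪`, `E.IsPrimes`), `X = rthkdX 𝔲 ℓ₀ H' ν` (the `Θ`-part of
`Hom(Γ_{H'}(L), 𝒪 ⧸ 𝔪 ^ ν)`), `act = rthkdAct p 𝔲 ℓ₀ H' ν hst`, `J = es1inftwJ L M H' p χ`:

* `rthkd_hst` : the stability hypothesis `hst` of `rthkdAct` (`es1inffk_expr_mem`);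
* **`rthkd_faith_all`** : `∃ n₀, ∀ t : HDAlg M, (t kills J[p^n₀]) → act t = 0`   (`n₀ = ν`);
* **`rthkd_faith`** : the same restricted to a subring/subset `B` of `HDAlg M` (the shape of the
  field `faith` of `HkConc`, `B = rthksE p J`).
-/

set_option autoImplicit false
set_option linter.unusedSectionVars false

noncomputable section

namespace Fermat.Agent.RT

open IsLocalRing Fermat.Agent.ES1 Fermat.Agent.RT.K5 Fermat.Agent.S48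
open scoped MatrixGroups

variable {O : Type} [CommRing O] [IsDomain O] [CharZero O] [IsDiscreteValuationRing O]
  [IsAdicComplete (maximalIdeal O) O] [Finite (ResidueField O)]
  {p : ℕ} [hpf : Fact p.Prime] {L M : ℕ} [NeZero L] [NeZero M] [hML : Fact (M ∣ L)]
  {H' : Subgroup (ZMod M)ˣ}

omit [IsDomain O] [CharZero O] [IsDiscreteValuationRing O] [IsAdicComplete (maximalIdeal O) O]
  [Finite (ResidueField O)] hpf in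
/-- the stability hypothesis of `rthkdAct`, for a Hecke expression -/
theorem rthkd_hst [IsLocalRing O] (p : ℕ) (E : HExpr O) (hE : E.IsPrimes) (ℓ₀ : ℕ) [NeZero ℓ₀]
    (hℓ₀ : ℓ₀.Prime) (hℓ₀L : ¬ ℓ₀ ∣ L) (H' : Subgroup (ZMod M)ˣ) (ν : ℕ) :
    ∀ (t : HDAlg M) (ψ : HomS (gammaH L M H') (RthkdC O ν)),
      ψ ∈ etaPart (thetaN (E.eval L M) ℓ₀ (RthkdC O ν) H') →
      es1infHomEval L M H' hML.out p (RthkdC O ν) t ψ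
        ∈ etaPart (thetaN (E.eval L M) ℓ₀ (RthkdC O ν) H') :=
  fun t _ hψ => es1inffk_expr_mem E hE ℓ₀ hℓ₀ hℓ₀L (RthkdC O ν) H' t hψ

/-- **HK-CONC, `faith`** (all of `HDAlg M`): a polynomial killing `J[p^ν]` acts as `0` on `X`. -/
theorem rthkd_faith_all (χ : GalQ →* (ZMod M)ˣ) (hp𝔪 : (p : O) ∈ maximalIdeal O)
    (E : HExpr O) (hE : E.IsPrimes) (ℓ₀ : ℕ) [NeZero ℓ₀] (hℓ₀ : ℓ₀.Prime) (hℓ₀L : ¬ ℓ₀ ∣ L)
    (hL : Squarefree L) (hp2 : p ≠ 2) (hℓ₀p : ℓ₀ ≠ p) (k : ℕ)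
    (hH : ∀ u : (ZMod M)ˣ, u ^ (p ^ k) ∈ pmH H') (ν : ℕ)
    (hNT : NoTors (gammaH L M H') (RthkdC O ν))
    (hst : ∀ (t : HDAlg M) (ψ : HomS (gammaH L M H') (RthkdC O ν)),
      ψ ∈ etaPart (thetaN (E.eval L M) ℓ₀ (RthkdC O ν) H') →
      es1infHomEval L M H' hML.out p (RthkdC O ν) t ψ
        ∈ etaPart (thetaN (E.eval L M) ℓ₀ (RthkdC O ν) H')) :
    ∃ n₀ : ℕ, ∀ t : HDAlg M, (∀ y : es1inftwJ L M H' p χ, p ^ n₀ • y = 0 → t • y = 0) →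
      rthkdAct p (E.eval L M) ℓ₀ H' ν hst t = 0 := by
  refine ⟨ν, fun t ht => ?_⟩
  refine AddMonoidHom.ext fun x => Subtype.ext ?_
  have h1 := es1inffk_expr_level χ hp𝔪 E hE ℓ₀ hℓ₀ hℓ₀L hL hp2 hℓ₀p k hH ν hNT t ht
    (x : HomS (gammaH L M H') (RthkdC O ν)) x.2
  exact (rthkdAct_coe hst t x).trans h1

/-- **HK-CONC, `faith`** (restricted to a subset `B`, e.g. `B = rthksE p J`). -/
theorem rthkd_faith (B : Set (HDAlg M)) (χ : GalQ →* (ZMod M)ˣ)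
    (hp𝔪 : (p : O) ∈ maximalIdeal O)
    (E : HExpr O) (hE : E.IsPrimes) (ℓ₀ : ℕ) [NeZero ℓ₀] (hℓ₀ : ℓ₀.Prime) (hℓ₀L : ¬ ℓ₀ ∣ L)
    (hL : Squarefree L) (hp2 : p ≠ 2) (hℓ₀p : ℓ₀ ≠ p) (k : ℕ)
    (hH : ∀ u : (ZMod M)ˣ, u ^ (p ^ k) ∈ pmH H') (ν : ℕ)
    (hNT : NoTors (gammaH L M H') (RthkdC O ν))
    (hst : ∀ (t : HDAlg M) (ψ : HomS (gammaH L M H') (RthkdC O ν)),
      ψ ∈ etaPart (thetaN (E.eval L M) ℓ₀ (RthkdC O ν) H') →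
      es1infHomEval L M H' hML.out p (RthkdC O ν) t ψ
        ∈ etaPart (thetaN (E.eval L M) ℓ₀ (RthkdC O ν) H')) :
    ∃ n₀ : ℕ, ∀ t ∈ B, (∀ y : es1inftwJ L M H' p χ, p ^ n₀ • y = 0 → t • y = 0) →
      rthkdAct p (E.eval L M) ℓ₀ H' ν hst t = 0 := by
  obtain ⟨n₀, h⟩ := rthkd_faith_all χ hp𝔪 E hE ℓ₀ hℓ₀ hℓ₀L hL hp2 hℓ₀p k hH ν hNT hst
  exact ⟨n₀, fun t _ ht => h t ht⟩

end Fermat.Agent.RT
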