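import Fermat.Agent.RT.Hecke.ConcArith
import Fermat.Agent.RT.Prod.FinalPlan

/-!
# K-machine, HK-CONC, layer (B) (helper9): the concrete arithmetic over a setup `Y`

`Y : KSetup P N q`, `qv : Fin h → ℕ` a Taylor–Wiles family of level `n` for
`S = Y.Smin ∪ image Y.r`.  Index type `κ = Fin h ⊕ Y.ι`.

* `rthkdYv Y qv = Sum.elim qv Y.r` : the primes of the diamonds;
  `rthkdYv_prime`, `rthkdYv_inj`, `rthkdY_pow_dvd : p ^ k x ∣ v x − 1` for
  `k = Sum.elim (fun _ => n + 1) (fun _ => 1)` (`= rthkciExp h Y.ι (n + 1)`, by `rfl`);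
* `rthkdYM Y qv = ∏ v x` (the modulus), `rthkdYL N qv = N * ∏ qv j` (the level);
  `rthkdYM_dvd_L`, `rthkdYL_ne_zero`, `rthkdYM_ne_zero`, `rthkdY_p_not_dvd_L`;
* `rthkdY_primes` : the field `primes` of `HkConc` / `HkLevel` for
  `Sbad = Y.Smin ∪ (image qv ∪ image Y.r)`.
-/

set_option autoImplicit false
set_option linter.unusedSectionVars false

namespace Fermat.Agent.RT

open IsLocalRing Fermat.Agent.TW Fermat.Agent.RT.Prod

section inst

variable {P : FreyPackage} {N q : ℕ} (Y : KSetup P N q) {h : ℕ} (qv : Fin h → ℕ)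

/-- the primes of the diamonds: the Taylor–Wiles primes and the trivial primes -/
def rthkdYv : Fin h ⊕ Y.ι → ℕ := Sum.elim qv Y.r

/-- the exponents: `ν` at the Taylor–Wiles primes, `1` at the trivial primes -/
def rthkdYk (ν : ℕ) : Fin h ⊕ Y.ι → ℕ := Sum.elim (fun _ => ν) (fun _ => 1)

/-- the modulus `M = (∏ qv j) * ∏ r i` -/
def rthkdYM : ℕ := rthkdM (rthkdYv Y qv)

/-- the level `L = N * ∏ qv j` -/
def rthkdYL (N : ℕ) (qv : Fin h → ℕ) : ℕ := N * rthkdM qv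

theorem rthkdYk_le (ν : ℕ) (hν : 1 ≤ ν) (x : Fin h ⊕ Y.ι) : rthkdYk Y (h := h) ν x ≤ ν := by
  rcases x with j | i
  · exact le_rfl
  · exact hν

variable {Y qv}

theorem rthkdY_r_prime (i : Y.ι) : (Y.r i).Prime :=
  ((Y.hr (Y.r i)).mp (Finset.mem_image_of_mem _ (Finset.mem_univ i))).1

theorem rthkdY_r_ne_two (i : Y.ι) : Y.r i ≠ 2 :=
  ((Y.hr (Y.r i)).mp (Finset.mem_image_of_mem _ (Finset.mem_univ i))).2.1

theorem rthkdY_r_dvd (i : Y.ι) : Y.r i ∣ N :=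
  ((Y.hr (Y.r i)).mp (Finset.mem_image_of_mem _ (Finset.mem_univ i))).2.2

theorem rthkdY_r_mem (i : Y.ι) : Y.r i ∈ Finset.univ.image Y.r :=
  Finset.mem_image_of_mem _ (Finset.mem_univ i)

variable {n : ℕ}

theorem rthkdYv_prime
    (hqv : IsTWFamily P.p Y.ρbar (Y.Smin ∪ Finset.univ.image Y.r) n h qv)
    (x : Fin h ⊕ Y.ι) : (rthkdYv Y qv x).Prime := by
  rcases x with j | i
  · exact (hqv.2.1 j).1
  · exact rthkdY_r_prime i

theorem rthkdYv_inj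
    (hqv : IsTWFamily P.p Y.ρbar (Y.Smin ∪ Finset.univ.image Y.r) n h qv) :
    Function.Injective (rthkdYv Y qv) := by
  rintro (j | i) (j' | i') hxy
  · exact congrArg Sum.inl (hqv.1 hxy)
  · exfalso
    apply (hqv.2.1 j).2.1
    have : qv j = Y.r i' := hxy
    rw [this]
    exact Finset.mem_union_right _ (rthkdY_r_mem i')
  · exfalso
    apply (hqv.2.1 j').2.1
    have : Y.r i = qv j' := hxy
    rw [← this]
    exact Finset.mem_union_right _ (rthkdY_r_mem i)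
  · exact congrArg Sum.inr (Y.r_inj hxy)

theorem rthkdY_pow_dvd
    (hqv : IsTWFamily P.p Y.ρbar (Y.Smin ∪ Finset.univ.image Y.r) n h qv)
    (x : Fin h ⊕ Y.ι) : P.p ^ rthkdYk Y (h := h) (n + 1) x ∣ rthkdYv Y qv x - 1 := by
  rcases x with j | i
  · exact (hqv.2.1 j).2.2
  · have := (Y.hT (Y.r i) (rthkdY_r_mem i)).2.2.1
    show P.p ^ 1 ∣ Y.r i - 1
    rwa [pow_one]

theorem rthkdYM_eq : rthkdYM Y qv = rthkdM qv * rthkdM Y.r :=
  rthkdM_sum qv Y.r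

theorem rthkdY_r_prod_dvd : rthkdM Y.r ∣ N :=
  rthkdM_dvd_of_primes Y.r (fun i => rthkdY_r_prime i) Y.r_inj (fun i => rthkdY_r_dvd i)

theorem rthkdYM_dvd_L : rthkdYM Y qv ∣ rthkdYL N qv := by
  rw [rthkdYM_eq, rthkdYL, mul_comm]
  exact Nat.mul_dvd_mul_right rthkdY_r_prod_dvd _

theorem rthkdYv_dvd_M (x : Fin h ⊕ Y.ι) : rthkdYv Y qv x ∣ rthkdYM Y qv :=
  rthkd_dvd_M _ x

theorem rthkdYM_ne_zero
    (hqv : IsTWFamily P.p Y.ρbar (Y.Smin ∪ Finset.univ.image Y.r) n h qv) :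
    rthkdYM Y qv ≠ 0 :=
  rthkdM_ne_zero _ fun x => (rthkdYv_prime hqv x).ne_zero

theorem rthkdYL_ne_zero (hN : N ≠ 0)
    (hqv : IsTWFamily P.p Y.ρbar (Y.Smin ∪ Finset.univ.image Y.r) n h qv) :
    rthkdYL N qv ≠ 0 :=
  Nat.mul_ne_zero hN (rthkdM_ne_zero _ fun j => (hqv.2.1 j).1.ne_zero)

/-- a prime dividing `∏ qv j` is one of the `qv j` -/
theorem rthkdY_dvd_prod_qv
    (hqv : IsTWFamily P.p Y.ρbar (Y.Smin ∪ Finset.univ.image Y.r) n h qv)
    {ℓ : ℕ} (hℓ : ℓ.Prime) (hd : ℓ ∣ rthkdM qv) : ℓ ∈ Finset.univ.image qv := by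
  rw [rthkdM] at hd
  obtain ⟨j, -, hj⟩ := (Prime.dvd_finsetProd_iff hℓ.prime qv).mp hd
  have : ℓ = qv j := (Nat.prime_dvd_prime_iff_eq hℓ (hqv.2.1 j).1).mp hj
  rw [this]
  exact Finset.mem_image_of_mem _ (Finset.mem_univ j)

/-- the field `primes` -/
theorem rthkdY_primes
    (hqv : IsTWFamily P.p Y.ρbar (Y.Smin ∪ Finset.univ.image Y.r) n h qv)
    (ℓ : ℕ) (hℓ : ℓ.Prime)
    (hS : ℓ ∉ Y.Smin ∪ (Finset.univ.image qv ∪ Finset.univ.image Y.r)) :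
    ¬ ℓ ∣ rthkdYL N qv * P.p := by
  intro hd
  apply hS
  rcases (Nat.Prime.dvd_mul hℓ).mp hd with h1 | h1
  · rcases (Nat.Prime.dvd_mul hℓ).mp h1 with h2 | h2
    · by_cases h3 : ℓ = 2
      · refine Finset.mem_union_left _ ?_
        rw [Y.hSmin, h3]
        exact Finset.mem_insert_self _ _
      · exact Finset.mem_union_right _ (Finset.mem_union_right _
          ((Y.hr ℓ).mpr ⟨hℓ, h3, h2⟩))
    · exact Finset.mem_union_right _ (Finset.mem_union_left _ (rthkdY_dvd_prod_qv hqv hℓ h2))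
  · have : ℓ = P.p := (Nat.prime_dvd_prime_iff_eq hℓ P.pp).mp h1
    refine Finset.mem_union_left _ ?_
    rw [Y.hSmin, this]
    exact Finset.mem_insert_of_mem (Finset.mem_singleton_self _)

/-- `p ∤ L` -/
theorem rthkdY_p_not_dvd_L (hpN : ¬ P.p ∣ N)
    (hqv : IsTWFamily P.p Y.ρbar (Y.Smin ∪ Finset.univ.image Y.r) n h qv) :
    ¬ P.p ∣ rthkdYL N qv := by
  intro hd
  rcases (Nat.Prime.dvd_mul P.pp).mp hd with h1 | h1
  · exact hpN h1
  · have h2 := rthkdY_dvd_prod_qv hqv P.pp h1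
    obtain ⟨j, -, hj⟩ := Finset.mem_image.mp h2
    apply (hqv.2.1 j).2.1
    refine Finset.mem_union_left _ ?_
    rw [Y.hSmin, hj]
    exact Finset.mem_insert_of_mem (Finset.mem_singleton_self _)

end inst

end Fermat.Agent.RT
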