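import Fermat.Agent.RT.Hecke.Grp

/-!
# K-machine, HECKE-asm, piece HK-GRP (Mathlib only): prescribed generators, the canonical `H'`

Setting of `RT/Hecke/Grp.lean`.  The generators of the diamond group are FORCED by the Galois side
(helper69, 00:28Z), so `π` must be normalised at a given family `γ : κ → (ZMod M)ˣ` with
(G1) `γ x ≡ 1` mod `v y` for `y ≠ x`, (G2) `γ x` mod `v x` is not a `p`-th power.

* `rthkg_cyclic_surj_gen`, `rthkg_prime_surj_gen` : a surjection of a cyclic group onto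
  `ZMod (p ^ k)` mapping a given non-`p`-th power to `1`;
* `rthkg_cyclic_ker` : the kernel of such a surjection is the set of `p ^ k`-th powers;
* `rthkgH p k hM` : the CANONICAL subgroup `H' = {u | ∀ x, u mod v x is a p ^ k x-th power}`;
* `rthkg_ker_eq` : `π.ker = rthkgH p k hM` for EVERY `π` as in `rthkg_exists` (surjective, `x`-th
  component depending on `u` mod `v x` only);
* `rthkg_exists_gen` : **(G1) with generators**: `∃ π`, surjective, `π (-1) = 1`, componentwise,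
  `π (γ x) = Pi.mulSingle x (ofAdd 1)` and `π.ker = rthkgH p k hM`.
* `rthkg_not_pow_of_coprime` : `g` not a `p`-th power, `e` prime to `p` ⇒ `g ^ e` not a `p`-th
  power.
-/

set_option autoImplicit false
set_option linter.style.haveILetI false
set_option linter.unusedSectionVars false

namespace Fermat.Agent.RT

section Cyc

variable {G : Type*} [Group G]

/-- the image of a generator under a surjection onto `ZMod d` is a unit -/
theorem rthkg_gen_isUnit {d : ℕ} (φ : G →* Multiplicative (ZMod d)) (hφ : Function.Surjective φ)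
    (t : G) (ht : ∀ x : G, x ∈ Subgroup.zpowers t) :
    IsUnit (Multiplicative.toAdd (φ t)) := by
  obtain ⟨x, hx⟩ := hφ (Multiplicative.ofAdd 1)
  obtain ⟨i, rfl⟩ := Subgroup.mem_zpowers_iff.mp (ht x)
  rw [map_zpow] at hx
  have h1 : (i : ZMod d) * Multiplicative.toAdd (φ t) = 1 := by
    have := congrArg Multiplicative.toAdd hx
    rw [toAdd_zpow, zsmul_eq_mul] at this
    exact this
  exact IsUnit.of_mul_eq_one _ (by rw [mul_comm]; exact h1)

/-- the kernel of a surjection of a cyclic group onto `ZMod d`: the `d`-th powers -/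
theorem rthkg_cyclic_ker [IsCyclic G] {d : ℕ} (φ : G →* Multiplicative (ZMod d))
    (hφ : Function.Surjective φ) (u : G) : φ u = 1 ↔ ∃ y : G, y ^ d = u := by
  constructor
  · intro hu
    obtain ⟨t, ht⟩ := IsCyclic.exists_generator (α := G)
    obtain ⟨i, rfl⟩ := Subgroup.mem_zpowers_iff.mp (ht u)
    have hc := rthkg_gen_isUnit φ hφ t ht
    rw [map_zpow] at hu
    have h1 : (i : ZMod d) * Multiplicative.toAdd (φ t) = 0 := by
      have := congrArg Multiplicative.toAdd hu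
      rw [toAdd_zpow, zsmul_eq_mul] at this
      exact this
    have h2 : (i : ZMod d) = 0 := (hc.mul_left_eq_zero).mp h1
    obtain ⟨j, rfl⟩ := (ZMod.intCast_zmod_eq_zero_iff_dvd i d).mp h2
    exact ⟨t ^ j, by rw [← zpow_natCast, ← zpow_mul, mul_comm]⟩
  · rintro ⟨y, rfl⟩
    rw [map_pow, rthkg_pow_self]

/-- **a surjection of a cyclic group onto `ZMod (p ^ k)` with a prescribed generator**: if `g` is
not a `p`-th power, some surjection maps `g` to `1`. -/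
theorem rthkg_cyclic_surj_gen [hG : IsCyclic G] {p : ℕ} (hp : p.Prime) (k : ℕ)
    (hd : p ^ k ∣ Nat.card G) (g : G) (hg : k ≠ 0 → ¬ ∃ y : G, y ^ p = g) :
    ∃ φ : G →* Multiplicative (ZMod (p ^ k)),
      Function.Surjective φ ∧ φ g = Multiplicative.ofAdd 1 := by
  obtain ⟨φ₀, hφ₀⟩ := rthkg_cyclic_surj (G := G) (p ^ k) hd
  rcases Nat.eq_zero_or_pos k with hk0 | hk0
  · subst hk0
    haveI : Subsingleton (ZMod (p ^ 0)) := by
      rw [pow_zero]; infer_instance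
    exact ⟨φ₀, hφ₀, Multiplicative.toAdd.injective (Subsingleton.elim _ _)⟩
  have hg := hg hk0.ne'
  obtain ⟨t, ht⟩ := IsCyclic.exists_generator (α := G)
  have hc := rthkg_gen_isUnit φ₀ hφ₀ t ht
  obtain ⟨i, hi⟩ := Subgroup.mem_zpowers_iff.mp (ht g)
  -- `i` is prime to `p`
  have hpi : ¬ (p : ℤ) ∣ i := by
    rintro ⟨j, rfl⟩
    exact hg ⟨t ^ j, by rw [← hi, ← zpow_natCast, ← zpow_mul, mul_comm]⟩
  have hiu : IsUnit (i : ZMod (p ^ k)) := by
    have hco : IsCoprime i ((p ^ k : ℕ) : ℤ) := by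
      rw [Nat.cast_pow]
      apply IsCoprime.pow_right
      rw [isCoprime_comm]
      exact (Int.isCoprime_iff_gcd_eq_one.mpr
        ((Nat.Prime.coprime_iff_not_dvd hp).mpr (by
          rw [← Int.natCast_dvd]
          exact hpi) : Nat.Coprime p i.natAbs))
    obtain ⟨a, b, hab⟩ := hco
    have h0 : (((p ^ k : ℕ) : ℤ) : ZMod (p ^ k)) = 0 := by
      rw [Int.cast_natCast, ZMod.natCast_self]
    have := congrArg (Int.cast : ℤ → ZMod (p ^ k)) hab
    rw [Int.cast_add, Int.cast_mul, Int.cast_mul, h0, mul_zero, add_zero, Int.cast_one] at this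
    exact IsUnit.of_mul_eq_one _ (by
      rw [mul_comm]
      exact this)
  have ha : IsUnit (Multiplicative.toAdd (φ₀ g)) := by
    rw [← hi, map_zpow, toAdd_zpow, zsmul_eq_mul]
    exact hiu.mul hc
  obtain ⟨a, ha'⟩ := ha
  let m : Multiplicative (ZMod (p ^ k)) →* Multiplicative (ZMod (p ^ k)) :=
    AddMonoidHom.toMultiplicative (AddMonoidHom.mulLeft ((a⁻¹ : (ZMod (p ^ k))ˣ) : ZMod (p ^ k)))
  have hm : ∀ y, m y = Multiplicative.ofAdd
      (((a⁻¹ : (ZMod (p ^ k))ˣ) : ZMod (p ^ k)) * Multiplicative.toAdd y) := fun _ => rfl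
  refine ⟨m.comp φ₀, ?_, ?_⟩
  · intro y
    obtain ⟨x, hx⟩ := hφ₀ (Multiplicative.ofAdd ((a : ZMod (p ^ k)) * Multiplicative.toAdd y))
    refine ⟨x, ?_⟩
    rw [MonoidHom.comp_apply, hx, hm, toAdd_ofAdd, ← mul_assoc, Units.inv_mul, one_mul]
    rfl
  · rw [MonoidHom.comp_apply, hm, ← ha', Units.inv_mul]

/-- `g` not a `p`-th power and `e` prime to `p` ⇒ `g ^ e` not a `p`-th power -/
theorem rthkg_not_pow_of_coprime {C : Type*} [CommGroup C] {p e : ℕ} (hpe : Nat.Coprime e p)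
    (g : C) (hg : ¬ ∃ y : C, y ^ p = g) : ¬ ∃ y : C, y ^ p = g ^ e := by
  rintro ⟨y, hy⟩
  apply hg
  have hb : (e : ℤ) * Nat.gcdA e p + (p : ℤ) * Nat.gcdB e p = 1 := by
    have := Nat.gcd_eq_gcd_ab e p
    rw [hpe.gcd_eq_one] at this
    exact_mod_cast this.symm
  refine ⟨y ^ Nat.gcdA e p * g ^ Nat.gcdB e p, ?_⟩
  have h1 : (y ^ Nat.gcdA e p) ^ p = g ^ ((e : ℤ) * Nat.gcdA e p) := by
    rw [zpow_mul, zpow_natCast g, ← hy, ← zpow_natCast (y ^ Nat.gcdA e p), ← zpow_mul,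
      ← zpow_natCast y, ← zpow_mul, mul_comm]
  have h2 : (g ^ Nat.gcdB e p) ^ p = g ^ ((p : ℤ) * Nat.gcdB e p) := by
    rw [← zpow_natCast (g ^ Nat.gcdB e p), ← zpow_mul, mul_comm]
  rw [mul_pow, h1, h2, ← zpow_add, hb, zpow_one]

end Cyc

/-- the units of `ZMod r`, `r` prime, surject onto `Multiplicative (ZMod (p ^ k))` for
`p ^ k ∣ r - 1`, mapping a given non-`p`-th power to the generator -/
theorem rthkg_prime_surj_gen {r : ℕ} (hr : r.Prime) {p : ℕ} (hp : p.Prime) (k : ℕ)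
    (hd : p ^ k ∣ r - 1) (g : (ZMod r)ˣ) (hg : k ≠ 0 → ¬ ∃ y : (ZMod r)ˣ, y ^ p = g) :
    ∃ φ : (ZMod r)ˣ →* Multiplicative (ZMod (p ^ k)),
      Function.Surjective φ ∧ φ g = Multiplicative.ofAdd 1 := by
  haveI : Fact r.Prime := ⟨hr⟩
  apply rthkg_cyclic_surj_gen hp k _ g hg
  rw [Nat.card_eq_fintype_card, ZMod.card_units]
  exact hd

section Canon

variable {κ : Type} {v : κ → ℕ} {M : ℕ}

/-- **the canonical `H'`**: the units of `ZMod M` which are `p ^ k x`-th powers modulo `v x`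
for every `x` -/
def rthkgH (p : ℕ) (k : κ → ℕ) (hM : ∀ x, v x ∣ M) : Subgroup (ZMod M)ˣ :=
  ⨅ x, ((powMonoidHom (p ^ k x) : (ZMod (v x))ˣ →* (ZMod (v x))ˣ).range).comap
    (ZMod.unitsMap (hM x))

theorem mem_rthkgH {p : ℕ} {k : κ → ℕ} {hM : ∀ x, v x ∣ M} {u : (ZMod M)ˣ} :
    u ∈ rthkgH p k hM ↔ ∀ x, ∃ y : (ZMod (v x))ˣ, y ^ (p ^ k x) = ZMod.unitsMap (hM x) u := by
  unfold rthkgH
  rw [Subgroup.mem_iInf]
  exact forall_congr' fun x => by
    rw [Subgroup.mem_comap, MonoidHom.mem_range]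
    rfl

/-- a subgroup with the same elements is `rthkgH` -/
theorem rthkgH_eq_of_mem_iff {p : ℕ} {k : κ → ℕ} {hM : ∀ x, v x ∣ M} (H' : Subgroup (ZMod M)ˣ)
    (h : ∀ u, u ∈ H' ↔ ∀ x, ∃ y : (ZMod (v x))ˣ, y ^ (p ^ k x) = ZMod.unitsMap (hM x) u) :
    H' = rthkgH p k hM :=
  Subgroup.ext fun u => (h u).trans mem_rthkgH.symm

variable {p : ℕ} {k : κ → ℕ}

/-- the component of `π` at `x` as a homomorphism of `(ℤ/v x)ˣ` -/
theorem rthkg_exists_comp (hM0 : M ≠ 0) (hM : ∀ x, v x ∣ M)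
    (π : (ZMod M)ˣ →* (∀ x : κ, Multiplicative (ZMod (p ^ k x))))
    (hfac : ∀ (x : κ) (u u' : (ZMod M)ˣ),
        ZMod.unitsMap (hM x) u = ZMod.unitsMap (hM x) u' → π u x = π u' x) (x : κ) :
    ∃ φ : (ZMod (v x))ˣ →* Multiplicative (ZMod (p ^ k x)),
      ∀ u, π u x = φ (ZMod.unitsMap (hM x) u) := by
  haveI : NeZero M := ⟨hM0⟩
  have hs := ZMod.unitsMap_surjective (hM x)
  let s := Function.surjInv hs
  have hss : ∀ t, ZMod.unitsMap (hM x) (s t) = t := Function.surjInv_eq hs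
  refine ⟨{ toFun := fun t => π (s t) x
            map_one' := ?_
            map_mul' := ?_ }, fun u => ?_⟩
  · show π (s 1) x = 1
    rw [hfac x (s 1) 1 (by rw [hss, map_one]), map_one, Pi.one_apply]
  · intro a b
    show π (s (a * b)) x = π (s a) x * π (s b) x
    rw [hfac x (s (a * b)) (s a * s b) (by rw [hss, map_mul, hss, hss]), map_mul, Pi.mul_apply]
  · show π u x = π (s (ZMod.unitsMap (hM x) u)) x
    exact hfac x _ _ (hss _).symm

/-- **the kernel of `π`**: the elements which are `p ^ k x`-th powers modulo `v x` for all `x` -/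
theorem rthkg_mem_ker_iff (hM0 : M ≠ 0) (hvp : ∀ x, (v x).Prime) (hM : ∀ x, v x ∣ M)
    (π : (ZMod M)ˣ →* (∀ x : κ, Multiplicative (ZMod (p ^ k x))))
    (hsurj : Function.Surjective π)
    (hfac : ∀ (x : κ) (u u' : (ZMod M)ˣ),
        ZMod.unitsMap (hM x) u = ZMod.unitsMap (hM x) u' → π u x = π u' x) (u : (ZMod M)ˣ) :
    u ∈ π.ker ↔ ∀ x, ∃ y : (ZMod (v x))ˣ, y ^ (p ^ k x) = ZMod.unitsMap (hM x) u := by
  classical
  rw [MonoidHom.mem_ker, funext_iff]
  refine forall_congr' fun x => ?_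
  haveI : Fact (v x).Prime := ⟨hvp x⟩
  obtain ⟨φ, hφ⟩ := rthkg_exists_comp hM0 hM π hfac x
  have hφs : Function.Surjective φ := fun a => by
    obtain ⟨w, hw⟩ := hsurj (Pi.mulSingle x a)
    exact ⟨ZMod.unitsMap (hM x) w, by rw [← hφ, hw, Pi.mulSingle_eq_same]⟩
  rw [hφ, Pi.one_apply]
  exact rthkg_cyclic_ker φ hφs _

/-- `ker π` is the canonical `H'` -/
theorem rthkg_ker_eq (hM0 : M ≠ 0) (hvp : ∀ x, (v x).Prime) (hM : ∀ x, v x ∣ M)
    (π : (ZMod M)ˣ →* (∀ x : κ, Multiplicative (ZMod (p ^ k x))))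
    (hsurj : Function.Surjective π)
    (hfac : ∀ (x : κ) (u u' : (ZMod M)ˣ),
        ZMod.unitsMap (hM x) u = ZMod.unitsMap (hM x) u' → π u x = π u' x) :
    π.ker = rthkgH p k hM :=
  rthkgH_eq_of_mem_iff _ (rthkg_mem_ker_iff hM0 hvp hM π hsurj hfac)

end Canon

section MainGen

variable {κ : Type} [Fintype κ]

/-- **HK-GRP (G1) with prescribed generators**: for `γ : κ → (ℤ/M)ˣ` with `γ x ≡ 1` mod `v y`
(`y ≠ x`) and `γ x` mod `v x` not a `p`-th power, the projection `π` of `(ℤ/M)ˣ` onto `Δ'` with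
`π (γ x) = ` the generator of the `x`-th factor; its kernel is the canonical `H'`. -/
theorem rthkg_exists_gen [DecidableEq κ] {p : ℕ} (hp : p.Prime) (hp2 : p ≠ 2) (v k : κ → ℕ)
    (hv : Function.Injective v) (hvp : ∀ x, (v x).Prime) (hk : ∀ x, p ^ k x ∣ v x - 1)
    {M : ℕ} (hM0 : M ≠ 0) (hM : ∀ x, v x ∣ M) (γ : κ → (ZMod M)ˣ)
    (hγ1 : ∀ x y, y ≠ x → ZMod.unitsMap (hM y) (γ x) = 1)
    (hγ2 : ∀ x, k x ≠ 0 → ¬ ∃ y : (ZMod (v x))ˣ, y ^ p = ZMod.unitsMap (hM x) (γ x)) :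
    ∃ π : (ZMod M)ˣ →* (∀ x : κ, Multiplicative (ZMod (p ^ k x))),
      Function.Surjective π ∧ π (-1) = 1 ∧
      (∀ (x : κ) (u u' : (ZMod M)ˣ),
        ZMod.unitsMap (hM x) u = ZMod.unitsMap (hM x) u' → π u x = π u' x) ∧
      (∀ x, π (γ x) = Pi.mulSingle x (Multiplicative.ofAdd 1)) ∧
      π.ker = rthkgH p k hM := by
  haveI : NeZero M := ⟨hM0⟩
  choose φ hφ hφg using fun x =>
    rthkg_prime_surj_gen (hvp x) hp (k x) (hk x) (ZMod.unitsMap (hM x) (γ x)) (hγ2 x)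
  let π : (ZMod M)ˣ →* (∀ x : κ, Multiplicative (ZMod (p ^ k x))) :=
    MonoidHom.pi fun x => (φ x).comp (ZMod.unitsMap (hM x))
  have hπ : ∀ u x, π u x = φ x (ZMod.unitsMap (hM x) u) := fun _ _ => rfl
  have hsurj : Function.Surjective π := by
    intro δ
    choose t ht using fun x => hφ x (δ x)
    obtain ⟨u, hu⟩ := rthkg_crt_units hv hvp hM t
    refine ⟨u, funext fun x => ?_⟩
    rw [hπ, hu, ht]
  have hfac : ∀ (x : κ) (u u' : (ZMod M)ˣ),
      ZMod.unitsMap (hM x) u = ZMod.unitsMap (hM x) u' → π u x = π u' x := by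
    intro x u u' h
    rw [hπ, hπ, h]
  refine ⟨π, hsurj, ?_, hfac, ?_, rthkg_ker_eq hM0 hvp hM π hsurj hfac⟩
  · funext x
    rw [Pi.one_apply]
    apply rthkg_eq_one_of_sq ((hp.odd_of_ne_two hp2).pow)
    rw [← Pi.pow_apply, ← map_pow]
    have : ((-1 : (ZMod M)ˣ)) ^ 2 = 1 := by simp
    rw [this, map_one, Pi.one_apply]
  · intro x
    funext y
    rw [hπ]
    by_cases hy : y = x
    · subst hy
      rw [hφg, Pi.mulSingle_eq_same]
    · rw [hγ1 x y hy, map_one, Pi.mulSingle_eq_of_ne hy]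

/-- the canonical `H'` is the kernel of the `π` of `rthkg_exists` -/
theorem rthkgH_exists {p : ℕ} (hp : p.Prime) (hp2 : p ≠ 2) (v k : κ → ℕ)
    (hv : Function.Injective v) (hvp : ∀ x, (v x).Prime) (hk : ∀ x, p ^ k x ∣ v x - 1)
    {M : ℕ} (hM0 : M ≠ 0) (hM : ∀ x, v x ∣ M) :
    ∃ π : (ZMod M)ˣ →* (∀ x : κ, Multiplicative (ZMod (p ^ k x))),
      Function.Surjective π ∧ π (-1) = 1 ∧
      (∀ (x : κ) (u u' : (ZMod M)ˣ),
        ZMod.unitsMap (hM x) u = ZMod.unitsMap (hM x) u' → π u x = π u' x) ∧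
      π.ker = rthkgH p k hM := by
  obtain ⟨π, h1, h2, h3⟩ := rthkg_exists hp hp2 v k hv hvp hk hM0 hM
  exact ⟨π, h1, h2, h3, rthkg_ker_eq hM0 hvp hM π h1 h3⟩

end MainGen

end Fermat.Agent.RT
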