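import Fermat.Agent.RT.Hecke.ConcPkg
import Fermat.Agent.RT.Hecke.GrpGen

/-!
# K-machine, HECKE-asm, HK-CONC: the fields `pkg`, `model` of `HkConc` for `H' = rthkgH` (helper65)

The final choice of `ConcFinal` is `H' = rthkgH P.p k hM` (helper8, `RT/Hecke/GrpGen.lean`), which
is `rthkdH P.p v k M hM` by `rfl`.  This file restates `rthkp_level_inst`, `rthkp_pkg_inst`,
`rthkp_model_inst` (`RT/Hecke/ConcPkg.lean`) for `rthkgH`, for ANY `hM`:

* `rthkp_level_g`, **`rthkp_pkg_g`**, **`rthkp_model_g`**.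
-/

set_option autoImplicit false
set_option linter.unusedSectionVars false
set_option linter.style.haveILetI false

noncomputable section

namespace Fermat.Agent.RT

open Fermat.Agent.ES Fermat.Agent.ES1 Fermat.Agent.RT.K7F Fermat.Agent.RT.K6 Fermat.Agent.W1
  ExtCitation Fermat.Agent.TW Fermat.Agent.RT.Prod

variable {P : FreyPackage} {N q : ℕ} (Y : KSetup P N q) {n h : ℕ} {qv : Fin h → ℕ}

/-- **the standing hypotheses of K7-FLAT** for `H' = rthkgH`. -/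
theorem rthkp_level_g (hcond : P.IsConductorLevel N) (hpN : ¬ P.p ∣ N) (hq : q.Prime)
    (hqN : q ∣ N)
    (hqv : IsTWFamily P.p Y.ρbar (Y.Smin ∪ Finset.univ.image Y.r) n h qv)
    (k : Fin h ⊕ Y.ι → ℕ) (ν : ℕ) (hk : ∀ x, k x ≤ ν)
    (hM : ∀ x, Sum.elim qv Y.r x ∣ rthkdM (Sum.elim qv Y.r)) :
    K7FLevel (N * rthkdM qv) (rthkdM (Sum.elim qv Y.r)) (rthkgH P.p k hM) P.p :=
  rthkp_level_inst Y hcond hpN hq hqN hqv k ν hk

/-- **the field `pkg`** of `HkConc` for `H' = rthkgH`. -/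
theorem rthkp_pkg_g [NeZero (N * rthkdM qv)] [NeZero (rthkdM (Sum.elim qv Y.r))]
    [Fact (rthkdM (Sum.elim qv Y.r) ∣ N * rthkdM qv)] [Fact P.p.Prime]
    (k : Fin h ⊕ Y.ι → ℕ) (ν : ℕ) (hk : ∀ x, k x ≤ ν)
    (hM : ∀ x, Sum.elim qv Y.r x ∣ rthkdM (Sum.elim qv Y.r)) :
    Rtk7bPkg P.p (N * rthkdM qv)
      (es1inftwJ (N * rthkdM qv) (rthkdM (Sum.elim qv Y.r)) (rthkgH P.p k hM) P.p
        (k7ftwChar (rthkdM (Sum.elim qv Y.r)) (rthkdE P.p ν)))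
      (es1inftwTr (rthkdM (Sum.elim qv Y.r)) (rthkdE P.p ν)) :=
  rthkp_pkg_inst Y k ν hk

/-- **the field `model`** of `HkConc` for `H' = rthkgH`, from K7-FLAT. -/
theorem rthkp_model_g [NeZero (N * rthkdM qv)] [NeZero (rthkdM (Sum.elim qv Y.r))]
    [Fact (rthkdM (Sum.elim qv Y.r) ∣ N * rthkdM qv)] [Fact P.p.Prime]
    (hflat : StmtFlatH) (hcond : P.IsConductorLevel N) (hpN : ¬ P.p ∣ N) (hq : q.Prime)
    (hqN : q ∣ N)
    (hqv : IsTWFamily P.p Y.ρbar (Y.Smin ∪ Finset.univ.image Y.r) n h qv)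
    (k : Fin h ⊕ Y.ι → ℕ) (ν : ℕ) (hk : ∀ x, k x ≤ ν)
    (hM : ∀ x, Sum.elim qv Y.r x ∣ rthkdM (Sum.elim qv Y.r)) :
    ∀ k' : ℕ, ∃ (X : Type) (_ : AddCommGroup X) (_ : Finite X) (act : GQ → X → X),
      (∀ s x x', act s (x + x') = act s x + act s x') ∧
      (∀ s s' x, act (s * s') x = act s (act s' x)) ∧
      HasFiniteFlatModel (GaloisRep.ratLocalizedAt P.p) X act ∧
      ∀ e' : GQ →₀ ℤ, (∀ x : X, (e'.sum fun g z => z • act g x) = 0) →
        ∀ x : es1inftwJ (N * rthkdM qv) (rthkdM (Sum.elim qv Y.r)) (rthkgH P.p k hM) P.p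
            (k7ftwChar (rthkdM (Sum.elim qv Y.r)) (rthkdE P.p ν)),
          P.p ^ k' • x = 0 → (e'.sum fun g z => z • g • x) = 0 :=
  rthkp_model_inst Y hflat hcond hpN hq hqN hqv k ν hk

end Fermat.Agent.RT
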