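import Fermat.Agent.RT.Hecke.GrpSum
import Fermat.Agent.RT.Hecke.ConcInst

/-!
# K-machine, HECKE-asm, HK-GRP: the instance at a `KSetup` and a Taylor–Wiles family

For `Y : KSetup P N q`, `N ≠ 0`, `¬ P.p ∣ N`, `q` prime, `q ∣ N` and a Taylor–Wiles family `qv` of
level `n` for `S = Y.Smin ∪ image Y.r`, with helper9's concrete objects (`RT/Hecke/ConcInst.lean`)
`v = rthkdYv Y qv`, `k = rthkdYk Y (n + 1)` (`= rthkciExp h Y.ι (n + 1)` by `rfl`),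
`M = rthkdYM Y qv`, `L = rthkdYL N qv`, `H' = rthkgiH Y qv n = rthkdH P.p v k M rthkdYv_dvd_M`:

* `rthkgi_hyp` : the arithmetic hypotheses `RthkgsHyp P.p n N qv Y.r` of `RT/Hecke/GrpSum.lean`;
* `rthkgi_k7fLevel`, `rthkgi_isStarStable`, `rthkgi_isTameAt`, `rthkgi_pmH`, `rthkgi_hE`,
  `rthkgi_index`, `rthkgi_freeHyp_index`, `rthkgi_squarefree`, `rthkgi_exists_transversal`;
* `rthkgi_equiv` : `κ_γ : RthkdDelta M H' ≃* RthkchGrp P.p k` normalised at generators `γ`.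
-/

set_option autoImplicit false
set_option linter.unusedSectionVars false
set_option linter.style.haveILetI false

namespace Fermat.Agent.RT

open Fermat.Agent.TW Fermat.Agent.RT.Prod
open Fermat.Agent.ES1 Fermat.Agent.RT.K5 Fermat.Agent.RT.K6 Fermat.Agent.RT.K7F

section Inst

variable {P : FreyPackage} {N q : ℕ} (Y : KSetup P N q) {h : ℕ} (qv : Fin h → ℕ) (n : ℕ)

/-- the group `H'` of the Taylor–Wiles level, in helper9's notation -/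
abbrev rthkgiH : Subgroup (ZMod (rthkdYM Y qv))ˣ :=
  rthkdH P.p (rthkdYv Y qv) (rthkdYk Y (n + 1)) (rthkdYM Y qv) rthkdYv_dvd_M

theorem rthkgiH_eq : rthkgiH Y qv n = rthkgsH P.p n qv Y.r := rfl

variable {Y qv n}

/-- **the arithmetic hypotheses of HK-GRP at a `KSetup`** -/
theorem rthkgi_hyp (hN0 : N ≠ 0) (hpN : ¬ P.p ∣ N) (hq : q.Prime) (hqN : q ∣ N)
    (hTW : IsTWFamily P.p Y.ρbar (Y.Smin ∪ Finset.univ.image Y.r) n h qv) :
    RthkgsHyp P.p n N qv Y.r where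
  hp := P.pp
  h5 := P.hp5
  hpN := hpN
  hN := le_trans hq.two_le (Nat.le_of_dvd (Nat.pos_of_ne_zero hN0) hqN)
  qinj := hTW.1
  qprime := fun j => (hTW.2.1 j).1
  qp := fun j => (hTW.2.1 j).2.2
  qN := fun j hj => by
    have hS := (hTW.2.1 j).2.1
    rw [Finset.mem_union, not_or] at hS
    by_cases h2 : qv j = 2
    · apply hS.1
      rw [Y.hSmin, h2]
      exact Finset.mem_insert_self _ _
    · exact hS.2 ((Y.hr (qv j)).mpr ⟨(hTW.2.1 j).1, h2, hj⟩)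
  rinj := Y.r_inj
  rprime := fun i => rthkdY_r_prime i
  rp := fun i => (Y.hT (Y.r i) (rthkdY_r_mem i)).2.2.1
  rN := fun i => rthkdY_r_dvd i

variable (hN0 : N ≠ 0) (hpN : ¬ P.p ∣ N) (hq : q.Prime) (hqN : q ∣ N)
  (hTW : IsTWFamily P.p Y.ρbar (Y.Smin ∪ Finset.univ.image Y.r) n h qv)

include hN0 hpN hq hqN hTW

theorem rthkgi_squarefree : Squarefree (rthkdYM Y qv) :=
  rthkgs_squarefree (rthkgi_hyp hN0 hpN hq hqN hTW)

/-- **`K7FLevel`** at the Taylor–Wiles level -/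
theorem rthkgi_k7fLevel : K7FLevel (rthkdYL N qv) (rthkdYM Y qv) (rthkgiH Y qv n) P.p :=
  rthkgs_k7fLevel (rthkgi_hyp hN0 hpN hq hqN hTW)

theorem rthkgi_isStarStable {ℓ : ℕ} (hℓ : ℓ.Prime) (hℓM : ℓ ∣ rthkdYM Y qv) :
    IsStarStable (rthkdYM Y qv) ℓ (rthkgiH Y qv n) :=
  rthkgs_isStarStable (rthkgi_hyp hN0 hpN hq hqN hTW) hℓ hℓM

theorem rthkgi_isTameAt (ℓ : ℕ) :
    IsTameAt (rthkdYL N qv) (rthkdYM Y qv) ℓ (rthkgiH Y qv n) :=
  rthkgs_isTameAt (rthkgi_hyp hN0 hpN hq hqN hTW) ℓ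

theorem rthkgi_pmH : pmH (rthkgiH Y qv n) = rthkgiH Y qv n :=
  rthkgs_pmH (rthkgi_hyp hN0 hpN hq hqN hTW)

/-- the input `hE` of `es1inftw_pkg` for `e = rthkdE p (n + 1)` -/
theorem rthkgi_hE (c : (ZMod (rthkdYM Y qv))ˣ) :
    c ^ (2 * rthkdE P.p (n + 1) - 1) ∈ pmH (rthkgiH Y qv n) :=
  rthkgs_hE (rthkgi_hyp hN0 hpN hq hqN hTW) c

theorem rthkgi_index :
    (pmH (rthkgiH Y qv n)).index = P.p ^ (h * (n + 1) + Fintype.card Y.ι) :=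
  rthkgs_index (rthkgi_hyp hN0 hpN hq hqN hTW)

theorem rthkgi_freeHyp_index :
    ((pmH (rthkgiH Y qv n)).subgroupOf (pmH ⊤)).index
      = P.p ^ (h * (n + 1) + Fintype.card Y.ι) :=
  rthkgs_freeHyp_index (rthkgi_hyp hN0 hpN hq hqN hTW)

theorem rthkgi_exists_transversal :
    ∃ (m : ℕ) (u : Fin m → (ZMod (rthkdYM Y qv))ˣ)
      (e : Fin m ≃ RthkdDelta (rthkdYM Y qv) (rthkgiH Y qv n)),
      m = P.p ^ (h * (n + 1) + Fintype.card Y.ι) ∧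
      (∀ j, e j = QuotientGroup.mk (u j)) ∧ IsTransversal (rthkgiH Y qv n) ⊤ u :=
  rthkgs_exists_transversal (rthkgi_hyp hN0 hpN hq hqN hTW)

/-- **`κ_γ`** at the Taylor–Wiles level -/
theorem rthkgi_equiv [DecidableEq (Fin h ⊕ Y.ι)]
    (γ : Fin h ⊕ Y.ι → (ZMod (rthkdYM Y qv))ˣ)
    (hγ1 : ∀ x y, y ≠ x → ZMod.unitsMap (rthkdYv_dvd_M (Y := Y) (qv := qv) y) (γ x) = 1)
    (hγ2 : ∀ x, ¬ ∃ y : (ZMod (rthkdYv Y qv x))ˣ,
      y ^ P.p = ZMod.unitsMap (rthkdYv_dvd_M (Y := Y) (qv := qv) x) (γ x)) :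
    ∃ κγ : RthkdDelta (rthkdYM Y qv) (rthkgiH Y qv n) ≃* RthkchGrp P.p (rthkdYk Y (h := h) (n + 1)),
      (∀ x, κγ (QuotientGroup.mk (γ x)) = Pi.mulSingle x (Multiplicative.ofAdd 1)) ∧
      (∀ (x : Fin h ⊕ Y.ι) (u u' : (ZMod (rthkdYM Y qv))ˣ),
        ZMod.unitsMap (rthkdYv_dvd_M (Y := Y) (qv := qv) x) u
          = ZMod.unitsMap (rthkdYv_dvd_M (Y := Y) (qv := qv) x) u' →
        κγ (QuotientGroup.mk u) x = κγ (QuotientGroup.mk u') x) :=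
  rthkgs_equiv (rthkgi_hyp hN0 hpN hq hqN hTW) γ hγ1 hγ2

end Inst

end Fermat.Agent.RT
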