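import Fermat.Agent.RT.Hecke.ConcFinalPlan
import Fermat.Agent.RT.Hecke.ConcTop
import Fermat.Agent.RT.Hecke.ConcFaith
import Fermat.Agent.RT.Hecke.ConcPkgG
import Fermat.Agent.RT.Hecke.ConcInst
import Fermat.Agent.RT.Hecke.GrpInst
import Fermat.Agent.RT.K5.NoTorsUnit
import Fermat.Agent.ES1.Inf.EvalK5

/-!
# K-machine, HK-CONC, layer (C) (helper9): the final glue

`rthkf_top : K7F.StmtFlatH → StmtHkfK5 → StmtHkfTr → StmtHkConcTop`.

The fields of `HkConcSide` for the concrete data `L = N * ∏ qv j`, `M = ∏ qv j * ∏ r i`,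
`H' = rthkfH Y qv n`, `𝔲 = (e.twist Q).eval L M`:
`pkg`, `primes`, `model` (helper65), `stable`, `faith` (helper38), `free`, `base` (helper88 +
`es1infev_twTr`), `resid` (contract `StmtHkfK5`), `cong`, `aug`, `trT`, `trQ` (contract
`StmtHkfTr`).
-/

set_option autoImplicit false
set_option linter.unusedSectionVars false
set_option linter.style.haveILetI false

noncomputable section

namespace Fermat.Agent.RT

open IsLocalRing Fermat.Agent.ES Fermat.Agent.S30 Fermat.Agent.W1 Fermat.Agent.TW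
open Fermat.Agent.ES1 Fermat.Agent.RT.K5 Fermat.Agent.RT.K7F Fermat.Agent.RT.Prod
open ExtCitation WeierstrassCurve WeierstrassCurve.Affine WeierstrassCurve.Affine.Point
open scoped MatrixGroups

section arith

variable {P : FreyPackage} {N q : ℕ} {Y : KSetup P N q} {h n : ℕ} {qv : Fin h → ℕ}

/-- a Taylor–Wiles prime does not divide `N` -/
theorem rthkf_qv_not_dvd
    (hqv : IsTWFamily P.p Y.ρbar (Y.Smin ∪ Finset.univ.image Y.r) n h qv) (j : Fin h) :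
    ¬ qv j ∣ N := by
  intro hj
  have hS := (hqv.2.1 j).2.1
  rw [Finset.mem_union, not_or] at hS
  by_cases h2 : qv j = 2
  · apply hS.1
    rw [Y.hSmin, h2]
    exact Finset.mem_insert_self _ _
  · exact hS.2 ((Y.hr (qv j)).mpr ⟨(hqv.2.1 j).1, h2, hj⟩)

/-- `L = N * ∏ qv j` is squarefree -/
theorem rthkf_sqfree_L (hcond : P.IsConductorLevel N)
    (hqv : IsTWFamily P.p Y.ρbar (Y.Smin ∪ Finset.univ.image Y.r) n h qv) :
    Squarefree (N * rthkdM qv) := by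
  rw [Nat.squarefree_mul_iff]
  refine ⟨?_, hcond.squarefree, ?_⟩
  · rw [rthkdM]
    refine Nat.Coprime.prod_right fun j _ => ?_
    exact (Nat.coprime_comm.mp ((Nat.Prime.coprime_iff_not_dvd (hqv.2.1 j).1).mpr
      (rthkf_qv_not_dvd hqv j)))
  · exact rthkp_sqfree_prod qv hqv.1 (fun j => (hqv.2.1 j).1)

/-- a prime not dividing `L * p` is prime to `M` -/
theorem rthkf_coprime_M {ℓ : ℕ} (hℓ : ℓ.Prime)
    (hℓL : ¬ ℓ ∣ (N * rthkdM qv) * P.p) : Nat.Coprime ℓ (rthkdM (Sum.elim qv Y.r)) := by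
  rw [Nat.Prime.coprime_iff_not_dvd hℓ]
  intro hd
  apply hℓL
  exact Dvd.dvd.mul_right (hd.trans (rthkdYM_dvd_L (Y := Y) (qv := qv))) _

/-- a prime not dividing `L * p` is not a Taylor–Wiles prime -/
theorem rthkf_not_mem_Q {ℓ : ℕ} (hℓL : ¬ ℓ ∣ (N * rthkdM qv) * P.p) :
    ℓ ∉ List.ofFn qv := by
  intro hmem
  rw [List.mem_ofFn] at hmem
  obtain ⟨j, rfl⟩ := hmem
  apply hℓL
  exact Dvd.dvd.mul_right (Dvd.dvd.mul_left (rthkd_dvd_M qv j) _) _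

theorem rthkf_prod_ofFn : N * rthkdM qv = N * (List.ofFn qv).prod := by
  rw [List.prod_ofFn]
  rfl

end arith

/-- **HK-CONC, the final glue.** -/
theorem rthkf_top (hflat : StmtFlatH) (hK5 : StmtHkfK5) (hTr : StmtHkfTr) : StmtHkConcTop := by
  intro P N q _ hcond hpN hq hq2 hqN hirr hmod htriv Y h
  haveI : Fact P.p.Prime := ⟨P.pp⟩
  obtain ⟨M₀, iM₀, iM₀N, r, hr, c, a, S', hpS', hNS', 𝕋₀, i1, J₀, i2, i3, i4, Tr₀, Φ0, hbase,
    hmat, hlev⟩ := hK5 P N q hcond hpN hq hq2 hqN hirr hmod htriv Y h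
  refine ⟨2 ^ h * r, Nat.mul_pos (pow_pos two_pos h) hr, S', hpS', hNS', 𝕋₀, i1, J₀, i2, i3,
    i4, Tr₀, Φ0, hbase, fun n qv hqv => ?_⟩
  have hN0 : N ≠ 0 := NeZero.ne N
  haveI iL : NeZero (N * rthkdM qv) := ⟨rthkdYL_ne_zero hN0 hqv⟩
  haveI iM : NeZero (rthkdM (Sum.elim qv Y.r)) := ⟨rthkdYM_ne_zero hqv⟩
  haveI iML : Fact (rthkdM (Sum.elim qv Y.r) ∣ N * rthkdM qv) :=
    ⟨rthkdYM_dvd_L (Y := Y) (qv := qv)⟩
  obtain ⟨e, ℓ₀, iℓ₀, heP, hℓ₀, hℓ₀N, hℓ₀p, havoid, hTW, hbasis, hres⟩ :=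
    hlev n qv hqv iL iM iML
  -- `ℓ₀ ∤ L`
  have hℓ₀L : ¬ ℓ₀ ∣ N * rthkdM qv := by
    intro hd
    rcases (Nat.Prime.dvd_mul hℓ₀).mp hd with h1 | h1
    · exact hℓ₀N h1
    · obtain ⟨j, -, hj⟩ := Finset.mem_image.mp (rthkdY_dvd_prod_qv hqv hℓ₀ h1)
      exact (havoid j).1 hj
  -- the twisted expression
  have hQ : ∀ q' ∈ List.ofFn qv, q'.Prime ∧ ¬ q' ∣ N ∧ q' ≠ ℓ₀ ∧ e.Avoids q' := by
    intro q' hq'
    rw [List.mem_ofFn] at hq'
    obtain ⟨j, rfl⟩ := hq'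
    exact ⟨(hqv.2.1 j).1, rthkf_qv_not_dvd hqv j, (havoid j).1, (havoid j).2⟩
  have hnd : (List.ofFn qv).Nodup := List.nodup_ofFn.mpr hqv.1
  have hEP : (e.twist (List.ofFn qv)).IsPrimes :=
    HExpr.isPrimes_twist heP (fun q' hq' => (hQ q' hq').1)
  -- `FreeHyp`
  have hidx := rthkgi_freeHyp_index (Y := Y) (qv := qv) (n := n) hN0 hpN hq hqN hqv
  have hyp : FreeHyp P.p Y.O (N * rthkdM qv) (rthkdM (Sum.elim qv Y.r)) ℓ₀ (rthkfH Y qv n) ⊤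
      (h * (n + 1) + Fintype.card Y.ι) :=
    k5nt_freeHyp P.pp P.hp5 Y.hyp.hp𝒪 _ _ ℓ₀ hℓ₀ hℓ₀L le_top _ hidx
  -- `free` and `base`
  obtain ⟨b, free, hbmat⟩ := rthkcf_X P.p Y.O N M₀ ℓ₀ e hℓ₀ hℓ₀N (List.ofFn qv) h
    (List.length_ofFn) hnd hQ (N * rthkdM qv) (rthkdM (Sum.elim qv Y.r)) rthkf_prod_ofFn
    (rthkfH Y qv n) _ hyp (n + 1) (Nat.succ_pos n) hTW c hbasis
  -- the characters
  obtain ⟨ψ1, ψχ, hcong, haug, htrT, htrQ⟩ := hTr P N q hcond hpN hq hq2 hqN Y h n qv hqv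
    inferInstance iL iM iML ((e.twist (List.ofFn qv)).eval (N * rthkdM qv)
      (rthkdM (Sum.elim qv Y.r))) ℓ₀ iℓ₀
  have hst := rthkd_hst (O := Y.O) (L := N * rthkdM qv) (M := rthkdM (Sum.elim qv Y.r)) P.p
    (e.twist (List.ofFn qv)) hEP ℓ₀ hℓ₀ hℓ₀L (rthkfH Y qv n) (n + 1)
  have hk : ∀ x : Fin h ⊕ Y.ι,
      (Sum.elim (fun _ => n + 1) (fun _ => 1) : Fin h ⊕ Y.ι → ℕ) x ≤ n + 1 := by
    rintro (j | i)
    · exact le_rfl
    · exact Nat.succ_le_succ (Nat.zero_le n)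
  have hfaith := rthkd_faith (O := Y.O) (p := P.p) (L := N * rthkdM qv)
    (M := rthkdM (Sum.elim qv Y.r)) (H' := rthkfH Y qv n)
    (rthksE P.p (es1inftwJ (N * rthkdM qv) (rthkdM (Sum.elim qv Y.r)) (rthkfH Y qv n) P.p
        (k7ftwChar (rthkdM (Sum.elim qv Y.r)) (rthkdE P.p (n + 1))))
      (𝕋 := HDAlg (rthkdM (Sum.elim qv Y.r))) : Set (HDAlg (rthkdM (Sum.elim qv Y.r))))
    (k7ftwChar (rthkdM (Sum.elim qv Y.r)) (rthkdE P.p (n + 1))) Y.hyp.hp𝒪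
    (e.twist (List.ofFn qv)) hEP ℓ₀ hℓ₀ hℓ₀L (rthkf_sqfree_L hcond hqv) Y.hyp.hp2 hℓ₀p (n + 1)
    (fun u => by
      rw [rthkd_pmH (P.pp.odd_of_ne_two Y.hyp.hp2)]
      exact rthkd_pow_mem_H hk u)
    (n + 1) (k5nt_noTors_quot P.pp P.hp5 Y.hyp.hp𝒪 _ (n + 1)) hst
  refine ⟨N * rthkdM qv, rthkdM (Sum.elim qv Y.r), iL, iM, iML,
    (e.twist (List.ofFn qv)).eval (N * rthkdM qv) (rthkdM (Sum.elim qv Y.r)), ℓ₀, iℓ₀,
    rthkfH Y qv n,
    es1inftwJ (N * rthkdM qv) (rthkdM (Sum.elim qv Y.r)) (rthkfH Y qv n) P.p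
      (k7ftwChar (rthkdM (Sum.elim qv Y.r)) (rthkdE P.p (n + 1))),
    inferInstance, inferInstance, inferInstance,
    es1inftwTr (rthkdM (Sum.elim qv Y.r)) (rthkdE P.p (n + 1)), b, ψ1, ψχ, ?_⟩
  exact
    { pkg := rthkp_pkg_g Y _ (n + 1) hk (rthkd_dvd_M _)
      primes := rthkp_primes_inst Y hqv
      model := rthkp_model_g Y hflat hcond hpN hq hqN hqv _ (n + 1) hk (rthkd_dvd_M _)
      stable := hst
      free := free
      faith := by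
        obtain ⟨n₀, hn₀⟩ := hfaith
        refine ⟨n₀, fun t ht hkill ψ hψ => ?_⟩
        have h0 := hn₀ t ht hkill
        have h1 : rthkdAct P.p _ ℓ₀ (rthkfH Y qv n) (n + 1) hst t ⟨ψ, hψ⟩ = 0 := by
          rw [h0]
          rfl
        exact congrArg Subtype.val h1
      resid := hres
      cong := hcong
      aug := haug
      trT := htrT
      trQ := htrQ
      base := by
        intro ℓ hℓ hℓL
        haveI : NeZero ℓ := ⟨hℓ.ne_zero⟩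
        have hℓN : ¬ ℓ ∣ N * P.p := fun hd => hℓL (by
          rcases (Nat.Prime.dvd_mul hℓ).mp hd with h1 | h1
          · exact Dvd.dvd.mul_right (Dvd.dvd.mul_right h1 _) _
          · exact Dvd.dvd.mul_left h1 _)
        obtain ⟨ha, hΦ⟩ := hmat ℓ hℓ hℓN
        rw [hΦ]
        refine hbmat ℓ hℓ (rthkf_not_mem_Q hℓL) (a ℓ) ha _ (fun x => ?_)
        refine ⟨((ZMod.unitOfCoprime ℓ (rthkf_coprime_M (Y := Y) hℓ hℓL))⁻¹
          ^ rthkdE P.p (n + 1)), ?_⟩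
        rw [rthkdAct_coe]
        exact es1infev_twTr (rthkdE P.p (n + 1))
          (by
            have := rthkd_two_E (p := P.p) (P.pp.odd_of_ne_two Y.hyp.hp2) (n + 1)
            have hpos : 0 < P.p ^ (n + 1) := pow_pos P.pp.pos _
            omega)
          hℓ hℓL (rthkf_coprime_M (Y := Y) hℓ hℓL) _ }

end Fermat.Agent.RT

end
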