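import Fermat.Agent.RT.Hecke.ConcSide
import Fermat.Agent.RT.K5.ParH

/-!
# K-machine, HECKE-asm, HK-CONC: the field `resid` at the top level, by algebra

`X` free over `C[Δ]` with basis `b` (`RthkmFree C D b`), `Δ` a finite commutative `p`-group,
`p` nilpotent in `C`.  An operator `𝔱` of the commutant of `C` and `Δ` whose matrix on the
coinvariants (`rthkmMat h 1 𝔱`) has nilpotent entries is nilpotent:

* `rthkra_ev_univ` : the coordinates for the universal character `δ ↦ [δ] ∈ C[Δ]` are the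
  coefficients; `rthkra_eq_zero_of_ev` : they determine the element;
* `rthkra_aug_sub_mem` : `x − aug x ∈ nilradical C[Δ]`;
* `rthkra_pow_mem` : the entries of `Bᴷ` are in `Jᴷ` if those of `B` are in `J`;
* **`rthkra_nilpotent`** : the statement above;
* **`rthkra_resid_top`** : on the `Θ`-part of `Hom(Γ_{H'}(L), 𝒪 ⧸ 𝔪 ^ ν)`: if the matrix of
  `t` on the coinvariants is `A₀` and a power of `A₀ − c` has its entries in `𝔪`, then a power of
  `es1infHomEval t − c` vanishes on the `Θ`-part;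
* **`rthkra_resid_field`** : the field `resid` of `HkConcSide` from the fields `stable`,
  `free`, `base` and the residual statement at the base (`HkBase.resid`).
-/

set_option autoImplicit false
set_option linter.unusedSectionVars false
set_option linter.style.haveILetI false

noncomputable section

namespace Fermat.Agent.RT

open IsLocalRing Fermat.Agent.ES Fermat.Agent.S30 Fermat.Agent.W1 Fermat.Agent.TW
open Fermat.Agent.ES1 Fermat.Agent.RT.K5
open scoped MatrixGroups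

/-! ### The universal character -/

section abs

variable {C : Type*} [CommRing C] {Δ : Type*} [CommGroup Δ] [Fintype Δ] {X : Type*}
  [AddCommGroup X] [Module C X] {D : Δ →* AddMonoid.End X} {r : ℕ} {b : Fin r → X}

/-- the coordinates for the universal character are the coefficients -/
theorem rthkra_ev_univ (h : RthkmFree C D b) (ψ : X) (i : Fin r) (δ₀ : Δ) :
    (rthkmEv h (MonoidAlgebra.of C Δ) ψ i).coeff δ₀ = rthkmCoef h ψ (i, δ₀) := by
  classical
  simp only [rthkmEv]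
  rw [MonoidAlgebra.coeff_sum, Finsupp.finsetSum_apply, Finset.sum_eq_single δ₀]
  · rw [← MonoidAlgebra.single_eq_algebraMap_mul_of, MonoidAlgebra.coeff_single_apply,
      if_pos rfl]
  · intro δ _ hδ
    rw [← MonoidAlgebra.single_eq_algebraMap_mul_of, MonoidAlgebra.coeff_single_apply,
      if_neg hδ]
  · intro h0
    exact absurd (Finset.mem_univ _) h0

/-- the universal coordinates determine the element -/
theorem rthkra_eq_zero_of_ev (h : RthkmFree C D b) (ψ : X)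
    (h0 : rthkmEv h (MonoidAlgebra.of C Δ) ψ = 0) : ψ = 0 := by
  rw [rthk_m_expand h ψ]
  refine Finset.sum_eq_zero fun x _ => ?_
  have h1 : rthkmCoef h ψ x = 0 := by
    have h2 := rthkra_ev_univ h ψ x.1 x.2
    rw [h0] at h2
    exact h2.symm
  rw [h1, zero_smul]

/-- the augmentation -/
def rthkraAug (C : Type*) [CommRing C] (Δ : Type*) [CommGroup Δ] : MonoidAlgebra C Δ →ₐ[C] C :=
  MonoidAlgebra.lift C C Δ (1 : Δ →* C)

theorem rthkraAug_of (δ : Δ) : rthkraAug C Δ (MonoidAlgebra.of C Δ δ) = 1 := by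
  rw [rthkraAug, MonoidAlgebra.lift_of]
  rfl

/-- `x − aug x` is nilpotent in `C[Δ]`, `Δ` a `p`-group, `p` nilpotent in `C` -/
theorem rthkra_aug_sub_mem (p : ℕ) [Fact p.Prime] (n k : ℕ) (hp : ((p ^ n : ℕ) : C) = 0)
    (hΔ : ∀ δ : Δ, δ ^ p ^ k = 1) (x : MonoidAlgebra C Δ) :
    x - algebraMap C (MonoidAlgebra C Δ) (rthkraAug C Δ x) ∈ nilradical (MonoidAlgebra C Δ) := by
  have hp' : ((p ^ n : ℕ) : MonoidAlgebra C Δ) = 0 := by
    rw [← map_natCast (algebraMap C (MonoidAlgebra C Δ)), hp, map_zero]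
  induction x using MonoidAlgebra.induction_on with
  | of δ =>
    rw [rthkraAug_of, map_one, mem_nilradical]
    refine k5ph_unipotent p n k hp' _ ?_
    rw [← map_pow, hΔ, map_one]
  | add x y hx hy =>
    have e : x + y - algebraMap C (MonoidAlgebra C Δ) (rthkraAug C Δ (x + y))
        = (x - algebraMap C (MonoidAlgebra C Δ) (rthkraAug C Δ x))
          + (y - algebraMap C (MonoidAlgebra C Δ) (rthkraAug C Δ y)) := by
      rw [map_add, map_add]
      abel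
    rw [e]
    exact Ideal.add_mem _ hx hy
  | smul c x hx =>
    have e : c • x - algebraMap C (MonoidAlgebra C Δ) (rthkraAug C Δ (c • x))
        = algebraMap C (MonoidAlgebra C Δ) c
          * (x - algebraMap C (MonoidAlgebra C Δ) (rthkraAug C Δ x)) := by
      rw [map_smul, smul_eq_mul, map_mul, Algebra.smul_def]
      ring
    rw [e]
    exact Ideal.mul_mem_left _ _ hx

/-- the entries of `Bᴷ` are in `Jᴷ` -/
theorem rthkra_pow_mem {S : Type*} [CommRing S] (J : Ideal S) (B : Matrix (Fin r) (Fin r) S)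
    (hB : ∀ i j, B i j ∈ J) : ∀ (K : ℕ) (i j : Fin r), (B ^ K) i j ∈ J ^ K
  | 0, _, _ => by
    rw [pow_zero, Ideal.one_eq_top]
    exact Submodule.mem_top
  | K + 1, i, j => by
    have e1 : B ^ (K + 1) = B ^ K * B := pow_succ B K
    have e2 : J ^ (K + 1) = J ^ K * J := pow_succ J K
    rw [e1, e2, Matrix.mul_apply]
    exact Ideal.sum_mem _ fun l _ => Ideal.mul_mem_mul (rthkra_pow_mem J B hB K i l) (hB l j)

/-- **Nilpotency from the coinvariants.**  An operator of the commutant whose matrix on the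
coinvariants has nilpotent entries is nilpotent. -/
theorem rthkra_nilpotent (h : RthkmFree C D b) {𝔱 : AddMonoid.End X}
    (h𝔱 : 𝔱 ∈ rthkmComm C D) (p : ℕ) [Fact p.Prime] (n k : ℕ) (hp : ((p ^ n : ℕ) : C) = 0)
    (hΔ : ∀ δ : Δ, δ ^ p ^ k = 1)
    (hnil : ∀ i j, IsNilpotent (rthkmMat h (1 : Δ →* C) 𝔱 i j)) : IsNilpotent 𝔱 := by
  classical
  set B : Matrix (Fin r) (Fin r) (MonoidAlgebra C Δ) := rthkmMat h (MonoidAlgebra.of C Δ) 𝔱
    with hBdef
  -- the augmentation of `B`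
  have haug : ∀ i j, rthkraAug C Δ (B i j) = rthkmMat h (1 : Δ →* C) 𝔱 i j := by
    intro i j
    have h1 := rthk_m_mat_map h (rthkraAug C Δ) (MonoidAlgebra.of C Δ) 𝔱
    have h2 : ((rthkraAug C Δ : MonoidAlgebra C Δ →* C).comp (MonoidAlgebra.of C Δ))
        = (1 : Δ →* C) := MonoidHom.ext fun δ => rthkraAug_of δ
    rw [h2] at h1
    rw [← h1, Matrix.map_apply]
  -- the entries of `B` are nilpotent
  have hB : ∀ i j, B i j ∈ nilradical (MonoidAlgebra C Δ) := by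
    intro i j
    have h1 := rthkra_aug_sub_mem p n k hp hΔ (B i j)
    have h2 : algebraMap C (MonoidAlgebra C Δ) (rthkraAug C Δ (B i j))
        ∈ nilradical (MonoidAlgebra C Δ) := by
      rw [mem_nilradical, haug]
      exact (hnil i j).map _
    have := Ideal.add_mem _ h1 h2
    rwa [sub_add_cancel] at this
  -- the ideal of the entries is nilpotent
  set J : Ideal (MonoidAlgebra C Δ) :=
    Ideal.span (Set.range fun ij : Fin r × Fin r => B ij.1 ij.2) with hJ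
  have hJfg : J.FG := ⟨(Set.finite_range _).toFinset, by rw [Set.Finite.coe_toFinset]⟩
  have hJle : J ≤ nilradical (MonoidAlgebra C Δ) := by
    rw [hJ, Ideal.span_le]
    rintro _ ⟨ij, rfl⟩
    exact hB ij.1 ij.2
  obtain ⟨K, hK⟩ := (Ideal.FG.isNilpotent_iff_le_nilradical hJfg).2 hJle
  have hBJ : ∀ i j, B i j ∈ J := fun i j => Ideal.subset_span ⟨(i, j), rfl⟩
  have hBK : B ^ K = 0 := by
    refine Matrix.ext fun i j => ?_
    have h1 := rthkra_pow_mem J B hBJ K i j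
    rw [hK] at h1
    exact h1
  -- back to `𝔱`
  refine ⟨K, AddMonoidHom.ext fun ψ => ?_⟩
  have hpow : rthkmMat h (MonoidAlgebra.of C Δ) (𝔱 ^ K) = B ^ K := by
    have := map_pow (rthkmPhi h (MonoidAlgebra.of C Δ)) ⟨𝔱, h𝔱⟩ K
    simpa [rthkmPhi_apply] using this
  have hmem : 𝔱 ^ K ∈ rthkmComm C D := Subring.pow_mem _ h𝔱 K
  have h1 := rthk_m_ev_apply h (MonoidAlgebra.of C Δ) hmem ψ
  rw [hpow, hBK, Matrix.zero_mulVec] at h1
  exact rthkra_eq_zero_of_ev h _ h1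

end abs

/-! ### The `Θ`-part -/

section conc

variable {O : Type} [CommRing O] [IsLocalRing O] {p : ℕ} [Fact p.Prime] {L M : ℕ} [NeZero L]
  [NeZero M] [hML : Fact (M ∣ L)] {𝔲 : NatFam O L M} {ℓ₀ : ℕ} [NeZero ℓ₀]
  {H' : Subgroup (ZMod M)ˣ} {ν d : ℕ} {b : Fin d → rthkdX 𝔲 ℓ₀ H' ν}

/-- the elements of `𝔪` are nilpotent in `𝒪 ⧸ 𝔪 ^ ν` -/
theorem rthkra_nil_of_mem (ν : ℕ) {x : O} (hx : x ∈ maximalIdeal O) :
    IsNilpotent (algebraMap O (RthkdC O ν) x) := by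
  refine ⟨ν, ?_⟩
  rw [← map_pow]
  exact Ideal.Quotient.eq_zero_iff_mem.2 (Ideal.pow_mem_pow hx ν)

/-- **`resid` at the top level from the base.** -/
theorem rthkra_resid_top (hst : RthkcsStable p 𝔲 ℓ₀ H' ν)
    (free : RthkmFree (Δ := RthkdDelta M H') (RthkdC O ν) (rthkdD 𝔲 ℓ₀ H' ν) b)
    (hpO : (p : O) ∈ maximalIdeal O) (k : ℕ) (hΔ : ∀ δ : RthkdDelta M H', δ ^ p ^ k = 1)
    (t : HDAlg M) (A₀ : Matrix (Fin d) (Fin d) O)
    (hbase : rthkmMat free (1 : RthkdDelta M H' →* RthkdC O ν) (rthkdAct p 𝔲 ℓ₀ H' ν hst t)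
      = A₀.map (algebraMap O (RthkdC O ν)))
    (c : O) (e : ℕ)
    (hnil : ∀ i j, ((A₀ - algebraMap O (Matrix (Fin d) (Fin d) O) c) ^ e) i j
      ∈ maximalIdeal O) :
    ∃ e' : ℕ, ∀ ψ ∈ etaPart (thetaN 𝔲 ℓ₀ (RthkdC O ν) H'),
      ((rthkdEval p L M H' (RthkdC O ν) t - rthkcsScal L M H' ν c) ^ e') ψ = 0 := by
  classical
  -- the operator on `X`
  set 𝔱 : AddMonoid.End (rthkdX 𝔲 ℓ₀ H' ν) := rthkdAct p 𝔲 ℓ₀ H' ν hst t
    - Module.toAddMonoidEnd (RthkdC O ν) (rthkdX 𝔲 ℓ₀ H' ν) (algebraMap O (RthkdC O ν) c)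
    with h𝔱def
  have h𝔱 : 𝔱 ∈ rthkmComm (Δ := RthkdDelta M H') (RthkdC O ν) (rthkdD 𝔲 ℓ₀ H' ν) :=
    Subring.sub_mem _ (rthkcs_act_comm hst t) (rthk_m_scalar_mem free.1 _)
  have h𝔱e : 𝔱 ^ e ∈ rthkmComm (Δ := RthkdDelta M H') (RthkdC O ν) (rthkdD 𝔲 ℓ₀ H' ν) :=
    Subring.pow_mem _ h𝔱 e
  -- its matrix on the coinvariants
  have hmat : rthkmMat free (1 : RthkdDelta M H' →* RthkdC O ν) (𝔱 ^ e)
      = ((A₀ - algebraMap O (Matrix (Fin d) (Fin d) O) c) ^ e).map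
        (algebraMap O (RthkdC O ν)) := by
    have h1 := map_pow (rthkmPhi free (1 : RthkdDelta M H' →* RthkdC O ν)) ⟨𝔱, h𝔱⟩ e
    have h2 : rthkmPhi free (1 : RthkdDelta M H' →* RthkdC O ν) ⟨𝔱, h𝔱⟩
        = (A₀ - algebraMap O (Matrix (Fin d) (Fin d) O) c).map
          (algebraMap O (RthkdC O ν)) := by
      rw [rthkmPhi_apply]
      show rthkmMat free 1 (rthkdAct p 𝔲 ℓ₀ H' ν hst t
        - Module.toAddMonoidEnd (RthkdC O ν) (rthkdX 𝔲 ℓ₀ H' ν)
          (algebraMap O (RthkdC O ν) c)) = _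
      rw [sub_eq_add_neg, rthkmMat_add, hbase]
      have h3 : rthkmMat free (1 : RthkdDelta M H' →* RthkdC O ν)
          (-Module.toAddMonoidEnd (RthkdC O ν) (rthkdX 𝔲 ℓ₀ H' ν)
            (algebraMap O (RthkdC O ν) c))
          = -(algebraMap (RthkdC O ν) (RthkdC O ν) (algebraMap O (RthkdC O ν) c)
            • (1 : Matrix (Fin d) (Fin d) (RthkdC O ν))) := by
        rw [← rthk_m_mat_scalar free (1 : RthkdDelta M H' →* RthkdC O ν)]
        have h4 := rthkmMat_add free (1 : RthkdDelta M H' →* RthkdC O ν)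
          (Module.toAddMonoidEnd (RthkdC O ν) (rthkdX 𝔲 ℓ₀ H' ν)
            (algebraMap O (RthkdC O ν) c))
          (-Module.toAddMonoidEnd (RthkdC O ν) (rthkdX 𝔲 ℓ₀ H' ν)
            (algebraMap O (RthkdC O ν) c))
        rw [add_neg_cancel, rthkmMat_zero] at h4
        exact eq_neg_of_add_eq_zero_right h4.symm
      rw [h3]
      ext i j
      simp only [Matrix.add_apply, Matrix.neg_apply, Matrix.smul_apply, Matrix.map_apply,
        Matrix.sub_apply, Matrix.algebraMap_matrix_apply, Matrix.one_apply, map_sub,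
        Algebra.algebraMap_self, RingHom.id_apply, smul_eq_mul]
      split_ifs <;> simp [sub_eq_add_neg]
    have h5 : (rthkmPhi free (1 : RthkdDelta M H' →* RthkdC O ν)) (⟨𝔱, h𝔱⟩ ^ e)
        = rthkmMat free (1 : RthkdDelta M H' →* RthkdC O ν) (𝔱 ^ e) := rfl
    rw [← h5, h1, h2]
    exact (map_pow (algebraMap O (RthkdC O ν)).mapMatrix _ e).symm
  have hp : ((p ^ ν : ℕ) : RthkdC O ν) = 0 := by
    have h1 : ((p ^ ν : ℕ) : RthkdC O ν) = algebraMap O (RthkdC O ν) ((p : O) ^ ν) := by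
      rw [map_pow, map_natCast, Nat.cast_pow]
    rw [h1]
    exact Ideal.Quotient.eq_zero_iff_mem.2 (Ideal.pow_mem_pow hpO ν)
  obtain ⟨K, hK⟩ := rthkra_nilpotent free h𝔱e p ν k hp hΔ (fun i j => by
    rw [hmat, Matrix.map_apply]
    exact rthkra_nil_of_mem ν (hnil i j))
  refine ⟨e * K, fun ψ hψ => ?_⟩
  -- back to `Hom(Γ_{H'}(L), C)`
  have hmem : rthkdEval p L M H' (RthkdC O ν) t - rthkcsScal L M H' ν c
      ∈ rthkdStab (rthkdX 𝔲 ℓ₀ H' ν) := by
    refine Subring.sub_mem _ (fun ψ hψ => hst t ψ hψ) (fun ψ hψ => ?_)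
    exact (rthkdX 𝔲 ℓ₀ H' ν).smul_mem _ hψ
  have e1 : rthkdResHom (rthkdX 𝔲 ℓ₀ H' ν) ⟨_, hmem⟩ = 𝔱 :=
    AddMonoidHom.ext fun x => Subtype.ext rfl
  have e2 : rthkdResHom (rthkdX 𝔲 ℓ₀ H' ν) (⟨_, hmem⟩ ^ (e * K)) = 0 := by
    rw [map_pow, e1, pow_mul, hK]
  have e3 := congrArg (fun f : AddMonoid.End (rthkdX 𝔲 ℓ₀ H' ν) =>
    ((f ⟨ψ, hψ⟩ : rthkdX 𝔲 ℓ₀ H' ν) : HomS (gammaH L M H') (RthkdC O ν))) e2
  simp only [rthkdResHom_coe, SubmonoidClass.coe_pow] at e3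
  exact e3

end conc

/-! ### The field `resid` -/

section field

variable {O : Type} [CommRing O] [IsLocalRing O]

/-- **the field `resid` of `HkConcSide`** from `stable`, `free`, `base` and the residual
statement at the base. -/
theorem rthkra_resid_field {p : ℕ} [Fact p.Prime]
    {ρbar : ResidualGaloisRep (ResidueField O)} {d n : ℕ}
    {a0 : ℕ → Matrix (Fin d) (Fin d) O}
    {L M : ℕ} [NeZero L] [NeZero M] [hML : Fact (M ∣ L)] {𝔲 : NatFam O L M} {ℓ₀ : ℕ}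
    [NeZero ℓ₀] {H' : Subgroup (ZMod M)ˣ} {Tr : ℕ → HDAlg M} {b : Fin d → rthkdX 𝔲 ℓ₀ H' n}
    (stable : RthkcsStable p 𝔲 ℓ₀ H' n)
    (free : RthkmFree (Δ := RthkdDelta M H') (RthkdC O n) (rthkdD 𝔲 ℓ₀ H' n) b)
    (hpO : (p : O) ∈ maximalIdeal O) (k : ℕ) (hΔ : ∀ δ : RthkdDelta M H', δ ^ p ^ k = 1)
    (base : ∀ ℓ : ℕ, ℓ.Prime → ¬ ℓ ∣ L * p →
      rthkmMat free (1 : RthkdDelta M H' →* RthkdC O n) (rthkdAct p 𝔲 ℓ₀ H' n stable (Tr ℓ))
        = (a0 ℓ).map (algebraMap O (RthkdC O n)))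
    (res0 : ∀ ℓ : ℕ, ℓ.Prime → ¬ ℓ ∣ L * p →
      ∀ P : ValuationSubring (AlgebraicClosure ℚ), P.LiesOverPrime ℓ →
        ∀ τ : GQ, P.IsFrobeniusAt τ ℓ → ∃ (c : O) (e : ℕ),
          residue O c = LinearMap.trace (ResidueField O) ρbar.V (ρbar.ρ τ) ∧
          ∀ i j, ((a0 ℓ - algebraMap O (Matrix (Fin d) (Fin d) O) c) ^ e) i j
            ∈ maximalIdeal O) :
    ∀ ℓ : ℕ, ℓ.Prime → ¬ ℓ ∣ L * p →
      ∀ P : ValuationSubring (AlgebraicClosure ℚ), P.LiesOverPrime ℓ →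
        ∀ τ : GQ, P.IsFrobeniusAt τ ℓ → ∃ (c : O) (e : ℕ),
          residue O c = LinearMap.trace (ResidueField O) ρbar.V (ρbar.ρ τ) ∧
          ∀ ψ ∈ etaPart (thetaN 𝔲 ℓ₀ (RthkdC O n) H'),
            ((rthkdEval p L M H' (RthkdC O n) (Tr ℓ) - rthkcsScal L M H' n c) ^ e) ψ = 0 := by
  intro ℓ hℓ hℓL P hP τ hτ
  obtain ⟨c, e, hc, hnil⟩ := res0 ℓ hℓ hℓL P hP τ hτ
  obtain ⟨e', he'⟩ := rthkra_resid_top stable free hpO k hΔ (Tr ℓ) (a0 ℓ)
    (base ℓ hℓ hℓL) c e hnil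
  exact ⟨c, e', hc, he'⟩

end field

end Fermat.Agent.RT

end
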