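import Fermat.Agent.RT.Hecke.ConcFinal
import Fermat.Agent.RT.Hecke.ConcResidAlg

/-!
# K-machine, HK-CONC, layer (C) (helper9): the final glue, variant B

`StmtHkfK5'` : the K5 side WITHOUT the residual traces at the top level, but with the base
`HkBase` for `S'` = the primes of `N p` (`ℓ ∤ N p ⇒ ℓ ∉ S'`).  The field `resid` of `HkConcSide`
then follows from `HkBase.resid` by helper59's `rthkra_resid_field`.

* `rthkf_k5_of : StmtHkfK5' → StmtHkfK5`;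
* `rthkf_top' : K7F.StmtFlatH → StmtHkfK5' → StmtHkfTr → StmtHkConcTop`.
-/

set_option autoImplicit false
set_option linter.unusedSectionVars false
set_option linter.style.haveILetI false

noncomputable section

namespace Fermat.Agent.RT

open IsLocalRing Fermat.Agent.ES Fermat.Agent.S30 Fermat.Agent.W1 Fermat.Agent.TW
open Fermat.Agent.ES1 Fermat.Agent.RT.K5 Fermat.Agent.RT.K7F Fermat.Agent.RT.Prod
open ExtCitation WeierstrassCurve WeierstrassCurve.Affine WeierstrassCurve.Affine.Point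
open scoped MatrixGroups

/-- **The K5 side, variant B** (no residual traces at the top level). -/
def StmtHkfK5' : Prop :=
  ∀ (P : FreyPackage) (N q : ℕ) [NeZero N], P.IsConductorLevel N → ¬ P.p ∣ N → q.Prime →
    q ≠ 2 → q ∣ N → GaloisRepIsIrreducible (K := AlgebraicClosure ℚ) ℚ P.freyCurve P.p →
    P.ModularRepOfLevel N →
    (∀ r : ℕ, r.Prime → r ≠ 2 → r ∣ N → Fermat.Agent.RIB.IsTrivialPrime P r) →
    ∀ (Y : KSetup P N q) (h : ℕ),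
      haveI : Fact P.p.Prime := ⟨P.pp⟩
      ∃ (M₀ : ℕ) (_ : NeZero M₀) (_ : Fact (M₀ ∣ N)) (r : ℕ) (_ : 0 < r)
        (c : Fin r → HomS (gammaH N M₀ (⊤ : Subgroup (ZMod M₀)ˣ)) Y.O)
        (a : ℕ → Matrix (Fin r) (Fin r) Y.O)
        (S' : Finset ℕ) (_ : P.p ∈ S') (_ : ∀ ℓ : ℕ, ℓ.Prime → ℓ ∣ N → ℓ ∈ S')
        (𝕋₀ : Type) (_ : CommRing 𝕋₀) (J₀ : Type) (_ : AddCommGroup J₀) (_ : Module 𝕋₀ J₀)
        (_ : DistribMulAction GQ J₀) (Tr₀ : ℕ → 𝕋₀)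
        (Φ0 : 𝕋₀ →+* Matrix (Fin (2 ^ h * r)) (Fin (2 ^ h * r)) Y.O),
        HkBase P.p Y.ρbar N S' (2 ^ h * r) J₀ Tr₀ Φ0 ∧
        (∀ ℓ : ℕ, ℓ.Prime → ¬ ℓ ∣ N * P.p → ℓ ∉ S') ∧
        (∀ (ℓ : ℕ) [NeZero ℓ], ℓ.Prime → ¬ ℓ ∣ N * P.p →
          (∀ i', tS N M₀ ℓ ⊤ Y.O (c i') = ∑ i, a ℓ i i' • c i) ∧
            Φ0 (Tr₀ ℓ) = rthkcbBlock Y.O h r (a ℓ)) ∧
        ∀ (n : ℕ) (qv : Fin h → ℕ),
          IsTWFamily P.p Y.ρbar (Y.Smin ∪ Finset.univ.image Y.r) n h qv →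
          ∀ (_ : NeZero (N * rthkdM qv)) (_ : NeZero (rthkdM (Sum.elim qv Y.r)))
            (_ : Fact (rthkdM (Sum.elim qv Y.r) ∣ N * rthkdM qv)),
          ∃ (e : HExpr Y.O) (ℓ₀ : ℕ) (_ : NeZero ℓ₀), e.IsPrimes ∧ ℓ₀.Prime ∧ ¬ ℓ₀ ∣ N ∧
            ℓ₀ ≠ P.p ∧ (∀ j, qv j ≠ ℓ₀ ∧ e.Avoids (qv j)) ∧
            K5TWCond Y.O N M₀ ℓ₀ e (List.ofFn qv) (RthkdC Y.O (n + 1)) ∧
            K5IsBasis (RthkdC Y.O (n + 1))
              (etaPart (thetaN (e.eval N M₀) ℓ₀ (RthkdC Y.O (n + 1)) ⊤))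
              (fun i => mapS (Submodule.mkQ (maximalIdeal Y.O ^ (n + 1))).toAddMonoidHom
                (c i))

/-- **Variant B gives the contract `StmtHkfK5`**: the residual traces at the top level follow
from those of the base. -/
theorem rthkf_k5_of (hK5 : StmtHkfK5') : StmtHkfK5 := by
  intro P N q _ hcond hpN hq hq2 hqN hirr hmod htriv Y h
  haveI : Fact P.p.Prime := ⟨P.pp⟩
  obtain ⟨M₀, iM₀, iM₀N, r, hr, c, a, S', hpS', hNS', 𝕋₀, i1, J₀, i2, i3, i4, Tr₀, Φ0, hbase,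
    hS', hmat, hlev⟩ := hK5 P N q hcond hpN hq hq2 hqN hirr hmod htriv Y h
  refine ⟨M₀, iM₀, iM₀N, r, hr, c, a, S', hpS', hNS', 𝕋₀, i1, J₀, i2, i3, i4, Tr₀, Φ0, hbase,
    hmat, fun n qv hqv iL iM iML => ?_⟩
  have hN0 : N ≠ 0 := NeZero.ne N
  obtain ⟨e, ℓ₀, iℓ₀, heP, hℓ₀, hℓ₀N, hℓ₀p, havoid, hTW, hbasis⟩ := hlev n qv hqv iL iM iML
  refine ⟨e, ℓ₀, iℓ₀, heP, hℓ₀, hℓ₀N, hℓ₀p, havoid, hTW, hbasis, ?_⟩
  -- `ℓ₀ ∤ L`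
  have hℓ₀L : ¬ ℓ₀ ∣ N * rthkdM qv := by
    intro hd
    rcases (Nat.Prime.dvd_mul hℓ₀).mp hd with h1 | h1
    · exact hℓ₀N h1
    · obtain ⟨j, -, hj⟩ := Finset.mem_image.mp (rthkdY_dvd_prod_qv hqv hℓ₀ h1)
      exact (havoid j).1 hj
  have hQ : ∀ q' ∈ List.ofFn qv, q'.Prime ∧ ¬ q' ∣ N ∧ q' ≠ ℓ₀ ∧ e.Avoids q' := by
    intro q' hq'
    rw [List.mem_ofFn] at hq'
    obtain ⟨j, rfl⟩ := hq'
    exact ⟨(hqv.2.1 j).1, rthkf_qv_not_dvd hqv j, (havoid j).1, (havoid j).2⟩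
  have hnd : (List.ofFn qv).Nodup := List.nodup_ofFn.mpr hqv.1
  have hEP : (e.twist (List.ofFn qv)).IsPrimes :=
    HExpr.isPrimes_twist heP (fun q' hq' => (hQ q' hq').1)
  have hidx := rthkgi_freeHyp_index (Y := Y) (qv := qv) (n := n) hN0 hpN hq hqN hqv
  have hyp : FreeHyp P.p Y.O (N * rthkdM qv) (rthkdM (Sum.elim qv Y.r)) ℓ₀ (rthkfH Y qv n) ⊤
      (h * (n + 1) + Fintype.card Y.ι) :=
    k5nt_freeHyp P.pp P.hp5 Y.hyp.hp𝒪 _ _ ℓ₀ hℓ₀ hℓ₀L le_top _ hidx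
  obtain ⟨b, free, hbmat⟩ := rthkcf_X P.p Y.O N M₀ ℓ₀ e hℓ₀ hℓ₀N (List.ofFn qv) h
    (List.length_ofFn) hnd hQ (N * rthkdM qv) (rthkdM (Sum.elim qv Y.r)) rthkf_prod_ofFn
    (rthkfH Y qv n) _ hyp (n + 1) (Nat.succ_pos n) hTW c hbasis
  have hst := rthkd_hst (O := Y.O) (L := N * rthkdM qv) (M := rthkdM (Sum.elim qv Y.r)) P.p
    (e.twist (List.ofFn qv)) hEP ℓ₀ hℓ₀ hℓ₀L (rthkfH Y qv n) (n + 1)
  have hk : ∀ x : Fin h ⊕ Y.ι,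
      (Sum.elim (fun _ => n + 1) (fun _ => 1) : Fin h ⊕ Y.ι → ℕ) x ≤ n + 1 := by
    rintro (j | i)
    · exact le_rfl
    · exact Nat.succ_le_succ (Nat.zero_le n)
  have hℓN : ∀ ℓ : ℕ, ℓ.Prime → ¬ ℓ ∣ (N * rthkdM qv) * P.p → ¬ ℓ ∣ N * P.p :=
    fun ℓ hℓ hℓL hd => hℓL (by
      rcases (Nat.Prime.dvd_mul hℓ).mp hd with h1 | h1
      · exact Dvd.dvd.mul_right (Dvd.dvd.mul_right h1 _) _
      · exact Dvd.dvd.mul_left h1 _)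
  have hΔ : ∀ δ : RthkdDelta (rthkdM (Sum.elim qv Y.r)) (rthkfH Y qv n),
      δ ^ P.p ^ (n + 1) = 1 := by
    intro δ
    obtain ⟨u, rfl⟩ := QuotientGroup.mk_surjective δ
    rw [← QuotientGroup.mk_pow, QuotientGroup.eq_one_iff,
      rthkd_pmH (P.pp.odd_of_ne_two Y.hyp.hp2)]
    exact rthkd_pow_mem_H hk u
  refine rthkra_resid_field (ρbar := Y.ρbar) (a0 := fun ℓ => Φ0 (Tr₀ ℓ))
    (Tr := es1inftwTr (rthkdM (Sum.elim qv Y.r)) (rthkdE P.p (n + 1))) hst free Y.hyp.hp𝒪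
    (n + 1) hΔ ?_ ?_
  · intro ℓ hℓ hℓL
    haveI : NeZero ℓ := ⟨hℓ.ne_zero⟩
    obtain ⟨ha, hΦ⟩ := hmat ℓ hℓ (hℓN ℓ hℓ hℓL)
    show _ = (Φ0 (Tr₀ ℓ)).map _
    rw [hΦ]
    refine hbmat ℓ hℓ (rthkf_not_mem_Q hℓL) (a ℓ) ha _ (fun x => ?_)
    refine ⟨((ZMod.unitOfCoprime ℓ (rthkf_coprime_M (Y := Y) hℓ hℓL))⁻¹
      ^ rthkdE P.p (n + 1)), ?_⟩
    rw [rthkdAct_coe]
    exact es1infev_twTr (rthkdE P.p (n + 1))
      (by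
        have := rthkd_two_E (p := P.p) (P.pp.odd_of_ne_two Y.hyp.hp2) (n + 1)
        have hpos : 0 < P.p ^ (n + 1) := pow_pos P.pp.pos _
        omega)
      hℓ hℓL (rthkf_coprime_M (Y := Y) hℓ hℓL) _
  · intro ℓ hℓ hℓL A hA τ hτ
    exact hbase.resid ℓ hℓ (hS' ℓ hℓ (hℓN ℓ hℓ hℓL)) A hA τ hτ

/-- **HK-CONC, the final glue, variant B.** -/
theorem rthkf_top' (hflat : StmtFlatH) (hK5 : StmtHkfK5') (hTr : StmtHkfTr) : StmtHkConcTop :=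
  rthkf_top hflat (rthkf_k5_of hK5) hTr

end Fermat.Agent.RT

end
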