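import Fermat.Agent.RT.Hecke.Mat
import Fermat.Agent.RT.K5.BaseMat

/-!
# K-machine, HECKE-asm, HK-CONC: the fields `free`, `act_comm`, `base` of `HkConc` (helper88)

`HkConc` (`RT/Hecke/Conc.lean`) asks for a `C`-module `X` with `D : Δ →* End X`, a family
`b : Fin d → X` with `RthkmFree C D b`, and for the matrix of `act (Tr ℓ)` on the coinvariants.

## Abstract part (HK-MAT only)

* `rthkcf_mat_of_nm` : the NORM FORM of `base` gives the matrix form: if `Nm : X →+ Y` is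
  `C`-linear, `Nm ∘ D δ = Nm`, `c ↦ ∑ c i • Nm (b i)` is injective and
  `Nm (𝔱 (b i)) = ∑ i', A i' i • Nm (b i')`, then `rthkmMat free 1 𝔱 = A`;
* `rthkcf_act_comm` : `act t ∈ rthkmComm C D` if the `act t` are `C`-linear and every `D δ` is the
  action of an element of the (commutative) ring `𝕋`.

## The K5 model

`RthkcfModel H' C θ' π D j` : `X` is a copy of the `Θ`-part `etaPart θ'` of `Hom(Γ_{H'}(L), C)`
(through the injective `C`-linear `j : X →+ Hom(Γ_{H'}(L), C)` with image `etaPart θ'`), `Δ` is a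
copy of `(ℤ/M)ˣ ⧸ ±H'` (through the surjective `π` with kernel `pmH H'`) and `D (π u)` is the
diamond operator `diamU u`.

* `rthkcf_free` : K5's `IsFreeBasis H' ⊤ … (j ∘ b)` gives `RthkmFree C D b`;
* `rthkcf_lift` : a family in the `Θ`-part lifts to `X`;
* `rthkcf_base` : the matrix of `𝔱` on the coinvariants from the relation
  `cores (j (𝔱 (b i))) = ∑ i', A i' i • cores (j (b i'))`;
* `rthkcf_cores_diam_tS` : `cores (diamU u (tS ℓ ψ)) = tS ℓ (cores ψ)`;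
* `rthkcf_exists` : **the fields `free` and `base` for the Taylor–Wiles module**: for the base
  basis `c` (over `𝒪`), a Taylor–Wiles list `Q` of length `h` and a model `X` of the `Θ`-part of
  level `N = N₀ ∏ Q`, coefficients `𝒪 ⧸ 𝔪 ^ n`: there is `b : Fin (2 ^ h * r) → X` with
  `RthkmFree` such that every `𝔱` acting through `j` as `diamU u ∘ tS ℓ` (`ℓ ∉ Q` prime) has on
  the coinvariants the block diagonal matrix with blocks `mk (a i j)`, `a` the matrix of `tS ℓ`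
  in the basis `c` of the base level.
-/

set_option autoImplicit false
set_option linter.style.haveILetI false
set_option linter.unusedSectionVars false
set_option linter.unusedVariables false

noncomputable section

namespace Fermat.Agent.RT

open CongruenceSubgroup Matrix
open scoped MatrixGroups
open Fermat.Agent.ES1 (gammaH diamHom pmH)
open Fermat.Agent.RT.K5

section abs

variable {C : Type*} [CommRing C] {Δ : Type*} [CommGroup Δ] [Fintype Δ] {X : Type*}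
  [AddCommGroup X] [Module C X] {D : Δ →* AddMonoid.End X} {r : ℕ} {b : Fin r → X}

/-- **the norm form of `base` gives the matrix form** -/
theorem rthkcf_mat_of_nm (h : RthkmFree C D b) {Y : Type*} [AddCommGroup Y] [Module C Y]
    (Nm : X →+ Y) (hN1 : ∀ (c : C) (x : X), Nm (c • x) = c • Nm x)
    (hN2 : ∀ (δ : Δ) (x : X), Nm (D δ x) = Nm x)
    (hinj : Function.Injective (fun c : Fin r → C => ∑ i, c i • Nm (b i)))
    (𝔱 : AddMonoid.End X) (A : Matrix (Fin r) (Fin r) C)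
    (hA : ∀ i, Nm (𝔱 (b i)) = ∑ i', A i' i • Nm (b i')) :
    rthkmMat h (1 : Δ →* C) 𝔱 = A := by
  ext i' i
  have h1 := rthk_m_coinv h Nm hN1 hN2 𝔱 i
  rw [hA i] at h1
  have h2 := @hinj (fun i' => A i' i) (fun i' => rthkmMat h (1 : Δ →* C) 𝔱 i' i) h1
  exact (congrFun h2 i').symm

omit [Fintype Δ] in
/-- the Hecke operators are in the commutant: they are `C`-linear and the diamond operators are
Hecke operators -/
theorem rthkcf_act_comm {𝕋 : Type*} [CommRing 𝕋] (act : 𝕋 →+* AddMonoid.End X)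
    (hlin : ∀ (t : 𝕋) (c : C) (x : X), act t (c • x) = c • act t x)
    (hD : ∀ δ : Δ, ∃ d : 𝕋, D δ = act d) (t : 𝕋) : act t ∈ rthkmComm C D := by
  refine ⟨hlin t, fun δ x => ?_⟩
  obtain ⟨d, hd⟩ := hD δ
  rw [hd]
  show (act t * act d) x = (act d * act t) x
  rw [← map_mul, ← map_mul, mul_comm]

end abs

section model

variable {L M : ℕ} [NeZero L] [hML : Fact (M ∣ L)] (H' : Subgroup (ZMod M)ˣ) (C : Type)
  [CommRing C] (θ' : HomS (gammaH L M H') C →+ HomS (gammaH L M H') C)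
  {Δ : Type} [CommGroup Δ] (π : (ZMod M)ˣ →* Δ)
  {X : Type} [AddCommGroup X] [Module C X] (D : Δ →* AddMonoid.End X)
  (j : X →+ HomS (gammaH L M H') C)

/-- `X` is a copy of the `Θ`-part of `Hom(Γ_{H'}(L), C)`, `Δ` a copy of `(ℤ/M)ˣ ⧸ ±H'` acting by
the diamond operators. -/
structure RthkcfModel : Prop where
  inj : Function.Injective j
  smul : ∀ (c : C) (x : X), j (c • x) = c • j x
  mem : ∀ x, j x ∈ etaPart θ'
  surj : ∀ ψ ∈ etaPart θ', ∃ x, j x = ψ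
  pi_surj : Function.Surjective π
  pi_ker : ∀ u, π u = 1 ↔ u ∈ pmH H'
  diam : ∀ (u : (ZMod M)ˣ) (x : X), j (D (π u) x) = diamU L M H' C u (j x)

variable {H' C θ' π D j}

/-- the diamond operators are `C`-linear -/
theorem RthkcfModel.lin (hX : RthkcfModel H' C θ' π D j) (δ : Δ) (c : C) (x : X) :
    D δ (c • x) = c • D δ x := by
  obtain ⟨v, rfl⟩ := hX.pi_surj δ
  apply hX.inj
  rw [hX.diam, hX.smul, hX.smul, hX.diam]
  rfl

/-- a family in the `Θ`-part lifts to `X` -/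
theorem rthkcf_lift (hX : RthkcfModel H' C θ' π D j) {κ : Type*}
    (b' : κ → HomS (gammaH L M H') C) (hb' : ∀ i, b' i ∈ etaPart θ') :
    ∃ b : κ → X, ∀ i, j (b i) = b' i := by
  choose b hb using fun i => hX.surj (b' i) (hb' i)
  exact ⟨b, hb⟩

variable [Fintype Δ]

/-- **the field `free`**: K5's `IsFreeBasis` gives the unique expansion property -/
theorem rthkcf_free (hX : RthkcfModel H' C θ' π D j) (hle : H' ≤ ⊤)
    (θ : HomS (gammaH L M (⊤ : Subgroup (ZMod M)ˣ)) C →+ HomS (gammaH L M ⊤) C) {r : ℕ}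
    (b : Fin r → X) (hb : IsFreeBasis H' ⊤ hle C C θ' θ (fun i => j (b i))) :
    RthkmFree C D b := by
  classical
  let e₀ : Fin (Fintype.card Δ) ≃ Δ := (Fintype.equivFin Δ).symm
  choose u₀ hu₀ using hX.pi_surj
  let u : Fin (Fintype.card Δ) → (ZMod M)ˣ := fun i => u₀ (e₀ i)
  have hu : ∀ i, π (u i) = e₀ i := fun i => hu₀ _
  have htr : IsTransversal H' ⊤ u := by
    refine ⟨fun i => Fermat.Agent.ES1.le_pmH ⊤ (Subgroup.mem_top _),
      fun v _ => ⟨e₀.symm (π v), ?_, ?_⟩⟩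
    · show (u (e₀.symm (π v)))⁻¹ * v ∈ pmH H'
      rw [← hX.pi_ker, map_mul, map_inv, hu, Equiv.apply_symm_apply, inv_mul_cancel]
    · intro i hi
      have h1 : π ((u i)⁻¹ * v) = 1 := (hX.pi_ker _).mpr hi
      rw [map_mul, map_inv, hu, inv_mul_eq_one] at h1
      rw [← h1, Equiv.symm_apply_apply]
  obtain ⟨hinj, hsurj⟩ := hb.2.1 _ u htr
  have hj_sum : ∀ c : Fin r × Fin (Fintype.card Δ) → C,
      j (∑ x : Fin r × Fin (Fintype.card Δ), c x • D (e₀ x.2) (b x.1))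
        = ∑ x : Fin r × Fin (Fintype.card Δ), c x • diamU L M H' C (u x.2) (j (b x.1)) := by
    intro c
    rw [map_sum]
    refine Finset.sum_congr rfl fun x _ => ?_
    rw [hX.smul, ← hu, hX.diam]
  refine rthk_m_free_of_bij hX.lin e₀ ?_ ?_
  · intro c c' hcc'
    apply hinj
    show ∑ x : Fin r × Fin (Fintype.card Δ), c x • diamU L M H' C (u x.2) (j (b x.1))
      = ∑ x : Fin r × Fin (Fintype.card Δ), c' x • diamU L M H' C (u x.2) (j (b x.1))
    rw [← hj_sum, ← hj_sum]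
    exact congrArg j hcc'
  · intro ψ
    obtain ⟨c, hc⟩ := hsurj (j ψ) (hX.mem ψ)
    refine ⟨c, hX.inj ?_⟩
    rw [hj_sum]
    exact hc

/-- **the field `base`, norm form**: the matrix of `𝔱` on the coinvariants from its action on
the corestrictions of the basis -/
theorem rthkcf_base (hX : RthkcfModel H' C θ' π D j) (hle : H' ≤ ⊤)
    (θ : HomS (gammaH L M (⊤ : Subgroup (ZMod M)ˣ)) C →+ HomS (gammaH L M ⊤) C) {r : ℕ}
    (b : Fin r → X) (hb : IsFreeBasis H' ⊤ hle C C θ' θ (fun i => j (b i)))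
    (free : RthkmFree C D b) (𝔱 : AddMonoid.End X) (A : Matrix (Fin r) (Fin r) C)
    (hA : ∀ i, coresS C (Fermat.Agent.ES1.gammaH_mono hle) (j (𝔱 (b i)))
      = ∑ i', A i' i • coresS C (Fermat.Agent.ES1.gammaH_mono hle) (j (b i'))) :
    rthkmMat free (1 : Δ →* C) 𝔱 = A := by
  refine rthkcf_mat_of_nm free ((coresS C (Fermat.Agent.ES1.gammaH_mono hle)).comp j) ?_ ?_ ?_
    𝔱 A hA
  · intro c x
    show coresS C _ (j (c • x)) = c • coresS C _ (j x)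
    rw [hX.smul]
    exact k5fn_cores_smul (𝒪 := C) (Fermat.Agent.ES1.gammaH_mono hle) c (j x)
  · intro δ x
    obtain ⟨u, rfl⟩ := hX.pi_surj δ
    show coresS C _ (j (D (π u) x)) = coresS C _ (j x)
    rw [hX.diam]
    exact k5fn_cores_diamU hle C (Fermat.Agent.ES1.le_pmH ⊤ (Subgroup.mem_top _)) (j x)
  · exact hb.2.2.1

omit [Fintype Δ] in
/-- `cores ∘ ⟨u⟩ ∘ T_ℓ = T_ℓ ∘ cores` -/
theorem rthkcf_cores_diam_tS (hle : H' ≤ ⊤) (A : Type) [AddCommGroup A] (ℓ : ℕ) [NeZero ℓ]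
    (u : (ZMod M)ˣ) (ψ : HomS (gammaH L M H') A) :
    coresS A (Fermat.Agent.ES1.gammaH_mono hle) (diamU L M H' A u (tS L M ℓ H' A ψ))
      = tS L M ℓ ⊤ A (coresS A (Fermat.Agent.ES1.gammaH_mono hle) ψ) := by
  rw [k5fn_cores_diamU hle A (Fermat.Agent.ES1.le_pmH ⊤ (Subgroup.mem_top _))]
  exact (stmtCommU L M ℓ H' ⊤ hle A).2.1 ψ

end model

section main

variable (p : ℕ) [Fact p.Prime] (𝒪 : Type) [CommRing 𝒪] [IsDomain 𝒪]
  [IsDiscreteValuationRing 𝒪] [Finite (IsLocalRing.ResidueField 𝒪)]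
  (N₀ M₀ ℓ₀ : ℕ) [NeZero N₀] [NeZero ℓ₀] [hML : Fact (M₀ ∣ N₀)]

/-- **HK-CONC, the fields `free` and `base` for the Taylor–Wiles module.** -/
theorem rthkcf_exists (e : HExpr 𝒪) (hℓ₀ : ℓ₀.Prime) (hℓ₀N : ¬ ℓ₀ ∣ N₀) (Q : List ℕ) (h : ℕ)
    (hlen : Q.length = h)
    (hnd : Q.Nodup) (hQ : ∀ q ∈ Q, q.Prime ∧ ¬ q ∣ N₀ ∧ q ≠ ℓ₀ ∧ e.Avoids q) (N M : ℕ)
    [NeZero N] [hMN : Fact (M ∣ N)] (hN : N = N₀ * Q.prod) (H' : Subgroup (ZMod M)ˣ) (k : ℕ)
    (hyp : FreeHyp p 𝒪 N M ℓ₀ H' ⊤ k) (n : ℕ) (hn : 0 < n)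
    (hc : K5TWCond 𝒪 N₀ M₀ ℓ₀ e Q (𝒪 ⧸ IsLocalRing.maximalIdeal 𝒪 ^ n)) {r : ℕ}
    (c : Fin r → HomS (gammaH N₀ M₀ (⊤ : Subgroup (ZMod M₀)ˣ)) 𝒪)
    (hy : K5IsBasis (𝒪 ⧸ IsLocalRing.maximalIdeal 𝒪 ^ n)
      (etaPart (thetaN (e.eval N₀ M₀) ℓ₀ (𝒪 ⧸ IsLocalRing.maximalIdeal 𝒪 ^ n) ⊤))
      (fun i => mapS (Submodule.mkQ (IsLocalRing.maximalIdeal 𝒪 ^ n)).toAddMonoidHom (c i)))
    {Δ : Type} [CommGroup Δ] [Fintype Δ] (π : (ZMod M)ˣ →* Δ)
    {X : Type} [AddCommGroup X] [Module (𝒪 ⧸ IsLocalRing.maximalIdeal 𝒪 ^ n) X]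
    (D : Δ →* AddMonoid.End X)
    (j : X →+ HomS (gammaH N M H') (𝒪 ⧸ IsLocalRing.maximalIdeal 𝒪 ^ n))
    (hX : RthkcfModel H' (𝒪 ⧸ IsLocalRing.maximalIdeal 𝒪 ^ n)
      (thetaN ((e.twist Q).eval N M) ℓ₀ (𝒪 ⧸ IsLocalRing.maximalIdeal 𝒪 ^ n) H') π D j) :
    ∃ (b : Fin (2 ^ h * r) → X) (free : RthkmFree (𝒪 ⧸ IsLocalRing.maximalIdeal 𝒪 ^ n) D b),
      ∀ (ℓ : ℕ) [NeZero ℓ], ℓ.Prime → ℓ ∉ Q → ∀ a : Matrix (Fin r) (Fin r) 𝒪,
        (∀ i', tS N₀ M₀ ℓ ⊤ 𝒪 (c i') = ∑ i, a i i' • c i) →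
        ∀ 𝔱 : AddMonoid.End X,
          (∀ x, ∃ u : (ZMod M)ˣ, j (𝔱 x)
            = diamU N M H' (𝒪 ⧸ IsLocalRing.maximalIdeal 𝒪 ^ n) u
                (tS N M ℓ H' (𝒪 ⧸ IsLocalRing.maximalIdeal 𝒪 ^ n) (j x))) →
          ∀ (s s' : Fin (2 ^ h)) (i i' : Fin r),
            rthkmMat free (1 : Δ →* 𝒪 ⧸ IsLocalRing.maximalIdeal 𝒪 ^ n) 𝔱
                (finProdFinEquiv (s, i)) (finProdFinEquiv (s', i'))
              = if s = s' then Ideal.Quotient.mk (IsLocalRing.maximalIdeal 𝒪 ^ n) (a i i')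
                else 0 := by
  classical
  obtain ⟨b', hfree, hT⟩ := k5bm_level p 𝒪 N₀ M₀ ℓ₀ e hℓ₀ hℓ₀N Q h hlen hnd hQ N M hN H' k hyp n
    hn hc c hy
  obtain ⟨b, hb⟩ := rthkcf_lift hX b' hfree.1
  have hbb : (fun i => j (b i)) = b' := funext hb
  have hfree' : IsFreeBasis H' ⊤ hyp.le (𝒪 ⧸ IsLocalRing.maximalIdeal 𝒪 ^ n)
      (𝒪 ⧸ IsLocalRing.maximalIdeal 𝒪 ^ n)
      (thetaN ((e.twist Q).eval N M) ℓ₀ (𝒪 ⧸ IsLocalRing.maximalIdeal 𝒪 ^ n) H')
      (thetaN ((e.twist Q).eval N M) ℓ₀ (𝒪 ⧸ IsLocalRing.maximalIdeal 𝒪 ^ n) ⊤)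
      (fun i => j (b i)) := by
    rw [hbb]
    exact hfree
  have free := rthkcf_free hX hyp.le _ b hfree'
  refine ⟨b, free, ?_⟩
  intro ℓ _ hℓ hℓQ a ha 𝔱 h𝔱 s s' i i'
  have key := rthkcf_base hX hyp.le _ b hfree' free 𝔱
    (Matrix.of fun x x' : Fin (2 ^ h * r) =>
      if (finProdFinEquiv.symm x).1 = (finProdFinEquiv.symm x').1 then
        Ideal.Quotient.mk (IsLocalRing.maximalIdeal 𝒪 ^ n)
          (a (finProdFinEquiv.symm x).2 (finProdFinEquiv.symm x').2)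
      else 0) ?_
  · rw [key, Matrix.of_apply, Equiv.symm_apply_apply, Equiv.symm_apply_apply]
  · intro x
    obtain ⟨⟨t, l⟩, rfl⟩ := (finProdFinEquiv (m := 2 ^ h) (n := r)).surjective x
    obtain ⟨u, hu⟩ := h𝔱 (b (finProdFinEquiv (t, l)))
    rw [hu, rthkcf_cores_diam_tS hyp.le, hb, hT ℓ hℓ hℓQ a ha t l]
    rw [← (finProdFinEquiv (m := 2 ^ h) (n := r)).sum_comp, Fintype.sum_prod_type,
      Finset.sum_eq_single t]
    · refine Finset.sum_congr rfl fun i _ => ?_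
      rw [Matrix.of_apply, Equiv.symm_apply_apply, Equiv.symm_apply_apply, if_pos rfl, hb]
    · intro t' _ ht'
      refine Finset.sum_eq_zero fun i _ => ?_
      rw [Matrix.of_apply, Equiv.symm_apply_apply, Equiv.symm_apply_apply, if_neg ht', zero_smul]
    · intro ht
      exact absurd (Finset.mem_univ t) ht

end main

end Fermat.Agent.RT
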