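import Fermat.Agent.RT.Hecke.ConcFreeX
import Fermat.Agent.RT.Hecke.ConcAct
import Fermat.Agent.ES1.Inf.EvalK5

/-!
# K-machine, HECKE-asm, HK-CONC: the fields `free` and `base` of `HkConcSide` (helper88)

For the concrete module `X = ↥(rthkdX 𝔲 ℓ₀ H' n)`, `𝔲 = (e.twist Q).eval N M`, the diamonds
`rthkdD` and the Hecke action `rthkdAct` (`RT/Hecke/ConcDefs.lean`, `ConcAct.lean`), with the
twisted Hecke operators `Tr ℓ = es1inftwTr M etw ℓ`: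

* `rthkcf_twTr_top` : at `H = ⊤` the operator `Tr ℓ` is `K5.tS ℓ` (the diamonds are trivial);
* `rthkcf_base_rel` : the matrix of an endomorphism `f` of a submodule `X₀` in a basis `b₀`
  expresses the ambient operator `T` (`T = f` on `X₀`) on the `b₀ i`;
* `rthkcf_base_rel_top` : hence the base relation `tS ℓ (b₀ i') = ∑ i, a i i' • b₀ i` for
  `a = toMatrix b₀ b₀ (act₀ (Tr₀ ℓ))` if `act₀` is the restriction of `es1infHomEval` at `H = ⊤`;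
* `rthkcf_X_act` : **the fields `free` and `base`**: there is `b : Fin (2 ^ h * r) → X` with
  `RthkmFree C D b` and, for every prime `ℓ ∤ N p` and every matrix `a` of `tS ℓ` in the base
  basis `c`,
  `rthkmMat free 1 (rthkdAct … (es1inftwTr M etw ℓ)) = (rthkcbBlock 𝒪 h r a).map (algebraMap 𝒪 C)`.
-/

set_option autoImplicit false
set_option linter.style.haveILetI false
set_option linter.unusedSectionVars false
set_option linter.unusedVariables false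

noncomputable section

namespace Fermat.Agent.RT

open CongruenceSubgroup Matrix
open scoped MatrixGroups
open Fermat.Agent.ES1 (gammaH diamHom pmH HDAlg es1infHomEval es1inftwTr es1infev_twTr)
open Fermat.Agent.RT.K5

section top

variable {L M : ℕ} [NeZero L] [NeZero M] [hML : Fact (M ∣ L)] {p : ℕ} {A : Type}
  [AddCommGroup A]

/-- a prime not dividing the level is prime to the modulus -/
theorem rthkcf_coprime {ℓ : ℕ} (hℓ : ℓ.Prime) (h : ¬ ℓ ∣ L * p) : Nat.Coprime ℓ M :=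
  (Nat.Prime.coprime_iff_not_dvd hℓ).mpr fun hd => h ((hd.trans hML.out).mul_right p)

/-- at `H = ⊤` the twisted Hecke operator `Tr ℓ` is `tS ℓ` -/
theorem rthkcf_twTr_top (e : ℕ) (he : 1 ≤ e) (ℓ : ℕ) [NeZero ℓ] (hℓ : ℓ.Prime)
    (h : ¬ ℓ ∣ L * p) (φ : HomS (gammaH L M (⊤ : Subgroup (ZMod M)ˣ)) A) :
    es1infHomEval L M ⊤ hML.out p A (es1inftwTr M e ℓ) φ = tS L M ℓ ⊤ A φ := by
  rw [es1infev_twTr e he hℓ h (rthkcf_coprime hℓ h) φ]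
  exact k5act_diamU_of_mem_apply L M ⊤ A (Fermat.Agent.ES1.le_pmH ⊤ (Subgroup.mem_top _)) _

end top

section rel

variable {𝒪 : Type*} [CommRing 𝒪] {V : Type*} [AddCommGroup V] [Module 𝒪 V]

/-- the matrix of an endomorphism of a submodule in a basis, in the ambient module -/
theorem rthkcf_base_rel (X₀ : Submodule 𝒪 V) {r : ℕ} (b₀ : Module.Basis (Fin r) 𝒪 X₀)
    (f : Module.End 𝒪 X₀) (T : V →+ V) (hT : ∀ v : X₀, ((f v : X₀) : V) = T v) (i' : Fin r) :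
    T (b₀ i' : X₀) = ∑ i, LinearMap.toMatrix b₀ b₀ f i i' • ((b₀ i : X₀) : V) := by
  rw [← hT]
  conv_lhs => rw [← b₀.sum_repr (f (b₀ i'))]
  rw [Submodule.coe_sum]
  refine Finset.sum_congr rfl fun i _ => ?_
  rw [Submodule.coe_smul, LinearMap.toMatrix_apply]

end rel

section reltop

variable {𝒪 : Type} [CommRing 𝒪] {N₀ M₀ : ℕ} [NeZero N₀] [NeZero M₀] [hML : Fact (M₀ ∣ N₀)]
  {p : ℕ}

/-- **the base relation**: if `act₀` is the restriction of the Hecke–diamond polynomials to a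
submodule `X₀` of `Hom(Γ₀(N₀), 𝒪)` with basis `b₀`, then the matrix of `act₀ (Tr₀ ℓ)` in `b₀`
is the matrix of `tS ℓ` on the `b₀ i`. -/
theorem rthkcf_base_rel_top
    (X₀ : Submodule 𝒪 (HomS (gammaH N₀ M₀ (⊤ : Subgroup (ZMod M₀)ˣ)) 𝒪)) {r : ℕ}
    (b₀ : Module.Basis (Fin r) 𝒪 X₀) {𝕋₀ : Type*} (act₀ : 𝕋₀ → Module.End 𝒪 X₀)
    (ev : 𝕋₀ → HDAlg M₀)
    (hact₀ : ∀ (t : 𝕋₀) (v : X₀), ((act₀ t v : X₀) : HomS (gammaH N₀ M₀ ⊤) 𝒪)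
      = es1infHomEval N₀ M₀ ⊤ hML.out p 𝒪 (ev t) (v : HomS (gammaH N₀ M₀ ⊤) 𝒪))
    (e₀ : ℕ) (he₀ : 1 ≤ e₀) (ℓ : ℕ) [NeZero ℓ] (hℓ : ℓ.Prime) (h : ¬ ℓ ∣ N₀ * p) (t : 𝕋₀)
    (ht : ev t = es1inftwTr M₀ e₀ ℓ) (i' : Fin r) :
    tS N₀ M₀ ℓ ⊤ 𝒪 ((b₀ i' : X₀) : HomS (gammaH N₀ M₀ ⊤) 𝒪)
      = ∑ i, LinearMap.toMatrix b₀ b₀ (act₀ t) i i' •
          ((b₀ i : X₀) : HomS (gammaH N₀ M₀ ⊤) 𝒪) :=
  rthkcf_base_rel X₀ b₀ (act₀ t) (tS N₀ M₀ ℓ ⊤ 𝒪)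
    (fun v => by rw [hact₀, ht, rthkcf_twTr_top e₀ he₀ ℓ hℓ h]) i'

end reltop

section main

variable (p : ℕ) [Fact p.Prime] (𝒪 : Type) [CommRing 𝒪] [IsDomain 𝒪]
  [IsDiscreteValuationRing 𝒪] [Finite (IsLocalRing.ResidueField 𝒪)]
  (N₀ M₀ ℓ₀ : ℕ) [NeZero N₀] [NeZero ℓ₀] [hML : Fact (M₀ ∣ N₀)]

/-- **HK-CONC, the fields `free` and `base` of `HkConcSide`.** -/
theorem rthkcf_X_act (e : HExpr 𝒪) (hℓ₀ : ℓ₀.Prime) (hℓ₀N : ¬ ℓ₀ ∣ N₀) (Q : List ℕ) (h : ℕ)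
    (hlen : Q.length = h)
    (hnd : Q.Nodup) (hQ : ∀ q ∈ Q, q.Prime ∧ ¬ q ∣ N₀ ∧ q ≠ ℓ₀ ∧ e.Avoids q) (N M : ℕ)
    [NeZero N] [NeZero M] [hMN : Fact (M ∣ N)] (hN : N = N₀ * Q.prod)
    (H' : Subgroup (ZMod M)ˣ) (k : ℕ)
    (hyp : FreeHyp p 𝒪 N M ℓ₀ H' ⊤ k) (n : ℕ) (hn : 0 < n)
    (hc : K5TWCond 𝒪 N₀ M₀ ℓ₀ e Q (RthkdC 𝒪 n)) {r : ℕ}
    (c : Fin r → HomS (gammaH N₀ M₀ (⊤ : Subgroup (ZMod M₀)ˣ)) 𝒪)
    (hy : K5IsBasis (RthkdC 𝒪 n)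
      (etaPart (thetaN (e.eval N₀ M₀) ℓ₀ (RthkdC 𝒪 n) ⊤))
      (fun i => mapS (Submodule.mkQ (IsLocalRing.maximalIdeal 𝒪 ^ n)).toAddMonoidHom (c i)))
    (hst : ∀ (t : HDAlg M) (ψ : HomS (gammaH N M H') (RthkdC 𝒪 n)),
      ψ ∈ etaPart (thetaN ((e.twist Q).eval N M) ℓ₀ (RthkdC 𝒪 n) H') →
      es1infHomEval N M H' hMN.out p (RthkdC 𝒪 n) t ψ
        ∈ etaPart (thetaN ((e.twist Q).eval N M) ℓ₀ (RthkdC 𝒪 n) H'))
    (etw : ℕ) (hetw : 1 ≤ etw) :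
    ∃ (b : Fin (2 ^ h * r) → rthkdX ((e.twist Q).eval N M) ℓ₀ H' n)
      (free : RthkmFree (Δ := RthkdDelta M H') (RthkdC 𝒪 n)
        (rthkdD ((e.twist Q).eval N M) ℓ₀ H' n) b),
      ∀ (ℓ : ℕ) [NeZero ℓ], ℓ.Prime → ¬ ℓ ∣ N * p → ∀ a : Matrix (Fin r) (Fin r) 𝒪,
        (∀ i', tS N₀ M₀ ℓ ⊤ 𝒪 (c i') = ∑ i, a i i' • c i) →
        rthkmMat (Δ := RthkdDelta M H') free (1 : RthkdDelta M H' →* RthkdC 𝒪 n)
            (rthkdAct p ((e.twist Q).eval N M) ℓ₀ H' n hst (es1inftwTr M etw ℓ))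
          = (rthkcbBlock 𝒪 h r a).map (algebraMap 𝒪 (RthkdC 𝒪 n)) := by
  obtain ⟨b, free, hb⟩ := rthkcf_X p 𝒪 N₀ M₀ ℓ₀ e hℓ₀ hℓ₀N Q h hlen hnd hQ N M hN H' k hyp n hn
    hc c hy
  refine ⟨b, free, ?_⟩
  intro ℓ _ hℓ hℓN a ha
  have hℓQ : ℓ ∉ Q := fun hmem =>
    hℓN (((List.dvd_prod hmem).trans (Dvd.intro_left N₀ hN.symm)).mul_right p)
  refine hb ℓ hℓ hℓQ a ha _ fun x => ?_
  exact ⟨(ZMod.unitOfCoprime ℓ (rthkcf_coprime hℓ hℓN))⁻¹ ^ etw,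
    (rthkdAct_coe hst _ x).trans (es1infev_twTr etw hetw hℓ hℓN (rthkcf_coprime hℓ hℓN) _)⟩

end main

end Fermat.Agent.RT
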