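import Fermat.Agent.RT.Hecke.ConcFreeAct
import Fermat.Agent.RT.Hecke.ConcBaseAct

/-!
# K-machine, HECKE-asm, HK-CONC: the fields `free` and `base` of `HkConcSide` for the base
matrices `a0 = Φ0 ∘ Tr₀` of `RT/Hecke/ConcBaseAct.lean` (helper88)

`rthkcf_side` : for the base data of helper22 (`c` a `K5IsBasis` of the base module over `𝒪`,
`Φ0 = rthkcbPhi (rthkcbBasis hcb) h (rthkcbAct hst₀)`, `Tr₀ = es1inftwTr M₀ 1`) and a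
Taylor–Wiles list `Q` of length `h` (with the inputs of `rthkcf_X_act`): there is
`b : Fin (2 ^ h * r) → ↥(rthkdX 𝔲 ℓ₀ H' n)` with

* `free : RthkmFree (Δ := RthkdDelta M H') (RthkdC 𝒪 n) (rthkdD 𝔲 ℓ₀ H' n) b`,
* `base : ∀ ℓ prime, ¬ ℓ ∣ N * p →
    rthkmMat free 1 (rthkdAct p 𝔲 ℓ₀ H' n hst (es1inftwTr M etw ℓ))
      = (Φ0 (Tr₀ ℓ)).map (algebraMap 𝒪 (RthkdC 𝒪 n))`,

i.e. the fields `free` and `base` of `HkConcSide` VERBATIM, for `a0 = fun ℓ => Φ0 (Tr₀ ℓ)`,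
`Tr = es1inftwTr M etw`, `𝔲 = (e.twist Q).eval N M`.
-/

set_option autoImplicit false
set_option linter.style.haveILetI false
set_option linter.unusedSectionVars false
set_option linter.unusedVariables false

noncomputable section

namespace Fermat.Agent.RT

open CongruenceSubgroup Matrix
open scoped MatrixGroups
open Fermat.Agent.ES1 (gammaH diamHom pmH HDAlg es1infHomEval es1inftwTr)
open Fermat.Agent.RT.K5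

section main

variable (p : ℕ) [Fact p.Prime] (𝒪 : Type) [CommRing 𝒪] [IsDomain 𝒪]
  [IsDiscreteValuationRing 𝒪] [Finite (IsLocalRing.ResidueField 𝒪)]
  (N₀ M₀ : ℕ) [NeZero N₀] [NeZero M₀] [hML : Fact (M₀ ∣ N₀)]

/-- **HK-CONC, the fields `free` and `base` of `HkConcSide`**, for `a0 = Φ0 ∘ Tr₀`. -/
theorem rthkcf_side {𝔲₀ : NatFam 𝒪 N₀ M₀} {ℓ₀' : ℕ} [NeZero ℓ₀']
    (hst₀ : RthkcbStab N₀ M₀ p 𝔲₀ ℓ₀' 𝒪) {r : ℕ}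
    {c : Fin r → HomS (gammaH N₀ M₀ (⊤ : Subgroup (ZMod M₀)ˣ)) 𝒪}
    (hcb : K5IsBasis 𝒪 (etaPart (thetaN 𝔲₀ ℓ₀' 𝒪 ⊤)) c) (h : ℕ)
    (ℓ₀ : ℕ) [NeZero ℓ₀] (e : HExpr 𝒪) (hℓ₀ : ℓ₀.Prime) (hℓ₀N : ¬ ℓ₀ ∣ N₀) (Q : List ℕ)
    (hlen : Q.length = h)
    (hnd : Q.Nodup) (hQ : ∀ q ∈ Q, q.Prime ∧ ¬ q ∣ N₀ ∧ q ≠ ℓ₀ ∧ e.Avoids q) (N M : ℕ)
    [NeZero N] [NeZero M] [hMN : Fact (M ∣ N)] (hN : N = N₀ * Q.prod)
    (H' : Subgroup (ZMod M)ˣ) (k : ℕ)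
    (hyp : FreeHyp p 𝒪 N M ℓ₀ H' ⊤ k) (n : ℕ) (hn : 0 < n)
    (hc : K5TWCond 𝒪 N₀ M₀ ℓ₀ e Q (RthkdC 𝒪 n))
    (hy : K5IsBasis (RthkdC 𝒪 n)
      (etaPart (thetaN (e.eval N₀ M₀) ℓ₀ (RthkdC 𝒪 n) ⊤))
      (fun i => mapS (Submodule.mkQ (IsLocalRing.maximalIdeal 𝒪 ^ n)).toAddMonoidHom (c i)))
    (hst : ∀ (t : HDAlg M) (ψ : HomS (gammaH N M H') (RthkdC 𝒪 n)),
      ψ ∈ etaPart (thetaN ((e.twist Q).eval N M) ℓ₀ (RthkdC 𝒪 n) H') →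
      es1infHomEval N M H' hMN.out p (RthkdC 𝒪 n) t ψ
        ∈ etaPart (thetaN ((e.twist Q).eval N M) ℓ₀ (RthkdC 𝒪 n) H'))
    (etw : ℕ) (hetw : 1 ≤ etw) :
    ∃ (b : Fin (2 ^ h * r) → rthkdX ((e.twist Q).eval N M) ℓ₀ H' n)
      (free : RthkmFree (Δ := RthkdDelta M H') (RthkdC 𝒪 n)
        (rthkdD ((e.twist Q).eval N M) ℓ₀ H' n) b),
      ∀ ℓ : ℕ, ℓ.Prime → ¬ ℓ ∣ N * p →
        rthkmMat (Δ := RthkdDelta M H') free (1 : RthkdDelta M H' →* RthkdC 𝒪 n)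
            (rthkdAct p ((e.twist Q).eval N M) ℓ₀ H' n hst (es1inftwTr M etw ℓ))
          = (rthkcbPhi (rthkcbBasis hcb) h (rthkcbAct hst₀) (es1inftwTr M₀ 1 ℓ)).map
              (algebraMap 𝒪 (RthkdC 𝒪 n)) := by
  obtain ⟨b, free, hb⟩ := rthkcf_X_act p 𝒪 N₀ M₀ ℓ₀ e hℓ₀ hℓ₀N Q h hlen hnd hQ N M hN H' k hyp
    n hn hc c hy hst etw hetw
  refine ⟨b, free, fun ℓ hℓ hℓN => ?_⟩
  haveI : NeZero ℓ := ⟨hℓ.ne_zero⟩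
  have hℓN₀ : ¬ ℓ ∣ N₀ * p := fun hd => hℓN (by
    rcases (Nat.Prime.dvd_mul hℓ).mp hd with h1 | h1
    · exact (h1.trans ⟨Q.prod, hN⟩).mul_right p
    · exact h1.mul_left N)
  rw [rthkcbPhi_eq]
  refine hb ℓ hℓ hℓN _ fun i' => ?_
  have s : Fin (2 ^ h) := ⟨0, Nat.pos_of_ne_zero (pow_ne_zero h two_ne_zero)⟩
  rw [rthkcb_tS_eq hst₀ hcb h ℓ hℓ hℓN₀ s i']
  refine Finset.sum_congr rfl fun i _ => ?_
  rw [rthkcbPhi_apply, if_pos rfl, LinearMap.toMatrix_apply]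

end main

end Fermat.Agent.RT
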