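import Fermat.Agent.RT.Hecke.GrpLevel
import Fermat.Agent.RT.Hecke.GrpGen

/-!
# K-machine, HECKE-asm, piece HK-GRP: the canonical `H'` — level facts and `κ_γ`

`H' := rthkgH p k hM = {u ∈ (ℤ/M)ˣ | u mod v x is a p ^ k x-th power, all x}` (`RT/Hecke/GrpGen`).

* `rthkgH_neg_one_mem`, `rthkgH_pmH` : `-1 ∈ H'`, `ES1.pmH H' = H'`;
* `rthkgH_pow_mem`, `rthkgH_hE` : `c ^ n ∈ pmH H'` for `p ^ K ∣ n` (`k x ≤ K`), the input `hE` of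
  `es1inftw_pkg`;
* `rthkgH_isStarStable`, `rthkgH_isTameAt`, `rthkgH_index`, `rthkgH_k7fLevel` : the level facts;
* `rthkg_unitsMap_of_isAtR` : `RT.K6.IsAtR M (v x) c` gives hypothesis (G1) of `rthkg_exists_gen`;
* `rthkg_exists_equiv` : **`κ_γ : (ℤ/M)ˣ ⧸ ±H' ≃* Δ'`** with `κ_γ (mk (γ x)) = Pi.mulSingle x
  (ofAdd 1)`, for generators `γ` with (G1), (G2).
-/

set_option autoImplicit false
set_option linter.unusedSectionVars false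
set_option linter.style.haveILetI false

namespace Fermat.Agent.RT

open Fermat.Agent.ES1 Fermat.Agent.RT.K6 Fermat.Agent.RT.K7F

section Canon

variable {κ : Type} [Fintype κ] {p : ℕ} {v k : κ → ℕ} {M : ℕ}

/-- `-1 ∈ H'` -/
theorem rthkgH_neg_one_mem (hp : p.Prime) (hp2 : p ≠ 2) (hv : Function.Injective v)
    (hvp : ∀ x, (v x).Prime) (hk : ∀ x, p ^ k x ∣ v x - 1) (hM0 : M ≠ 0) (hM : ∀ x, v x ∣ M) :
    (-1 : (ZMod M)ˣ) ∈ rthkgH p k hM := by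
  obtain ⟨π, -, h2, -, h4⟩ := rthkgH_exists hp hp2 v k hv hvp hk hM0 hM
  rw [← h4]
  exact MonoidHom.mem_ker.mpr h2

/-- `±H' = H'` -/
theorem rthkgH_pmH (hp : p.Prime) (hp2 : p ≠ 2) (hv : Function.Injective v)
    (hvp : ∀ x, (v x).Prime) (hk : ∀ x, p ^ k x ∣ v x - 1) (hM0 : M ≠ 0) (hM : ∀ x, v x ∣ M) :
    pmH (rthkgH p k hM) = rthkgH p k hM := by
  obtain ⟨π, -, h2, -, h4⟩ := rthkgH_exists hp hp2 v k hv hvp hk hM0 hM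
  rw [← h4]
  exact rthkg_pmH_ker π h2

/-- `c ^ n ∈ H'` for `p ^ K ∣ n` -/
theorem rthkgH_pow_mem (hM : ∀ x, v x ∣ M) {K : ℕ} (hK : ∀ x, k x ≤ K) (c : (ZMod M)ˣ) {n : ℕ}
    (hn : p ^ K ∣ n) : c ^ n ∈ rthkgH p k hM := by
  rw [mem_rthkgH]
  intro x
  obtain ⟨j, rfl⟩ := hn
  obtain ⟨i, hi⟩ := pow_dvd_pow p (hK x)
  refine ⟨(ZMod.unitsMap (hM x) c) ^ (i * j), ?_⟩
  rw [map_pow, ← pow_mul, hi]
  congr 1
  ring

/-- the input `hE` of `es1inftw_pkg` -/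
theorem rthkgH_hE (hM : ∀ x, v x ∣ M) {K : ℕ} (hK : ∀ x, k x ≤ K) (e : ℕ)
    (he : p ^ K ∣ 2 * e - 1) : ∀ c : (ZMod M)ˣ, c ^ (2 * e - 1) ∈ pmH (rthkgH p k hM) :=
  fun c => le_pmH _ (rthkgH_pow_mem hM hK c he)

/-- **`H'` is star-stable** at every prime `r ∣ M`. -/
theorem rthkgH_isStarStable (hp : p.Prime) (hp2 : p ≠ 2) (hv : Function.Injective v)
    (hvp : ∀ x, (v x).Prime) (hk : ∀ x, p ^ k x ∣ v x - 1) (hM0 : M ≠ 0) (hM : ∀ x, v x ∣ M)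
    {r : ℕ} (hr : r.Prime) (hrM : r ∣ M) : IsStarStable M r (rthkgH p k hM) := by
  obtain ⟨π, -, -, h3, h4⟩ := rthkgH_exists hp hp2 v k hv hvp hk hM0 hM
  rw [← h4]
  exact rthkg_isStarStable hM0 v hvp hM π h3 hr hrM

/-- **`H'` is tame** (`5 ≤ p`, `p ∤ L`). -/
theorem rthkgH_isTameAt (hp : p.Prime) (h5 : 5 ≤ p) {L : ℕ} (hpL : ¬ p ∣ L)
    (hM : ∀ x, v x ∣ M) (r : ℕ) : IsTameAt L M r (rthkgH p k hM) := by
  refine ⟨p ^ ∑ x, k x, ?_,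
    fun c => le_pmH _ (rthkgH_pow_mem hM (rthkg_le_sum k) c dvd_rfl)⟩
  apply Nat.Coprime.pow_left
  rw [Nat.Prime.coprime_iff_not_dvd hp]
  intro h
  rcases (Nat.Prime.dvd_mul hp).mp h with h6 | hL
  · have h6' := Nat.le_of_dvd (by norm_num) h6
    have : p = 5 ∨ p = 6 := by omega
    rcases this with rfl | rfl
    · norm_num at h6
    · norm_num at hp
  · exact hpL hL

/-- `[(ℤ/M)ˣ : ±H'] = p ^ ∑ k x` -/
theorem rthkgH_index (hp : p.Prime) (hp2 : p ≠ 2) (hv : Function.Injective v)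
    (hvp : ∀ x, (v x).Prime) (hk : ∀ x, p ^ k x ∣ v x - 1) (hM0 : M ≠ 0) (hM : ∀ x, v x ∣ M) :
    (pmH (rthkgH p k hM)).index = p ^ ∑ x, k x := by
  obtain ⟨π, h1, h2, -, h4⟩ := rthkgH_exists hp hp2 v k hv hvp hk hM0 hM
  rw [← h4]
  exact rthkg_index_pmH hp.ne_zero π h1 h2

/-- **`K7FLevel` for the canonical `H'`**. -/
theorem rthkgH_k7fLevel {L : ℕ} (hL : 2 ≤ L) (hML : M ∣ L) (hp : p.Prime) (hp2 : p ≠ 2)
    (hpL : ¬ p ∣ L) (h5 : 5 ≤ p ∨ (5 - p) ∣ L) (hsq : Squarefree M)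
    (hv : Function.Injective v) (hvp : ∀ x, (v x).Prime) (hk : ∀ x, p ^ k x ∣ v x - 1)
    (hM : ∀ x, v x ∣ M) : K7FLevel L M (rthkgH p k hM) p := by
  have hM0 : M ≠ 0 := hsq.ne_zero
  obtain ⟨π, h1, h2, -, h4⟩ := rthkgH_exists hp hp2 v k hv hvp hk hM0 hM
  rw [← h4]
  exact rthkg_k7fLevel hL hML hp hp2 hpL h5 hsq π h1 h2

/-- (G1) from `IsAtR`: a diamond at `v x` is trivial modulo `v y`, `y ≠ x` -/
theorem rthkg_unitsMap_of_isAtR (hM0 : M ≠ 0) (hv : Function.Injective v)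
    (hvp : ∀ x, (v x).Prime) (hM : ∀ x, v x ∣ M) (x : κ) (c : (ZMod M)ˣ)
    (hc : IsAtR M (v x) c) (y : κ) (hy : y ≠ x) : ZMod.unitsMap (hM y) c = 1 := by
  haveI : NeZero M := ⟨hM0⟩
  have hd : v y ∣ M / v x :=
    rthkg_dvd_div (hvp x) (hM x) (hvp y) (hM y) (fun h => hy (hv h))
  have h1 : (((c : ZMod M).val : ℕ) : ZMod (v y)) = ((1 : ℕ) : ZMod (v y)) := by
    apply rthkg_cast_of_dvd hd
    rw [Nat.cast_one]
    exact hc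
  ext
  rw [ZMod.unitsMap_val, ← ZMod.natCast_val, h1, Nat.cast_one, Units.val_one]

/-- **`κ_γ`**: the isomorphism `(ℤ/M)ˣ ⧸ ±H' ≃* Δ'` normalised at the generators `γ`. -/
theorem rthkg_exists_equiv [DecidableEq κ] (hp : p.Prime) (hp2 : p ≠ 2)
    (hv : Function.Injective v) (hvp : ∀ x, (v x).Prime) (hk : ∀ x, p ^ k x ∣ v x - 1)
    (hM0 : M ≠ 0) (hM : ∀ x, v x ∣ M) (γ : κ → (ZMod M)ˣ)
    (hγ1 : ∀ x y, y ≠ x → ZMod.unitsMap (hM y) (γ x) = 1)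
    (hγ2 : ∀ x, k x ≠ 0 → ¬ ∃ y : (ZMod (v x))ˣ, y ^ p = ZMod.unitsMap (hM x) (γ x)) :
    ∃ κγ : (ZMod M)ˣ ⧸ pmH (rthkgH p k hM) ≃* (∀ x : κ, Multiplicative (ZMod (p ^ k x))),
      (∀ x, κγ (QuotientGroup.mk (γ x)) = Pi.mulSingle x (Multiplicative.ofAdd 1)) ∧
      (∀ (x : κ) (u u' : (ZMod M)ˣ), ZMod.unitsMap (hM x) u = ZMod.unitsMap (hM x) u' →
        κγ (QuotientGroup.mk u) x = κγ (QuotientGroup.mk u') x) ∧
      ∃ π : (ZMod M)ˣ →* (∀ x : κ, Multiplicative (ZMod (p ^ k x))),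
        π.ker = rthkgH p k hM ∧ ∀ u, κγ (QuotientGroup.mk u) = π u := by
  obtain ⟨π, h1, h2, h3, h4, h5⟩ := rthkg_exists_gen hp hp2 v k hv hvp hk hM0 hM γ hγ1 hγ2
  have hpm : pmH (rthkgH p k hM) = π.ker := by
    rw [h5]
    exact rthkgH_pmH hp hp2 hv hvp hk hM0 hM
  let κγ : (ZMod M)ˣ ⧸ pmH (rthkgH p k hM) ≃* (∀ x : κ, Multiplicative (ZMod (p ^ k x))) :=
    (QuotientGroup.quotientMulEquivOfEq hpm).trans
      (QuotientGroup.quotientKerEquivOfSurjective π h1)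
  have hκ : ∀ u, κγ (QuotientGroup.mk u) = π u := fun u => rfl
  exact ⟨κγ, fun x => by rw [hκ, h4], fun x u u' h => by rw [hκ, hκ]; exact h3 x u u' h,
    π, h5, hκ⟩

end Canon

end Fermat.Agent.RT
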