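import Fermat.Agent.RT.Hecke.GrpCanon
import Fermat.Agent.RT.K5.Plan5

/-!
# K-machine, HECKE-asm, piece HK-GRP (G2)/(G3): the K5 inputs for `H' = ker π ≤ ⊤`

* `rthkg_freeHyp_index` : the field `index` of `K5.FreeHyp` for `H' ≤ ⊤`:
  `((pmH H').subgroupOf (pmH ⊤)).index = p ^ ∑ k x`  (the field `le` is `le_top`);
* `rthkg_isTransversal` : for a section `u` of `π` and an enumeration `e : Fin m ≃ Δ'`,
  `K5.IsTransversal H' ⊤ (u ∘ e)`;
* `rthkg_exists_transversal` : such a transversal exists, with `m = p ^ ∑ k x`;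
* `rthkgH_freeHyp_index`, `rthkgH_exists_transversal` : the same for the canonical `H'`
  (`rthkgH p k hM`), the transversal enumerating `(ℤ/M)ˣ ⧸ ±H'`;
* `rthkg_exists_transversal_quot` : for ANY `H'`: a transversal `u` of `±H'` in
  `(ℤ/M)ˣ` with `j ↦ mk (u j)` an enumeration of `(ℤ/M)ˣ ⧸ ±H'`.
-/

set_option autoImplicit false
set_option linter.unusedSectionVars false
set_option linter.style.haveILetI false

namespace Fermat.Agent.RT

open Fermat.Agent.ES1 Fermat.Agent.RT.K5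

section K5

variable {κ : Type} [Fintype κ] {p : ℕ} {k : κ → ℕ} {M : ℕ}

theorem rthkg_pmH_top : pmH (⊤ : Subgroup (ZMod M)ˣ) = ⊤ := by
  unfold pmH
  exact top_sup_eq _

/-- the field `index` of `K5.FreeHyp` for `H' ≤ ⊤` -/
theorem rthkg_freeHyp_index (hp : p ≠ 0)
    (π : (ZMod M)ˣ →* (∀ x : κ, Multiplicative (ZMod (p ^ k x))))
    (hsurj : Function.Surjective π) (hneg : π (-1) = 1) :
    ((pmH π.ker).subgroupOf (pmH ⊤)).index = p ^ ∑ x, k x := by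
  rw [rthkg_pmH_top, ← rthkg_index_pmH hp π hsurj hneg]
  exact Subgroup.relIndex_top_right _

/-- (G3) a section of `π` composed with an enumeration of `Δ'` is a transversal of `±H'` in
`(ℤ/M)ˣ` -/
theorem rthkg_isTransversal
    (π : (ZMod M)ˣ →* (∀ x : κ, Multiplicative (ZMod (p ^ k x)))) (hneg : π (-1) = 1)
    (u : (∀ x : κ, Multiplicative (ZMod (p ^ k x))) → (ZMod M)ˣ) (hu : ∀ δ, π (u δ) = δ)
    {m : ℕ} (e : Fin m ≃ (∀ x : κ, Multiplicative (ZMod (p ^ k x)))) :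
    IsTransversal π.ker ⊤ (fun j => u (e j)) := by
  refine ⟨fun j => by rw [rthkg_pmH_top]; exact Subgroup.mem_top _, fun c _ => ?_⟩
  rw [rthkg_pmH_ker π hneg]
  refine ⟨e.symm (π c), ?_, fun j hj => ?_⟩
  · show (u (e (e.symm (π c))))⁻¹ * c ∈ π.ker
    rw [rthkg_section_mem_iff π u hu, Equiv.apply_symm_apply]
  · have : (u (e j))⁻¹ * c ∈ π.ker := hj
    rw [rthkg_section_mem_iff π u hu] at this
    rw [← this, Equiv.symm_apply_apply]

/-- (G3) a transversal exists -/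
theorem rthkg_exists_transversal (hp : p ≠ 0)
    (π : (ZMod M)ˣ →* (∀ x : κ, Multiplicative (ZMod (p ^ k x))))
    (hsurj : Function.Surjective π) (hneg : π (-1) = 1) :
    ∃ (u : (∀ x : κ, Multiplicative (ZMod (p ^ k x))) → (ZMod M)ˣ)
      (e : Fin (p ^ ∑ x, k x) ≃ (∀ x : κ, Multiplicative (ZMod (p ^ k x)))),
      (∀ δ, π (u δ) = δ) ∧ IsTransversal π.ker ⊤ (fun j => u (e j)) := by
  obtain ⟨u, hu⟩ := rthkg_exists_section π hsurj
  obtain ⟨e⟩ := rthkg_exists_enum (κ := κ) (k := k) hp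
  exact ⟨u, e, hu, rthkg_isTransversal π hneg u hu e⟩

/-- for any `H'`: a transversal of `±H'` in `(ℤ/M)ˣ` enumerating `(ℤ/M)ˣ ⧸ ±H'` -/
theorem rthkg_exists_transversal_quot (H' : Subgroup (ZMod M)ˣ) :
    ∃ (m : ℕ) (u : Fin m → (ZMod M)ˣ) (e : Fin m ≃ (ZMod M)ˣ ⧸ pmH H'),
      m = (pmH H').index ∧ (∀ j, e j = QuotientGroup.mk (u j)) ∧ IsTransversal H' ⊤ u := by
  haveI : Finite ((ZMod M)ˣ ⧸ pmH H') := inferInstance
  let e : Fin (Nat.card ((ZMod M)ˣ ⧸ pmH H')) ≃ (ZMod M)ˣ ⧸ pmH H' :=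
    (Finite.equivFin _).symm
  have hout : ∀ j, (QuotientGroup.mk (Quotient.out (e j)) : (ZMod M)ˣ ⧸ pmH H') = e j :=
    fun j => Quotient.out_eq' (e j)
  refine ⟨_, fun j => Quotient.out (e j), e, rfl, fun j => (hout j).symm,
    fun j => by rw [rthkg_pmH_top]; exact Subgroup.mem_top _, fun c _ => ?_⟩
  have key : ∀ j, (Quotient.out (e j))⁻¹ * c ∈ pmH H' ↔ e j = QuotientGroup.mk c := by
    intro j
    rw [← QuotientGroup.eq, hout]
  refine ⟨e.symm (QuotientGroup.mk c), ?_, fun j hj => ?_⟩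
  · show (Quotient.out (e (e.symm (QuotientGroup.mk c))))⁻¹ * c ∈ pmH H'
    rw [key, Equiv.apply_symm_apply]
  · have : (Quotient.out (e j))⁻¹ * c ∈ pmH H' := hj
    rw [key] at this
    rw [← this, Equiv.symm_apply_apply]

section CanonK5

variable {v : κ → ℕ}

/-- the field `index` of `K5.FreeHyp` for the canonical `H' ≤ ⊤` -/
theorem rthkgH_freeHyp_index (hp : p.Prime) (hp2 : p ≠ 2) (hv : Function.Injective v)
    (hvp : ∀ x, (v x).Prime) (hk : ∀ x, p ^ k x ∣ v x - 1) (hM0 : M ≠ 0) (hM : ∀ x, v x ∣ M) :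
    ((pmH (rthkgH p k hM)).subgroupOf (pmH ⊤)).index = p ^ ∑ x, k x := by
  rw [rthkg_pmH_top, ← rthkgH_index hp hp2 hv hvp hk hM0 hM]
  exact Subgroup.relIndex_top_right _

/-- a transversal of the canonical `±H'` in `(ℤ/M)ˣ`, of length `p ^ ∑ k x`, enumerating
`(ℤ/M)ˣ ⧸ ±H'` -/
theorem rthkgH_exists_transversal (hp : p.Prime) (hp2 : p ≠ 2) (hv : Function.Injective v)
    (hvp : ∀ x, (v x).Prime) (hk : ∀ x, p ^ k x ∣ v x - 1) (hM0 : M ≠ 0) (hM : ∀ x, v x ∣ M) :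
    ∃ (u : Fin (p ^ ∑ x, k x) → (ZMod M)ˣ)
      (e : Fin (p ^ ∑ x, k x) ≃ (ZMod M)ˣ ⧸ pmH (rthkgH p k hM)),
      (∀ j, e j = QuotientGroup.mk (u j)) ∧ IsTransversal (rthkgH p k hM) ⊤ u := by
  obtain ⟨m, u, e, hm, he, hu⟩ := rthkg_exists_transversal_quot (rthkgH p k hM)
  rw [rthkgH_index hp hp2 hv hvp hk hM0 hM] at hm
  subst hm
  exact ⟨u, e, he, hu⟩

end CanonK5

end K5

end Fermat.Agent.RT
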