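import Fermat.Agent.RT.Hecke.ConcArith
import Fermat.Agent.RT.Hecke.GrpCanon
import Fermat.Agent.RT.Hecke.GrpK5

/-!
# K-machine, HECKE-asm: the level facts for helper9's `H' = rthkdH p v k M hM` (helper96)

`rthkdH p v k M hM` (`ConcArith.lean`) and helper8's canonical `rthkgH p k hM` (`GrpGen.lean`)
are THE SAME subgroup (`rthkh_eq`, by `rfl`), so all level facts of HK-GRP transfer:

* `rthkh_eq` : `rthkdH p v k M hM = rthkgH p k hM`;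
* `rthkh_isStarStable` : `K6.IsStarStable M r H'` for every prime `r ∣ M`;
* `rthkh_isTameAt` : `K6.IsTameAt L M r H'` (`5 ≤ p`, `p ∤ L`);
* `rthkh_k7fLevel` : `K7F.K7FLevel L M H' p`;
* `rthkh_pmH`, `rthkh_index`, `rthkh_hE` (`∀ c, c ^ (2 e − 1) ∈ pmH H'` for `p ^ K ∣ 2 e − 1`),
  `rthkh_hE_std` (for `e = rthkdE p ν`);
* `rthkh_exists_equiv` : `κ_γ : RthkdDelta-type quotient ≃* Δ'` for `H' = rthkdH …`.
-/

set_option autoImplicit false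
set_option linter.unusedSectionVars false
set_option linter.style.haveILetI false

namespace Fermat.Agent.RT

open Fermat.Agent.ES1 Fermat.Agent.RT.K6 Fermat.Agent.RT.K7F

section ConcH

variable {κ : Type} [Fintype κ] {p : ℕ} {v k : κ → ℕ} {M : ℕ}

/-- helper9's `H'` is helper8's canonical `H'` -/
theorem rthkh_eq (hM : ∀ x, v x ∣ M) : rthkdH p v k M hM = rthkgH p k hM := rfl

/-- `±H' = H'` -/
theorem rthkh_pmH (hp : p.Prime) (hp2 : p ≠ 2) (hv : Function.Injective v)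
    (hvp : ∀ x, (v x).Prime) (hk : ∀ x, p ^ k x ∣ v x - 1) (hM0 : M ≠ 0) (hM : ∀ x, v x ∣ M) :
    pmH (rthkdH p v k M hM) = rthkdH p v k M hM :=
  rthkgH_pmH hp hp2 hv hvp hk hM0 hM

/-- **`H'` is star-stable** at every prime `r ∣ M`. -/
theorem rthkh_isStarStable (hp : p.Prime) (hp2 : p ≠ 2) (hv : Function.Injective v)
    (hvp : ∀ x, (v x).Prime) (hk : ∀ x, p ^ k x ∣ v x - 1) (hM0 : M ≠ 0) (hM : ∀ x, v x ∣ M)
    {r : ℕ} (hr : r.Prime) (hrM : r ∣ M) : IsStarStable M r (rthkdH p v k M hM) :=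
  rthkgH_isStarStable hp hp2 hv hvp hk hM0 hM hr hrM

/-- **`H'` is tame** (`5 ≤ p`, `p ∤ L`). -/
theorem rthkh_isTameAt (hp : p.Prime) (h5 : 5 ≤ p) {L : ℕ} (hpL : ¬ p ∣ L)
    (hM : ∀ x, v x ∣ M) (r : ℕ) : IsTameAt L M r (rthkdH p v k M hM) :=
  rthkgH_isTameAt hp h5 hpL hM r

/-- `[(ℤ/M)ˣ : ±H'] = p ^ ∑ k x` -/
theorem rthkh_index (hp : p.Prime) (hp2 : p ≠ 2) (hv : Function.Injective v)
    (hvp : ∀ x, (v x).Prime) (hk : ∀ x, p ^ k x ∣ v x - 1) (hM0 : M ≠ 0) (hM : ∀ x, v x ∣ M) :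
    (pmH (rthkdH p v k M hM)).index = p ^ ∑ x, k x :=
  rthkgH_index hp hp2 hv hvp hk hM0 hM

/-- **`K7FLevel` for `H'`**. -/
theorem rthkh_k7fLevel {L : ℕ} (hL : 2 ≤ L) (hML : M ∣ L) (hp : p.Prime) (hp2 : p ≠ 2)
    (hpL : ¬ p ∣ L) (h5 : 5 ≤ p ∨ (5 - p) ∣ L) (hsq : Squarefree M)
    (hv : Function.Injective v) (hvp : ∀ x, (v x).Prime) (hk : ∀ x, p ^ k x ∣ v x - 1)
    (hM : ∀ x, v x ∣ M) : K7FLevel L M (rthkdH p v k M hM) p :=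
  rthkgH_k7fLevel hL hML hp hp2 hpL h5 hsq hv hvp hk hM

/-- the input `hE` of `es1inftw_pkg` -/
theorem rthkh_hE (hM : ∀ x, v x ∣ M) {K : ℕ} (hK : ∀ x, k x ≤ K) (e : ℕ)
    (he : p ^ K ∣ 2 * e - 1) : ∀ c : (ZMod M)ˣ, c ^ (2 * e - 1) ∈ pmH (rthkdH p v k M hM) :=
  rthkgH_hE hM hK e he

/-- a diamond at `v x` is trivial modulo `v y`, `y ≠ x` -/
theorem rthkh_unitsMap_of_isAtR (hM0 : M ≠ 0) (hv : Function.Injective v)
    (hvp : ∀ x, (v x).Prime) (hM : ∀ x, v x ∣ M) (x : κ) (c : (ZMod M)ˣ)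
    (hc : IsAtR M (v x) c) (y : κ) (hy : y ≠ x) : ZMod.unitsMap (hM y) c = 1 :=
  rthkg_unitsMap_of_isAtR hM0 hv hvp hM x c hc y hy

end ConcH

end Fermat.Agent.RT
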