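import Fermat.Agent.ES1.Inf.TwDom
import Fermat.Agent.RT.K6.FCoset
import Fermat.Agent.RT.K7F.Fin
import Fermat.Agent.Common.FrobProfinite
import Fermat.Agent.RT.Prod.FinalPlan
import Fermat.Agent.RT.Hecke.ConcArith

/-!
# K-machine, HECKE-asm, HK-CONC: the fields `pkg` and `model` of `HkConc` (helper65)

For ANY level data `(L, M, H, e)` (so that the lemmas apply to the final `ConcDefs`):
`J = es1inftwJ L M H p (k7ftwChar M e)`, `𝕋 = HDAlg M`, `Tr = es1inftwTr M e`.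

* `rthkp_index_pow_gen`, `rthkp_index_pow` : if `c ^ (p ^ ν) ∈ ±H` for all `c` then
  `[(ℤ/M)ˣ : ±H]` is a power of `p`;
* `rthkp_pgroup` : the field `pgroup` of `K7FLevel`;
* `rthkp_two_mul_half`, `rthkp_hE` : `e = (p ^ ν + 1) / 2` has `2 e − 1 = p ^ ν`, so
  `c ^ (2 e − 1) ∈ ±H` (hypothesis `hE` of `es1inftw_pkg`);  `rthkp_one_le_half`;
* `rthkp_level` : `K7FLevel L M H p` from `2 ≤ L`, `M ∣ L`, `Squarefree M`, `p` odd, `p ∤ L`,
  `p = 3 → 2 ∣ L`, and the exponent hypothesis;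
* `rthkp_twistChar` : `IsTwistChar A (k7ftwChar M e)` for `A` over `p ∤ M`;
* **`rthkp_pkg`** : `Rtk7bPkg p L J Tr`   (the field `pkg` of `HkConc` / `HkLevel`);
* **`rthkp_model`** : the field `model` of `HkConc` / `HkLevel`, from `StmtFlatH`;
* `rthkp_pkg'`, `rthkp_model'` : the same for `e = (p ^ ν + 1) / 2` from the exponent hypothesis
  and the elementary hypotheses on `(L, M)`.

## The arithmetic of the concrete level

`Y : KSetup P N q`, `qv : Fin h → ℕ` a Taylor–Wiles family for `S = Y.Smin ∪ T`,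
`L = N · ∏ qv j`, `M = (∏ qv j) · (∏ Y.r i)`:

* `rthkp_sqfree_prod`, `rthkp_prod_dvd`, `rthkp_prime_dvd_prod` : products of distinct primes;
* `rthkp_arith_dvd` : `M ∣ L`;  `rthkp_arith_sqfree` : `Squarefree M`;
  `rthkp_arith_not_dvd` : `p ∤ L`;  `rthkp_arith_two_le` : `2 ≤ L`;  `rthkp_arith_pos`;
* **`rthkp_primes`** : the field `primes` of `HkConc` / `HkLevel` for
  `Sbad = Y.Smin ∪ (image qv ∪ image Y.r)`;
* `rthkp_level_conc` : `K7FLevel L M H' p` for every `H'` with the exponent hypothesis;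

## The instance for helper9's concrete objects (`RT/Hecke/ConcArith.lean`)

`v = Sum.elim qv Y.r`, `M = rthkdM v`, `L = N * rthkdM qv`, `H' = rthkdH P.p v k M (rthkd_dvd_M v)`
(any `k` with `k x ≤ ν`), `e = rthkdE P.p ν`:

* `rthkp_inst_dvd` : `M ∣ L`;  `rthkp_inst_L_ne_zero`, `rthkp_inst_M_ne_zero`;
* `rthkp_level_inst` : `K7FLevel L M H' P.p`;
* **`rthkp_primes_inst`**, **`rthkp_pkg_inst`**, **`rthkp_model_inst`** : the fields `primes`,
  `pkg`, `model` of `HkConc` verbatim for these objects (`model` from `StmtFlatH`).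
-/

set_option autoImplicit false
set_option linter.unusedSectionVars false
set_option linter.style.haveILetI false

noncomputable section

namespace Fermat.Agent.RT

open Fermat.Agent.ES Fermat.Agent.ES1 Fermat.Agent.RT.K7F Fermat.Agent.RT.K6 Fermat.Agent.W1
  ExtCitation

/-! ## Group theory -/

/-- a subgroup of a finite commutative group containing all `p ^ ν`-th powers has index a power
of `p` -/
theorem rthkp_index_pow_gen {G : Type*} [CommGroup G] [Finite G] (K : Subgroup G) (p ν : ℕ)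
    [Fact p.Prime] (h : ∀ c : G, c ^ (p ^ ν) ∈ K) : ∃ k : ℕ, K.index = p ^ k := by
  have hP : IsPGroup p (G ⧸ K) := by
    intro g
    obtain ⟨c, rfl⟩ := QuotientGroup.mk_surjective g
    refine ⟨ν, ?_⟩
    rw [← QuotientGroup.mk_pow, QuotientGroup.eq_one_iff]
    exact h c
  obtain ⟨k, hk⟩ := IsPGroup.iff_card.mp hP
  exact ⟨k, hk⟩

/-- `2 e − 1 = p ^ ν` for `e = (p ^ ν + 1) / 2`, `p` odd -/
theorem rthkp_two_mul_half (p ν : ℕ) (hp : Odd p) : 2 * ((p ^ ν + 1) / 2) - 1 = p ^ ν := by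
  have h1 : Odd (p ^ ν) := hp.pow
  obtain ⟨t, ht⟩ := h1
  rw [ht]
  omega

theorem rthkp_one_le_half (p ν : ℕ) (hp : 0 < p) : 1 ≤ (p ^ ν + 1) / 2 := by
  have h1 : 1 ≤ p ^ ν := Nat.one_le_pow _ _ hp
  omega

section Level

variable {M : ℕ} (H : Subgroup (ZMod M)ˣ)

/-- `[(ℤ/M)ˣ : ±H]` is a power of `p` if `Δ` has exponent dividing `p ^ ν` -/
theorem rthkp_index_pow (p ν : ℕ) [Fact p.Prime]
    (hexp : ∀ c : (ZMod M)ˣ, c ^ (p ^ ν) ∈ pmH H) : ∃ k : ℕ, (pmH H).index = p ^ k :=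
  rthkp_index_pow_gen (pmH H) p ν hexp

/-- the field `pgroup` of `K7FLevel` -/
theorem rthkp_pgroup (p ν : ℕ) [Fact p.Prime]
    (hexp : ∀ c : (ZMod M)ˣ, c ^ (p ^ ν) ∈ pmH H) :
    ∀ (m : ℕ) (a : Fin (m + 1) → (ZMod M)ˣ), IsRepFam H a → ∃ k : ℕ, m + 1 = p ^ k := by
  intro m a ha
  obtain ⟨k, hk⟩ := rthkp_index_pow H p ν hexp
  exact ⟨k, by rw [← rtk6f_index_of_repFam ha, hk]⟩

/-- the hypothesis `hE` of `es1inftw_pkg` for `e = (p ^ ν + 1) / 2` -/
theorem rthkp_hE (p ν : ℕ) (hp : Odd p) (hexp : ∀ c : (ZMod M)ˣ, c ^ (p ^ ν) ∈ pmH H) :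
    ∀ c : (ZMod M)ˣ, c ^ (2 * ((p ^ ν + 1) / 2) - 1) ∈ pmH H := by
  intro c
  rw [rthkp_two_mul_half p ν hp]
  exact hexp c

/-- **the standing hypotheses of K7-FLAT** from the elementary hypotheses -/
theorem rthkp_level {L : ℕ} (p ν : ℕ) [hp : Fact p.Prime] (hL : 2 ≤ L) (hML : M ∣ L)
    (hp2 : p ≠ 2) (hpL : ¬ p ∣ L) (h3 : p = 3 → 2 ∣ L) (hsq : Squarefree M)
    (hexp : ∀ c : (ZMod M)ˣ, c ^ (p ^ ν) ∈ pmH H) : K7FLevel L M H p where
  hL := hL
  hML := hML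
  hp := hp.out
  hp2 := hp2
  hpL := hpL
  h5 := by
    by_cases h : 5 ≤ p
    · exact Or.inl h
    · right
      have h2 : 2 ≤ p := hp.out.two_le
      have hp3 : p = 3 := by
        have h4 : p ≠ 4 := fun h4 => by
          have := hp.out
          rw [h4] at this
          exact absurd this (by decide)
        omega
      rw [hp3]
      exact h3 hp3
  sqfree := hsq
  pgroup := rthkp_pgroup H p ν hexp

end Level

/-! ## The character of the twist -/

/-- `χ = c_M ^ e` is a twist character at every place over a prime `p ∤ M` -/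
theorem rthkp_twistChar (M : ℕ) [NeZero M] (e : ℕ) {p : ℕ} (hp : p.Prime) (hpM : ¬ p ∣ M)
    (A : ValuationSubring (AlgebraicClosure ℚ)) (hA : A.LiesOverPrime p) :
    IsTwistChar A (k7ftwChar M e) where
  inertia := fun σ hσ => k7ftw_char_inertia M e hp hpM A hA σ hσ
  open_ker := k7ftw_char_openKer M e

/-! ## The fields `pkg` and `model` -/

section Pkg

variable {L M : ℕ} [NeZero L] [NeZero M] (H : Subgroup (ZMod M)ˣ) (p : ℕ)

/-- **the field `pkg`**: the twisted `p`-adic package of `J_H(L; M)`, `χ = c_M ^ e`. -/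
theorem rthkp_pkg [hML : Fact (M ∣ L)] [hp : Fact p.Prime] (e : ℕ) (he : 1 ≤ e)
    (hE : ∀ c : (ZMod M)ˣ, c ^ (2 * e - 1) ∈ pmH H) :
    Rtk7bPkg p L (es1inftwJ L M H p (k7ftwChar M e)) (es1inftwTr M e) :=
  es1inftw_pkg e he hE (k7ftwChar M e) (es1inftw_char_k7f p e hML.out)

/-- **the field `model`**: finite flat models dominating the `J[pᵏ]`, from K7-FLAT. -/
theorem rthkp_model [hML : Fact (M ∣ L)] [hp : Fact p.Prime] (hflat : StmtFlatH)
    (hlev : K7FLevel L M H p) (e : ℕ) :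
    ∀ k : ℕ, ∃ (X : Type) (_ : AddCommGroup X) (_ : Finite X) (act : GQ → X → X),
      (∀ s x x', act s (x + x') = act s x + act s x') ∧
      (∀ s s' x, act (s * s') x = act s (act s' x)) ∧
      HasFiniteFlatModel (GaloisRep.ratLocalizedAt p) X act ∧
      ∀ e' : GQ →₀ ℤ, (∀ x : X, (e'.sum fun g z => z • act g x) = 0) →
        ∀ x : es1inftwJ L M H p (k7ftwChar M e), p ^ k • x = 0 →
          (e'.sum fun g z => z • g • x) = 0 := by
  intro k
  obtain ⟨A, hA⟩ := Fermat.Agent.Common.exists_liesOverPrime p hlev.hp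
  have hpM : ¬ p ∣ M := fun h => hlev.hpL (h.trans hlev.hML)
  exact es1inftw_hmodel (k7ftwChar M e) hflat stmtFinH hlev A hA
    (rthkp_twistChar M e hlev.hp hpM A hA) k

/-- the field `pkg` for `e = (p ^ ν + 1) / 2` -/
theorem rthkp_pkg' [hML : Fact (M ∣ L)] [hp : Fact p.Prime] (ν : ℕ) (hp2 : p ≠ 2)
    (hexp : ∀ c : (ZMod M)ˣ, c ^ (p ^ ν) ∈ pmH H) :
    Rtk7bPkg p L (es1inftwJ L M H p (k7ftwChar M ((p ^ ν + 1) / 2)))
      (es1inftwTr M ((p ^ ν + 1) / 2)) :=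
  rthkp_pkg H p _ (rthkp_one_le_half p ν hp.out.pos)
    (rthkp_hE H p ν (hp.out.odd_of_ne_two hp2) hexp)

/-- the field `model` for `e = (p ^ ν + 1) / 2`, from the elementary hypotheses -/
theorem rthkp_model' [hML : Fact (M ∣ L)] [hp : Fact p.Prime] (hflat : StmtFlatH) (ν : ℕ)
    (hL : 2 ≤ L) (hp2 : p ≠ 2) (hpL : ¬ p ∣ L) (h3 : p = 3 → 2 ∣ L) (hsq : Squarefree M)
    (hexp : ∀ c : (ZMod M)ˣ, c ^ (p ^ ν) ∈ pmH H) :
    ∀ k : ℕ, ∃ (X : Type) (_ : AddCommGroup X) (_ : Finite X) (act : GQ → X → X),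
      (∀ s x x', act s (x + x') = act s x + act s x') ∧
      (∀ s s' x, act (s * s') x = act s (act s' x)) ∧
      HasFiniteFlatModel (GaloisRep.ratLocalizedAt p) X act ∧
      ∀ e' : GQ →₀ ℤ, (∀ x : X, (e'.sum fun g z => z • act g x) = 0) →
        ∀ x : es1inftwJ L M H p (k7ftwChar M ((p ^ ν + 1) / 2)), p ^ k • x = 0 →
          (e'.sum fun g z => z • g • x) = 0 :=
  rthkp_model H p hflat (rthkp_level H p ν hL hML.out hp2 hpL h3 hsq hexp) _

end Pkg

/-! ## Products of distinct primes -/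

/-- a product of distinct primes is squarefree -/
theorem rthkp_sqfree_prod {κ : Type*} [Fintype κ] (v : κ → ℕ) (hinj : Function.Injective v)
    (hv : ∀ x, (v x).Prime) : Squarefree (∏ x, v x) := by
  apply Finset.squarefree_prod_of_pairwise_isCoprime
  · intro x _ y _ hxy
    show IsRelPrime (v x) (v y)
    rw [← Nat.coprime_iff_isRelPrime]
    exact (Nat.coprime_primes (hv x) (hv y)).2 (fun h => hxy (hinj h))
  · intro x _
    exact (hv x).squarefree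

/-- a product of distinct primes dividing `N` divides `N` -/
theorem rthkp_prod_dvd {κ : Type*} [Fintype κ] (v : κ → ℕ) (hinj : Function.Injective v)
    (hv : ∀ x, (v x).Prime) (N : ℕ) (hN : ∀ x, v x ∣ N) : ∏ x, v x ∣ N := by
  classical
  have h1 : ∏ x, v x = ∏ a ∈ Finset.univ.image v, a := by
    rw [Finset.prod_image (fun x _ y _ h => hinj h)]
  rw [h1]
  apply Finset.prod_primes_dvd
  · intro a ha
    obtain ⟨x, -, rfl⟩ := Finset.mem_image.1 ha
    exact (hv x).prime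
  · intro a ha
    obtain ⟨x, -, rfl⟩ := Finset.mem_image.1 ha
    exact hN x

/-- a prime dividing a product of primes is one of them -/
theorem rthkp_prime_dvd_prod {κ : Type*} [Fintype κ] (v : κ → ℕ) (hv : ∀ x, (v x).Prime)
    {q : ℕ} (hq : q.Prime) (h : q ∣ ∏ x, v x) : ∃ x, q = v x := by
  obtain ⟨x, -, hx⟩ := (Prime.dvd_finsetProd_iff hq.prime _).1 h
  exact ⟨x, (Nat.prime_dvd_prime_iff_eq hq (hv x)).1 hx⟩

/-! ## The arithmetic of the concrete level -/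

section Arith

open Fermat.Agent.TW Fermat.Agent.RT.Prod

variable {P : FreyPackage} {N q : ℕ} (Y : KSetup P N q) {n h : ℕ} (qv : Fin h → ℕ)

/-- the trivial primes are odd primes dividing `N` -/
theorem rthkp_r_spec (i : Y.ι) : (Y.r i).Prime ∧ Y.r i ≠ 2 ∧ Y.r i ∣ N :=
  (Y.hr (Y.r i)).1 (Finset.mem_image_of_mem _ (Finset.mem_univ i))

theorem rthkp_p_mem_Smin : P.p ∈ Y.Smin := by
  rw [Y.hSmin]; simp

theorem rthkp_two_mem_Smin : 2 ∈ Y.Smin := by
  rw [Y.hSmin]; simp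

variable {Y qv}

/-- a Taylor–Wiles prime is not a trivial prime -/
theorem rthkp_qv_ne_r (hqv : IsTWFamily P.p Y.ρbar (Y.Smin ∪ Finset.univ.image Y.r) n h qv)
    (j : Fin h) (i : Y.ι) : qv j ≠ Y.r i := by
  intro hji
  apply (hqv.2.1 j).2.1
  rw [hji]
  exact Finset.mem_union_right _ (Finset.mem_image_of_mem _ (Finset.mem_univ i))

/-- a Taylor–Wiles prime is not `p` -/
theorem rthkp_qv_ne_p (hqv : IsTWFamily P.p Y.ρbar (Y.Smin ∪ Finset.univ.image Y.r) n h qv)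
    (j : Fin h) : qv j ≠ P.p := by
  intro hj
  apply (hqv.2.1 j).2.1
  rw [hj]
  exact Finset.mem_union_left _ (rthkp_p_mem_Smin Y)

variable (Y qv)

/-- **`M ∣ L`** -/
theorem rthkp_arith_dvd : (∏ j, qv j) * ∏ i, Y.r i ∣ N * ∏ j, qv j := by
  rw [mul_comm N]
  exact mul_dvd_mul_left _ (rthkp_prod_dvd Y.r Y.r_inj (fun i => (rthkp_r_spec Y i).1) N
    (fun i => (rthkp_r_spec Y i).2.2))

variable {qv}

/-- **`M` is squarefree** -/
theorem rthkp_arith_sqfree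
    (hqv : IsTWFamily P.p Y.ρbar (Y.Smin ∪ Finset.univ.image Y.r) n h qv) :
    Squarefree ((∏ j, qv j) * ∏ i, Y.r i) := by
  have h1 : (∏ j, qv j) * ∏ i, Y.r i = ∏ x : Fin h ⊕ Y.ι, Sum.elim qv Y.r x := by
    rw [Fintype.prod_sum_type]
    rfl
  rw [h1]
  apply rthkp_sqfree_prod
  · exact Function.Injective.sumElim hqv.1 Y.r_inj (fun j i => rthkp_qv_ne_r hqv j i)
  · rintro (j | i)
    · exact (hqv.2.1 j).1
    · exact (rthkp_r_spec Y i).1

/-- **`p ∤ L`** -/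
theorem rthkp_arith_not_dvd (hpN : ¬ P.p ∣ N)
    (hqv : IsTWFamily P.p Y.ρbar (Y.Smin ∪ Finset.univ.image Y.r) n h qv) :
    ¬ P.p ∣ N * ∏ j, qv j := by
  intro hdvd
  rcases (Nat.Prime.dvd_mul P.pp).1 hdvd with h1 | h1
  · exact hpN h1
  · obtain ⟨j, hj⟩ := rthkp_prime_dvd_prod qv (fun j => (hqv.2.1 j).1) P.pp h1
    exact rthkp_qv_ne_p hqv j hj.symm

/-- `0 < L` -/
theorem rthkp_arith_pos (hN : 0 < N)
    (hqv : IsTWFamily P.p Y.ρbar (Y.Smin ∪ Finset.univ.image Y.r) n h qv) :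
    0 < N * ∏ j, qv j :=
  Nat.mul_pos hN (Finset.prod_pos fun j _ => (hqv.2.1 j).1.pos)

/-- **`2 ≤ L`** -/
theorem rthkp_arith_two_le (hN : 0 < N) (hq : q.Prime) (hqN : q ∣ N)
    (hqv : IsTWFamily P.p Y.ρbar (Y.Smin ∪ Finset.univ.image Y.r) n h qv) :
    2 ≤ N * ∏ j, qv j := by
  have h1 : 2 ≤ N := le_trans hq.two_le (Nat.le_of_dvd hN hqN)
  have h2 : 0 < ∏ j, qv j := Finset.prod_pos fun j _ => (hqv.2.1 j).1.pos
  calc 2 ≤ N := h1
    _ = N * 1 := (mul_one N).symm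
    _ ≤ N * ∏ j, qv j := Nat.mul_le_mul_left N h2

/-- `0 < M` -/
theorem rthkp_arith_M_pos
    (hqv : IsTWFamily P.p Y.ρbar (Y.Smin ∪ Finset.univ.image Y.r) n h qv) :
    0 < (∏ j, qv j) * ∏ i, Y.r i :=
  Nat.mul_pos (Finset.prod_pos fun j _ => (hqv.2.1 j).1.pos)
    (Finset.prod_pos fun i _ => (rthkp_r_spec Y i).1.pos)

/-- **the field `primes`** of `HkConc` / `HkLevel` for the concrete level
`L = N · ∏ qv j` and `Sbad = Y.Smin ∪ (image qv ∪ image Y.r)`. -/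
theorem rthkp_primes
    (hqv : IsTWFamily P.p Y.ρbar (Y.Smin ∪ Finset.univ.image Y.r) n h qv) :
    ∀ r : ℕ, r.Prime → r ∉ Y.Smin ∪ (Finset.univ.image qv ∪ Finset.univ.image Y.r) →
      ¬ r ∣ (N * ∏ j, qv j) * P.p := by
  intro r hr hrS hdvd
  rcases (Nat.Prime.dvd_mul hr).1 hdvd with h1 | h1
  · rcases (Nat.Prime.dvd_mul hr).1 h1 with h2 | h2
    · by_cases hr2 : r = 2
      · exact hrS (Finset.mem_union_left _ (by rw [hr2]; exact rthkp_two_mem_Smin Y))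
      · exact hrS (Finset.mem_union_right _ (Finset.mem_union_right _
          ((Y.hr r).2 ⟨hr, hr2, h2⟩)))
    · obtain ⟨j, hj⟩ := rthkp_prime_dvd_prod qv (fun j => (hqv.2.1 j).1) hr h2
      exact hrS (Finset.mem_union_right _ (Finset.mem_union_left _
        (by rw [hj]; exact Finset.mem_image_of_mem _ (Finset.mem_univ j))))
  · have h3 : r = P.p := (Nat.prime_dvd_prime_iff_eq hr P.pp).1 h1
    exact hrS (Finset.mem_union_left _ (by rw [h3]; exact rthkp_p_mem_Smin Y))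

/-- **the standing hypotheses of K7-FLAT for the concrete level**, for every `H'` with
`Δ = (ℤ/M)ˣ / ±H'` of exponent dividing `p ^ ν`. -/
theorem rthkp_level_conc (hcond : P.IsConductorLevel N) (hpN : ¬ P.p ∣ N) (hq : q.Prime)
    (hqN : q ∣ N)
    (hqv : IsTWFamily P.p Y.ρbar (Y.Smin ∪ Finset.univ.image Y.r) n h qv)
    (H' : Subgroup (ZMod ((∏ j, qv j) * ∏ i, Y.r i))ˣ) (ν : ℕ)
    (hexp : ∀ c : (ZMod ((∏ j, qv j) * ∏ i, Y.r i))ˣ, c ^ (P.p ^ ν) ∈ pmH H') :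
    K7FLevel (N * ∏ j, qv j) ((∏ j, qv j) * ∏ i, Y.r i) H' P.p := by
  haveI : Fact P.p.Prime := ⟨P.pp⟩
  have hp5 := P.hp5
  exact rthkp_level H' P.p ν (rthkp_arith_two_le Y hcond.pos hq hqN hqv)
    (rthkp_arith_dvd Y qv) (by omega) (rthkp_arith_not_dvd Y hpN hqv) (fun h3 => by omega)
    (rthkp_arith_sqfree Y hqv) hexp

end Arith

/-! ## The instance for the concrete objects of `ConcArith` -/

section Inst

open Fermat.Agent.TW Fermat.Agent.RT.Prod

variable {P : FreyPackage} {N q : ℕ} (Y : KSetup P N q) {n h : ℕ} (qv : Fin h → ℕ)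

/-- **`M ∣ L`** for `M = rthkdM (Sum.elim qv Y.r)`, `L = N * rthkdM qv` -/
theorem rthkp_inst_dvd : rthkdM (Sum.elim qv Y.r) ∣ N * rthkdM qv := by
  rw [rthkdM_sum]
  exact rthkp_arith_dvd Y qv

variable {qv}

theorem rthkp_inst_L_ne_zero (hN : 0 < N)
    (hqv : IsTWFamily P.p Y.ρbar (Y.Smin ∪ Finset.univ.image Y.r) n h qv) :
    N * rthkdM qv ≠ 0 :=
  (rthkp_arith_pos Y hN hqv).ne'

theorem rthkp_inst_M_ne_zero
    (hqv : IsTWFamily P.p Y.ρbar (Y.Smin ∪ Finset.univ.image Y.r) n h qv) :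
    rthkdM (Sum.elim qv Y.r) ≠ 0 := by
  rw [rthkdM_sum]
  exact (rthkp_arith_M_pos Y hqv).ne'

/-- **the field `primes`** of `HkConc` for the concrete objects. -/
theorem rthkp_primes_inst
    (hqv : IsTWFamily P.p Y.ρbar (Y.Smin ∪ Finset.univ.image Y.r) n h qv) :
    ∀ r : ℕ, r.Prime → r ∉ Y.Smin ∪ (Finset.univ.image qv ∪ Finset.univ.image Y.r) →
      ¬ r ∣ (N * rthkdM qv) * P.p :=
  rthkp_primes Y hqv

/-- **the standing hypotheses of K7-FLAT** for the concrete objects. -/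
theorem rthkp_level_inst (hcond : P.IsConductorLevel N) (hpN : ¬ P.p ∣ N) (hq : q.Prime)
    (hqN : q ∣ N)
    (hqv : IsTWFamily P.p Y.ρbar (Y.Smin ∪ Finset.univ.image Y.r) n h qv)
    (k : Fin h ⊕ Y.ι → ℕ) (ν : ℕ) (hk : ∀ x, k x ≤ ν) :
    K7FLevel (N * rthkdM qv) (rthkdM (Sum.elim qv Y.r))
      (rthkdH P.p (Sum.elim qv Y.r) k (rthkdM (Sum.elim qv Y.r)) (rthkd_dvd_M _)) P.p := by
  haveI : Fact P.p.Prime := ⟨P.pp⟩
  have hp5 := P.hp5
  refine rthkp_level _ P.p ν (rthkp_arith_two_le Y hcond.pos hq hqN hqv)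
    (rthkp_inst_dvd Y qv) (by omega) (rthkp_arith_not_dvd Y hpN hqv) (fun h3 => by omega)
    ?_ ?_
  · rw [rthkdM_sum]
    exact rthkp_arith_sqfree Y hqv
  · intro c
    rw [rthkd_pmH P.hp_odd]
    exact rthkd_pow_mem_H hk c

/-- **the field `pkg`** of `HkConc` for the concrete objects. -/
theorem rthkp_pkg_inst [NeZero (N * rthkdM qv)] [NeZero (rthkdM (Sum.elim qv Y.r))]
    [Fact (rthkdM (Sum.elim qv Y.r) ∣ N * rthkdM qv)] [Fact P.p.Prime]
    (k : Fin h ⊕ Y.ι → ℕ) (ν : ℕ) (hk : ∀ x, k x ≤ ν) :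
    Rtk7bPkg P.p (N * rthkdM qv)
      (es1inftwJ (N * rthkdM qv) (rthkdM (Sum.elim qv Y.r))
        (rthkdH P.p (Sum.elim qv Y.r) k (rthkdM (Sum.elim qv Y.r)) (rthkd_dvd_M _)) P.p
        (k7ftwChar (rthkdM (Sum.elim qv Y.r)) (rthkdE P.p ν)))
      (es1inftwTr (rthkdM (Sum.elim qv Y.r)) (rthkdE P.p ν)) :=
  rthkp_pkg _ P.p (rthkdE P.p ν) (rthkp_one_le_half P.p ν P.hppos)
    (rthkd_pow_E_mem P.hp_odd hk)

/-- **the field `model`** of `HkConc` for the concrete objects, from K7-FLAT. -/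
theorem rthkp_model_inst [NeZero (N * rthkdM qv)] [NeZero (rthkdM (Sum.elim qv Y.r))]
    [Fact (rthkdM (Sum.elim qv Y.r) ∣ N * rthkdM qv)] [Fact P.p.Prime]
    (hflat : StmtFlatH) (hcond : P.IsConductorLevel N) (hpN : ¬ P.p ∣ N) (hq : q.Prime)
    (hqN : q ∣ N)
    (hqv : IsTWFamily P.p Y.ρbar (Y.Smin ∪ Finset.univ.image Y.r) n h qv)
    (k : Fin h ⊕ Y.ι → ℕ) (ν : ℕ) (hk : ∀ x, k x ≤ ν) :
    ∀ k' : ℕ, ∃ (X : Type) (_ : AddCommGroup X) (_ : Finite X) (act : GQ → X → X),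
      (∀ s x x', act s (x + x') = act s x + act s x') ∧
      (∀ s s' x, act (s * s') x = act s (act s' x)) ∧
      HasFiniteFlatModel (GaloisRep.ratLocalizedAt P.p) X act ∧
      ∀ e' : GQ →₀ ℤ, (∀ x : X, (e'.sum fun g z => z • act g x) = 0) →
        ∀ x : es1inftwJ (N * rthkdM qv) (rthkdM (Sum.elim qv Y.r))
            (rthkdH P.p (Sum.elim qv Y.r) k (rthkdM (Sum.elim qv Y.r)) (rthkd_dvd_M _)) P.p
            (k7ftwChar (rthkdM (Sum.elim qv Y.r)) (rthkdE P.p ν)),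
          P.p ^ k' • x = 0 → (e'.sum fun g z => z • g • x) = 0 :=
  rthkp_model _ P.p hflat (rthkp_level_inst Y hcond hpN hq hqN hqv k ν hk) (rthkdE P.p ν)

end Inst

end Fermat.Agent.RT
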