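import Fermat.Agent.RT.Hecke.GrpInst
import Fermat.Agent.RT.Hecke.GrpBridge
import Fermat.Agent.RT.Hecke.ConcPkg

/-!
# K-machine, HECKE-asm, HK-CONC: `K5.FreeHyp`, `pkg`, `model` for the concrete data (helper65)

`Y : KSetup P N q`, `qv` a Taylor–Wiles family of level `n`, and helper9's concrete objects
(`RT/Hecke/ConcInst.lean`): `v = rthkdYv Y qv`, `k = rthkdYk Y (n + 1)`, `M = rthkdYM Y qv`,
`L = rthkdYL N qv`, `H' = rthkgiH Y qv n` (`RT/Hecke/GrpInst.lean`), `e = rthkdE P.p (n + 1)`.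

* `rthkfh_isUnit_natCast` : a natural number prime to `p` is a unit of a local ring `𝒪` with
  `p ∈ 𝔪`;  `rthkfh_nsmul_inj` : multiplication by it is injective on every quotient of `𝒪`;
* `rthkfh_noTors` : `NoTors Γ (𝒪 ⧸ 𝔪 ^ n)` for every `Γ`, if `p ≥ 5` is a prime in `𝔪`;
* `rthkfh_freeHyp_gen` : `FreeHyp P.p Y.O L M ℓ₀ (rthkdH P.p v k M hM) ⊤ (∑ x, k x)` for EVERY
  `L`, every `M ≠ 0` with `v x ∣ M`, every prime `ℓ₀ ∤ L`;
* **`rthkfh_freeHyp`** : `FreeHyp P.p Y.O L M ℓ₀ H' ⊤ (h * (n + 1) + #ι)` for the concrete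
  objects (input of `rthkcf_X`);
* **`rthkfh_pkg`**, **`rthkfh_model`** : the fields `pkg`, `model` of `HkConc` on the concrete
  objects (`model` from `K7F.StmtFlatH`); `rthkfh_primes` = `rthkdY_primes`.
-/

set_option autoImplicit false
set_option linter.unusedSectionVars false
set_option linter.style.haveILetI false

noncomputable section

namespace Fermat.Agent.RT

open IsLocalRing Fermat.Agent.RT.Prod Fermat.Agent.TW Fermat.Agent.RT.K5
open Fermat.Agent.ES Fermat.Agent.ES1 Fermat.Agent.RT.K7F Fermat.Agent.W1 ExtCitation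
open scoped MatrixGroups

/-! ## The torsion hypothesis -/

/-- a natural number prime to the residue characteristic is a unit of a local ring -/
theorem rthkfh_isUnit_natCast (O : Type*) [CommRing O] [IsLocalRing O] {p m : ℕ}
    (hpm : (p : O) ∈ maximalIdeal O) (hcop : Nat.Coprime m p) : IsUnit (m : O) := by
  by_contra hu
  have hm : (m : O) ∈ maximalIdeal O := (mem_maximalIdeal _).2 hu
  obtain ⟨u, v, huv⟩ := Nat.Coprime.isCoprime hcop
  have h1 : ((u : O) * (m : O) + (v : O) * (p : O)) = 1 := by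
    have := congrArg (fun z : ℤ => (z : O)) huv
    simpa using this
  have h2 : (1 : O) ∈ maximalIdeal O := by
    rw [← h1]
    exact Ideal.add_mem _ (Ideal.mul_mem_left _ _ hm) (Ideal.mul_mem_left _ _ hpm)
  exact (Ideal.ne_top_iff_one _).1 (maximalIdeal.isMaximal O).ne_top h2

/-- multiplication by a natural number prime to the residue characteristic is injective on
every quotient of a local ring -/
theorem rthkfh_nsmul_inj (O : Type*) [CommRing O] [IsLocalRing O] {p m : ℕ}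
    (hpm : (p : O) ∈ maximalIdeal O) (hcop : Nat.Coprime m p) (I : Ideal O) (a : O ⧸ I)
    (ha : m • a = 0) : a = 0 := by
  obtain ⟨u, hu⟩ := rthkfh_isUnit_natCast O hpm hcop
  have h1 : (Ideal.Quotient.mk I (m : O)) * a = 0 := by
    rw [map_natCast, ← nsmul_eq_mul]
    exact ha
  have h2 : Ideal.Quotient.mk I ((u⁻¹ : Oˣ) : O) * (Ideal.Quotient.mk I (m : O) * a) = 0 := by
    rw [h1, mul_zero]
  rw [← mul_assoc, ← map_mul, ← hu, Units.inv_mul, map_one, one_mul] at h2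
  exact h2

/-- **the torsion hypothesis** for the coefficients `𝒪 ⧸ 𝔪 ^ n`, residue characteristic `≥ 5` -/
theorem rthkfh_noTors (O : Type) [CommRing O] [IsLocalRing O] {p : ℕ} (hp : p.Prime)
    (h5 : 5 ≤ p) (hpm : (p : O) ∈ maximalIdeal O) (Γ : Subgroup SL(2, ℤ)) (n : ℕ) :
    NoTors Γ (O ⧸ maximalIdeal O ^ n) := by
  have h2 : Nat.Coprime 2 p :=
    (Nat.coprime_primes Nat.prime_two hp).2 (by omega)
  have h3 : Nat.Coprime 3 p :=
    (Nat.coprime_primes Nat.prime_three hp).2 (by omega)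
  exact ⟨fun a ha => rthkfh_nsmul_inj O hpm h2 _ a ha,
    Or.inl fun a ha => rthkfh_nsmul_inj O hpm h3 _ a ha⟩

/-! ## `FreeHyp` for the concrete data -/

section Hyp

variable {P : FreyPackage} {N q : ℕ} (Y : KSetup P N q) {n h : ℕ} {qv : Fin h → ℕ}

/-- **`K5.FreeHyp` for the concrete diamond group**, for every level `L`, every `M ≠ 0` with
`v x ∣ M` and every auxiliary prime `ℓ₀ ∤ L`. -/
theorem rthkfh_freeHyp_gen
    (hTW : IsTWFamily P.p Y.ρbar (Y.Smin ∪ Finset.univ.image Y.r) n h qv)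
    {L M : ℕ} (hM0 : M ≠ 0) (hM : ∀ x, rthkdYv Y qv x ∣ M) {ℓ₀ : ℕ} (hℓ₀ : ℓ₀.Prime)
    (hℓ₀L : ¬ ℓ₀ ∣ L) :
    FreeHyp P.p Y.O L M ℓ₀
      (rthkdH P.p (rthkdYv Y qv) (rthkdYk Y (n + 1)) M hM) ⊤
      (∑ x, rthkdYk Y (h := h) (n + 1) x) where
  p_ne_two := by have := P.hp5; omega
  p_mem := Y.hyp.hp𝒪
  prime := hℓ₀
  not_dvd := hℓ₀L
  le := le_top
  index := rthkgb_freeHyp_index P.pp (by have := P.hp5; omega) (rthkdYv_inj hTW)
    (rthkdYv_prime hTW) (rthkdY_pow_dvd hTW) hM0 hM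
  noTors := fun n' => rthkfh_noTors Y.O P.pp P.hp5 Y.hyp.hp𝒪 _ n'

/-- **`K5.FreeHyp` for the concrete objects** `L = rthkdYL N qv`, `M = rthkdYM Y qv`,
`H' = rthkgiH Y qv n`, with `k = h (n + 1) + #ι`: the input of `rthkcf_X`. -/
theorem rthkfh_freeHyp (hN0 : N ≠ 0) (hpN : ¬ P.p ∣ N) (hq : q.Prime) (hqN : q ∣ N)
    (hTW : IsTWFamily P.p Y.ρbar (Y.Smin ∪ Finset.univ.image Y.r) n h qv)
    {ℓ₀ : ℕ} (hℓ₀ : ℓ₀.Prime) (hℓ₀L : ¬ ℓ₀ ∣ rthkdYL N qv) :
    FreeHyp P.p Y.O (rthkdYL N qv) (rthkdYM Y qv) ℓ₀ (rthkgiH Y qv n) ⊤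
      (h * (n + 1) + Fintype.card Y.ι) where
  p_ne_two := by have := P.hp5; omega
  p_mem := Y.hyp.hp𝒪
  prime := hℓ₀
  not_dvd := hℓ₀L
  le := le_top
  index := rthkgi_freeHyp_index hN0 hpN hq hqN hTW
  noTors := fun n' => rthkfh_noTors Y.O P.pp P.hp5 Y.hyp.hp𝒪 _ n'

/-! ## The fields `primes`, `pkg`, `model` on the concrete objects -/

/-- **the field `primes`** (= `rthkdY_primes`) -/
theorem rthkfh_primes
    (hTW : IsTWFamily P.p Y.ρbar (Y.Smin ∪ Finset.univ.image Y.r) n h qv) :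
    ∀ r : ℕ, r.Prime → r ∉ Y.Smin ∪ (Finset.univ.image qv ∪ Finset.univ.image Y.r) →
      ¬ r ∣ rthkdYL N qv * P.p :=
  fun r hr hS => rthkdY_primes hTW r hr hS

/-- **the field `pkg`** of `HkConc` on the concrete objects. -/
theorem rthkfh_pkg [NeZero (rthkdYL N qv)] [NeZero (rthkdYM Y qv)]
    [Fact (rthkdYM Y qv ∣ rthkdYL N qv)] [Fact P.p.Prime] (n : ℕ) :
    Rtk7bPkg P.p (rthkdYL N qv)
      (es1inftwJ (rthkdYL N qv) (rthkdYM Y qv) (rthkgiH Y qv n) P.p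
        (k7ftwChar (rthkdYM Y qv) (rthkdE P.p (n + 1))))
      (es1inftwTr (rthkdYM Y qv) (rthkdE P.p (n + 1))) :=
  rthkp_pkg _ P.p (rthkdE P.p (n + 1)) (rthkp_one_le_half P.p (n + 1) P.hppos)
    (rthkd_pow_E_mem P.hp_odd (rthkdYk_le Y (n + 1) (Nat.succ_le_succ (Nat.zero_le n))))

/-- **the field `model`** of `HkConc` on the concrete objects, from K7-FLAT. -/
theorem rthkfh_model [NeZero (rthkdYL N qv)] [NeZero (rthkdYM Y qv)]
    [Fact (rthkdYM Y qv ∣ rthkdYL N qv)] [Fact P.p.Prime]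
    (hflat : StmtFlatH) (hN0 : N ≠ 0) (hpN : ¬ P.p ∣ N) (hq : q.Prime) (hqN : q ∣ N)
    (hTW : IsTWFamily P.p Y.ρbar (Y.Smin ∪ Finset.univ.image Y.r) n h qv) :
    ∀ k : ℕ, ∃ (X : Type) (_ : AddCommGroup X) (_ : Finite X) (act : GQ → X → X),
      (∀ s x x', act s (x + x') = act s x + act s x') ∧
      (∀ s s' x, act (s * s') x = act s (act s' x)) ∧
      HasFiniteFlatModel (GaloisRep.ratLocalizedAt P.p) X act ∧
      ∀ e : GQ →₀ ℤ, (∀ x : X, (e.sum fun g z => z • act g x) = 0) →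
        ∀ x : es1inftwJ (rthkdYL N qv) (rthkdYM Y qv) (rthkgiH Y qv n) P.p
            (k7ftwChar (rthkdYM Y qv) (rthkdE P.p (n + 1))),
          P.p ^ k • x = 0 → (e.sum fun g z => z • g • x) = 0 :=
  rthkp_model _ P.p hflat (rthkgi_k7fLevel hN0 hpN hq hqN hTW) (rthkdE P.p (n + 1))

end Hyp

end Fermat.Agent.RT
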