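import Fermat.Agent.RT.K5.Indep4
import Fermat.Agent.RT.Hecke.ConcBaseAct
import Fermat.Agent.RT.Hecke.ConcPkg
import Fermat.Agent.RT.Hecke.ConcAct
import Fermat.Agent.RT.Hecke.Resid

/-!
# K-machine, HECKE-asm, HK-CONC: the instances of K5-INDEP (helper7)

* `rthkin_data` : the data `K5inData` of K5-INDEP for the base level `(N, M, ⊤)`, the ring
  `HDAlg M` of Hecke–diamond polynomials acting by `rthkdEval` on `Hom(Γ₀(N), 𝒪/𝔪^ν)`, the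
  package `es1inftwJ N M ⊤ p (k7ftwChar M 1)`, `Tr = es1inftwTr M 1`, and the `Θ`-part of a
  Hecke expression;
* `rthkin_res` : the residual data `K5inRes` of a setup `Y`, `a ℓ = a_ℓ(Y.W)`;
* `rthkin_det_frob` : `det ρ̄(Frob_q) = q`, `q ≠ p` ANY prime;
* `rthkin_tw_hQ`, `rthkin_tw_hQs` : the hypotheses of `k5in_twcond2` for a Taylor–Wiles family.
-/

set_option autoImplicit false
set_option linter.unusedSectionVars false
set_option linter.style.haveILetI false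
set_option linter.unusedVariables false

noncomputable section

namespace Fermat.Agent.RT

open IsLocalRing Fermat.Agent.ES Fermat.Agent.ES1 Fermat.Agent.RT.K5 Fermat.Agent.S48
open Fermat.Agent.TW Fermat.Agent.RT.Prod Fermat.Agent.S31 Fermat.Agent.RT.K7F
open CongruenceSubgroup Polynomial
open scoped MatrixGroups

section data

variable {O : Type} [CommRing O] [IsDomain O] [CharZero O] [IsDiscreteValuationRing O]
  [IsAdicComplete (IsLocalRing.maximalIdeal O) O] [Finite (IsLocalRing.ResidueField O)]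
  {N M : ℕ} [NeZero N] [NeZero M] [hMN : Fact (M ∣ N)] {p : ℕ} [hp : Fact p.Prime]

/-- **the data of K5-INDEP at the base level**, for the `Θ`-part of a Hecke expression `E` with
coefficients `𝒪 ⧸ 𝔪 ^ ν` -/
theorem rthkin_data (hp𝔪 : (p : O) ∈ maximalIdeal O) (E : HExpr O) (hE : E.IsPrimes) (ℓ₀ : ℕ)
    [NeZero ℓ₀] (hℓ₀ : ℓ₀.Prime) (hℓ₀N : ¬ ℓ₀ ∣ N) (hN : Squarefree N) (hp2 : p ≠ 2)
    (hℓ₀p : ℓ₀ ≠ p) (ν : ℕ)
    (hNT : NoTors (gammaH N M (⊤ : Subgroup (ZMod M)ˣ)) (RthkdC O ν)) :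
    K5inData p N M O (RthkdC O ν) (es1inftwJ N M ⊤ p (k7ftwChar M 1)) (es1inftwTr M 1)
      (rthkdEval p N M ⊤ (RthkdC O ν))
      (etaPart (thetaN (E.eval N M) ℓ₀ (RthkdC O ν) ⊤)) ν where
  pkg := rthkp_pkg ⊤ p 1 le_rfl (fun c => le_pmH ⊤ (Subgroup.mem_top _))
  tr := fun ℓ _ hℓ hℓLp φ => rthkcb_eval_Tr N M p ℓ hℓ hℓLp φ
  smul := fun t c φ => rthkcb_eval_smul N M p ⊤ t c φ
  stab := fun t φ hφ => rthkcb_stab (p := p) E hE ℓ₀ hℓ₀ hℓ₀N (RthkdC O ν) t φ hφ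
  sstab := fun c φ hφ => k5lc_smul_mem (E.eval N M) ℓ₀ (RthkdC O ν) ⊤ c hφ
  faith := fun t ht φ hφ => es1inffk_expr_level (k7ftwChar M 1) hp𝔪 E hE ℓ₀ hℓ₀ hℓ₀N hN hp2
    hℓ₀p 0 (fun u => le_pmH ⊤ (Subgroup.mem_top _)) ν hNT t ht φ hφ

end data

section setup

variable {P : FreyPackage} {N q : ℕ} (Y : KSetup P N q)

/-- the lifts `a_ℓ(Y.W)` of the residual traces -/
def rthkinA : ℕ → Y.O := fun ℓ => ((Y.W.apOfModel ℓ : ℤ) : Y.O)

/-- **the residual data of K5-INDEP over a setup** -/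
theorem rthkin_res (S₀ : Finset ℕ) (hpS : P.p ∈ S₀)
    (hNS : ∀ ℓ : ℕ, ℓ.Prime → ℓ ∣ N → ℓ ∈ S₀)
    (hgood : ∀ ℓ : ℕ, ℓ.Prime → ℓ ∉ S₀ → Y.W.IsGoodPrimeFor ℓ) :
    K5inRes P.p N Y.ρbar (rthkinA Y) S₀ where
  good := fun r hr hrS hdvd => by
    rcases (Nat.Prime.dvd_mul hr).mp hdvd with h | h
    · exact hrS (hNS r hr h)
    · have e : r = P.p := (Nat.prime_dvd_prime_iff_eq hr P.pp).mp h
      exact hrS (e ▸ hpS)
  frob := fun ℓ hℓ hℓS 𝔄 h𝔄 τ hτ => by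
    have e : residue Y.O (rthkinA Y ℓ) = ((Y.W.apOfModel ℓ : ℤ) : ResidueField Y.O) :=
      map_intCast (residue Y.O) _
    rw [e]
    exact Y.hbar ℓ hℓ (fun h => hℓS (h ▸ hpS)) (hgood ℓ hℓ hℓS) 𝔄 h𝔄 τ hτ
  ex := fun ℓ hℓ => Fermat.Agent.Common.exists_isFrobeniusAt ℓ hℓ

/-- `det ρ̄(Frob_q) = q` for every prime `q ≠ p` -/
theorem rthkin_det_frob {r : ℕ} (hr : r.Prime) (hrp : r ≠ P.p)
    {𝔄 : ValuationSubring (AlgebraicClosure ℚ)} (h𝔄 : 𝔄.LiesOverPrime r) {τ : GQ}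
    (hτ : 𝔄.IsFrobeniusAt τ r) :
    LinearMap.det (Y.ρbar.ρ τ) = (r : ResidueField Y.O) := by
  refine rthk_r_det Y τ r (fun μ hμ => ?_)
  have hM := natCast_pow_not_mem_nonunits 𝔄 P.pp hr hrp h𝔄 1
  rw [pow_one] at hM
  exact frob_rootOfUnity 𝔄 hM P.pp.ne_zero hτ hμ

/-- `p = 0` in the residue field -/
theorem rthkin_p_zero : ((P.p : ℕ) : ResidueField Y.O) = 0 := by
  have h := (residue_eq_zero_iff (P.p : Y.O)).mpr Y.hyp.hp𝒪
  rwa [map_natCast] at h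

variable {Y} {n h : ℕ} {qv : Fin h → ℕ}

/-- a Taylor–Wiles prime does not divide `N p` -/
theorem rthkin_qv_not_dvd
    (hqv : IsTWFamily P.p Y.ρbar (Y.Smin ∪ Finset.univ.image Y.r) n h qv) (j : Fin h) :
    ¬ qv j ∣ N * P.p := by
  intro hdvd
  have hq := (hqv.2.1 j).1
  rcases (Nat.Prime.dvd_mul hq).mp hdvd with h1 | h1
  · by_cases h2 : qv j = 2
    · apply (hqv.2.1 j).2.1
      rw [h2]
      exact Finset.mem_union_left _ (rthkp_two_mem_Smin Y)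
    · exact (hqv.2.1 j).2.1 (Finset.mem_union_right _ ((Y.hr (qv j)).mpr ⟨hq, h2, h1⟩))
  · exact rthkp_qv_ne_p hqv j ((Nat.prime_dvd_prime_iff_eq hq P.pp).mp h1)

/-- a Taylor–Wiles prime is `1` in the residue field -/
theorem rthkin_qv_one
    (hqv : IsTWFamily P.p Y.ρbar (Y.Smin ∪ Finset.univ.image Y.r) n h qv) (j : Fin h) :
    ((qv j : ℕ) : ResidueField Y.O) = 1 := by
  have hq := (hqv.2.1 j).1
  obtain ⟨c, hc⟩ := (hqv.2.1 j).2.2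
  have e : qv j = P.p ^ (n + 1) * c + 1 := by
    have := hq.one_le
    omega
  rw [e]
  push_cast
  rw [rthkin_p_zero Y, zero_pow (Nat.succ_ne_zero n), zero_mul, zero_add]

/-- **the hypothesis `hQ` of `k5in_twcond2`** for a Taylor–Wiles family -/
theorem rthkin_tw_hQ
    (hqv : IsTWFamily P.p Y.ρbar (Y.Smin ∪ Finset.univ.image Y.r) n h qv) :
    ∀ r ∈ List.ofFn qv, r.Prime ∧ ¬ r ∣ N * P.p ∧ (r : ResidueField Y.O) = 1 := by
  intro r hr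
  obtain ⟨j, rfl⟩ := (List.mem_ofFn' qv r).mp hr
  exact ⟨(hqv.2.1 j).1, rthkin_qv_not_dvd hqv j, rthkin_qv_one hqv j⟩

/-- **the hypothesis `hQs` of `k5in_twcond2`** for a Taylor–Wiles family -/
theorem rthkin_tw_hQs
    (hqv : IsTWFamily P.p Y.ρbar (Y.Smin ∪ Finset.univ.image Y.r) n h qv) :
    ∀ r ∈ List.ofFn qv, ∀ 𝔄 : ValuationSubring (AlgebraicClosure ℚ), 𝔄.LiesOverPrime r →
      ∀ τ : GQ, 𝔄.IsFrobeniusAt τ r → ∃ α β : ResidueField Y.O, α ≠ β ∧ α * β = 1 ∧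
        LinearMap.charpoly (Y.ρbar.ρ τ) = (Polynomial.X - C α) * (Polynomial.X - C β) := by
  intro r hr 𝔄 h𝔄 τ hτ
  obtain ⟨j, rfl⟩ := (List.mem_ofFn' qv r).mp hr
  obtain ⟨α, β, hαβ, hch⟩ := hqv.2.2 j 𝔄 h𝔄 τ hτ
  refine ⟨α, β, hαβ, ?_, hch⟩
  have hch' : LinearMap.charpoly (Y.ρbar.ρ τ)
      = Polynomial.X ^ 2 - C (α + β) * Polynomial.X + C (α * β) := by
    rw [hch, map_add, map_mul]; ring
  have hdet := rthkr_det_of_charpoly Y.ρbar (Y.ρbar.ρ τ) (α + β) (α * β) hch'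
  rw [← hdet, rthkin_det_frob Y (hqv.2.1 j).1 (rthkp_qv_ne_p hqv j) h𝔄 hτ]
  exact rthkin_qv_one hqv j

end setup

end Fermat.Agent.RT

end
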