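import Fermat.Agent.RT.Hecke.ConcBase
import Fermat.Agent.RT.Hecke.ConcFinalB
import Fermat.Agent.RT.Hecke.ConcIndep
import Fermat.Agent.RT.K5.NZIntr

/-!
# K-machine, HECKE-asm, HK-CONC: the K5 side `StmtHkfK5'` from the FAMILY leaf (helper22)

* `StmtHkK5F` : the FAMILY leaf = the last clause of `StmtHkfK5'` from the base data
  (`S₀`, `e₀`, `ℓ₀₀`, the intrinsic description `K5inIntr` at all levels, a basis `c` whose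
  reductions are bases at all levels);
* `rthkk5_at` : for every squarefree `M₀ ∣ N`, the body of `StmtHkfK5'` at the base level
  `(N, M₀, ⊤)` : the base data are
  - `S₀ = Sbad` of `k5nz_setup_intr`, `ℓ₀₀` a non-Eisenstein prime (`rthk_r_nonEis`),
  - `e₀` the projector of K5-LOC (`k5in_exists_expr`), `(r, c)` the basis of K5-BASE (`k5bs_base`),
  - `0 < r` (K5-NZ), the residual relations (`k5in_nil_frob`), `HkBase` (`rthkcb_hkBase`),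
  - `a ℓ` = the matrix of `T_ℓ` in the basis `c`;
* `rthkk5_of_family : StmtFlatH → StmtHkK5F → StmtHkfK5'`.
-/

set_option autoImplicit false
set_option linter.unusedSectionVars false
set_option linter.style.haveILetI false
set_option linter.unusedVariables false

noncomputable section

namespace Fermat.Agent.RT

open IsLocalRing Fermat.Agent.ES Fermat.Agent.ES1 Fermat.Agent.RT.K5 Fermat.Agent.S48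
open Fermat.Agent.S30 Fermat.Agent.W1 Fermat.Agent.TW Fermat.Agent.RT.Prod Fermat.Agent.RT.K7F
open ExtCitation CongruenceSubgroup ModularCurve.Period
open scoped MatrixGroups

/-- **The FAMILY leaf of the K5 side**: for every Taylor–Wiles family an admissible pair
`(e, ℓ₀)` avoiding the family, with `K5TWCond`, whose `Θ`-part at the level `n + 1` has the
reduction of the base basis `c` as a basis. -/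
def StmtHkK5F : Prop :=
  ∀ (P : FreyPackage) (N q : ℕ) [NeZero N], P.IsConductorLevel N → ¬ P.p ∣ N → q.Prime →
    q ≠ 2 → q ∣ N → P.ModularRepOfLevel N →
    ∀ (Y : KSetup P N q) (h : ℕ) (M₀ : ℕ) [NeZero M₀] [Fact (M₀ ∣ N)] (S₀ : Finset ℕ),
      P.p ∈ S₀ → (∀ ℓ : ℕ, ℓ.Prime → ℓ ∣ N → ℓ ∈ S₀) →
      (∀ ℓ : ℕ, ℓ.Prime → ℓ ∉ S₀ → Y.W.IsGoodPrimeFor ℓ) →
      ∀ (e₀ : HExpr Y.O), e₀.IsPrimes → ∀ (ℓ₀₀ : ℕ) [NeZero ℓ₀₀], ℓ₀₀.Prime → ℓ₀₀ ∉ S₀ →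
      residue Y.O (rthkinA Y ℓ₀₀) ≠ (ℓ₀₀ : ResidueField Y.O) + 1 → ∀ (S₁ : Finset ℕ),
      (∀ n : ℕ, K5inIntr N M₀ (Y.O ⧸ maximalIdeal Y.O ^ n) (rthkinA Y) S₀ S₁ ℓ₀₀
        (etaPart (thetaN (e₀.eval N M₀) ℓ₀₀ (Y.O ⧸ maximalIdeal Y.O ^ n) ⊤))) →
      ∀ {r : ℕ} (c : Fin r → HomS (gammaH N M₀ (⊤ : Subgroup (ZMod M₀)ˣ)) Y.O),
      (∀ n : ℕ, K5IsBasis (Y.O ⧸ maximalIdeal Y.O ^ n)
        (etaPart (thetaN (e₀.eval N M₀) ℓ₀₀ (Y.O ⧸ maximalIdeal Y.O ^ n) ⊤))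
        (fun i => mapS (Submodule.mkQ (maximalIdeal Y.O ^ n)).toAddMonoidHom (c i))) →
      ∀ (n : ℕ) (qv : Fin h → ℕ),
        IsTWFamily P.p Y.ρbar (Y.Smin ∪ Finset.univ.image Y.r) n h qv →
        ∃ (e : HExpr Y.O) (ℓ₀ : ℕ) (_ : NeZero ℓ₀), e.IsPrimes ∧ ℓ₀.Prime ∧ ¬ ℓ₀ ∣ N ∧
          ℓ₀ ≠ P.p ∧ (∀ j, qv j ≠ ℓ₀ ∧ e.Avoids (qv j)) ∧
          K5TWCond Y.O N M₀ ℓ₀ e (List.ofFn qv) (RthkdC Y.O (n + 1)) ∧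
          K5IsBasis (RthkdC Y.O (n + 1))
            (etaPart (thetaN (e.eval N M₀) ℓ₀ (RthkdC Y.O (n + 1)) ⊤))
            (fun i => mapS (Submodule.mkQ (maximalIdeal Y.O ^ (n + 1))).toAddMonoidHom
              (c i))

section base

variable {P : FreyPackage} {N q : ℕ} [NeZero N]

/-- the primes of `N p` -/
theorem rthkk5_p_mem (hp : P.p.Prime) : P.p ∈ (N * P.p).primeFactors :=
  Nat.mem_primeFactors.mpr ⟨hp, Dvd.intro_left N rfl,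
    mul_ne_zero (NeZero.ne N) hp.ne_zero⟩

theorem rthkk5_N_mem (hp : P.p.Prime) (ℓ : ℕ) (hℓ : ℓ.Prime) (hℓN : ℓ ∣ N) :
    ℓ ∈ (N * P.p).primeFactors :=
  Nat.mem_primeFactors.mpr ⟨hℓ, Dvd.dvd.mul_right hℓN _,
    mul_ne_zero (NeZero.ne N) hp.ne_zero⟩

theorem rthkk5_not_mem (ℓ : ℕ) (hℓN : ¬ ℓ ∣ N * P.p) : ℓ ∉ (N * P.p).primeFactors :=
  fun h => hℓN (Nat.mem_primeFactors.mp h).2.1

/-- the coefficients `𝒪 ⧸ 𝔪 ^ n` are finite -/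
theorem rthkk5_finite (Y : KSetup P N q) (n : ℕ) : Finite (Y.O ⧸ maximalIdeal Y.O ^ n) := by
  haveI : Finite (Y.O ⧸ maximalIdeal Y.O) :=
    (inferInstance : Finite (IsLocalRing.ResidueField Y.O))
  exact Ideal.finite_quotient_pow (IsNoetherian.noetherian _) n

/-- **the residual relations at the base level** (K5-INDEP) -/
theorem rthkk5_resid (hcheb : Cheb.WeakChebotarev) (hcond : P.IsConductorLevel N)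
    (Y : KSetup P N q) (M₀ : ℕ) [NeZero M₀] [Fact (M₀ ∣ N)] (S₀ : Finset ℕ)
    (hpS : P.p ∈ S₀) (hNS : ∀ ℓ : ℕ, ℓ.Prime → ℓ ∣ N → ℓ ∈ S₀)
    (hgood : ∀ ℓ : ℕ, ℓ.Prime → ℓ ∉ S₀ → Y.W.IsGoodPrimeFor ℓ)
    (e₀ : HExpr Y.O) (he₀ : e₀.IsPrimes) (ℓ₀₀ : ℕ) [NeZero ℓ₀₀] (hℓ₀₀ : ℓ₀₀.Prime)
    (hℓ₀₀S : ℓ₀₀ ∉ S₀) (S₁ : Finset ℕ)
    (hNT : NoTors (gammaH N M₀ (⊤ : Subgroup (ZMod M₀)ˣ)) (Y.O ⧸ maximalIdeal Y.O ^ 1))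
    (hIntr₀ : K5inIntr N M₀ (Y.O ⧸ maximalIdeal Y.O ^ 1) (rthkinA Y) S₀ S₁ ℓ₀₀
      (etaPart (thetaN (e₀.eval N M₀) ℓ₀₀ (Y.O ⧸ maximalIdeal Y.O ^ 1) ⊤))) :
    RthkcbResid P.p Y.ρbar N M₀ (e₀.eval N M₀) ℓ₀₀ := by
  haveI : Fact P.p.Prime := ⟨P.pp⟩
  intro ℓ _ hℓ hℓN 𝔄 h𝔄 τ hτ
  haveI : Finite (Y.O ⧸ maximalIdeal Y.O ^ 1) := rthkk5_finite Y 1
  have hℓ₀₀N : ¬ ℓ₀₀ ∣ N := fun hd => hℓ₀₀S (hNS ℓ₀₀ hℓ₀₀ hd)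
  have hℓ₀₀p : ℓ₀₀ ≠ P.p := fun h => hℓ₀₀S (h ▸ hpS)
  exact k5in_nil_frob hcheb
    (rthkin_data Y.hyp.hp𝒪 e₀ he₀ ℓ₀₀ hℓ₀₀ hℓ₀₀N hcond.squarefree Y.hyp.hp2 hℓ₀₀p 1 hNT)
    (rthkin_res Y S₀ hpS hNS hgood) S₁
    (fun ℓ' _ hℓ' h1 h2 v hv => ((hIntr₀ v).mp hv).2 ℓ' hℓ' h1 h2) ℓ hℓ hℓN 𝔄 h𝔄 τ hτ

/-- **the K5 side at the base level `(N, M₀, ⊤)`**, `M₀ ∣ N` squarefree, from the FAMILY
leaf. -/
theorem rthkk5_at (hF : StmtHkK5F) (hcheb : Cheb.WeakChebotarev) (hflat : StmtFlatH)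
    (hcond : P.IsConductorLevel N) (hpN : ¬ P.p ∣ N) (hq : q.Prime) (hq2 : q ≠ 2)
    (hqN : q ∣ N) (hmod : P.ModularRepOfLevel N) (Y : KSetup P N q) (h : ℕ)
    (M₀ : ℕ) [iM₀ : NeZero M₀] [iM₀N : Fact (M₀ ∣ N)] (hsq : Squarefree M₀) :
    haveI : Fact P.p.Prime := ⟨P.pp⟩
    ∃ (r : ℕ) (_ : 0 < r)
      (c : Fin r → HomS (gammaH N M₀ (⊤ : Subgroup (ZMod M₀)ˣ)) Y.O)
      (a : ℕ → Matrix (Fin r) (Fin r) Y.O)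
      (S' : Finset ℕ) (_ : P.p ∈ S') (_ : ∀ ℓ : ℕ, ℓ.Prime → ℓ ∣ N → ℓ ∈ S')
      (𝕋₀ : Type) (_ : CommRing 𝕋₀) (J₀ : Type) (_ : AddCommGroup J₀) (_ : Module 𝕋₀ J₀)
      (_ : DistribMulAction GQ J₀) (Tr₀ : ℕ → 𝕋₀)
      (Φ0 : 𝕋₀ →+* Matrix (Fin (2 ^ h * r)) (Fin (2 ^ h * r)) Y.O),
      HkBase P.p Y.ρbar N S' (2 ^ h * r) J₀ Tr₀ Φ0 ∧
      (∀ ℓ : ℕ, ℓ.Prime → ¬ ℓ ∣ N * P.p → ℓ ∉ S') ∧
      (∀ (ℓ : ℕ) [NeZero ℓ], ℓ.Prime → ¬ ℓ ∣ N * P.p →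
        (∀ i', tS N M₀ ℓ ⊤ Y.O (c i') = ∑ i, a ℓ i i' • c i) ∧
          Φ0 (Tr₀ ℓ) = rthkcbBlock Y.O h r (a ℓ)) ∧
      ∀ (n : ℕ) (qv : Fin h → ℕ),
        IsTWFamily P.p Y.ρbar (Y.Smin ∪ Finset.univ.image Y.r) n h qv →
        ∃ (e : HExpr Y.O) (ℓ₀ : ℕ) (_ : NeZero ℓ₀), e.IsPrimes ∧ ℓ₀.Prime ∧ ¬ ℓ₀ ∣ N ∧
          ℓ₀ ≠ P.p ∧ (∀ j, qv j ≠ ℓ₀ ∧ e.Avoids (qv j)) ∧
          K5TWCond Y.O N M₀ ℓ₀ e (List.ofFn qv) (RthkdC Y.O (n + 1)) ∧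
          K5IsBasis (RthkdC Y.O (n + 1))
            (etaPart (thetaN (e.eval N M₀) ℓ₀ (RthkdC Y.O (n + 1)) ⊤))
            (fun i => mapS (Submodule.mkQ (maximalIdeal Y.O ^ (n + 1))).toAddMonoidHom
              (c i)) := by
  haveI : Fact P.p.Prime := ⟨P.pp⟩
  -- the bad set and the nonzero eigenvector
  obtain ⟨S₀, hpS, hNS, hgood, hnz⟩ := k5nz_setup_intr Y hmod
  -- the auxiliary prime
  obtain ⟨ℓ₀₀, hℓ₀₀, hℓ₀₀S, hℓ₀₀p, -, hne, -⟩ := rthk_r_nonEis Y hcheb S₀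
  haveI : NeZero ℓ₀₀ := ⟨hℓ₀₀.ne_zero⟩
  have hℓ₀₀N : ¬ ℓ₀₀ ∣ N := fun hd => hℓ₀₀S (hNS ℓ₀₀ hℓ₀₀ hd)
  have hne' : residue Y.O (rthkinA Y ℓ₀₀) ≠ (ℓ₀₀ : ResidueField Y.O) + 1 := by
    have e : residue Y.O (rthkinA Y ℓ₀₀) = ((Y.W.apOfModel ℓ₀₀ : ℤ) : ResidueField Y.O) :=
      map_intCast (residue Y.O) _
    rw [e]
    exact hne
  have hNT : ∀ n : ℕ, NoTors (gammaH N M₀ (⊤ : Subgroup (ZMod M₀)ˣ))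
      (Y.O ⧸ maximalIdeal Y.O ^ n) :=
    fun n => k5nt_noTors_quot P.pp P.hp5 Y.hyp.hp𝒪 _ n
  -- the projector
  obtain ⟨e₀, he₀, -, hIntr₀⟩ := k5in_exists_expr N M₀ (rthkinA Y) S₀ ∅ ℓ₀₀ hℓ₀₀ hℓ₀₀N hNT
  -- the basis
  have hyp : FreeHyp P.p Y.O N M₀ ℓ₀₀ ⊤ ⊤ 0 :=
    k5bs_freeHyp_top P.p Y.O N M₀ ℓ₀₀ Y.hyp.hp2 Y.hyp.hp𝒪 hℓ₀₀ hℓ₀₀N hNT
  obtain ⟨r, c, hc, hcn⟩ := k5bs_base P.p Y.O N M₀ ℓ₀₀ hyp (e₀.eval N M₀)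
  -- the rank is positive
  have hr : 0 < r := by
    obtain ⟨φ, hφ0, -, -, hker, heta⟩ := hnz M₀ 1 one_pos
    refine k5nz_rank_pos (hcn 1) ((hIntr₀ 1 φ).mpr
      ⟨(heta ℓ₀₀ hℓ₀₀ hℓ₀₀S hne).1, fun ℓ _ hℓ h1 _ => hker ℓ hℓ h1⟩) hφ0
  -- the residual relations
  have hres : RthkcbResid P.p Y.ρbar N M₀ (e₀.eval N M₀) ℓ₀₀ :=
    rthkk5_resid hcheb hcond Y M₀ S₀ hpS hNS hgood e₀ he₀ ℓ₀₀ hℓ₀₀ hℓ₀₀S ∅ (hNT 1)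
      (hIntr₀ 1)
  -- the finite flat models
  have hN2 : 2 ≤ N :=
    le_trans hq.two_le (Nat.le_of_dvd (Nat.pos_of_ne_zero (NeZero.ne N)) hqN)
  have hp5 := P.hp5
  have hlev : K7FLevel N M₀ (⊤ : Subgroup (ZMod M₀)ˣ) P.p :=
    rthkp_level ⊤ P.p 0 hN2 iM₀N.out Y.hyp.hp2 hpN (fun h3 => by omega) hsq
      (fun c => le_pmH ⊤ (Subgroup.mem_top _))
  have hmodel := rthkp_model (⊤ : Subgroup (ZMod M₀)ˣ) P.p hflat hlev 1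
  -- the base
  have hbase := rthkcb_hkBase (p := P.p) Y.ρbar ((N * P.p).primeFactors)
    (rthkk5_p_mem P.pp) (rthkk5_N_mem P.pp) (k7ftwChar M₀ 1)
    (es1inftw_char_k7f P.p 1 iM₀N.out) hmodel hcond.squarefree e₀ he₀ ℓ₀₀ hℓ₀₀ hℓ₀₀N hc
    (hcn 1) hres h
  refine ⟨r, hr, c,
    fun ℓ => LinearMap.toMatrix (rthkcbBasis hc) (rthkcbBasis hc)
      (rthkcbAct (rthkcb_stab (p := P.p) e₀ he₀ ℓ₀₀ hℓ₀₀ hℓ₀₀N Y.O) (es1inftwTr M₀ 1 ℓ)),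
    (N * P.p).primeFactors, rthkk5_p_mem P.pp, rthkk5_N_mem P.pp, HDAlg M₀, inferInstance,
    es1inftwJ N M₀ ⊤ P.p (k7ftwChar M₀ 1), inferInstance, inferInstance, inferInstance,
    es1inftwTr M₀ 1, _, hbase, fun ℓ _ hℓN => rthkk5_not_mem ℓ hℓN, ?_, ?_⟩
  · intro ℓ _ hℓ hℓN
    refine ⟨fun i' => ?_, rfl⟩
    rw [rthkcb_tS_eq (rthkcb_stab (p := P.p) e₀ he₀ ℓ₀₀ hℓ₀₀ hℓ₀₀N Y.O) hc h ℓ hℓ hℓN
      ⟨0, pow_pos two_pos h⟩ i']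
    refine Finset.sum_congr rfl fun i _ => ?_
    rw [rthkcbPhi_apply, if_pos rfl]
    show _ = (LinearMap.toMatrix (rthkcbBasis hc) (rthkcbBasis hc)
      (rthkcbAct (rthkcb_stab (p := P.p) e₀ he₀ ℓ₀₀ hℓ₀₀ hℓ₀₀N Y.O) (es1inftwTr M₀ 1 ℓ))) i i'
        • c i
    rw [LinearMap.toMatrix_apply]
  · intro n qv hqv
    exact hF P N q hcond hpN hq hq2 hqN hmod Y h M₀ S₀ hpS hNS hgood e₀ he₀ ℓ₀₀ hℓ₀₀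
      hℓ₀₀S hne' ∅ hIntr₀ c hcn n qv hqv

end base

/-- **The K5 side `StmtHkfK5'` from the FAMILY leaf** (base level `(N, 1, ⊤)`). -/
theorem rthkk5_of_family (hflat : StmtFlatH) (hF : StmtHkK5F) : StmtHkfK5' := by
  intro P N q _ hcond hpN hq hq2 hqN hirr hmod htriv Y h
  haveI : Fact P.p.Prime := ⟨P.pp⟩
  haveI iM₀ : NeZero (1 : ℕ) := ⟨one_ne_zero⟩
  haveI iM₀N : Fact ((1 : ℕ) ∣ N) := ⟨one_dvd N⟩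
  obtain ⟨r, hr, c, a, S', hpS', hNS', 𝕋₀, i1, J₀, i2, i3, i4, Tr₀, Φ0, hbase, hS', hmat,
    hfam⟩ := rthkk5_at hF Fermat.Agent.Cheb.weakChebotarev_holds hflat hcond hpN hq hq2
      hqN hmod Y h 1 squarefree_one
  exact ⟨1, iM₀, iM₀N, r, hr, c, a, S', hpS', hNS', 𝕋₀, i1, J₀, i2, i3, i4, Tr₀, Φ0, hbase,
    hS', hmat, fun n qv hqv _ _ _ => hfam n qv hqv⟩

end Fermat.Agent.RT

end
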