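import Fermat.Agent.RT.Hecke.ConcK5Fin
import Fermat.Agent.RT.Hecke.ConcDoneF

/-!
# K-machine, HK-CONC (helper59): the module side of HECKE from ONE open input

All inputs of `rthkf_modSide` except `K6.StmtChiJDiv5` are proved
(K7-FLAT: `K7F.stmtFlatH`; the K5 side: helper22's `rthkk5_main`).

* `rthkk5d_k5 : StmtHkfK5'`;
* `rthkk5d_concTop : K6.StmtChiJDiv5 → StmtHkConcTop`;
* `rthkk5d_modSide : K6.StmtChiJDiv5 → StmtHkModSide`;
* `rthkk5d_hecke : K6.StmtChiJDiv5 → Prod.StmtHecke`.
-/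

set_option autoImplicit false

namespace Fermat.Agent.RT

/-- **the K5 side of HK-CONC, unconditional** -/
theorem rthkk5d_k5 : StmtHkfK5' :=
  rthkk5_main K7F.stmtFlatH

/-- the concrete contract from the K6 side alone -/
theorem rthkk5d_concTop (hChi : K6.StmtChiJDiv5) : StmtHkConcTop :=
  rthkf_concTop2 hChi rthkk5d_k5

/-- **the module side of HECKE from the K6 side alone** -/
theorem rthkk5d_modSide (hChi : K6.StmtChiJDiv5) : StmtHkModSide :=
  rthkf_modSide2 hChi rthkk5d_k5

/-- **HECKE-asm from the K6 side alone** -/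
theorem rthkk5d_hecke (hChi : K6.StmtChiJDiv5) : Prod.StmtHecke :=
  rthkf_hecke2 hChi rthkk5d_k5

end Fermat.Agent.RT
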