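import Fermat.Agent.RT.K5.NZIntr2
import Fermat.Agent.RT.Hecke.ConcIndep

/-!
# K-machine, HECKE-asm, ConcK5: LEAF Z (helper46) — the rank of the base module is positive

`rthkk5n_setup` (the statement of helper22's interface note, verbatim): for a setup `Y` and
`P.ModularRepOfLevel N` there is a finite set `Sbad ∋ p` of primes (containing the primes of `N`
and the bad primes of `Y.W`) such that every basis of every subgroup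
`X ⊆ Hom(Γ₀(N), 𝒪 ⧸ 𝔪 ^ ν)` (`ν ≥ 1`) with an intrinsic description
`K5inIntr N M₀ _ (rthkinA Y) Sbad S ℓ₀ X` (`ℓ₀ ∉ Sbad` non-Eisenstein) has POSITIVE rank.

`rthkk5n_mem` : the nonzero parabolic eigenvector in `X`.
-/

set_option autoImplicit false
set_option linter.style.haveILetI false
set_option linter.unusedSectionVars false
set_option linter.unusedVariables false

noncomputable section

namespace Fermat.Agent.RT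

open CongruenceSubgroup Matrix ModularCurve ModularCurve.Period ModularFormClass
open scoped MatrixGroups
open Fermat.Agent.ES1 (gammaH diamHom pmH)
open Fermat.Agent.ES Fermat.Agent.RT.K5 Fermat.Agent.RT.Prod IsLocalRing

variable {P : FreyPackage} {N q : ℕ} [NeZero N]

/-- **LEAF Z, with the vector**: ONE nonzero parabolic `φ` in every intrinsically described
subgroup. -/
theorem rthkk5n_mem (Y : KSetup P N q) (hmod : P.ModularRepOfLevel N) :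
    ∃ Sbad : Finset ℕ, P.p ∈ Sbad ∧ (∀ ℓ : ℕ, ℓ.Prime → ℓ ∣ N → ℓ ∈ Sbad) ∧
      (∀ ℓ : ℕ, ℓ.Prime → ℓ ∉ Sbad → Y.W.IsGoodPrimeFor ℓ) ∧
      ∀ (M₀ : ℕ) [Fact (M₀ ∣ N)] (ν : ℕ), 0 < ν →
        ∃ φ : HomS (gammaH N M₀ (⊤ : Subgroup (ZMod M₀)ˣ)) (Y.O ⧸ maximalIdeal Y.O ^ ν),
          φ ≠ 0 ∧ IsParabolicHom (gammaH N M₀ (⊤ : Subgroup (ZMod M₀)ˣ)) φ ∧
          ∀ (ℓ₀ : ℕ) [NeZero ℓ₀], ℓ₀.Prime → ℓ₀ ∉ Sbad →
            residue Y.O (rthkinA Y ℓ₀) ≠ (ℓ₀ : ResidueField Y.O) + 1 →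
            ∀ (S₀ S : Finset ℕ), Sbad ⊆ S₀ ∪ S →
            ∀ X : AddSubgroup (HomS (gammaH N M₀ (⊤ : Subgroup (ZMod M₀)ˣ))
                (Y.O ⧸ maximalIdeal Y.O ^ ν)),
              K5inIntr N M₀ (Y.O ⧸ maximalIdeal Y.O ^ ν) (rthkinA Y) S₀ S ℓ₀ X → φ ∈ X := by
  obtain ⟨Sbad, h1, h2, h3, h4⟩ := k5nz_setup_intrMem Y hmod
  refine ⟨Sbad, h1, h2, h3, fun M₀ _ ν hν => ?_⟩
  obtain ⟨φ, hφ0, hφP, hφ⟩ := h4 M₀ ν hν
  refine ⟨φ, hφ0, hφP, fun ℓ₀ _ hℓ₀ hℓ₀S hne S₀ S hS X hX => ?_⟩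
  refine hφ (rthkinA Y) S₀ S ℓ₀ X hℓ₀ hℓ₀S ?_ (fun ℓ hℓ hℓS₀ hℓS => ⟨fun hb => ?_, rfl⟩) hX
  · intro h
    apply hne
    have e : residue Y.O (rthkinA Y ℓ₀) = ((Y.W.apOfModel ℓ₀ : ℤ) : ResidueField Y.O) :=
      map_intCast (residue Y.O) _
    rw [e]
    exact h
  · rcases Finset.mem_union.mp (hS hb) with h | h
    · exact hℓS₀ h
    · exact hℓS h

/-- **LEAF Z** (helper22's interface, verbatim): the rank of the base module is positive. -/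
theorem rthkk5n_setup (Y : KSetup P N q) (hmod : P.ModularRepOfLevel N) :
    ∃ Sbad : Finset ℕ, P.p ∈ Sbad ∧ (∀ ℓ : ℕ, ℓ.Prime → ℓ ∣ N → ℓ ∈ Sbad) ∧
      (∀ ℓ : ℕ, ℓ.Prime → ℓ ∉ Sbad → Y.W.IsGoodPrimeFor ℓ) ∧
      ∀ (M₀ : ℕ) [Fact (M₀ ∣ N)] (ℓ₀ : ℕ) [NeZero ℓ₀], ℓ₀.Prime → ℓ₀ ∉ Sbad →
        residue Y.O (rthkinA Y ℓ₀) ≠ (ℓ₀ : ResidueField Y.O) + 1 →
        ∀ (S : Finset ℕ) (ν : ℕ), 0 < ν →
        ∀ X : AddSubgroup (HomS (gammaH N M₀ (⊤ : Subgroup (ZMod M₀)ˣ))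
            (Y.O ⧸ maximalIdeal Y.O ^ ν)),
          K5inIntr N M₀ (Y.O ⧸ maximalIdeal Y.O ^ ν) (rthkinA Y) Sbad S ℓ₀ X →
          ∀ {r : ℕ} (y : Fin r → HomS (gammaH N M₀ (⊤ : Subgroup (ZMod M₀)ˣ))
            (Y.O ⧸ maximalIdeal Y.O ^ ν)),
            K5IsBasis (Y.O ⧸ maximalIdeal Y.O ^ ν) X y → 0 < r := by
  obtain ⟨Sbad, h1, h2, h3, h4⟩ := rthkk5n_mem Y hmod
  refine ⟨Sbad, h1, h2, h3, fun M₀ _ ℓ₀ _ hℓ₀ hℓ₀S hne S ν hν X hX r y hy => ?_⟩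
  obtain ⟨φ, hφ0, -, hφ⟩ := h4 M₀ ν hν
  exact k5nz_rank_pos hy
    (hφ ℓ₀ hℓ₀ hℓ₀S hne Sbad S Finset.subset_union_left X hX) hφ0

end Fermat.Agent.RT

end
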