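import Fermat.Agent.RT.Hecke.ConcK5Fam
import Fermat.Agent.RT.Hecke.ConcBaseNil

/-!
# K-machine, HECKE-asm, HK-CONC, contract `StmtHkfK5'`: LEAF R, the residual hypothesis of the
base (helper7; double of helper88's `ConcK5Res.lean`)

`rthkk5rb_resid` : `RthkcbResid` for an admissible base pair `(e₀, ℓ₀₀)` (intrinsic description
`K5inIntr` of the `Θ`-part with coefficients `𝒪 ⧸ 𝔪`), for ALL primes `ℓ ∤ N p`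
(`k5in_nil_frob`: weak Chebotarev + faithfulness).
-/

set_option autoImplicit false
set_option linter.unusedSectionVars false
set_option linter.style.haveILetI false
set_option linter.unusedVariables false

noncomputable section

namespace Fermat.Agent.RT

open IsLocalRing Fermat.Agent.ES Fermat.Agent.ES1 Fermat.Agent.RT.K5 Fermat.Agent.S48
open Fermat.Agent.TW Fermat.Agent.RT.Prod Fermat.Agent.S31 Fermat.Agent.RT.K7F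
open CongruenceSubgroup Polynomial
open scoped MatrixGroups

variable {P : FreyPackage} {N q : ℕ} [NeZero N]

/-- **LEAF R**: the residual hypothesis `RthkcbResid` of the base. -/
theorem rthkk5rb_resid (hcheb : Cheb.WeakChebotarev) (hcond : P.IsConductorLevel N)
    (Y : KSetup P N q) (M₀ : ℕ) [NeZero M₀] [hM₀ : Fact (M₀ ∣ N)]
    (S₀ : Finset ℕ) (hpS : P.p ∈ S₀) (hNS : ∀ ℓ : ℕ, ℓ.Prime → ℓ ∣ N → ℓ ∈ S₀)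
    (hgood : ∀ ℓ : ℕ, ℓ.Prime → ℓ ∉ S₀ → Y.W.IsGoodPrimeFor ℓ)
    (e₀ : HExpr Y.O) (he₀ : e₀.IsPrimes) (ℓ₀₀ : ℕ) [NeZero ℓ₀₀] (hℓ₀₀ : ℓ₀₀.Prime)
    (hℓ₀₀S : ℓ₀₀ ∉ S₀) (S₁ : Finset ℕ)
    (hIntr₀ : K5inIntr N M₀ (Y.O ⧸ maximalIdeal Y.O ^ 1) (rthkinA Y) S₀ S₁ ℓ₀₀
      (etaPart (thetaN (e₀.eval N M₀) ℓ₀₀ (Y.O ⧸ maximalIdeal Y.O ^ 1) ⊤))) :
    haveI : Fact P.p.Prime := ⟨P.pp⟩
    RthkcbResid P.p Y.ρbar N M₀ (e₀.eval N M₀) ℓ₀₀ := by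
  haveI : Fact P.p.Prime := ⟨P.pp⟩
  intro ℓ _ hℓ hℓNp 𝔄 h𝔄 τ hτ
  have hp𝔪 : (P.p : Y.O) ∈ maximalIdeal Y.O := Y.hyp.hp𝒪
  have hℓ₀₀N : ¬ ℓ₀₀ ∣ N := fun hd => hℓ₀₀S (hNS ℓ₀₀ hℓ₀₀ hd)
  have hℓ₀₀p : ℓ₀₀ ≠ P.p := fun h => hℓ₀₀S (h ▸ hpS)
  have hNT : NoTors (gammaH N M₀ (⊤ : Subgroup (ZMod M₀)ˣ))
      (Y.O ⧸ IsLocalRing.maximalIdeal Y.O ^ 1) :=
    k5nt_noTors_quot P.pp P.hp5 hp𝔪 _ 1
  have R := rthkin_res Y S₀ hpS hNS hgood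
  have D := rthkin_data hp𝔪 e₀ he₀ ℓ₀₀ hℓ₀₀ hℓ₀₀N hcond.squarefree Y.hyp.hp2 hℓ₀₀p 1 hNT
  haveI : Finite (RthkdC Y.O 1) := rthkk5f_finite Y 1
  have hnil : ∀ (ℓ' : ℕ) [NeZero ℓ'], ℓ'.Prime → ℓ' ∉ S₀ → ℓ' ∉ S₁ →
      ∀ v ∈ etaPart (thetaN (e₀.eval N M₀) ℓ₀₀ (RthkdC Y.O 1) ⊤),
        v ∈ k5lcKer (k5lcS N M₀ ℓ' (rthkinA Y ℓ') (RthkdC Y.O 1) ⊤) :=
    fun ℓ' _ hℓ' h1 h2 v hv => ((hIntr₀ v).mp hv).2 ℓ' hℓ' h1 h2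
  obtain ⟨c, m, hc, hm⟩ := k5in_nil_frob hcheb D R S₁ hnil ℓ hℓ hℓNp 𝔄 h𝔄 τ hτ
  exact ⟨c, m, hc, hm⟩

end Fermat.Agent.RT

end
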