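import Fermat.Agent.RT.Hecke.ConcSide
import Fermat.Agent.RT.K5.LocExpr
import Fermat.Agent.RT.K5.LocGen
import Fermat.Agent.ES1.Inf.EvalK5
import Fermat.Agent.ES1.Inf.FaithK5

/-!
# K-machine, HECKE-asm, HK-CONC: the field `resid` for the TWISTED operators (helper38)

`X = ↥(rthkdX 𝔲 ℓ₀ H' ν)`, `act = rthkdAct p 𝔲 ℓ₀ H' ν hst`, `Tr ℓ = es1inftwTr M e ℓ`
(`= δ_ℓ ^ (e − 1) T_ℓ`, acting as `diamU (⟨ℓ⟩⁻¹ ^ e) ∘ K5.tS ℓ`).  K5-LOC gives the nilpotency of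
`K5.tS ℓ − c` on the `Θ`-part; the diamonds are unipotent (`Δ` is a `p`-group, `p ^ ν = 0` in
`𝒪 ⧸ 𝔪 ^ ν`); hence `Tr ℓ − c` is nilpotent on the `Θ`-part.

* `rthkcr_pow_coe`   : powers of `act t − c` and powers of `rthkdEval t − rthkcsScal c`;
* `rthkcr_natCast_pow` : `p ^ ν = 0` in `End X`;
* `rthkcr_unip`      : `(act (δ_u ^ n) − 1) ^ (p ^ k * ν) = 0`;
* `rthkcr_act_tS`    : `act (δ_{u⁻¹} T_ℓ)` is the restriction of `K5.tS ℓ` (`u = ⟨ℓ⟩`);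
* **`rthkcr_resid_twist`** : `(K5.tS ℓ − c) ^ m₁ = 0` on the `Θ`-part ⇒
  `∃ e', (rthkdEval (Tr ℓ) − rthkcsScal c) ^ e' = 0` on the `Θ`-part  (the shape of
  `HkConcSide.resid`).
-/

set_option autoImplicit false
set_option linter.unusedSectionVars false
set_option linter.style.haveILetI false

noncomputable section

namespace Fermat.Agent.RT

open IsLocalRing Fermat.Agent.ES1 Fermat.Agent.RT.K5
open scoped MatrixGroups

section generic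

variable {V : Type*} [AddCommGroup V] {X : Type*} [AddCommGroup X] (ι : X →+ V)

/-- powers of an endomorphism of `X` compatible with an endomorphism of `V` -/
theorem rthkcr_pow_compat (F : AddMonoid.End X) (f : V →+ V) (h : ∀ x, ι (F x) = f (ι x))
    (n : ℕ) (x : X) : ι ((F ^ n) x) = k5s_pow f n (ι x) := by
  induction n generalizing x with
  | zero => rfl
  | succ n ih =>
      rw [pow_succ, AddMonoid.End.coe_mul, Function.comp_apply, ih, h, ← k5s_pow_succ]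

end generic

section resid

variable {O : Type} [CommRing O] [IsLocalRing O] {p : ℕ} {L M : ℕ} [NeZero L] [NeZero M]
  [hML : Fact (M ∣ L)] {𝔲 : NatFam O L M} {ℓ₀ : ℕ} [NeZero ℓ₀] {H' : Subgroup (ZMod M)ˣ} {ν : ℕ}

/-- powers of `act t − c` and powers of `rthkdEval t − rthkcsScal c` -/
theorem rthkcr_pow_coe (hst : RthkcsStable p 𝔲 ℓ₀ H' ν) (t : HDAlg M) (c : O) (e : ℕ)
    (x : rthkdX 𝔲 ℓ₀ H' ν) :
    ((((rthkdAct p 𝔲 ℓ₀ H' ν hst t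
        - Module.toAddMonoidEnd (RthkdC O ν) (rthkdX 𝔲 ℓ₀ H' ν) (algebraMap O (RthkdC O ν) c))
          ^ e) x : rthkdX 𝔲 ℓ₀ H' ν) : HomS (gammaH L M H') (RthkdC O ν))
      = ((rthkdEval p L M H' (RthkdC O ν) t - rthkcsScal L M H' ν c) ^ e)
          (x : HomS (gammaH L M H') (RthkdC O ν)) := by
  have hmem : rthkdEval p L M H' (RthkdC O ν) t - rthkcsScal L M H' ν c
      ∈ rthkdStab (rthkdX 𝔲 ℓ₀ H' ν) := by
    refine Subring.sub_mem _ (fun ψ hψ => hst t ψ hψ) (fun ψ hψ => ?_)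
    exact (rthkdX 𝔲 ℓ₀ H' ν).smul_mem _ hψ
  have e1 : rthkdResHom (rthkdX 𝔲 ℓ₀ H' ν) ⟨_, hmem⟩
      = rthkdAct p 𝔲 ℓ₀ H' ν hst t
        - Module.toAddMonoidEnd (RthkdC O ν) (rthkdX 𝔲 ℓ₀ H' ν)
            (algebraMap O (RthkdC O ν) c) :=
    AddMonoidHom.ext fun x => Subtype.ext rfl
  rw [← e1, ← map_pow, rthkdResHom_coe, SubmonoidClass.coe_pow]

/-- `p ^ ν = 0` in `End X` -/
theorem rthkcr_natCast_pow (hp𝔪 : (p : O) ∈ maximalIdeal O) :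
    ((p : ℕ) : AddMonoid.End (rthkdX 𝔲 ℓ₀ H' ν)) ^ ν = 0 := by
  refine DFunLike.ext _ _ fun x => Subtype.ext ?_
  rw [← Nat.cast_pow, AddMonoid.End.natCast_apply]
  refine AddMonoidHom.ext fun γ => ?_
  show (p ^ ν • (x : HomS (gammaH L M H') (RthkdC O ν))) γ = 0
  rw [AddMonoidHom.smul_apply]
  obtain ⟨a, ha⟩ := Ideal.Quotient.mk_surjective ((x : HomS (gammaH L M H') (RthkdC O ν)) γ)
  rw [← ha, ← map_nsmul, Ideal.Quotient.eq_zero_iff_mem, nsmul_eq_mul]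
  refine Ideal.mul_mem_right _ _ ?_
  rw [Nat.cast_pow]
  exact Ideal.pow_mem_pow hp𝔪 ν

/-- the diamonds are unipotent on `X` -/
theorem rthkcr_unip [Fact p.Prime] (hst : RthkcsStable p 𝔲 ℓ₀ H' ν)
    (hp𝔪 : (p : O) ∈ maximalIdeal O) (k : ℕ) (hH : ∀ u : (ZMod M)ˣ, u ^ (p ^ k) ∈ pmH H')
    (u : (ZMod M)ˣ) (n : ℕ) :
    (rthkdAct p 𝔲 ℓ₀ H' ν hst (es1top_dGen M u ^ n) - 1) ^ (p ^ k * ν) = 0 := by
  refine k5lc_unip_nilpotent p k ν _ ?_ (rthkcr_natCast_pow hp𝔪)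
  rw [← map_pow, ← pow_mul]
  refine DFunLike.ext _ _ fun x => Subtype.ext ?_
  rw [rthkdAct_coe, es1infev_dGen_pow, pow_mul]
  exact k5act_diamU_of_mem_apply L M H' (RthkdC O ν) (hH (u⁻¹ ^ n)) _

/-- `act (δ_{u⁻¹} T_ℓ)` is the restriction of `K5.tS ℓ`, `u = ⟨ℓ⟩` -/
theorem rthkcr_act_tS (hst : RthkcsStable p 𝔲 ℓ₀ H' ν) {ℓ : Nat.Primes}
    (h : ¬ (ℓ : ℕ) ∣ L * p) (hc : Nat.Coprime ℓ M) (x : rthkdX 𝔲 ℓ₀ H' ν) :
    ((rthkdAct p 𝔲 ℓ₀ H' ν hst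
        (es1top_dGen M (ZMod.unitOfCoprime ℓ hc)⁻¹ * es1top_tGen M ℓ) x : rthkdX 𝔲 ℓ₀ H' ν)
        : HomS (gammaH L M H') (RthkdC O ν))
      = (haveI : NeZero (ℓ : ℕ) := ⟨ℓ.2.ne_zero⟩;
          tS L M ℓ H' (RthkdC O ν) (x : HomS (gammaH L M H') (RthkdC O ν))) := by
  haveI : NeZero (ℓ : ℕ) := ⟨ℓ.2.ne_zero⟩
  rw [rthkdAct_coe, map_mul, Module.End.mul_apply, es1infev_tGen h hc, es1infev_dGen, inv_inv]
  have h1 : diamU L M H' (RthkdC O ν) (ZMod.unitOfCoprime ℓ hc)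
      * diamU L M H' (RthkdC O ν) (ZMod.unitOfCoprime ℓ hc)⁻¹ = 1 := by
    rw [← map_mul, mul_inv_cancel, map_one]
  have h2 := DFunLike.congr_fun h1
    (tS L M ℓ H' (RthkdC O ν) (x : HomS (gammaH L M H') (RthkdC O ν)))
  rw [AddMonoid.End.coe_mul, Function.comp_apply] at h2
  exact h2

/-- **HK-CONC, `resid`, the twist**: if `K5.tS ℓ − c` is nilpotent on the `Θ`-part then so is
`Tr ℓ − c`, `Tr ℓ = δ_ℓ ^ (e − 1) T_ℓ`. -/
theorem rthkcr_resid_twist [Fact p.Prime] (hst : RthkcsStable p 𝔲 ℓ₀ H' ν)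
    (hp𝔪 : (p : O) ∈ maximalIdeal O) (k : ℕ) (hH : ∀ u : (ZMod M)ˣ, u ^ (p ^ k) ∈ pmH H')
    (e : ℕ) (he : 1 ≤ e) {ℓ : ℕ} [NeZero ℓ] (hℓ : ℓ.Prime) (h : ¬ ℓ ∣ L * p) (c : O) (m₁ : ℕ)
    (hT : ∀ ψ ∈ etaPart (thetaN 𝔲 ℓ₀ (RthkdC O ν) H'),
      k5s_pow (k5lcS L M ℓ c (RthkdC O ν) H') m₁ ψ = 0) :
    ∃ e' : ℕ, ∀ ψ ∈ etaPart (thetaN 𝔲 ℓ₀ (RthkdC O ν) H'),
      ((rthkdEval p L M H' (RthkdC O ν) (es1inftwTr M e ℓ) - rthkcsScal L M H' ν c) ^ e') ψ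
        = 0 := by
  have hℓL : ¬ ℓ ∣ L := fun h' => h (h'.mul_right p)
  have hc : Nat.Coprime ℓ M := (Nat.Prime.coprime_iff_not_dvd hℓ).mpr
    (fun h' => hℓL (h'.trans hML.out))
  set u : (ZMod M)ˣ := ZMod.unitOfCoprime ℓ hc with hu
  set act := rthkdAct p 𝔲 ℓ₀ H' ν hst with hact
  set cX : AddMonoid.End (rthkdX 𝔲 ℓ₀ H' ν) :=
    Module.toAddMonoidEnd (RthkdC O ν) (rthkdX 𝔲 ℓ₀ H' ν) (algebraMap O (RthkdC O ν) c) with hcX
  set TX : AddMonoid.End (rthkdX 𝔲 ℓ₀ H' ν) :=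
    act (es1top_dGen M u⁻¹ * es1top_tGen M ⟨ℓ, hℓ⟩) with hTX
  set De : AddMonoid.End (rthkdX 𝔲 ℓ₀ H' ν) := act (es1top_dGen M u ^ e) with hDe
  -- the scalar commutes with the action
  have hcomm_c : ∀ t : HDAlg M, Commute cX (act t) := by
    intro t
    refine DFunLike.ext _ _ fun x => ?_
    show cX (act t x) = act t (cX x)
    exact (rthkdAct_smul hst t (algebraMap O (RthkdC O ν) c) x).symm
  have hcomm : ∀ s t : HDAlg M, Commute (act s) (act t) := fun s t => (Commute.all s t).map act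
  -- `T − c` is nilpotent on `X`
  have hTX_coe : ∀ x : rthkdX 𝔲 ℓ₀ H' ν,
      (((TX - cX) x : rthkdX 𝔲 ℓ₀ H' ν) : HomS (gammaH L M H') (RthkdC O ν))
        = k5lcS L M ℓ c (RthkdC O ν) H' (x : HomS (gammaH L M H') (RthkdC O ν)) := by
    intro x
    have h1 := rthkcr_act_tS hst (ℓ := ⟨ℓ, hℓ⟩) h hc x
    show ((TX x : rthkdX 𝔲 ℓ₀ H' ν) : HomS (gammaH L M H') (RthkdC O ν))
        - (algebraMap O (RthkdC O ν) c) • (x : HomS (gammaH L M H') (RthkdC O ν)) = _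
    rw [k5lcS_apply, algebraMap_smul]
    exact congrArg (fun y => y - c • (x : HomS (gammaH L M H') (RthkdC O ν))) h1
  have hnilT : IsNilpotent (TX - cX) := by
    refine ⟨m₁, DFunLike.ext _ _ fun x => Subtype.ext ?_⟩
    have h2 := rthkcr_pow_compat (rthkdX 𝔲 ℓ₀ H' ν).subtype.toAddMonoidHom (TX - cX)
      (k5lcS L M ℓ c (RthkdC O ν) H') hTX_coe m₁ x
    exact h2.trans (hT _ x.2)
  -- the diamond is unipotent
  have hnilD : IsNilpotent (De - 1) := ⟨p ^ k * ν, rthkcr_unip hst hp𝔪 k hH u e⟩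
  -- `act (Tr ℓ) = De * TX`
  have hTr : act (es1inftwTr M e ℓ) = De * TX := by
    refine DFunLike.ext _ _ fun x => Subtype.ext ?_
    have h1 := rthkcr_act_tS hst (ℓ := ⟨ℓ, hℓ⟩) h hc x
    rw [AddMonoid.End.coe_mul, Function.comp_apply, hDe, hact, rthkdAct_coe, rthkdAct_coe,
      es1infev_twTr e he hℓ h hc, es1infev_dGen_pow]
    exact congrArg (fun y => diamU L M H' (RthkdC O ν) (u⁻¹ ^ e) y) h1.symm
  -- the decomposition
  have hdec : act (es1inftwTr M e ℓ) - cX = De * (TX - cX) + cX * (De - 1) := by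
    rw [hTr, mul_sub, mul_sub, mul_one, (hcomm_c _).eq]
    abel
  have hcomm1 : Commute De (TX - cX) :=
    (hcomm _ _).sub_right (hcomm_c _).symm
  have hcomm2 : Commute cX (De - 1) := (hcomm_c _).sub_right (Commute.one_right _)
  have hcomm3 : Commute (De * (TX - cX)) (cX * (De - 1)) := by
    have a1 : Commute De cX := (hcomm_c _).symm
    have a2 : Commute (TX - cX) cX := ((hcomm_c _).symm).sub_left (Commute.refl _)
    have a3 : Commute De (De - 1) := (Commute.refl _).sub_right (Commute.one_right _)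
    have a4 : Commute (TX - cX) (De - 1) :=
      (((hcomm _ _).sub_left (hcomm_c _)).sub_right (Commute.one_right _))
    exact (a1.mul_right a3).mul_left (a2.mul_right a4)
  have hnil : IsNilpotent (act (es1inftwTr M e ℓ) - cX) := by
    rw [hdec]
    exact hcomm3.isNilpotent_add (hcomm1.isNilpotent_mul_left hnilT)
      (hcomm2.isNilpotent_mul_left hnilD)
  obtain ⟨e', he'⟩ := hnil
  refine ⟨e', fun ψ hψ => ?_⟩
  have h3 := rthkcr_pow_coe hst (es1inftwTr M e ℓ) c e' ⟨ψ, hψ⟩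
  rw [← hact, ← hcX, he'] at h3
  exact h3.symm

end resid

end Fermat.Agent.RT
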