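import Fermat.Agent.RT.Hecke.ConcResid
import Fermat.Agent.RT.K5.Indep
import Fermat.Agent.S31.Lucas

/-!
# K-machine, HECKE-asm, HK-CONC: the field `resid` at the TOP level (helper46)

`X = etaPart (thetaN 𝔲 ℓ₀ C H')` the `Θ`-part of `Hom(Γ_{H'}(L), C)`, `C = 𝒪 ⧸ 𝔪 ^ ν`,
`Tr ℓ = es1inftwTr M e ℓ`, `J` with the package `Rtk7bPkg p L J Tr`.

* `rthkrt_resid_of_ker` (parts (1) + (2)): if every `φ ∈ X` lies in the generalised kernel of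
  `K5.tS ℓ − c` (K5-LOC: `k5lc_main_expr`, helper7's `k5in_exists_expr2`), then
  `(eval (Tr ℓ) − c) ^ e' = 0` on `X` (`k5lc_expr_nilpotent` + helper38's `rthkcr_resid_twist`);
* `rthkrt_resid` (**the field `resid` of `HkConcSide`, VERBATIM**): if this holds for the primes
  `ℓ ∉ S` (`S` finite, `a ℓ` a lift of `tr ρ̄(Frob_ℓ)`, `det ρ̄(Frob_ℓ) = ℓ`), then for EVERY prime
  `ℓ ∤ L p` and every Frobenius `τ` at `ℓ` there are `c` lifting `tr ρ̄(τ)` and `e'` with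
  `(eval (Tr ℓ) − c) ^ e' = 0` on `X` (weak Chebotarev + Lucas: `k5in_resid_frob`; `pkg`, `faith`).
-/

set_option autoImplicit false
set_option linter.unusedSectionVars false
set_option linter.unusedVariables false
set_option linter.style.haveILetI false

noncomputable section

namespace Fermat.Agent.RT

open IsLocalRing Fermat.Agent.ES Fermat.Agent.ES1 Fermat.Agent.S30 Fermat.Agent.S31 Fermat.Agent.RT.K5 Polynomial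
open scoped MatrixGroups

section resid

variable {O : Type} [CommRing O] [IsDomain O] [IsDiscreteValuationRing O]
  [Finite (ResidueField O)] {p : ℕ} [Fact p.Prime] {L M : ℕ} [NeZero L] [NeZero M]
  [hML : Fact (M ∣ L)] {𝔲 : NatFam O L M} {ℓ₀ : ℕ} [NeZero ℓ₀] {H' : Subgroup (ZMod M)ˣ} {ν : ℕ}

/-- `𝒪 ⧸ 𝔪 ^ ν` is finite -/
theorem rthkrt_finite (O : Type) [CommRing O] [IsDomain O] [IsDiscreteValuationRing O]
    [Finite (ResidueField O)] (ν : ℕ) : Finite (RthkdC O ν) := by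
  haveI : Finite (O ⧸ maximalIdeal O) := ‹Finite (ResidueField O)›
  exact Ideal.finite_quotient_pow (IsNoetherian.noetherian _) ν

/-- **parts (1) + (2)**: from the generalised kernel of `K5.tS ℓ − c` to the nilpotency of
`Tr ℓ − c` on the `Θ`-part. -/
theorem rthkrt_resid_of_ker (hst : RthkcsStable p 𝔲 ℓ₀ H' ν)
    (hp𝔪 : (p : O) ∈ maximalIdeal O) (k : ℕ) (hH : ∀ u : (ZMod M)ˣ, u ^ (p ^ k) ∈ pmH H')
    (e : ℕ) (he : 1 ≤ e) {ℓ : ℕ} [NeZero ℓ] (hℓ : ℓ.Prime) (h : ¬ ℓ ∣ L * p) (c : O)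
    (hker : ∀ φ ∈ etaPart (thetaN 𝔲 ℓ₀ (RthkdC O ν) H'),
      φ ∈ k5lcKer (k5lcS L M ℓ c (RthkdC O ν) H')) :
    ∃ e' : ℕ, ∀ ψ ∈ etaPart (thetaN 𝔲 ℓ₀ (RthkdC O ν) H'),
      ((rthkdEval p L M H' (RthkdC O ν) (es1inftwTr M e ℓ) - rthkcsScal L M H' ν c) ^ e') ψ
        = 0 := by
  haveI : Finite (RthkdC O ν) := rthkrt_finite O ν
  obtain ⟨m, hm⟩ := k5lc_expr_nilpotent L M ℓ c (RthkdC O ν) H' 𝔲 ℓ₀ hker
  exact rthkcr_resid_twist hst hp𝔪 k hH e he hℓ h c m hm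

variable {J : Type} [AddCommGroup J] [Module (HDAlg M) J] [DistribMulAction GQ J]

/-- **HK-CONC, the field `resid`** (verbatim), from K5-LOC at the primes outside a finite set
`S`, the package and faithfulness. -/
theorem rthkrt_resid (hcheb : Cheb.WeakChebotarev) (ρbar : ResidualGaloisRep (ResidueField O))
    (hst : RthkcsStable p 𝔲 ℓ₀ H' ν) (hp𝔪 : (p : O) ∈ maximalIdeal O) (k : ℕ)
    (hH : ∀ u : (ZMod M)ˣ, u ^ (p ^ k) ∈ pmH H') (e : ℕ) (he : 1 ≤ e)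
    (hpkg : Rtk7bPkg p L J (es1inftwTr M e))
    (hfaith : ∃ n₀ : ℕ, ∀ t ∈ rthksE p J (𝕋 := HDAlg M),
      (∀ y : J, p ^ n₀ • y = 0 → t • y = 0) →
      ∀ ψ ∈ etaPart (thetaN 𝔲 ℓ₀ (RthkdC O ν) H'),
        es1infHomEval L M H' hML.out p (RthkdC O ν) t ψ = 0)
    (a : ℕ → O) (S : Finset ℕ) (hgood : ∀ r : ℕ, r.Prime → r ∉ S → ¬ r ∣ L * p)
    (hfrob : ∀ ℓ : ℕ, ℓ.Prime → ℓ ∉ S →
      ∀ 𝔄 : ValuationSubring (AlgebraicClosure ℚ), 𝔄.LiesOverPrime ℓ →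
        ∀ τ : GQ, 𝔄.IsFrobeniusAt τ ℓ →
          LinearMap.charpoly (ρbar.ρ τ) =
            X ^ 2 - C (residue O (a ℓ)) * X + C ((ℓ : ResidueField O)))
    (hker : ∀ (ℓ : ℕ) [NeZero ℓ], ℓ.Prime → ℓ ∉ S →
      ∀ φ ∈ etaPart (thetaN 𝔲 ℓ₀ (RthkdC O ν) H'),
        φ ∈ k5lcKer (k5lcS L M ℓ (a ℓ) (RthkdC O ν) H')) :
    ∀ ℓ : ℕ, ℓ.Prime → ¬ ℓ ∣ L * p →
      ∀ P : ValuationSubring (AlgebraicClosure ℚ), P.LiesOverPrime ℓ →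
        ∀ τ : GQ, P.IsFrobeniusAt τ ℓ → ∃ (c : O) (e' : ℕ),
          residue O c = LinearMap.trace (ResidueField O) ρbar.V (ρbar.ρ τ) ∧
          ∀ ψ ∈ etaPart (thetaN 𝔲 ℓ₀ (RthkdC O ν) H'),
            ((rthkdEval p L M H' (RthkdC O ν) (es1inftwTr M e ℓ)
              - rthkcsScal L M H' ν c) ^ e') ψ = 0 := by
  intro q hq hqLp P hP τ hτ
  obtain ⟨n₀, hn₀⟩ := hfaith
  set act := rthkdAct p 𝔲 ℓ₀ H' ν hst with hact
  set sc : O →+* AddMonoid.End (rthkdX 𝔲 ℓ₀ H' ν) :=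
    (Module.toAddMonoidEnd (RthkdC O ν) (rthkdX 𝔲 ℓ₀ H' ν)).comp (algebraMap O (RthkdC O ν))
    with hsc
  have hcomm : ∀ (c : O) (t : HDAlg M), Commute (sc c) (act t) := by
    intro c t
    refine DFunLike.ext _ _ fun x => ?_
    show (algebraMap O (RthkdC O ν) c) • act t x = act t ((algebraMap O (RthkdC O ν) c) • x)
    exact (rthkdAct_smul hst t (algebraMap O (RthkdC O ν) c) x).symm
  have htr : ∀ ℓ : ℕ, ℓ.Prime → ℓ ∉ S →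
      ∀ 𝔄 : ValuationSubring (AlgebraicClosure ℚ), 𝔄.LiesOverPrime ℓ →
        ∀ σ : GQ, 𝔄.IsFrobeniusAt σ ℓ →
          LinearMap.trace (ResidueField O) ρbar.V (ρbar.ρ σ) = residue O (a ℓ) :=
    fun ℓ hℓ hℓS 𝔄 h𝔄 σ hσ =>
      Fermat.Agent.S31.trace_of_charpoly ρbar.finrank_eq _ _ _ (hfrob ℓ hℓ hℓS 𝔄 h𝔄 σ hσ)
  obtain ⟨c, hc, hrel⟩ := k5in_resid_frob hcheb hpkg ρbar act sc hcomm S hgood
    (rthksE p J) (fun ℓ hℓ hℓS => rthks_Tr_mem hpkg hℓ (hgood ℓ hℓ hℓS)) n₀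
    (fun x hx hkill => rthkcs_act_eq_zero hst x (hn₀ x hx hkill))
    (fun ℓ hℓ hℓS 𝔄 h𝔄 σ hσ => by
      haveI : NeZero ℓ := ⟨hℓ.ne_zero⟩
      obtain ⟨e', he'⟩ := rthkrt_resid_of_ker hst hp𝔪 k hH e he hℓ (hgood ℓ hℓ hℓS) (a ℓ)
        (hker ℓ hℓ hℓS)
      exact ⟨a ℓ, (htr ℓ hℓ hℓS 𝔄 h𝔄 σ hσ).symm,
        rthkcs_nilpotent hst (es1inftwTr M e ℓ) (a ℓ) e' he'⟩)
    (fun ℓ hℓ hℓS 𝔄 h𝔄 σ hσ => by
      rw [htr ℓ hℓ hℓS 𝔄 h𝔄 σ hσ]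
      exact hfrob ℓ hℓ hℓS 𝔄 h𝔄 σ hσ)
    hq hqLp (rthks_Tr_mem hpkg hq hqLp) hP hτ
  obtain ⟨e', he'⟩ := hrel
  refine ⟨c, e', hc, fun ψ hψ => ?_⟩
  have h3 := rthkcr_pow_coe hst (es1inftwTr M e q) c e' ⟨ψ, hψ⟩
  have h4 : (rthkdAct p 𝔲 ℓ₀ H' ν hst (es1inftwTr M e q)
      - Module.toAddMonoidEnd (RthkdC O ν) (rthkdX 𝔲 ℓ₀ H' ν) (algebraMap O (RthkdC O ν) c))
        ^ e' = 0 := he'
  rw [h4] at h3
  exact h3.symm

end resid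

end Fermat.Agent.RT

end
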