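import Fermat.Agent.RT.Hecke.Conc
import Fermat.Agent.RT.Hecke.ConcAlg
import Fermat.Agent.RT.Hecke.ConcAct
import Fermat.Agent.RT.Hecke.ConcComm
import Fermat.Agent.RT.Hecke.ConcNil

/-!
# K-machine, HECKE-asm, HK-CONC: from statements on `Hom(Γ_{H'}(L), C)` to `HkConc`

The owners of the fields prove statements about the operators `es1infHomEval t`, `diamU u` on the
`Θ`-part `etaPart (thetaN 𝔲 ℓ₀ C H')` of `Hom(Γ_{H'}(L), C)`, `C = 𝒪 ⧸ 𝔪 ^ ν`.  `HkConc`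
(RT/Hecke/Conc.lean) is about `X = ↥(rthkdX 𝔲 ℓ₀ H' ν)`, `D = rthkdD 𝔲 ℓ₀ H' ν` (helper9,
ConcDefs.lean) and `act = rthkdAct p 𝔲 ℓ₀ H' ν hst` (ConcAct.lean).  The dictionary:

* `rthkcs_act_eq_zero` : `es1infHomEval t = 0` on the `Θ`-part ⇒ `act t = 0`;
* `rthkcs_act_eq_D` : `es1infHomEval x = diamU u + diamU u⁻¹` on the `Θ`-part ⇒
  `act x = D (mk u) + D (mk u)⁻¹`;
* `rthkcs_nilpotent` : `(es1infHomEval t − c) ^ e = 0` on the `Θ`-part ⇒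
  `IsNilpotent (act t − c)`;
* `rthkcs_act_comm` : the field `act_comm` (helper32's `rthkcc_act_comm`);
* **`HkConcSide`** : the module side with all the fields on `Hom(Γ_{H'}(L), C)`;
  **`rthk_conc_side : HkConcSide … → HkConc …`** (the field `nil` by helper15's
  `rthkn_nil_conc`).
-/

set_option autoImplicit false
set_option linter.unusedSectionVars false
set_option linter.style.haveILetI false

noncomputable section

namespace Fermat.Agent.RT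

open IsLocalRing Fermat.Agent.ES Fermat.Agent.S30 Fermat.Agent.W1 Fermat.Agent.TW
open Fermat.Agent.ES1 Fermat.Agent.RT.K5
open scoped MatrixGroups

/-! ### Restriction and powers -/

section generic

variable {R : Type*} [Ring R] {V : Type*} [AddCommGroup V] [Module R V] (X : Submodule R V)

/-- an endomorphism vanishing on `X` restricts to `0` -/
theorem rthkcs_res_eq_zero (f : rthkdStab X) (hf : ∀ x ∈ X, (f : AddMonoid.End V) x = 0) :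
    rthkdResHom X f = 0 :=
  AddMonoidHom.ext fun x => Subtype.ext (hf x x.2)

/-- an endomorphism nilpotent on `X` restricts to a nilpotent endomorphism -/
theorem rthkcs_res_nilpotent (f : rthkdStab X) (e : ℕ)
    (hf : ∀ x ∈ X, ((f : AddMonoid.End V) ^ e) x = 0) : IsNilpotent (rthkdResHom X f) := by
  refine ⟨e, ?_⟩
  rw [← map_pow]
  exact rthkcs_res_eq_zero X (f ^ e) (fun x hx => by
    rw [SubmonoidClass.coe_pow]
    exact hf x hx)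

end generic

/-! ### The dictionary -/

section dict

variable {O : Type} [CommRing O] [IsLocalRing O] {p : ℕ} {L M : ℕ} [NeZero L] [NeZero M]
  [hML : Fact (M ∣ L)] {𝔲 : NatFam O L M} {ℓ₀ : ℕ} [NeZero ℓ₀] {H' : Subgroup (ZMod M)ˣ} {ν : ℕ}

/-- the stability of the `Θ`-part under the Hecke–diamond polynomials -/
abbrev RthkcsStable (p : ℕ) (𝔲 : NatFam O L M) (ℓ₀ : ℕ) [NeZero ℓ₀] (H' : Subgroup (ZMod M)ˣ)
    (ν : ℕ) : Prop :=
  ∀ (t : HDAlg M) (ψ : HomS (gammaH L M H') (RthkdC O ν)),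
    ψ ∈ etaPart (thetaN 𝔲 ℓ₀ (RthkdC O ν) H') →
    es1infHomEval L M H' hML.out p (RthkdC O ν) t ψ ∈ etaPart (thetaN 𝔲 ℓ₀ (RthkdC O ν) H')

/-- `es1infHomEval t = 0` on the `Θ`-part ⇒ `act t = 0` -/
theorem rthkcs_act_eq_zero (hst : RthkcsStable p 𝔲 ℓ₀ H' ν) (t : HDAlg M)
    (h0 : ∀ ψ ∈ etaPart (thetaN 𝔲 ℓ₀ (RthkdC O ν) H'),
      es1infHomEval L M H' hML.out p (RthkdC O ν) t ψ = 0) :
    rthkdAct p 𝔲 ℓ₀ H' ν hst t = 0 :=
  AddMonoidHom.ext fun x => Subtype.ext (h0 x x.2)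

/-- `es1infHomEval x = diamU u + diamU u⁻¹` on the `Θ`-part ⇒ `act x = D (mk u) + D (mk u)⁻¹` -/
theorem rthkcs_act_eq_D (hst : RthkcsStable p 𝔲 ℓ₀ H' ν) (x : HDAlg M) (u : (ZMod M)ˣ)
    (hx : ∀ ψ ∈ etaPart (thetaN 𝔲 ℓ₀ (RthkdC O ν) H'),
      es1infHomEval L M H' hML.out p (RthkdC O ν) x ψ
        = diamU L M H' (RthkdC O ν) u ψ + diamU L M H' (RthkdC O ν) u⁻¹ ψ) :
    rthkdAct p 𝔲 ℓ₀ H' ν hst x
      = rthkdD 𝔲 ℓ₀ H' ν (QuotientGroup.mk u) + rthkdD 𝔲 ℓ₀ H' ν (QuotientGroup.mk u)⁻¹ := by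
  refine AddMonoidHom.ext fun y => Subtype.ext ?_
  show es1infHomEval L M H' hML.out p (RthkdC O ν) x (y : HomS (gammaH L M H') (RthkdC O ν))
    = diamU L M H' (RthkdC O ν) u (y : HomS (gammaH L M H') (RthkdC O ν))
      + diamU L M H' (RthkdC O ν) u⁻¹ (y : HomS (gammaH L M H') (RthkdC O ν))
  exact hx y y.2

/-- the scalar `c` as an additive endomorphism of `Hom(Γ_{H'}(L), C)` -/
def rthkcsScal (L M : ℕ) (H' : Subgroup (ZMod M)ˣ) (ν : ℕ) (c : O) :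
    AddMonoid.End (HomS (gammaH L M H') (RthkdC O ν)) :=
  Module.toAddMonoidEnd (RthkdC O ν) (HomS (gammaH L M H') (RthkdC O ν))
    (algebraMap O (RthkdC O ν) c)

theorem rthkcsScal_apply (c : O) (ψ : HomS (gammaH L M H') (RthkdC O ν)) :
    rthkcsScal L M H' ν c ψ = (algebraMap O (RthkdC O ν) c) • ψ := rfl

/-- `(es1infHomEval t − c) ^ e = 0` on the `Θ`-part ⇒ `act t − c` is nilpotent -/
theorem rthkcs_nilpotent (hst : RthkcsStable p 𝔲 ℓ₀ H' ν) (t : HDAlg M) (c : O) (e : ℕ)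
    (h0 : ∀ ψ ∈ etaPart (thetaN 𝔲 ℓ₀ (RthkdC O ν) H'),
      ((rthkdEval p L M H' (RthkdC O ν) t - rthkcsScal L M H' ν c) ^ e) ψ = 0) :
    IsNilpotent (rthkdAct p 𝔲 ℓ₀ H' ν hst t
      - Module.toAddMonoidEnd (RthkdC O ν) (rthkdX 𝔲 ℓ₀ H' ν) (algebraMap O (RthkdC O ν) c)) := by
  have hmem : rthkdEval p L M H' (RthkdC O ν) t - rthkcsScal L M H' ν c
      ∈ rthkdStab (rthkdX 𝔲 ℓ₀ H' ν) := by
    refine Subring.sub_mem _ (fun ψ hψ => hst t ψ hψ) (fun ψ hψ => ?_)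
    exact (rthkdX 𝔲 ℓ₀ H' ν).smul_mem _ hψ
  have h1 := rthkcs_res_nilpotent (rthkdX 𝔲 ℓ₀ H' ν) ⟨_, hmem⟩ e h0
  have e1 : rthkdResHom (rthkdX 𝔲 ℓ₀ H' ν) ⟨_, hmem⟩
      = rthkdAct p 𝔲 ℓ₀ H' ν hst t
        - Module.toAddMonoidEnd (RthkdC O ν) (rthkdX 𝔲 ℓ₀ H' ν)
            (algebraMap O (RthkdC O ν) c) :=
    AddMonoidHom.ext fun x => Subtype.ext rfl
  rw [e1] at h1
  exact h1

/-- **the field `act_comm`** -/
theorem rthkcs_act_comm (hst : RthkcsStable p 𝔲 ℓ₀ H' ν) (t : HDAlg M) :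
    rthkdAct p 𝔲 ℓ₀ H' ν hst t
      ∈ rthkmComm (Δ := RthkdDelta M H') (RthkdC O ν) (rthkdD 𝔲 ℓ₀ H' ν) :=
  rthkcc_act_comm 𝔲 ℓ₀ H' ν p (fun t => t) (rthkdAct p 𝔲 ℓ₀ H' ν hst)
    (fun t x => rthkdAct_coe hst t x) t

end dict

/-! ### The module side on `Hom(Γ_{H'}(L), C)` -/

section side

variable {O : Type} [CommRing O] [IsLocalRing O]

/-- **The module side, with all the fields on `Hom(Γ_{H'}(L), 𝒪 ⧸ 𝔪 ^ n)`.**  `b` a family in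
`X = ↥(rthkdX 𝔲 ℓ₀ H' n)`, `ψ1, ψχ` characters of `Δ = (ℤ/M)ˣ ⧸ ±H'`. -/
structure HkConcSide (p : ℕ) [Fact p.Prime] (lam : O)
    (ρbar : ResidualGaloisRep (ResidueField O))
    (Sbad : Finset ℕ) {ι : Type} (σ : ι → GQ) (tχ : ι → O) (m h d n : ℕ)
    (a0 : ℕ → Matrix (Fin d) (Fin d) O)
    (L M : ℕ) [NeZero L] [NeZero M] [hML : Fact (M ∣ L)] (𝔲 : NatFam O L M) (ℓ₀ : ℕ)
    [NeZero ℓ₀] (H' : Subgroup (ZMod M)ˣ)
    (J : Type) [AddCommGroup J] [Module (HDAlg M) J] [DistribMulAction GQ J]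
    (Tr : ℕ → HDAlg M) (b : Fin d → rthkdX 𝔲 ℓ₀ H' n)
    (ψ1 ψχ : RthkdDelta M H' →* RthkSn O m n) : Prop where
  pkg : Rtk7bPkg p L J Tr
  primes : ∀ q : ℕ, q.Prime → q ∉ Sbad → ¬ q ∣ L * p
  model : ∀ k : ℕ, ∃ (X : Type) (_ : AddCommGroup X) (_ : Finite X) (act : GQ → X → X),
      (∀ s x x', act s (x + x') = act s x + act s x') ∧
      (∀ s s' x, act (s * s') x = act s (act s' x)) ∧
      HasFiniteFlatModel (GaloisRep.ratLocalizedAt p) X act ∧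
      ∀ e : GQ →₀ ℤ, (∀ x : X, (e.sum fun g z => z • act g x) = 0) →
        ∀ x : J, p ^ k • x = 0 → (e.sum fun g z => z • g • x) = 0
  /-- the `Θ`-part is stable under the Hecke–diamond polynomials -/
  stable : RthkcsStable p 𝔲 ℓ₀ H' n
  /-- `X` is free over `C[Δ]` with basis `b` -/
  free : RthkmFree (Δ := RthkdDelta M H') (RthkdC O n) (rthkdD 𝔲 ℓ₀ H' n) b
  faith : ∃ n₀ : ℕ, ∀ t ∈ rthksE p J (𝕋 := HDAlg M), (∀ y : J, p ^ n₀ • y = 0 → t • y = 0) →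
    ∀ ψ ∈ etaPart (thetaN 𝔲 ℓ₀ (RthkdC O n) H'),
      es1infHomEval L M H' hML.out p (RthkdC O n) t ψ = 0
  resid : ∀ ℓ : ℕ, ℓ.Prime → ¬ ℓ ∣ L * p →
    ∀ P : ValuationSubring (AlgebraicClosure ℚ), P.LiesOverPrime ℓ →
      ∀ τ : GQ, P.IsFrobeniusAt τ ℓ → ∃ (c : O) (e : ℕ),
        residue O c = LinearMap.trace (ResidueField O) ρbar.V (ρbar.ρ τ) ∧
        ∀ ψ ∈ etaPart (thetaN 𝔲 ℓ₀ (RthkdC O n) H'),
          ((rthkdEval p L M H' (RthkdC O n) (Tr ℓ) - rthkcsScal L M H' n c) ^ e) ψ = 0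
  /-- `ψ1 ≡ ψχ` modulo `λ` -/
  cong : ∀ δ : RthkdDelta M H',
    Ideal.Quotient.factor (le_sup_right : maximalIdeal (RttwS O m) ^ n ≤
        rttwLam m lam ⊔ maximalIdeal (RttwS O m) ^ n) (ψ1 δ) =
      Ideal.Quotient.factor (le_sup_right : maximalIdeal (RttwS O m) ^ n ≤
        rttwLam m lam ⊔ maximalIdeal (RttwS O m) ^ n) (ψχ δ)
  /-- `ψ1 ≡ 1` modulo `𝔞` -/
  aug : ∀ δ : RthkdDelta M H',
    Ideal.Quotient.factor (le_sup_right : maximalIdeal (RttwS O m) ^ n ≤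
        rttwAug O m ⊔ maximalIdeal (RttwS O m) ^ n) (ψ1 δ) = 1
  /-- K6 at the trivial primes -/
  trT : ∀ i, ∃ (x : HDAlg M) (u : (ZMod M)ˣ),
    (∀ k, Rtk7bApprox p J (fun n g => ((cycE p n g : ℕ) : HDAlg M)) k (σ i) x) ∧
    (∀ ψ ∈ etaPart (thetaN 𝔲 ℓ₀ (RthkdC O n) H'),
      es1infHomEval L M H' hML.out p (RthkdC O n) x ψ
        = diamU L M H' (RthkdC O n) u ψ + diamU L M H' (RthkdC O n) u⁻¹ ψ) ∧
    ψ1 (QuotientGroup.mk u) = 1 ∧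
    ψχ (QuotientGroup.mk u) + ψχ (QuotientGroup.mk u)⁻¹
      = algebraMap O (RthkSn O m n) (2 * tχ i)
  /-- K6 at the Taylor–Wiles primes -/
  trQ : ∀ j : Fin m, (j : ℕ) < h → ∃ (g : GQ) (x : HDAlg M) (u : (ZMod M)ˣ),
    (∀ k, Rtk7bApprox p J (fun n g => ((cycE p n g : ℕ) : HDAlg M)) k g x) ∧
    (∀ ψ ∈ etaPart (thetaN 𝔲 ℓ₀ (RthkdC O n) H'),
      es1infHomEval L M H' hML.out p (RthkdC O n) x ψ
        = diamU L M H' (RthkdC O n) u ψ + diamU L M H' (RthkdC O n) u⁻¹ ψ) ∧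
    ψ1 (QuotientGroup.mk u) - ψ1 (QuotientGroup.mk u)⁻¹
      = Ideal.Quotient.mk _ (MvPowerSeries.X j) ∧
    ψχ (QuotientGroup.mk u) - ψχ (QuotientGroup.mk u)⁻¹
      = Ideal.Quotient.mk _ (MvPowerSeries.X j)
  /-- the base: the matrix of `Tr ℓ` on the coinvariants -/
  base : ∀ ℓ : ℕ, ℓ.Prime → ¬ ℓ ∣ L * p →
    rthkmMat free (1 : RthkdDelta M H' →* RthkdC O n) (rthkdAct p 𝔲 ℓ₀ H' n stable (Tr ℓ))
      = (a0 ℓ).map (algebraMap O (RthkdC O n))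

/-- **HK-CONC, the dictionary**: the module side on `Hom(Γ_{H'}(L), C)` gives `HkConc`. -/
theorem rthk_conc_side {p : ℕ} [Fact p.Prime] {lam : O}
    {ρbar : ResidualGaloisRep (ResidueField O)} {Sbad : Finset ℕ} {ι : Type} {σ : ι → GQ}
    {tχ : ι → O} {m h d n : ℕ} {a0 : ℕ → Matrix (Fin d) (Fin d) O}
    {L M : ℕ} [NeZero L] [NeZero M] [hML : Fact (M ∣ L)] {𝔲 : NatFam O L M} {ℓ₀ : ℕ}
    [NeZero ℓ₀] {H' : Subgroup (ZMod M)ˣ}
    {J : Type} [AddCommGroup J] [Module (HDAlg M) J] [DistribMulAction GQ J]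
    {Tr : ℕ → HDAlg M} {b : Fin d → rthkdX 𝔲 ℓ₀ H' n}
    {ψ1 ψχ : RthkdDelta M H' →* RthkSn O m n}
    (H : HkConcSide p lam ρbar Sbad σ tχ m h d n a0 L M 𝔲 ℓ₀ H' J Tr b ψ1 ψχ) :
    letI := rthkcaAlg O m n
    haveI := rthkca_tower O m n
    HkConc (Δ := RthkdDelta M H') p lam ρbar Sbad σ tχ m h d n a0 L J Tr (RthkdC O n)
      (rthkdD 𝔲 ℓ₀ H' n) b (rthkdAct p 𝔲 ℓ₀ H' n H.stable) ψ1 ψχ := by
  letI := rthkcaAlg O m n
  haveI := rthkca_tower O m n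
  have hcomm : ∀ x, rthkdAct p 𝔲 ℓ₀ H' n H.stable x
      ∈ rthkmComm (Δ := RthkdDelta M H') (RthkdC O n) (rthkdD 𝔲 ℓ₀ H' n) :=
    fun x => rthkcs_act_comm H.stable x
  have hfaith : ∃ n₀ : ℕ, ∀ x ∈ rthksE p J (𝕋 := HDAlg M),
      (∀ y : J, p ^ n₀ • y = 0 → x • y = 0) → rthkdAct p 𝔲 ℓ₀ H' n H.stable x = 0 := by
    obtain ⟨n₀, hn₀⟩ := H.faith
    exact ⟨n₀, fun x hx hkill => rthkcs_act_eq_zero H.stable x (hn₀ x hx hkill)⟩
  have hresid : ∀ ℓ : ℕ, ℓ.Prime → ¬ ℓ ∣ L * p →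
      ∀ P : ValuationSubring (AlgebraicClosure ℚ), P.LiesOverPrime ℓ →
        ∀ τ : GQ, P.IsFrobeniusAt τ ℓ → ∃ c : O,
          residue O c = LinearMap.trace (ResidueField O) ρbar.V (ρbar.ρ τ) ∧
          IsNilpotent (rthkdAct p 𝔲 ℓ₀ H' n H.stable (Tr ℓ)
            - Module.toAddMonoidEnd (RthkdC O n) (rthkdX 𝔲 ℓ₀ H' n)
                (algebraMap O (RthkdC O n) c)) := by
    intro ℓ hℓ hℓL P hP τ hτ
    obtain ⟨c, e, hc, he⟩ := H.resid ℓ hℓ hℓL P hP τ hτ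
    exact ⟨c, hc, rthkcs_nilpotent H.stable (Tr ℓ) c e he⟩
  exact
    { pkg := H.pkg
      primes := H.primes
      model := H.model
      free := H.free
      act_comm := hcomm
      faith := hfaith
      nil := rthkn_nil_conc (ρbar := ρbar) (Δ := RthkdDelta M H') (D := rthkdD 𝔲 ℓ₀ H' n)
        H.pkg H.primes hcomm hfaith hresid
      resid := hresid
      cong := H.cong
      aug := H.aug
      trT := fun i => by
        obtain ⟨x, u, hx, hact, h1, h2⟩ := H.trT i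
        exact ⟨x, QuotientGroup.mk u, hx, rthkcs_act_eq_D H.stable x u hact, h1, h2⟩
      trQ := fun j hj => by
        obtain ⟨g, x, u, hx, hact, h1, h2⟩ := H.trQ j hj
        exact ⟨g, x, QuotientGroup.mk u, hx, rthkcs_act_eq_D H.stable x u hact, h1, h2⟩
      base := H.base }

end side

end Fermat.Agent.RT
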