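import Fermat.Agent.RT.Hecke.ConcTrCyc
import Fermat.Agent.RT.Hecke.CharsGrp
import Fermat.Agent.RT.Hecke.ConcH
import Fermat.Agent.RT.Hecke.ConcSide
import Fermat.Agent.ES1.Inf.EvalK5
import Fermat.Agent.RT.K7F.TwChar

/-!
# K-machine, HECKE-asm, HK-CONC: the fields `cong`, `aug`, `trT`, `trQ` of `HkConcSide` (helper69)

`Y : KSetup P N q`, `qv : Fin h → ℕ` a Taylor–Wiles family of level `n`, `v = rthkcgV Y qv`
(`= Sum.elim qv Y.r`), `k = rthkciExp h Y.ι (n + 1)`, a level `(L, M)` with `M ∣ L`, `v x ∣ M`,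
`(v x)² ∤ L`, `p ∤ L`; `H' = rthkdH P.p v k M hM`, `e = rthkdE P.p (n + 1)`,
`J = es1inftwJ L M H' P.p (k7ftwChar M e)`.

* `rthkt_op` : **the operator part**: for `g` in an inertia group at `v x`, the polynomial
  `x = δ_c ^ e + δ_{c⁻¹} ^ e`, `c = c_M(g)`, represents `g + χ_cyc(g) g⁻¹` on every `J[p ^ k]`
  (K6: `ES1.es1inftw_chi_approx`) and acts on `Hom(Γ_{H'}(L), B)` as `D u + D u⁻¹`, `u = c ^ e`
  (`ES1.es1infev_chiPoly`);
* `rthkt_chars_tr` : **the package**: there are `ψ1, ψχ : Δ →* S ⧸ 𝔪 ^ (n + 1)` with the fields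
  `cong`, `aug`, `trT`, `trQ` of `HkConcSide` VERBATIM (for every `𝔲`, `ℓ₀`): the generators
  `γ x = c_M(g x) ^ e` of `RT/Hecke/ConcTrCyc.lean` (`g (inr i) = Y.σ i`), the characters of
  CHARS-GRP (`rthkcg_exists`, helper27; `κ_γ` of HK-GRP, helper8) and the operator part;
* `rthkt_not_sq_dvd_L`, `rthkt_p_not_dvd_L` : the hypotheses `hL2`, `hpL` for the concrete level
  `L = N * rthkdM qv` (`N` a conductor level, `p ∤ N`).
-/

set_option autoImplicit false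
set_option linter.unusedSectionVars false
set_option linter.unusedVariables false
set_option linter.style.haveILetI false

noncomputable section

namespace Fermat.Agent.RT

open IsLocalRing Fermat.Agent.RT.K5 Fermat.Agent.RT.K6 Fermat.Agent.RT.K7F Fermat.Agent.ES
  Fermat.Agent.ES1 Fermat.Agent.S30 Fermat.Agent.TW Fermat.Agent.RT.Prod

section Arith

variable {P : FreyPackage}

/-- `e = (p ^ ν + 1) / 2` is prime to `p` (`1 ≤ ν`) -/
theorem rthkt_coprime_E {ν : ℕ} (hν : 1 ≤ ν) : Nat.Coprime (rthkdE P.p ν) P.p := by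
  have h2 := rthkd_two_E P.hp_odd ν
  rw [Nat.coprime_comm, Nat.Prime.coprime_iff_not_dvd P.pp]
  intro hd
  have h3 : P.p ∣ P.p ^ ν + 1 := by
    rw [← h2]
    exact Dvd.dvd.mul_left hd 2
  have h4 : P.p ∣ P.p ^ ν := dvd_pow_self _ (by omega)
  have h5 : P.p ∣ 1 := (Nat.dvd_add_right h4).mp h3
  exact P.pp.one_lt.ne' (Nat.dvd_one.mp h5)

theorem rthkt_one_le_E (ν : ℕ) : 1 ≤ rthkdE P.p ν := by
  have h1 : 1 ≤ P.p ^ ν := Nat.one_le_pow _ _ P.hppos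
  rw [rthkdE]
  omega

/-- a prime `r` with `p ∣ r − 1` is not `p` -/
theorem rthkt_ne_p {r : ℕ} (hr : r.Prime) (h : P.p ∣ r - 1) : r ≠ P.p := by
  intro e
  rw [e] at h
  have h1 : P.p - 1 < P.p := Nat.sub_lt P.hppos one_pos
  have h2 : 0 < P.p - 1 := by have := P.hp5; omega
  exact absurd (Nat.le_of_dvd h2 h) (not_le.mpr h1)

end Arith

section Op

variable {P : FreyPackage} {N q : ℕ} (Y : KSetup P N q) {n h : ℕ} {qv : Fin h → ℕ}
  {L M : ℕ} [NeZero L] [NeZero M] [hML : Fact (M ∣ L)] [hpF : Fact P.p.Prime]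

/-- **the operator part** of `trT` / `trQ` at one inertia element. -/
theorem rthkt_op (hChi : StmtChiJDiv)
    (hTW : IsTWFamily P.p Y.ρbar (Y.Smin ∪ Finset.univ.image Y.r) n h qv)
    (hM : ∀ x, rthkcgV Y qv x ∣ M) (hL2 : ∀ x, ¬ rthkcgV Y qv x ^ 2 ∣ L) (hpL : ¬ P.p ∣ L)
    (x : Fin h ⊕ Y.ι) (A : ValuationSubring (AlgebraicClosure ℚ))
    (hA : A.LiesOverPrime (rthkcgV Y qv x)) (g : GQ) (hg : g ∈ A.inertiaSubgroupIn ℚ) :
    (∀ k : ℕ, Rtk7bApprox P.p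
        (es1inftwJ L M (rthkdH P.p (rthkcgV Y qv) (rthkciExp h Y.ι (n + 1)) M hM) P.p
          (k7ftwChar M (rthkdE P.p (n + 1))))
        (fun n g => ((cycE P.p n g : ℕ) : HDAlg M)) k g
        (es1inftwChiPoly M (rthkdE P.p (n + 1)) (Fermat.Agent.S42.cycloChar M g))) ∧
      ∀ (B : Type) [AddCommGroup B]
        (ψ : HomS (gammaH L M (rthkdH P.p (rthkcgV Y qv) (rthkciExp h Y.ι (n + 1)) M hM)) B),
        es1infHomEval L M (rthkdH P.p (rthkcgV Y qv) (rthkciExp h Y.ι (n + 1)) M hM)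
            hML.out P.p B
            (es1inftwChiPoly M (rthkdE P.p (n + 1)) (Fermat.Agent.S42.cycloChar M g)) ψ
          = diamU L M (rthkdH P.p (rthkcgV Y qv) (rthkciExp h Y.ι (n + 1)) M hM) B
              (Fermat.Agent.S42.cycloChar M g ^ rthkdE P.p (n + 1)) ψ
            + diamU L M (rthkdH P.p (rthkcgV Y qv) (rthkciExp h Y.ι (n + 1)) M hM) B
              (Fermat.Agent.S42.cycloChar M g ^ rthkdE P.p (n + 1))⁻¹ ψ := by
  have hM0 : M ≠ 0 := NeZero.ne M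
  have hvp := rthkcg_v_prime Y hTW
  have hv := rthkcg_v_inj Y hTW
  have hk := rthkcg_pow_dvd Y hTW
  have hp1 : P.p ∣ rthkcgV Y qv x - 1 := by
    refine dvd_trans (dvd_pow_self P.p ?_) (hk x)
    rcases x with j | i
    · exact Nat.succ_ne_zero n
    · exact one_ne_zero
  refine ⟨fun k' => ?_, fun B _ ψ => es1infev_chiPoly _ _ ψ⟩
  exact es1inftw_chi_approx hChi (rthkdE P.p (n + 1)) (rthkt_one_le_E (n + 1))
    (rthkd_pow_E_mem P.hp_odd (rthkcg_exp_le Y (n + 1) (Nat.succ_le_succ (Nat.zero_le n))))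
    (k7ftwChar M (rthkdE P.p (n + 1))) (hvp x) (hM x) (hL2 x) (rthkt_ne_p (hvp x) hp1)
    (rthkh_isStarStable P.pp Y.hyp.hp2 hv hvp hk hM0 hM (hvp x) (hM x))
    (rthkh_isTameAt P.pp P.hp5 hpL hM _) A hA g hg rfl k'

end Op

section Package

variable {P : FreyPackage} {N q : ℕ} (Y : KSetup P N q) {n h : ℕ} {qv : Fin h → ℕ}
  {L M : ℕ} [NeZero L] [NeZero M] [hML : Fact (M ∣ L)] [hpF : Fact P.p.Prime]

/-- **the fields `cong`, `aug`, `trT`, `trQ` of `HkConcSide`**, for every level `(L, M)`. -/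
theorem rthkt_chars_tr (hChi : StmtChiJDiv)
    (hTW : IsTWFamily P.p Y.ρbar (Y.Smin ∪ Finset.univ.image Y.r) n h qv)
    (hM : ∀ x, rthkcgV Y qv x ∣ M) (hL2 : ∀ x, ¬ rthkcgV Y qv x ^ 2 ∣ L) (hpL : ¬ P.p ∣ L)
    (𝔲 : NatFam Y.O L M) (ℓ₀ : ℕ) [NeZero ℓ₀] :
    ∃ ψ1 ψχ : RthkdDelta M (rthkdH P.p (rthkcgV Y qv) (rthkciExp h Y.ι (n + 1)) M hM) →*
        RthkSn Y.O (Y.m h) (n + 1),
      (∀ δ, Ideal.Quotient.factor
          (le_sup_right : maximalIdeal (RttwS Y.O (Y.m h)) ^ (n + 1) ≤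
            rttwLam (Y.m h) Y.lam ⊔ maximalIdeal (RttwS Y.O (Y.m h)) ^ (n + 1)) (ψ1 δ) =
        Ideal.Quotient.factor
          (le_sup_right : maximalIdeal (RttwS Y.O (Y.m h)) ^ (n + 1) ≤
            rttwLam (Y.m h) Y.lam ⊔ maximalIdeal (RttwS Y.O (Y.m h)) ^ (n + 1)) (ψχ δ)) ∧
      (∀ δ, Ideal.Quotient.factor
          (le_sup_right : maximalIdeal (RttwS Y.O (Y.m h)) ^ (n + 1) ≤
            rttwAug Y.O (Y.m h) ⊔ maximalIdeal (RttwS Y.O (Y.m h)) ^ (n + 1)) (ψ1 δ) = 1) ∧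
      (∀ i, ∃ (x : HDAlg M) (u : (ZMod M)ˣ),
        (∀ k, Rtk7bApprox P.p
          (es1inftwJ L M (rthkdH P.p (rthkcgV Y qv) (rthkciExp h Y.ι (n + 1)) M hM) P.p
            (k7ftwChar M (rthkdE P.p (n + 1))))
          (fun n g => ((cycE P.p n g : ℕ) : HDAlg M)) k (Y.σ i) x) ∧
        (∀ ψ ∈ etaPart (thetaN 𝔲 ℓ₀ (RthkdC Y.O (n + 1))
            (rthkdH P.p (rthkcgV Y qv) (rthkciExp h Y.ι (n + 1)) M hM)),
          es1infHomEval L M (rthkdH P.p (rthkcgV Y qv) (rthkciExp h Y.ι (n + 1)) M hM)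
              hML.out P.p (RthkdC Y.O (n + 1)) x ψ
            = diamU L M (rthkdH P.p (rthkcgV Y qv) (rthkciExp h Y.ι (n + 1)) M hM)
                (RthkdC Y.O (n + 1)) u ψ
              + diamU L M (rthkdH P.p (rthkcgV Y qv) (rthkciExp h Y.ι (n + 1)) M hM)
                (RthkdC Y.O (n + 1)) u⁻¹ ψ) ∧
        ψ1 (QuotientGroup.mk u) = 1 ∧
        ψχ (QuotientGroup.mk u) + ψχ (QuotientGroup.mk u)⁻¹
          = algebraMap Y.O (RthkSn Y.O (Y.m h) (n + 1)) (2 * Y.tχ i)) ∧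
      (∀ j : Fin (Y.m h), (j : ℕ) < h → ∃ (g : GQ) (x : HDAlg M) (u : (ZMod M)ˣ),
        (∀ k, Rtk7bApprox P.p
          (es1inftwJ L M (rthkdH P.p (rthkcgV Y qv) (rthkciExp h Y.ι (n + 1)) M hM) P.p
            (k7ftwChar M (rthkdE P.p (n + 1))))
          (fun n g => ((cycE P.p n g : ℕ) : HDAlg M)) k g x) ∧
        (∀ ψ ∈ etaPart (thetaN 𝔲 ℓ₀ (RthkdC Y.O (n + 1))
            (rthkdH P.p (rthkcgV Y qv) (rthkciExp h Y.ι (n + 1)) M hM)),
          es1infHomEval L M (rthkdH P.p (rthkcgV Y qv) (rthkciExp h Y.ι (n + 1)) M hM)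
              hML.out P.p (RthkdC Y.O (n + 1)) x ψ
            = diamU L M (rthkdH P.p (rthkcgV Y qv) (rthkciExp h Y.ι (n + 1)) M hM)
                (RthkdC Y.O (n + 1)) u ψ
              + diamU L M (rthkdH P.p (rthkcgV Y qv) (rthkciExp h Y.ι (n + 1)) M hM)
                (RthkdC Y.O (n + 1)) u⁻¹ ψ) ∧
        ψ1 (QuotientGroup.mk u) - ψ1 (QuotientGroup.mk u)⁻¹
          = Ideal.Quotient.mk (maximalIdeal (RttwS Y.O (Y.m h)) ^ (n + 1))
              (MvPowerSeries.X j) ∧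
        ψχ (QuotientGroup.mk u) - ψχ (QuotientGroup.mk u)⁻¹
          = Ideal.Quotient.mk (maximalIdeal (RttwS Y.O (Y.m h)) ^ (n + 1))
              (MvPowerSeries.X j)) := by
  have hM0 : M ≠ 0 := NeZero.ne M
  have hvp := rthkcg_v_prime Y hTW
  have hv := rthkcg_v_inj Y hTW
  have hk := rthkcg_pow_dvd Y hTW
  have hp1 : ∀ x, P.p ∣ rthkcgV Y qv x - 1 := by
    intro x
    refine dvd_trans (dvd_pow_self P.p ?_) (hk x)
    rcases x with j | i
    · exact Nat.succ_ne_zero n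
    · exact one_ne_zero
  have hM2 : ∀ x, ¬ rthkcgV Y qv x ^ 2 ∣ M := fun x hd => hL2 x (hd.trans hML.out)
  -- the generators
  obtain ⟨g, hgσ, hgin, hγ1, hγ2⟩ := rthkt_exists_gens M (p := P.p) Y.r Y.σ Y.φ
    (fun i => Y.r_prime i) Y.hloc qv (fun j => (hTW.2.1 j).1) hv hM hM2 hp1
    (rthkdE P.p (n + 1)) (rthkt_coprime_E (Nat.succ_le_succ (Nat.zero_le n)))
  -- the characters
  obtain ⟨ψ1, ψχ, hcong, haug, hT, hQ⟩ := rthkcg_exists Y hTW hM0 hM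
    (fun x => Fermat.Agent.S42.cycloChar M (g x) ^ rthkdE P.p (n + 1)) hγ1 hγ2
  refine ⟨ψ1, ψχ, hcong, haug, fun i => ?_, fun j hj => ?_⟩
  · obtain ⟨A, hA, hg⟩ := hgin (Sum.inr i)
    obtain ⟨h1, h2⟩ := rthkt_op Y hChi hTW hM hL2 hpL (Sum.inr i) A hA _ hg
    rw [hgσ i] at h1 h2
    have h3 := hT i
    simp only [hgσ i] at h3
    exact ⟨_, _, h1, fun ψ _ => h2 _ ψ, h3.1, h3.2⟩
  · obtain ⟨A, hA, hg⟩ := hgin (Sum.inl ⟨j, hj⟩)
    obtain ⟨h1, h2⟩ := rthkt_op Y hChi hTW hM hL2 hpL (Sum.inl ⟨j, hj⟩) A hA _ hg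
    have h3 := hQ j hj
    exact ⟨_, _, _, h1, fun ψ _ => h2 _ ψ, h3.1, h3.2⟩

end Package

/-! ## the concrete level `L = N * ∏ qv j`, `M = ∏ v x` -/

section Inst

variable {P : FreyPackage} {N q : ℕ} (Y : KSetup P N q) {n h : ℕ} {qv : Fin h → ℕ}

/-- a Taylor–Wiles prime does not divide `N` -/
theorem rthkt_qv_not_dvd
    (hTW : IsTWFamily P.p Y.ρbar (Y.Smin ∪ Finset.univ.image Y.r) n h qv) (j : Fin h) :
    ¬ qv j ∣ N := by
  intro hd
  apply (hTW.2.1 j).2.1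
  by_cases h2 : qv j = 2
  · refine Finset.mem_union_left _ ?_
    rw [Y.hSmin, h2]
    exact Finset.mem_insert_self _ _
  · exact Finset.mem_union_right _ ((Y.hr (qv j)).mpr ⟨(hTW.2.1 j).1, h2, hd⟩)

/-- `L = N * ∏ qv j` is squarefree -/
theorem rthkt_L_sqfree (hcond : P.IsConductorLevel N)
    (hTW : IsTWFamily P.p Y.ρbar (Y.Smin ∪ Finset.univ.image Y.r) n h qv) :
    Squarefree (N * rthkdM qv) := by
  have hcop : Nat.Coprime N (rthkdM qv) := by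
    rw [rthkdM]
    refine Nat.Coprime.prod_right fun j _ => ?_
    rw [Nat.coprime_comm, Nat.Prime.coprime_iff_not_dvd (hTW.2.1 j).1]
    exact rthkt_qv_not_dvd Y hTW j
  rw [Nat.squarefree_mul hcop]
  refine ⟨hcond.squarefree, ?_⟩
  rw [rthkdM]
  apply Finset.squarefree_prod_of_pairwise_isCoprime
  · intro x _ y _ hxy
    show IsRelPrime (qv x) (qv y)
    rw [← Nat.coprime_iff_isRelPrime]
    exact (Nat.coprime_primes (hTW.2.1 x).1 (hTW.2.1 y).1).2 (fun e => hxy (hTW.1 e))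
  · intro x _
    exact (hTW.2.1 x).1.squarefree

/-- no square of a prime divides `L` -/
theorem rthkt_not_sq_dvd_L (hcond : P.IsConductorLevel N)
    (hTW : IsTWFamily P.p Y.ρbar (Y.Smin ∪ Finset.univ.image Y.r) n h qv) {r : ℕ}
    (hr : r.Prime) : ¬ r ^ 2 ∣ N * rthkdM qv := by
  intro hd
  have h1 : r * r ∣ N * rthkdM qv := by rwa [← sq]
  have h2 := rthkt_L_sqfree Y hcond hTW r h1
  exact hr.one_lt.ne' (Nat.isUnit_iff.mp h2)

/-- `p ∤ L` -/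
theorem rthkt_p_not_dvd_L (hpN : ¬ P.p ∣ N)
    (hTW : IsTWFamily P.p Y.ρbar (Y.Smin ∪ Finset.univ.image Y.r) n h qv) :
    ¬ P.p ∣ N * rthkdM qv := by
  intro hd
  rcases (Nat.Prime.dvd_mul P.pp).mp hd with h1 | h1
  · exact hpN h1
  · rw [rthkdM] at h1
    obtain ⟨j, -, hj⟩ := (Prime.dvd_finsetProd_iff P.pp.prime qv).mp h1
    have e : P.p = qv j := (Nat.prime_dvd_prime_iff_eq P.pp (hTW.2.1 j).1).mp hj
    apply (hTW.2.1 j).2.1
    refine Finset.mem_union_left _ ?_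
    rw [Y.hSmin, ← e]
    exact Finset.mem_insert_of_mem (Finset.mem_singleton_self _)

end Inst

end Fermat.Agent.RT
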