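import Fermat.Agent.RT.Hecke.ConcTr
import Fermat.Agent.ES1.Inf.TwChi5

/-!
# K-machine, HECKE-asm, HK-CONC: `cong`, `aug`, `trT`, `trQ` from `StmtChiJDiv5` (helper69)

The twin of `RT/Hecke/ConcTr.lean` with the hypothesis which K6 delivers
(`RT.K6.StmtChiJDiv5`, `RT/K6/FAux.lean`: `5 ≤ r`, exponents prime to `6`) instead of
`RT.K6.StmtChiJDiv`.  The primes `v x` are `≡ 1` mod `p` and `p ≥ 5`, so `5 ≤ v x`
(`rthkt_five_le`); the bridge is `ES1.es1inftw_chi_approx5` (`ES1/Inf/TwChi5.lean`, helper43).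

* `rthkt_op5` : the operator part of `trT` / `trQ` at one inertia element;
* `rthkt_chars_tr5` : **the package**: `∃ ψ1 ψχ`, `cong ∧ aug ∧ trT ∧ trQ` of `HkConcSide`
  VERBATIM, for every level `(L, M)` with `v x ∣ M`, `(v x)² ∤ L`, `p ∤ L`.
-/

set_option autoImplicit false
set_option linter.unusedSectionVars false
set_option linter.unusedVariables false
set_option linter.style.haveILetI false

noncomputable section

namespace Fermat.Agent.RT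

open IsLocalRing Fermat.Agent.RT.K5 Fermat.Agent.RT.K6 Fermat.Agent.RT.K7F Fermat.Agent.ES
  Fermat.Agent.ES1 Fermat.Agent.S30 Fermat.Agent.TW Fermat.Agent.RT.Prod

/-- a prime `r` with `p ∣ r − 1` (`p ≥ 5`) is at least `5` -/
theorem rthkt_five_le {P : FreyPackage} {r : ℕ} (hr : r.Prime) (h : P.p ∣ r - 1) : 5 ≤ r := by
  have h1 : 0 < r - 1 := by have := hr.two_le; omega
  have h2 := Nat.le_of_dvd h1 h
  have h3 := P.hp5
  omega

section Op5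

variable {P : FreyPackage} {N q : ℕ} (Y : KSetup P N q) {n h : ℕ} {qv : Fin h → ℕ}
  {L M : ℕ} [NeZero L] [NeZero M] [hML : Fact (M ∣ L)] [hpF : Fact P.p.Prime]

/-- **the operator part** of `trT` / `trQ` at one inertia element, from `StmtChiJDiv5`. -/
theorem rthkt_op5 (hChi : StmtChiJDiv5)
    (hTW : IsTWFamily P.p Y.ρbar (Y.Smin ∪ Finset.univ.image Y.r) n h qv)
    (hM : ∀ x, rthkcgV Y qv x ∣ M) (hL2 : ∀ x, ¬ rthkcgV Y qv x ^ 2 ∣ L) (hpL : ¬ P.p ∣ L)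
    (x : Fin h ⊕ Y.ι) (A : ValuationSubring (AlgebraicClosure ℚ))
    (hA : A.LiesOverPrime (rthkcgV Y qv x)) (g : GQ) (hg : g ∈ A.inertiaSubgroupIn ℚ) :
    (∀ k : ℕ, Rtk7bApprox P.p
        (es1inftwJ L M (rthkdH P.p (rthkcgV Y qv) (rthkciExp h Y.ι (n + 1)) M hM) P.p
          (k7ftwChar M (rthkdE P.p (n + 1))))
        (fun n g => ((cycE P.p n g : ℕ) : HDAlg M)) k g
        (es1inftwChiPoly M (rthkdE P.p (n + 1)) (Fermat.Agent.S42.cycloChar M g))) ∧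
      ∀ (B : Type) [AddCommGroup B]
        (ψ : HomS (gammaH L M (rthkdH P.p (rthkcgV Y qv) (rthkciExp h Y.ι (n + 1)) M hM)) B),
        es1infHomEval L M (rthkdH P.p (rthkcgV Y qv) (rthkciExp h Y.ι (n + 1)) M hM)
            hML.out P.p B
            (es1inftwChiPoly M (rthkdE P.p (n + 1)) (Fermat.Agent.S42.cycloChar M g)) ψ
          = diamU L M (rthkdH P.p (rthkcgV Y qv) (rthkciExp h Y.ι (n + 1)) M hM) B
              (Fermat.Agent.S42.cycloChar M g ^ rthkdE P.p (n + 1)) ψ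
            + diamU L M (rthkdH P.p (rthkcgV Y qv) (rthkciExp h Y.ι (n + 1)) M hM) B
              (Fermat.Agent.S42.cycloChar M g ^ rthkdE P.p (n + 1))⁻¹ ψ := by
  have hM0 : M ≠ 0 := NeZero.ne M
  have hvp := rthkcg_v_prime Y hTW
  have hv := rthkcg_v_inj Y hTW
  have hk := rthkcg_pow_dvd Y hTW
  have hp1 : P.p ∣ rthkcgV Y qv x - 1 := by
    refine dvd_trans (dvd_pow_self P.p ?_) (hk x)
    rcases x with j | i
    · exact Nat.succ_ne_zero n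
    · exact one_ne_zero
  refine ⟨fun k' => ?_, fun B _ ψ => es1infev_chiPoly _ _ ψ⟩
  exact es1inftw_chi_approx5 hChi P.hp5 (rthkdE P.p (n + 1)) (rthkt_one_le_E (n + 1))
    (rthkd_pow_E_mem P.hp_odd (rthkcg_exp_le Y (n + 1) (Nat.succ_le_succ (Nat.zero_le n))))
    (k7ftwChar M (rthkdE P.p (n + 1))) (hvp x) (rthkt_five_le (hvp x) hp1) (hM x) (hL2 x)
    (rthkt_ne_p (hvp x) hp1)
    (rthkh_isStarStable P.pp Y.hyp.hp2 hv hvp hk hM0 hM (hvp x) (hM x))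
    (rthkh_isTameAt P.pp P.hp5 hpL hM _) A hA g hg rfl k'

end Op5

section Package5

variable {P : FreyPackage} {N q : ℕ} (Y : KSetup P N q) {n h : ℕ} {qv : Fin h → ℕ}
  {L M : ℕ} [NeZero L] [NeZero M] [hML : Fact (M ∣ L)] [hpF : Fact P.p.Prime]

/-- **the fields `cong`, `aug`, `trT`, `trQ` of `HkConcSide`**, for every level `(L, M)`, from
`StmtChiJDiv5` (the form which K6 delivers). -/
theorem rthkt_chars_tr5 (hChi : StmtChiJDiv5)
    (hTW : IsTWFamily P.p Y.ρbar (Y.Smin ∪ Finset.univ.image Y.r) n h qv)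
    (hM : ∀ x, rthkcgV Y qv x ∣ M) (hL2 : ∀ x, ¬ rthkcgV Y qv x ^ 2 ∣ L) (hpL : ¬ P.p ∣ L)
    (𝔲 : NatFam Y.O L M) (ℓ₀ : ℕ) [NeZero ℓ₀] :
    ∃ ψ1 ψχ : RthkdDelta M (rthkdH P.p (rthkcgV Y qv) (rthkciExp h Y.ι (n + 1)) M hM) →*
        RthkSn Y.O (Y.m h) (n + 1),
      (∀ δ, Ideal.Quotient.factor
          (le_sup_right : maximalIdeal (RttwS Y.O (Y.m h)) ^ (n + 1) ≤
            rttwLam (Y.m h) Y.lam ⊔ maximalIdeal (RttwS Y.O (Y.m h)) ^ (n + 1)) (ψ1 δ) =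
        Ideal.Quotient.factor
          (le_sup_right : maximalIdeal (RttwS Y.O (Y.m h)) ^ (n + 1) ≤
            rttwLam (Y.m h) Y.lam ⊔ maximalIdeal (RttwS Y.O (Y.m h)) ^ (n + 1)) (ψχ δ)) ∧
      (∀ δ, Ideal.Quotient.factor
          (le_sup_right : maximalIdeal (RttwS Y.O (Y.m h)) ^ (n + 1) ≤
            rttwAug Y.O (Y.m h) ⊔ maximalIdeal (RttwS Y.O (Y.m h)) ^ (n + 1)) (ψ1 δ) = 1) ∧
      (∀ i, ∃ (x : HDAlg M) (u : (ZMod M)ˣ),
        (∀ k, Rtk7bApprox P.p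
          (es1inftwJ L M (rthkdH P.p (rthkcgV Y qv) (rthkciExp h Y.ι (n + 1)) M hM) P.p
            (k7ftwChar M (rthkdE P.p (n + 1))))
          (fun n g => ((cycE P.p n g : ℕ) : HDAlg M)) k (Y.σ i) x) ∧
        (∀ ψ ∈ etaPart (thetaN 𝔲 ℓ₀ (RthkdC Y.O (n + 1))
            (rthkdH P.p (rthkcgV Y qv) (rthkciExp h Y.ι (n + 1)) M hM)),
          es1infHomEval L M (rthkdH P.p (rthkcgV Y qv) (rthkciExp h Y.ι (n + 1)) M hM)
              hML.out P.p (RthkdC Y.O (n + 1)) x ψ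
            = diamU L M (rthkdH P.p (rthkcgV Y qv) (rthkciExp h Y.ι (n + 1)) M hM)
                (RthkdC Y.O (n + 1)) u ψ
              + diamU L M (rthkdH P.p (rthkcgV Y qv) (rthkciExp h Y.ι (n + 1)) M hM)
                (RthkdC Y.O (n + 1)) u⁻¹ ψ) ∧
        ψ1 (QuotientGroup.mk u) = 1 ∧
        ψχ (QuotientGroup.mk u) + ψχ (QuotientGroup.mk u)⁻¹
          = algebraMap Y.O (RthkSn Y.O (Y.m h) (n + 1)) (2 * Y.tχ i)) ∧
      (∀ j : Fin (Y.m h), (j : ℕ) < h → ∃ (g : GQ) (x : HDAlg M) (u : (ZMod M)ˣ),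
        (∀ k, Rtk7bApprox P.p
          (es1inftwJ L M (rthkdH P.p (rthkcgV Y qv) (rthkciExp h Y.ι (n + 1)) M hM) P.p
            (k7ftwChar M (rthkdE P.p (n + 1))))
          (fun n g => ((cycE P.p n g : ℕ) : HDAlg M)) k g x) ∧
        (∀ ψ ∈ etaPart (thetaN 𝔲 ℓ₀ (RthkdC Y.O (n + 1))
            (rthkdH P.p (rthkcgV Y qv) (rthkciExp h Y.ι (n + 1)) M hM)),
          es1infHomEval L M (rthkdH P.p (rthkcgV Y qv) (rthkciExp h Y.ι (n + 1)) M hM)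
              hML.out P.p (RthkdC Y.O (n + 1)) x ψ
            = diamU L M (rthkdH P.p (rthkcgV Y qv) (rthkciExp h Y.ι (n + 1)) M hM)
                (RthkdC Y.O (n + 1)) u ψ
              + diamU L M (rthkdH P.p (rthkcgV Y qv) (rthkciExp h Y.ι (n + 1)) M hM)
                (RthkdC Y.O (n + 1)) u⁻¹ ψ) ∧
        ψ1 (QuotientGroup.mk u) - ψ1 (QuotientGroup.mk u)⁻¹
          = Ideal.Quotient.mk (maximalIdeal (RttwS Y.O (Y.m h)) ^ (n + 1))
              (MvPowerSeries.X j) ∧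
        ψχ (QuotientGroup.mk u) - ψχ (QuotientGroup.mk u)⁻¹
          = Ideal.Quotient.mk (maximalIdeal (RttwS Y.O (Y.m h)) ^ (n + 1))
              (MvPowerSeries.X j)) := by
  have hM0 : M ≠ 0 := NeZero.ne M
  have hvp := rthkcg_v_prime Y hTW
  have hv := rthkcg_v_inj Y hTW
  have hk := rthkcg_pow_dvd Y hTW
  have hp1 : ∀ x, P.p ∣ rthkcgV Y qv x - 1 := by
    intro x
    refine dvd_trans (dvd_pow_self P.p ?_) (hk x)
    rcases x with j | i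
    · exact Nat.succ_ne_zero n
    · exact one_ne_zero
  have hM2 : ∀ x, ¬ rthkcgV Y qv x ^ 2 ∣ M := fun x hd => hL2 x (hd.trans hML.out)
  -- the generators
  obtain ⟨g, hgσ, hgin, hγ1, hγ2⟩ := rthkt_exists_gens M (p := P.p) Y.r Y.σ Y.φ
    (fun i => Y.r_prime i) Y.hloc qv (fun j => (hTW.2.1 j).1) hv hM hM2 hp1
    (rthkdE P.p (n + 1)) (rthkt_coprime_E (Nat.succ_le_succ (Nat.zero_le n)))
  -- the characters
  obtain ⟨ψ1, ψχ, hcong, haug, hT, hQ⟩ := rthkcg_exists Y hTW hM0 hM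
    (fun x => Fermat.Agent.S42.cycloChar M (g x) ^ rthkdE P.p (n + 1)) hγ1 hγ2
  refine ⟨ψ1, ψχ, hcong, haug, fun i => ?_, fun j hj => ?_⟩
  · obtain ⟨A, hA, hg⟩ := hgin (Sum.inr i)
    obtain ⟨h1, h2⟩ := rthkt_op5 Y hChi hTW hM hL2 hpL (Sum.inr i) A hA _ hg
    rw [hgσ i] at h1 h2
    have h3 := hT i
    simp only [hgσ i] at h3
    exact ⟨_, _, h1, fun ψ _ => h2 _ ψ, h3.1, h3.2⟩
  · obtain ⟨A, hA, hg⟩ := hgin (Sum.inl ⟨j, hj⟩)
    obtain ⟨h1, h2⟩ := rthkt_op5 Y hChi hTW hM hL2 hpL (Sum.inl ⟨j, hj⟩) A hA _ hg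
    have h3 := hQ j hj
    exact ⟨_, _, _, h1, fun ψ _ => h2 _ ψ, h3.1, h3.2⟩

end Package5

end Fermat.Agent.RT
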