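/-
RT-HECKE / HK-GRP, group theory part (helper27): the surjection
`π : (ZMod M)ˣ ↠ Δ' = ∀ x, Multiplicative (ZMod (p ^ k x))`.
-/
import Mathlib

/-!
# K-machine, HECKE-asm, piece HK-GRP (G1), (G3): the diamond group of level `Q`

Sub-captain helper59.  `p` an odd prime, `κ` a finite index type, `v : κ → ℕ` injective with prime
values, `p ^ k x ∣ v x − 1`, `v x ∣ M`, `M ≠ 0`.

* `rthkgp_exists_local` : for a prime `v` and `m ∣ v − 1` there is a surjective homomorphism
  `(ZMod v)ˣ →* Multiplicative (ZMod m)`;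
* `rthkgp_crt` : the Chinese remainder theorem for the units;
* `rthkgp_sq_eq_one` : no `2`-torsion in `Multiplicative (ZMod n)`, `n` odd.

(HK-GRP itself — the isomorphism `κ_γ : Δ ≃* Δ'` for given generators — is helper8's.)
-/

set_option autoImplicit false

namespace Fermat.Agent.RT

section Local

/-- a cyclic quotient of `(ZMod v)ˣ` for every divisor of `v − 1` -/
theorem rthkgp_exists_local (v : ℕ) (hv : v.Prime) (m : ℕ) (hm : m ∣ v - 1) :
    ∃ φ : (ZMod v)ˣ →* Multiplicative (ZMod m), Function.Surjective φ := by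
  haveI : Fact v.Prime := ⟨hv⟩
  have hcyc : IsCyclic (ZMod v)ˣ := inferInstance
  have hcard : Nat.card (ZMod v)ˣ = v - 1 := by
    rw [Nat.card_eq_fintype_card, ZMod.card_units]
  have hm' : m ∣ Nat.card (ZMod v)ˣ := hcard ▸ hm
  refine ⟨(AddMonoidHom.toMultiplicative
    (ZMod.castHom hm' (ZMod m)).toAddMonoidHom).comp (zmodCyclicMulEquiv hcyc).symm.toMonoidHom,
    ?_⟩
  intro y
  obtain ⟨z, hz⟩ := ZMod.castHom_surjective hm' (Multiplicative.toAdd y)
  refine ⟨zmodCyclicMulEquiv hcyc (Multiplicative.ofAdd z), ?_⟩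
  simp only [MonoidHom.comp_apply, MulEquiv.coe_toMonoidHom, MulEquiv.symm_apply_apply]
  show Multiplicative.ofAdd ((ZMod.castHom hm' (ZMod m)) z) = y
  rw [hz, ofAdd_toAdd]

/-- no `2`-torsion in `Multiplicative (ZMod n)`, `n` odd -/
theorem rthkgp_sq_eq_one {n : ℕ} [NeZero n] (hn : Nat.Coprime 2 n) (a : Multiplicative (ZMod n))
    (ha : a ^ 2 = 1) : a = 1 := by
  have h1 : orderOf a ∣ 2 := orderOf_dvd_of_pow_eq_one ha
  have h2 : orderOf a ∣ n := by
    have := orderOf_dvd_natCard a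
    rwa [Nat.card_eq_fintype_card, Fintype.card_multiplicative, ZMod.card] at this
  have h3 : orderOf a = 1 := Nat.Coprime.eq_one_of_dvd (Nat.Coprime.coprime_dvd_left h1 hn) h2
  exact orderOf_eq_one_iff.mp h3

end Local

section CRT

variable {κ : Type*} [Fintype κ]

/-- the Chinese remainder theorem for the units -/
theorem rthkgp_crt (v : κ → ℕ) (hcop : Pairwise (Function.onFun Nat.Coprime v)) (M : ℕ)
    [NeZero M] (hM : ∀ x, v x ∣ M) (a : ∀ x, (ZMod (v x))ˣ) :
    ∃ u : (ZMod M)ˣ, ∀ x, ZMod.unitsMap (hM x) u = a x := by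
  classical
  have hn : ∏ x, v x ∣ M := by
    have hz : (∏ x, (v x : ℤ)) ∣ (M : ℤ) :=
      Finset.prod_dvd_of_coprime (fun x _ y _ hxy => Nat.isCoprime_iff_coprime.mpr (hcop hxy))
        (fun x _ => Int.natCast_dvd_natCast.mpr (hM x))
    exact_mod_cast hz
  let e : ZMod (∏ x, v x) ≃+* (∀ x, ZMod (v x)) := ZMod.prodEquivPi v hcop
  let b : (∀ x, ZMod (v x))ˣ := MulEquiv.piUnits.symm a
  let c : (ZMod (∏ x, v x))ˣ := Units.mapEquiv e.symm.toMulEquiv b
  obtain ⟨u, hu⟩ := ZMod.unitsMap_surjective hn c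
  refine ⟨u, fun x => Units.ext ?_⟩
  have h1 : e ((ZMod.unitsMap hn u : (ZMod (∏ x, v x))ˣ) : ZMod (∏ x, v x)) x
      = (a x : ZMod (v x)) := by
    rw [hu]
    show e (e.symm (b : ∀ x, ZMod (v x))) x = _
    rw [RingEquiv.apply_symm_apply]
    rfl
  have h2 : ((Pi.evalRingHom (fun x => ZMod (v x)) x).comp
      ((e : ZMod (∏ x, v x) →+* (∀ x, ZMod (v x))).comp (ZMod.castHom hn (ZMod (∏ x, v x)))))
      = ZMod.castHom (hM x) (ZMod (v x)) := Subsingleton.elim _ _
  have h3 := congrArg (fun f : ZMod M →+* ZMod (v x) => f (u : ZMod M)) h2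
  simp only [RingHom.comp_apply, Pi.evalRingHom_apply, RingHom.coe_coe] at h3
  rw [← h1]
  exact h3.symm

end CRT

end Fermat.Agent.RT
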