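import Fermat.Agent.RT.Hecke.Plan

/-!
# K-machine, HECKE-asm: from level `n + 1` to level `n`

`HkOut` at level `n'` gives `HkOut` at every level `n ≤ n'` (compose `φ1`, `φχ` with the
projection `S ⧸ 𝔪 ^ n' → S ⧸ 𝔪 ^ n`): `rthk_d_out`.  (The Hecke ring of level `n + 1` is local
also for `n = 0`; `Prod.TWGal` wants the actions on `S ⧸ 𝔪 ^ n`.)
-/

set_option autoImplicit false

namespace Fermat.Agent.RT

open IsLocalRing Fermat.Agent.ES Fermat.Agent.TW Fermat.Agent.RT.Prod

section Down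

variable {O : Type} [CommRing O] [IsLocalRing O] (m : ℕ) {n n' : ℕ} (hn : n ≤ n')

/-- the projection `S ⧸ 𝔪 ^ n' → S ⧸ 𝔪 ^ n` -/
noncomputable def rthkdProj : RthkSn O m n' →ₐ[O] RthkSn O m n :=
  Ideal.Quotient.factorₐ O (Ideal.pow_le_pow_right hn)

/-- the projection on matrices -/
noncomputable def rthkdProjM (d : ℕ) :
    Matrix (Fin d) (Fin d) (RthkSn O m n') →ₐ[O] Matrix (Fin d) (Fin d) (RthkSn O m n) :=
  (rthkdProj (O := O) m hn).mapMatrix

theorem rthkdProj_mk (f : RttwS O m) :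
    rthkdProj (O := O) m hn (Ideal.Quotient.mk _ f) = Ideal.Quotient.mk _ f := rfl

theorem rthkdProjM_apply (d : ℕ) (M : Matrix (Fin d) (Fin d) (RthkSn O m n')) (i j : Fin d) :
    rthkdProjM (O := O) m hn d M i j = rthkdProj (O := O) m hn (M i j) := rfl

theorem rthkdProjM_scalar (d : ℕ) (c : RthkSn O m n') :
    rthkdProjM (O := O) m hn d (algebraMap (RthkSn O m n') _ c)
      = algebraMap (RthkSn O m n) (Matrix (Fin d) (Fin d) (RthkSn O m n))
          (rthkdProj (O := O) m hn c) := by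
  ext i j
  rw [rthkdProjM_apply, Matrix.algebraMap_matrix_apply, Matrix.algebraMap_matrix_apply]
  split_ifs
  · rfl
  · exact map_zero _

/-- compatibility of the projections with a further quotient -/
theorem rthkd_factor (I : Ideal (RttwS O m)) (d : ℕ)
    (M : Matrix (Fin d) (Fin d) (RthkSn O m n')) :
    (rthkdProjM (O := O) m hn d M).map (Ideal.Quotient.factor
        (le_sup_right : maximalIdeal (RttwS O m) ^ n ≤ I ⊔ maximalIdeal (RttwS O m) ^ n))
      = (M.map (Ideal.Quotient.factor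
        (le_sup_right : maximalIdeal (RttwS O m) ^ n' ≤ I ⊔ maximalIdeal (RttwS O m) ^ n'))).map
          (Ideal.Quotient.factor
            (sup_le_sup_left (Ideal.pow_le_pow_right hn) I :
              I ⊔ maximalIdeal (RttwS O m) ^ n' ≤ I ⊔ maximalIdeal (RttwS O m) ^ n)) := by
  ext i j
  simp only [Matrix.map_apply, rthkdProjM_apply]
  obtain ⟨f, hf⟩ := Ideal.Quotient.mk_surjective (M i j)
  rw [← hf]
  rfl

theorem rthkd_baseRed (d : ℕ) (t : Matrix (Fin d) (Fin d) O) :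
    (rttwBaseRed m d n' t).map (Ideal.Quotient.factor
        (sup_le_sup_left (Ideal.pow_le_pow_right hn) (rttwAug O m) :
          rttwAug O m ⊔ maximalIdeal (RttwS O m) ^ n' ≤
            rttwAug O m ⊔ maximalIdeal (RttwS O m) ^ n))
      = rttwBaseRed m d n t := by
  ext i j
  simp only [Matrix.map_apply, rttwBaseRed]
  rfl

end Down

section Out

variable {O : Type} [CommRing O] [IsLocalRing O]

/-- **`HkOut` at level `n'` gives `HkOut` at level `n ≤ n'`.** -/
theorem rthk_d_out {p : ℕ} [Fact p.Prime] {lam : O}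
    {ρbar : ResidualGaloisRep (ResidueField O)} {Smin QT : Finset ℕ} {ι : Type}
    {σ φ : ι → GQ} {tχ : ι → O} {m h d n n' : ℕ} (hn : n ≤ n')
    {T0 : Type} [CommRing T0] [Algebra O T0] {j0 : T0 →ₐ[O] Matrix (Fin d) (Fin d) O}
    {Sig0 Phi0 : ι → Matrix (Fin 2) (Fin 2) T0}
    {A₀ : Type} [CommRing A₀] [IsLocalRing A₀] [Algebra O A₀]
    {ιA : ResidueField O →+* ResidueField A₀}
    {ρ : GaloisRepAdic A₀} {b : Module.Basis (Fin 2) A₀ ρ.V}
    {φ1 φχ : A₀ →ₐ[O] Matrix (Fin d) (Fin d) (RthkSn O m n')}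
    (H : HkOut p lam ρbar Smin QT σ φ tχ m h d n' j0 Sig0 Phi0 ιA ρ b φ1 φχ) :
    HkOut p lam ρbar Smin QT σ φ tχ m h d n j0 Sig0 Phi0 ιA ρ b
      ((rthkdProjM (O := O) m hn d).comp φ1) ((rthkdProjM (O := O) m hn d).comp φχ) where
  finite := H.finite
  resAlg := H.resAlg
  hιA := H.hιA
  flat := H.flat
  ann := H.ann
  res := H.res
  gen := H.gen
  scalY1 j hj := by
    obtain ⟨a, ha⟩ := H.scalY1 j hj
    refine ⟨a, ?_⟩
    rw [AlgHom.comp_apply, ha, rthkdProjM_scalar, map_pow, rthkdProj_mk]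
  scalYχ j hj := by
    obtain ⟨a, ha⟩ := H.scalYχ j hj
    refine ⟨a, ?_⟩
    rw [AlgHom.comp_apply, ha, rthkdProjM_scalar, map_pow, rthkdProj_mk]
  tr1 i := by
    rw [AlgHom.comp_apply, H.tr1 i, map_ofNat]
  trχ i := by
    rw [AlgHom.comp_apply, H.trχ i, AlgHom.commutes]
  cong u := by
    rw [AlgHom.comp_apply, AlgHom.comp_apply, rthkd_factor, rthkd_factor, H.cong u]
  base_sig i a c := by
    rw [AlgHom.comp_apply, rthkd_factor, H.base_sig i a c, rthkd_baseRed m hn]
  base_phi i a c := by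
    rw [AlgHom.comp_apply, rthkd_factor, H.base_phi i a c, rthkd_baseRed m hn]
  base_T0 u := by
    obtain ⟨t0, ht0⟩ := H.base_T0 u
    refine ⟨t0, ?_⟩
    rw [AlgHom.comp_apply, rthkd_factor, ht0, rthkd_baseRed m hn]

end Out

end Fermat.Agent.RT
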