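import Fermat.Agent.RT.Hecke.PlanFinal
import Fermat.Agent.RT.Hecke.Down
import Fermat.Agent.S31.Lucas

/-!
# K-machine, HECKE-asm: the final assembly

`rthk_final : WeakChebotarev → StmtHkAbsB → StmtHkAbsL → StmtHkPack → StmtHkRes →
  StmtHkModSide → Prod.StmtHecke`.
-/

set_option autoImplicit false

namespace Fermat.Agent.RT

open IsLocalRing Fermat.Agent.ES Fermat.Agent.S30 Fermat.Agent.W1 Fermat.Agent.TW
open Fermat.Agent.RT.Prod ExtCitation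
open WeierstrassCurve WeierstrassCurve.Affine WeierstrassCurve.Affine.Point

/-- `2 * (1/2) = 1` in a setup -/
theorem rthk_f_half {P : FreyPackage} {N q : ℕ} (Y : KSetup P N q) : 2 * Y.half = 1 := by
  have h := Y.h2.unit.mul_inv
  rw [IsUnit.unit_spec] at h
  exact h

/-- **HECKE-final.** -/
theorem rthk_final (hcheb : Cheb.WeakChebotarev) (hB : StmtHkAbsB) (hL : StmtHkAbsL)
    (hPack : StmtHkPack) (hRes : StmtHkRes) (hMod : StmtHkModSide) : Prod.StmtHecke := by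
  intro P N q _ hN hpN hq hq2 hqN hirr hmod htriv Y h
  have : Fact P.p.Prime := ⟨P.pp⟩
  obtain ⟨⟨σ₀, τ₀, hξ⟩, hunip⟩ := hRes P N q Y
  obtain ⟨d, hd, S', hpS', hNS', 𝕋₀, i1, J₀, i2, i3, i4, Tr₀, Φ0, hbase, hlev⟩ :=
    hMod P N q hN hpN hq hq2 hqN hirr hmod htriv Y h
  obtain ⟨B⟩ := hB hcheb P N q Y d hd σ₀ τ₀ hξ S' hpS' hNS' 𝕋₀ J₀ Tr₀ Φ0 hbase
  refine ⟨{ d := d, hd := hd, T0 := B.T0, j0 := B.j0, hj0 := B.hj0, ρ0 := B.ρ0, b0 := B.b0,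
            hdet0 := B.hdet0, ι0 := B.ι0, hres0 := B.hres0, habs0 := B.habs0, S' := S',
            hpS' := B.hpS', hNS' := B.hNS', a := B.a, hocc := B.hocc, hcong := B.hcong,
            hfrob := B.hfrob, level := ?_ }⟩
  intro n qv hqv
  obtain ⟨L, 𝕋, j1, J, j2, j3, j4, Tr, Φ1, Φχ, hlevel⟩ := hlev n qv hqv
  -- the hypotheses of HK-ABS-L
  have hunip' : ∀ r ∈ Y.Smin, r.Prime → r ≠ P.p → ¬ P.p ∣ r ^ 2 - 1 ∧
      ∀ A : ValuationSubring (AlgebraicClosure ℚ), A.LiesOverPrime r →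
        ∀ s ∈ A.inertiaSubgroupIn ℚ,
          LinearMap.charpoly (Y.ρbar.ρ s) = (Polynomial.X - 1) ^ 2 := by
    intro r hr _ hrp
    rw [Y.hSmin, Finset.mem_insert, Finset.mem_singleton] at hr
    rcases hr with rfl | rfl
    · refine ⟨fun hdvd => ?_, hunip⟩
      have h5 := P.hp5
      have := Nat.le_of_dvd (by norm_num) hdvd
      omega
    · exact absurd rfl hrp
  have htrace : ∀ ℓ : ℕ, ℓ.Prime → ℓ ∉ S' →
      ∀ A : ValuationSubring (AlgebraicClosure ℚ), A.LiesOverPrime ℓ →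
        ∀ τ : GQ, A.IsFrobeniusAt τ ℓ →
          B.j0 (LinearMap.trace B.T0 B.ρ0.V (B.ρ0.ρ τ)) = Φ0 (Tr₀ ℓ) := by
    intro ℓ hℓ hℓS A hA τ hτ
    have h1 := B.hfrob ⟨ℓ, hℓ⟩ hℓS A hA τ hτ
    rw [Fermat.Agent.S31.trace_of_charpoly B.ρ0.finrank_eq (B.ρ0.ρ τ) _ _ h1]
    exact B.ha0 ⟨ℓ, hℓ⟩ hℓS
  obtain ⟨A₀, k1, k2, k3, ιA, ρ, b, φ1, φχ, hout⟩ :=
    hL hcheb P.p Y.hyp.hp2 Y.O Y.lam Y.half Y.hlam Y.hyp.hp𝒪 (rthk_f_half Y) Y.ρbar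
      Y.hyp.habs Y.hyp.hdet Y.Smin (Finset.univ.image qv ∪ Finset.univ.image Y.r) hunip'
      Y.ι Y.σ Y.φ Y.tχ (Y.m h) h d (n + 1) hd (Nat.succ_pos n) σ₀ τ₀ hξ B.T0 B.j0 B.ρ0 B.b0
      B.u0 B.hdet0 B.hmat B.hu0 S' (fun ℓ => Φ0 (Tr₀ ℓ)) htrace L 𝕋 J Tr Φ1 Φχ hlevel
  have hdown := rthk_d_out (n := n) (Nat.le_succ n) hout
  exact hPack P N q Y h d n (Finset.univ.image qv) B.T0 B.j0 _ _ A₀ ιA ρ b _ _ hdown

end Fermat.Agent.RT
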