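import Mathlib

/-!
# K-machine, HECKE-asm, piece HK-GRP (Mathlib only): the diamond group of level `Q`

Setting: `p` an odd prime, `κ` a finite index type (trivial primes and Taylor–Wiles primes),
`v : κ → ℕ` injective with prime values, `k : κ → ℕ` with `p ^ k x ∣ v x - 1`, `M ≠ 0` with
`v x ∣ M` for all `x`.  `Δ' := ∀ x : κ, Multiplicative (ZMod (p ^ k x))`.

* `rthkg_exists` (G1) : `∃ π : (ZMod M)ˣ →* Δ'`, surjective, `π (-1) = 1`, and the `x`-th
  component of `π u` depends on `u` modulo `v x` only;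
* `rthkg_pow_eq_one`, `rthkg_pow_mem_ker` : `Δ'` has exponent dividing `p ^ K` (`k x ≤ K`);
* `rthkg_card`, `rthkg_index_ker` : `#Δ' = [(ℤ/M)ˣ : ker π] = p ^ ∑ k x`;
* `rthkg_exists_section`, `rthkg_exists_enum` (G3) : a section of `π` and an enumeration of `Δ'`;
* `rthkg_section_unique` : the transversal property of a section.
-/

set_option autoImplicit false
set_option linter.style.haveILetI false
set_option linter.unusedSectionVars false

namespace Fermat.Agent.RT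

open Function (onFun)

/-- a cyclic group of order divisible by `d` surjects onto `Multiplicative (ZMod d)` -/
theorem rthkg_cyclic_surj {G : Type*} [Group G] [hG : IsCyclic G] (d : ℕ)
    (hd : d ∣ Nat.card G) :
    ∃ φ : G →* Multiplicative (ZMod d), Function.Surjective φ := by
  let e := zmodCyclicMulEquiv hG
  let c : Multiplicative (ZMod (Nat.card G)) →* Multiplicative (ZMod d) :=
    AddMonoidHom.toMultiplicative (ZMod.castHom hd (ZMod d)).toAddMonoidHom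
  refine ⟨c.comp e.symm.toMonoidHom, ?_⟩
  have hc : Function.Surjective c := fun y => by
    obtain ⟨x, hx⟩ := ZMod.castHom_surjective hd (Multiplicative.toAdd y)
    exact ⟨Multiplicative.ofAdd x, by
      show Multiplicative.ofAdd (ZMod.castHom hd (ZMod d) x) = y
      rw [hx]; rfl⟩
  exact hc.comp e.symm.surjective

/-- the units of `ZMod r`, `r` prime, surject onto `Multiplicative (ZMod d)` for `d ∣ r - 1` -/
theorem rthkg_prime_surj {r : ℕ} (hr : r.Prime) (d : ℕ) (hd : d ∣ r - 1) :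
    ∃ φ : (ZMod r)ˣ →* Multiplicative (ZMod d), Function.Surjective φ := by
  haveI : Fact r.Prime := ⟨hr⟩
  apply rthkg_cyclic_surj
  rw [Nat.card_eq_fintype_card, ZMod.card_units]
  exact hd

/-- in `Multiplicative (ZMod d)`, `d` odd, an element of square `1` is trivial -/
theorem rthkg_eq_one_of_sq {d : ℕ} (hd : Odd d) (y : Multiplicative (ZMod d))
    (hy : y ^ 2 = 1) : y = 1 := by
  haveI : NeZero d := ⟨fun h => by subst h; simp at hd⟩
  have h1 : orderOf y ∣ 2 := orderOf_dvd_of_pow_eq_one hy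
  have h2 : orderOf y ∣ d := by
    have := orderOf_dvd_natCard y
    rwa [Nat.card_eq_fintype_card, Fintype.card_multiplicative, ZMod.card] at this
  have h3 : orderOf y ∣ Nat.gcd 2 d := Nat.dvd_gcd h1 h2
  have h4 : Nat.gcd 2 d = 1 := Nat.coprime_two_left.mpr hd
  rw [h4, Nat.dvd_one] at h3
  exact orderOf_eq_one_iff.mp h3

/-- `y ^ d = 1` in `Multiplicative (ZMod d)` -/
theorem rthkg_pow_self (d : ℕ) (y : Multiplicative (ZMod d)) : y ^ d = 1 := by
  show Multiplicative.ofAdd (d • Multiplicative.toAdd y) = 1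
  rw [nsmul_eq_mul, ZMod.natCast_self, zero_mul]
  rfl

section Pi

variable {κ : Type} [Fintype κ] {p : ℕ} {k : κ → ℕ}

/-- `Δ'` has exponent dividing `p ^ K` -/
theorem rthkg_pow_eq_one {K : ℕ} (hK : ∀ x, k x ≤ K)
    (δ : ∀ x : κ, Multiplicative (ZMod (p ^ k x))) : δ ^ (p ^ K) = 1 := by
  funext x
  rw [Pi.pow_apply, Pi.one_apply]
  obtain ⟨j, hj⟩ := pow_dvd_pow p (hK x)
  rw [hj, pow_mul, rthkg_pow_self, one_pow]

/-- `#Δ' = p ^ ∑ k x` -/
theorem rthkg_card (hp : p ≠ 0) :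
    Nat.card (∀ x : κ, Multiplicative (ZMod (p ^ k x))) = p ^ ∑ x, k x := by
  classical
  haveI : ∀ x : κ, NeZero (p ^ k x) := fun x => ⟨pow_ne_zero _ hp⟩
  rw [Nat.card_eq_fintype_card, Fintype.card_pi, ← Finset.prod_pow_eq_pow_sum]
  refine Finset.prod_congr rfl fun x _ => ?_
  rw [Fintype.card_multiplicative, ZMod.card]

/-- `Δ'` is finite -/
theorem rthkg_finite (hp : p ≠ 0) : Finite (∀ x : κ, Multiplicative (ZMod (p ^ k x))) := by
  classical
  haveI : ∀ x : κ, NeZero (p ^ k x) := fun x => ⟨pow_ne_zero _ hp⟩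
  infer_instance

variable {M : ℕ}

/-- `c ^ (p ^ K) ∈ ker π` -/
theorem rthkg_pow_mem_ker {K : ℕ} (hK : ∀ x, k x ≤ K)
    (π : (ZMod M)ˣ →* (∀ x : κ, Multiplicative (ZMod (p ^ k x)))) (c : (ZMod M)ˣ) :
    c ^ (p ^ K) ∈ π.ker := by
  rw [MonoidHom.mem_ker, map_pow, rthkg_pow_eq_one hK]

/-- `c ^ n ∈ ker π` if `p ^ K ∣ n` -/
theorem rthkg_pow_mem_ker_of_dvd {K : ℕ} (hK : ∀ x, k x ≤ K)
    (π : (ZMod M)ˣ →* (∀ x : κ, Multiplicative (ZMod (p ^ k x)))) (c : (ZMod M)ˣ) {n : ℕ}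
    (hn : p ^ K ∣ n) : c ^ n ∈ π.ker := by
  obtain ⟨j, rfl⟩ := hn
  rw [pow_mul]
  exact pow_mem (rthkg_pow_mem_ker hK π c) j

/-- `[(ℤ/M)ˣ : ker π] = p ^ ∑ k x` -/
theorem rthkg_index_ker (hp : p ≠ 0)
    (π : (ZMod M)ˣ →* (∀ x : κ, Multiplicative (ZMod (p ^ k x))))
    (hπ : Function.Surjective π) : π.ker.index = p ^ ∑ x, k x := by
  rw [Subgroup.index_ker, MonoidHom.range_eq_top.mpr hπ, ← rthkg_card (k := k) hp]
  exact Nat.card_congr (Subgroup.topEquiv.toEquiv)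

/-- (G3) a section of `π` -/
theorem rthkg_exists_section
    (π : (ZMod M)ˣ →* (∀ x : κ, Multiplicative (ZMod (p ^ k x))))
    (hπ : Function.Surjective π) :
    ∃ u : (∀ x : κ, Multiplicative (ZMod (p ^ k x))) → (ZMod M)ˣ, ∀ δ, π (u δ) = δ :=
  ⟨Function.surjInv hπ, Function.surjInv_eq hπ⟩

/-- (G3) an enumeration of `Δ'` -/
theorem rthkg_exists_enum (hp : p ≠ 0) :
    Nonempty (Fin (p ^ ∑ x, k x) ≃ (∀ x : κ, Multiplicative (ZMod (p ^ k x)))) := by
  haveI := rthkg_finite (κ := κ) (k := k) hp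
  have h := rthkg_card (κ := κ) (k := k) hp
  exact ⟨((Finite.equivFinOfCardEq h)).symm⟩

/-- (G3) the transversal property of a section: `(u δ)⁻¹ * c ∈ ker π ↔ δ = π c` -/
theorem rthkg_section_mem_iff
    (π : (ZMod M)ˣ →* (∀ x : κ, Multiplicative (ZMod (p ^ k x))))
    (u : (∀ x : κ, Multiplicative (ZMod (p ^ k x))) → (ZMod M)ˣ) (hu : ∀ δ, π (u δ) = δ)
    (δ : ∀ x : κ, Multiplicative (ZMod (p ^ k x))) (c : (ZMod M)ˣ) :
    (u δ)⁻¹ * c ∈ π.ker ↔ δ = π c := by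
  rw [MonoidHom.mem_ker, map_mul, map_inv, hu, inv_mul_eq_one]

end Pi

section CRT

variable {κ : Type} [Fintype κ] {v : κ → ℕ} {M : ℕ}

theorem rthkg_pairwise_coprime (hv : Function.Injective v) (hvp : ∀ x, (v x).Prime) :
    Pairwise (Function.onFun Nat.Coprime v) := fun x y hxy =>
  (Nat.coprime_primes (hvp x) (hvp y)).mpr fun h => hxy (hv h)

/-- `∏ v x ∣ M` -/
theorem rthkg_prod_dvd (hv : Function.Injective v) (hvp : ∀ x, (v x).Prime)
    (hM : ∀ x, v x ∣ M) : ∏ x, v x ∣ M :=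
  Fintype.prod_dvd_of_isRelPrime
    (fun _ _ hxy => Nat.coprime_iff_isRelPrime.mp (rthkg_pairwise_coprime hv hvp hxy)) hM

/-- `v y ∣ M / r` for a prime `r ∣ M` different from `v y` -/
theorem rthkg_dvd_div {r : ℕ} (hr : r.Prime) (hrM : r ∣ M) {q : ℕ} (hq : q.Prime) (hqM : q ∣ M)
    (hne : q ≠ r) : q ∣ M / r := by
  have hco : Nat.Coprime r q := (Nat.coprime_primes hr hq).mpr (Ne.symm hne)
  have h := hco.mul_dvd_of_dvd_of_dvd hrM hqM
  obtain ⟨t, ht⟩ := h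
  rw [ht, mul_assoc, Nat.mul_div_cancel_left _ hr.pos]
  exact dvd_mul_right _ _

/-- **CRT for units**: `(ℤ/M)ˣ → ∏ (ℤ/v x)ˣ` is surjective. -/
theorem rthkg_crt_units [NeZero M] (hv : Function.Injective v) (hvp : ∀ x, (v x).Prime)
    (hM : ∀ x, v x ∣ M) (t : ∀ x, (ZMod (v x))ˣ) :
    ∃ u : (ZMod M)ˣ, ∀ x, ZMod.unitsMap (hM x) u = t x := by
  classical
  have hco := rthkg_pairwise_coprime hv hvp
  have hPM := rthkg_prod_dvd hv hvp hM
  let E := ZMod.prodEquivPi v hco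
  -- the unit of `ZMod (∏ v x)` with the given components
  let w : (∀ x, ZMod (v x))ˣ := MulEquiv.piUnits.symm t
  let y : (ZMod (∏ x, v x))ˣ := Units.mapEquiv E.symm.toMulEquiv w
  obtain ⟨u, hu⟩ := ZMod.unitsMap_surjective hPM y
  refine ⟨u, fun x => ?_⟩
  have hx : v x ∣ ∏ x, v x := Finset.dvd_prod_of_mem v (Finset.mem_univ x)
  have h1 : ZMod.unitsMap (hM x) u = ZMod.unitsMap hx (ZMod.unitsMap hPM u) := by
    rw [← MonoidHom.comp_apply, ZMod.unitsMap_comp hx hPM]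
  rw [h1, hu]
  ext
  show ZMod.castHom hx (ZMod (v x)) ((y : (ZMod (∏ x, v x))ˣ) : ZMod (∏ x, v x)) = _
  rw [← ZMod.prodEquivPi_apply v hco]
  show E (E.symm (w : ∀ x, ZMod (v x))) x = _
  rw [RingEquiv.apply_symm_apply]
  rfl

end CRT

section Main

variable {κ : Type} [Fintype κ]

/-- **HK-GRP (G1)**: the projection of `(ℤ/M)ˣ` onto the diamond group `Δ'` of level `Q`. -/
theorem rthkg_exists {p : ℕ} (hp : p.Prime) (hp2 : p ≠ 2) (v k : κ → ℕ)
    (hv : Function.Injective v) (hvp : ∀ x, (v x).Prime) (hk : ∀ x, p ^ k x ∣ v x - 1)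
    {M : ℕ} (hM0 : M ≠ 0) (hM : ∀ x, v x ∣ M) :
    ∃ π : (ZMod M)ˣ →* (∀ x : κ, Multiplicative (ZMod (p ^ k x))),
      Function.Surjective π ∧ π (-1) = 1 ∧
      ∀ (x : κ) (u u' : (ZMod M)ˣ),
        ZMod.unitsMap (hM x) u = ZMod.unitsMap (hM x) u' → π u x = π u' x := by
  haveI : NeZero M := ⟨hM0⟩
  choose φ hφ using fun x => rthkg_prime_surj (hvp x) (p ^ k x) (hk x)
  let π : (ZMod M)ˣ →* (∀ x : κ, Multiplicative (ZMod (p ^ k x))) :=
    MonoidHom.pi fun x => (φ x).comp (ZMod.unitsMap (hM x))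
  have hπ : ∀ u x, π u x = φ x (ZMod.unitsMap (hM x) u) := fun _ _ => rfl
  refine ⟨π, ?_, ?_, ?_⟩
  · intro δ
    choose t ht using fun x => hφ x (δ x)
    obtain ⟨u, hu⟩ := rthkg_crt_units hv hvp hM t
    refine ⟨u, funext fun x => ?_⟩
    rw [hπ, hu, ht]
  · funext x
    rw [Pi.one_apply]
    apply rthkg_eq_one_of_sq ((hp.odd_of_ne_two hp2).pow)
    rw [← Pi.pow_apply, ← map_pow]
    have : ((-1 : (ZMod M)ˣ)) ^ 2 = 1 := by simp
    rw [this, map_one, Pi.one_apply]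
  · intro x u u' h
    rw [hπ, hπ, h]

end Main

end Fermat.Agent.RT
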