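import Fermat.Agent.RT.Hecke.Grp
import Fermat.Agent.RT.K6.PlanP
import Fermat.Agent.RT.K6.FCoset
import Fermat.Agent.RT.K7F.Plan

/-!
# K-machine, HECKE-asm, piece HK-GRP (G2): the level facts for `H' = ker π`

`π : (ZMod M)ˣ →* Δ'`, `Δ' = ∀ x : κ, Multiplicative (ZMod (p ^ k x))`, as in `rthkg_exists`:
surjective (`hsurj`), `π (-1) = 1` (`hneg`), the `x`-th component depends on `u` mod `v x` only
(`hfac`).  Then for `H' := π.ker`:

* `rthkg_pmH_ker` : `ES1.pmH H' = H'`;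
* `rthkg_pow_mem_pmH` : `c ^ n ∈ pmH H'` for `p ^ K ∣ n` (`k x ≤ K`); `rthkg_hE` : the input `hE`
  of `es1inftw_pkg` for `2 e ≡ 1` mod `p ^ K`; `rthkg_exists_e`;
* `rthkg_isStarStable` : `RT.K6.IsStarStable M r H'` for every prime `r ∣ M`;
* `rthkg_isTameAt` : `RT.K6.IsTameAt L M r H'` (`5 ≤ p`, `p ∤ L`);
* `rthkg_index_pmH` : `(pmH H').index = p ^ ∑ k x`;
* `rthkg_k7fLevel` : `RT.K7F.K7FLevel L M H' p`.
-/

set_option autoImplicit false
set_option linter.unusedSectionVars false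
set_option linter.style.haveILetI false

namespace Fermat.Agent.RT

open Fermat.Agent.ES1 Fermat.Agent.RT.K6 Fermat.Agent.RT.K7F

section Level

variable {κ : Type} [Fintype κ] {p : ℕ} {k : κ → ℕ} {M : ℕ}

/-- `±H' = H'` -/
theorem rthkg_pmH_ker (π : (ZMod M)ˣ →* (∀ x : κ, Multiplicative (ZMod (p ^ k x))))
    (hneg : π (-1) = 1) : pmH π.ker = π.ker := by
  unfold pmH
  rw [sup_eq_left, Subgroup.zpowers_le]
  exact MonoidHom.mem_ker.mpr hneg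

/-- `c ^ n ∈ ±H'` for `p ^ K ∣ n` -/
theorem rthkg_pow_mem_pmH {K : ℕ} (hK : ∀ x, k x ≤ K)
    (π : (ZMod M)ˣ →* (∀ x : κ, Multiplicative (ZMod (p ^ k x)))) (c : (ZMod M)ˣ) {n : ℕ}
    (hn : p ^ K ∣ n) : c ^ n ∈ pmH π.ker :=
  le_pmH _ (rthkg_pow_mem_ker_of_dvd hK π c hn)

/-- the input `hE` of `es1inftw_pkg` -/
theorem rthkg_hE {K : ℕ} (hK : ∀ x, k x ≤ K)
    (π : (ZMod M)ˣ →* (∀ x : κ, Multiplicative (ZMod (p ^ k x)))) (e : ℕ)
    (he : p ^ K ∣ 2 * e - 1) : ∀ c : (ZMod M)ˣ, c ^ (2 * e - 1) ∈ pmH π.ker :=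
  fun c => rthkg_pow_mem_pmH hK π c he

/-- an exponent `e` with `2 e ≡ 1` mod `p ^ K` -/
theorem rthkg_exists_e (hp : Odd p) (K : ℕ) : ∃ e : ℕ, 1 ≤ e ∧ 2 * e - 1 = p ^ K := by
  obtain ⟨j, hj⟩ := hp.pow (n := K)
  exact ⟨j + 1, by omega, by omega⟩

/-- `k x ≤ ∑ k` -/
theorem rthkg_le_sum (k : κ → ℕ) (x : κ) : k x ≤ ∑ y, k y :=
  Finset.single_le_sum (f := k) (fun _ _ => Nat.zero_le _) (Finset.mem_univ x)

/-- `unitsMap` in terms of the casts of the values -/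
theorem rthkg_unitsMap_eq [NeZero M] {n : ℕ} (hn : n ∣ M) (u u' : (ZMod M)ˣ)
    (h : (((u : ZMod M).val : ℕ) : ZMod n) = (((u' : ZMod M).val : ℕ) : ZMod n)) :
    ZMod.unitsMap hn u = ZMod.unitsMap hn u' := by
  ext
  rw [ZMod.unitsMap_val, ZMod.unitsMap_val, ← ZMod.natCast_val, ← ZMod.natCast_val]
  exact h

/-- casts of values descend along divisors -/
theorem rthkg_cast_of_dvd {n m : ℕ} (hnm : n ∣ m) {a b : ℕ}
    (h : (a : ZMod m) = (b : ZMod m)) : (a : ZMod n) = (b : ZMod n) := by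
  have := congrArg (ZMod.castHom hnm (ZMod n)) h
  simpa using this

/-- **`H'` is star-stable** at every prime `r ∣ M`. -/
theorem rthkg_isStarStable (hM0 : M ≠ 0) (v : κ → ℕ) (hvp : ∀ x, (v x).Prime)
    (hM : ∀ x, v x ∣ M)
    (π : (ZMod M)ˣ →* (∀ x : κ, Multiplicative (ZMod (p ^ k x))))
    (hfac : ∀ (x : κ) (u u' : (ZMod M)ˣ),
        ZMod.unitsMap (hM x) u = ZMod.unitsMap (hM x) u' → π u x = π u' x)
    {r : ℕ} (hr : r.Prime) (hrM : r ∣ M) : IsStarStable M r π.ker := by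
  haveI : NeZero M := ⟨hM0⟩
  intro h hh h' h1 h2
  apply le_pmH
  rw [MonoidHom.mem_ker] at hh ⊢
  funext y
  rw [Pi.one_apply]
  by_cases hy : v y = r
  · have e1 : ZMod.unitsMap (hM y) h' = ZMod.unitsMap (hM y) h⁻¹ := by
      apply rthkg_unitsMap_eq
      rw [hy]
      exact h1
    rw [hfac y _ _ e1, map_inv, hh, inv_one, Pi.one_apply]
  · have hd : v y ∣ M / r := rthkg_dvd_div hr hrM (hvp y) (hM y) hy
    have e1 : ZMod.unitsMap (hM y) h' = ZMod.unitsMap (hM y) h := by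
      apply rthkg_unitsMap_eq
      exact rthkg_cast_of_dvd hd h2
    rw [hfac y _ _ e1, hh, Pi.one_apply]

/-- **`H'` is tame** (`5 ≤ p`, `p ∤ L`). -/
theorem rthkg_isTameAt (hp : p.Prime) (h5 : 5 ≤ p) {L : ℕ} (hpL : ¬ p ∣ L)
    (π : (ZMod M)ˣ →* (∀ x : κ, Multiplicative (ZMod (p ^ k x)))) (r : ℕ) :
    IsTameAt L M r π.ker := by
  refine ⟨p ^ ∑ x, k x, ?_, fun c => rthkg_pow_mem_pmH (rthkg_le_sum k) π c dvd_rfl⟩
  apply Nat.Coprime.pow_left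
  rw [Nat.Prime.coprime_iff_not_dvd hp]
  intro h
  rcases (Nat.Prime.dvd_mul hp).mp h with h6 | hL
  · have h6' := Nat.le_of_dvd (by norm_num) h6
    have : p = 5 ∨ p = 6 := by omega
    rcases this with rfl | rfl
    · norm_num at h6
    · norm_num at hp
  · exact hpL hL

/-- `[(ℤ/M)ˣ : ±H'] = p ^ ∑ k x` -/
theorem rthkg_index_pmH (hp : p ≠ 0)
    (π : (ZMod M)ˣ →* (∀ x : κ, Multiplicative (ZMod (p ^ k x))))
    (hsurj : Function.Surjective π) (hneg : π (-1) = 1) :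
    (pmH π.ker).index = p ^ ∑ x, k x := by
  rw [rthkg_pmH_ker π hneg, rthkg_index_ker hp π hsurj]

/-- **`K7FLevel` for `H'`**. -/
theorem rthkg_k7fLevel {L : ℕ} (hL : 2 ≤ L) (hML : M ∣ L) (hp : p.Prime) (hp2 : p ≠ 2)
    (hpL : ¬ p ∣ L) (h5 : 5 ≤ p ∨ (5 - p) ∣ L) (hsq : Squarefree M)
    (π : (ZMod M)ˣ →* (∀ x : κ, Multiplicative (ZMod (p ^ k x))))
    (hsurj : Function.Surjective π) (hneg : π (-1) = 1) : K7FLevel L M π.ker p where
  hL := hL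
  hML := hML
  hp := hp
  hp2 := hp2
  hpL := hpL
  h5 := h5
  sqfree := hsq
  pgroup := fun m a ha => ⟨∑ x, k x, by
    rw [← rthkg_index_pmH hp.ne_zero π hsurj hneg, rtk6f_index_of_repFam ha]⟩

end Level

end Fermat.Agent.RT
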