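import Fermat.Agent.RT.Hecke.GrpBridge

/-!
# K-machine, HECKE-asm, HK-GRP at the concrete index type `κ = Fin h ⊕ ι`

`qv : Fin h → ℕ` the Taylor–Wiles primes of level `n` (`p ^ (n + 1) ∣ qv j - 1`), `r : ι → ℕ` the
trivial primes (`p ∣ r i - 1`, `r i ∣ N`), `N` the base level.  As in helper9's `ConcArith`:
`v = Sum.elim qv r`, `k = Sum.elim (fun _ => n + 1) (fun _ => 1)` (`= rthkciExp h ι (n + 1)`),
`M = rthkdM v`, `L = N * rthkdM qv`, `H' = rthkdH p v k M (rthkd_dvd_M v)`.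

* `RthkgsHyp p n N qv r` : the arithmetic hypotheses (all of them follow from `KSetup`,
  `IsTWFamily`, `IsTrivSet`, `¬ p ∣ N`);
* `rthkgsV`, `rthkgsK`, `rthkgsM`, `rthkgsL`, `rthkgsH` : the objects;
* `rthkgs_hv`, `rthkgs_hvp`, `rthkgs_hk`, `rthkgs_M_dvd_L`, `rthkgs_not_dvd_L`, `rthkgs_two_le_L`,
  `rthkgs_squarefree`, `rthkgs_k_le`;
* `rthkgs_k7fLevel`, `rthkgs_isStarStable`, `rthkgs_isTameAt`, `rthkgs_index`, `rthkgs_pmH`,
  `rthkgs_hE`, `rthkgs_freeHyp_index`, `rthkgs_exists_transversal`, `rthkgs_equiv` (`κ_γ`).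
-/

set_option autoImplicit false
set_option linter.unusedSectionVars false
set_option linter.style.haveILetI false

namespace Fermat.Agent.RT

open Fermat.Agent.ES1 Fermat.Agent.RT.K5 Fermat.Agent.RT.K6 Fermat.Agent.RT.K7F

section Sum

variable {ι : Type} [Fintype ι] {h : ℕ}

/-- the arithmetic hypotheses on the Taylor–Wiles primes `qv` and the trivial primes `r` -/
structure RthkgsHyp (p n N : ℕ) (qv : Fin h → ℕ) (r : ι → ℕ) : Prop where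
  hp : p.Prime
  h5 : 5 ≤ p
  hpN : ¬ p ∣ N
  hN : 2 ≤ N
  qinj : Function.Injective qv
  qprime : ∀ j, (qv j).Prime
  qp : ∀ j, p ^ (n + 1) ∣ qv j - 1
  qN : ∀ j, ¬ qv j ∣ N
  rinj : Function.Injective r
  rprime : ∀ i, (r i).Prime
  rp : ∀ i, p ∣ r i - 1
  rN : ∀ i, r i ∣ N

/-- the primes of the diamonds -/
abbrev rthkgsV (qv : Fin h → ℕ) (r : ι → ℕ) : Fin h ⊕ ι → ℕ := Sum.elim qv r

/-- the exponents -/
abbrev rthkgsK (h : ℕ) (ι : Type) (ν : ℕ) : Fin h ⊕ ι → ℕ := Sum.elim (fun _ => ν) (fun _ => 1)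

/-- the level `M` of the diamonds -/
abbrev rthkgsM (qv : Fin h → ℕ) (r : ι → ℕ) : ℕ := rthkdM (rthkgsV qv r)

/-- the level `L` -/
abbrev rthkgsL (N : ℕ) (qv : Fin h → ℕ) : ℕ := N * rthkdM qv

/-- the group `H'` -/
abbrev rthkgsH (p n : ℕ) (qv : Fin h → ℕ) (r : ι → ℕ) : Subgroup (ZMod (rthkgsM qv r))ˣ :=
  rthkdH p (rthkgsV qv r) (rthkgsK h ι (n + 1)) (rthkgsM qv r) (rthkd_dvd_M (rthkgsV qv r))

variable {p n N : ℕ} {qv : Fin h → ℕ} {r : ι → ℕ}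

theorem rthkgs_hp2 (H : RthkgsHyp p n N qv r) : p ≠ 2 := by
  have := H.h5; omega

theorem rthkgs_q_ne_r (H : RthkgsHyp p n N qv r) (j : Fin h) (i : ι) : qv j ≠ r i :=
  fun e => H.qN j (e ▸ H.rN i)

theorem rthkgs_q_ne_p (H : RthkgsHyp p n N qv r) (j : Fin h) : qv j ≠ p := by
  intro e
  have h1 : p ∣ qv j - 1 := dvd_trans (dvd_pow_self p (Nat.succ_ne_zero n)) (H.qp j)
  rw [e] at h1
  have h2 := Nat.le_of_dvd (by have := H.h5; omega) h1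
  have := H.h5
  omega

theorem rthkgs_hv (H : RthkgsHyp p n N qv r) : Function.Injective (rthkgsV qv r) := by
  rintro (a | a) (b | b) e
  · exact congrArg Sum.inl (H.qinj e)
  · exact absurd e (rthkgs_q_ne_r H a b)
  · exact absurd e.symm (rthkgs_q_ne_r H b a)
  · exact congrArg Sum.inr (H.rinj e)

theorem rthkgs_hvp (H : RthkgsHyp p n N qv r) : ∀ x, (rthkgsV qv r x).Prime := by
  rintro (a | a)
  · exact H.qprime a
  · exact H.rprime a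

theorem rthkgs_hk (H : RthkgsHyp p n N qv r) :
    ∀ x, p ^ rthkgsK h ι (n + 1) x ∣ rthkgsV qv r x - 1 := by
  rintro (a | a)
  · exact H.qp a
  · show p ^ 1 ∣ r a - 1
    rw [pow_one]
    exact H.rp a

theorem rthkgs_k_le (x : Fin h ⊕ ι) (n : ℕ) : rthkgsK h ι (n + 1) x ≤ n + 1 := by
  rcases x with a | a
  · exact le_rfl
  · show 1 ≤ n + 1
    omega

theorem rthkgs_k_ne_zero (x : Fin h ⊕ ι) (n : ℕ) : rthkgsK h ι (n + 1) x ≠ 0 := by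
  rcases x with a | a
  · exact Nat.succ_ne_zero n
  · exact one_ne_zero

theorem rthkgs_M_eq (qv : Fin h → ℕ) (r : ι → ℕ) : rthkgsM qv r = rthkdM qv * rthkdM r :=
  rthkdM_sum qv r

theorem rthkgs_M_ne_zero (H : RthkgsHyp p n N qv r) : rthkgsM qv r ≠ 0 :=
  rthkdM_ne_zero _ fun x => (rthkgs_hvp H x).ne_zero

theorem rthkgs_M_dvd_L (H : RthkgsHyp p n N qv r) : rthkgsM qv r ∣ rthkgsL N qv := by
  rw [rthkgs_M_eq, mul_comm]
  exact mul_dvd_mul_right (rthkdM_dvd_of_primes r H.rprime H.rinj H.rN) _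

theorem rthkgs_not_dvd_L (H : RthkgsHyp p n N qv r) : ¬ p ∣ rthkgsL N qv := by
  intro hd
  rcases (Nat.Prime.dvd_mul H.hp).mp hd with h1 | h1
  · exact H.hpN h1
  · unfold rthkdM at h1
    obtain ⟨j, -, hj⟩ := (Prime.dvd_finsetProd_iff H.hp.prime _).mp h1
    exact rthkgs_q_ne_p H j ((Nat.prime_dvd_prime_iff_eq H.hp (H.qprime j)).mp hj).symm

theorem rthkgs_two_le_L (H : RthkgsHyp p n N qv r) : 2 ≤ rthkgsL N qv := by
  have h1 : 1 ≤ rthkdM qv :=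
    Nat.one_le_iff_ne_zero.mpr (rthkdM_ne_zero _ fun j => (H.qprime j).ne_zero)
  calc 2 ≤ N := H.hN
    _ = N * 1 := (mul_one N).symm
    _ ≤ N * rthkdM qv := Nat.mul_le_mul_left N h1

theorem rthkgs_squarefree (H : RthkgsHyp p n N qv r) : Squarefree (rthkgsM qv r) :=
  rthkgb_squarefree (rthkgs_hv H) (rthkgs_hvp H)

/-- **`K7FLevel`** at the Taylor–Wiles level -/
theorem rthkgs_k7fLevel (H : RthkgsHyp p n N qv r) :
    K7FLevel (rthkgsL N qv) (rthkgsM qv r) (rthkgsH p n qv r) p :=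
  rthkgb_k7fLevel (rthkgs_two_le_L H) (rthkgs_M_dvd_L H) H.hp (rthkgs_hp2 H)
    (rthkgs_not_dvd_L H) (Or.inl H.h5) (rthkgs_squarefree H) (rthkgs_hv H) (rthkgs_hvp H)
    (rthkgs_hk H) _

theorem rthkgs_isStarStable (H : RthkgsHyp p n N qv r) {ℓ : ℕ} (hℓ : ℓ.Prime)
    (hℓM : ℓ ∣ rthkgsM qv r) : IsStarStable (rthkgsM qv r) ℓ (rthkgsH p n qv r) :=
  rthkgb_isStarStable H.hp (rthkgs_hp2 H) (rthkgs_hv H) (rthkgs_hvp H) (rthkgs_hk H)
    (rthkgs_M_ne_zero H) _ hℓ hℓM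

theorem rthkgs_isTameAt (H : RthkgsHyp p n N qv r) (ℓ : ℕ) :
    IsTameAt (rthkgsL N qv) (rthkgsM qv r) ℓ (rthkgsH p n qv r) :=
  rthkgb_isTameAt H.hp H.h5 (rthkgs_not_dvd_L H) _ ℓ

theorem rthkgs_pmH (H : RthkgsHyp p n N qv r) :
    pmH (rthkgsH p n qv r) = rthkgsH p n qv r :=
  rthkd_pmH (H.hp.odd_of_ne_two (rthkgs_hp2 H))

/-- the input `hE` of `es1inftw_pkg` for `e = rthkdE p (n + 1)` -/
theorem rthkgs_hE (H : RthkgsHyp p n N qv r) (c : (ZMod (rthkgsM qv r))ˣ) :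
    c ^ (2 * rthkdE p (n + 1) - 1) ∈ pmH (rthkgsH p n qv r) :=
  rthkd_pow_E_mem (H.hp.odd_of_ne_two (rthkgs_hp2 H)) (fun x => rthkgs_k_le x n) c

theorem rthkgs_sum_k (h : ℕ) (ι : Type) [Fintype ι] (n : ℕ) :
    ∑ x, rthkgsK h ι (n + 1) x = h * (n + 1) + Fintype.card ι := by
  rw [Fintype.sum_sum_type]
  simp

theorem rthkgs_index (H : RthkgsHyp p n N qv r) :
    (pmH (rthkgsH p n qv r)).index = p ^ (h * (n + 1) + Fintype.card ι) := by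
  rw [← rthkgs_sum_k h ι n]
  exact rthkgb_index H.hp (rthkgs_hp2 H) (rthkgs_hv H) (rthkgs_hvp H) (rthkgs_hk H)
    (rthkgs_M_ne_zero H) _

theorem rthkgs_freeHyp_index (H : RthkgsHyp p n N qv r) :
    ((pmH (rthkgsH p n qv r)).subgroupOf (pmH ⊤)).index = p ^ (h * (n + 1) + Fintype.card ι) := by
  rw [← rthkgs_sum_k h ι n]
  exact rthkgb_freeHyp_index H.hp (rthkgs_hp2 H) (rthkgs_hv H) (rthkgs_hvp H) (rthkgs_hk H)
    (rthkgs_M_ne_zero H) _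

theorem rthkgs_exists_transversal (H : RthkgsHyp p n N qv r) :
    ∃ (m : ℕ) (u : Fin m → (ZMod (rthkgsM qv r))ˣ)
      (e : Fin m ≃ RthkdDelta (rthkgsM qv r) (rthkgsH p n qv r)),
      m = p ^ (h * (n + 1) + Fintype.card ι) ∧
      (∀ j, e j = QuotientGroup.mk (u j)) ∧ IsTransversal (rthkgsH p n qv r) ⊤ u := by
  obtain ⟨u, e, he, hu⟩ := rthkgb_exists_transversal H.hp (rthkgs_hp2 H) (rthkgs_hv H)
    (rthkgs_hvp H) (rthkgs_hk H) (rthkgs_M_ne_zero H) (rthkd_dvd_M (rthkgsV qv r))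
  exact ⟨_, u, e, congrArg (p ^ ·) (rthkgs_sum_k h ι n), he, hu⟩

/-- **`κ_γ`** at the Taylor–Wiles level: for generators `γ` with `γ x ≡ 1` modulo the other
primes and `γ x` not a `p`-th power modulo `v x`. -/
theorem rthkgs_equiv [DecidableEq (Fin h ⊕ ι)] (H : RthkgsHyp p n N qv r)
    (γ : Fin h ⊕ ι → (ZMod (rthkgsM qv r))ˣ)
    (hγ1 : ∀ x y, y ≠ x → ZMod.unitsMap (rthkd_dvd_M (rthkgsV qv r) y) (γ x) = 1)
    (hγ2 : ∀ x, ¬ ∃ y : (ZMod (rthkgsV qv r x))ˣ,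
      y ^ p = ZMod.unitsMap (rthkd_dvd_M (rthkgsV qv r) x) (γ x)) :
    ∃ κγ : RthkdDelta (rthkgsM qv r) (rthkgsH p n qv r) ≃* RthkchGrp p (rthkgsK h ι (n + 1)),
      (∀ x, κγ (QuotientGroup.mk (γ x)) = Pi.mulSingle x (Multiplicative.ofAdd 1)) ∧
      (∀ (x : Fin h ⊕ ι) (u u' : (ZMod (rthkgsM qv r))ˣ),
        ZMod.unitsMap (rthkd_dvd_M (rthkgsV qv r) x) u
          = ZMod.unitsMap (rthkd_dvd_M (rthkgsV qv r) x) u' →
        κγ (QuotientGroup.mk u) x = κγ (QuotientGroup.mk u') x) :=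
  rthkgb_equiv H.hp (rthkgs_hp2 H) (rthkgs_hv H) (rthkgs_hvp H) (rthkgs_hk H)
    (rthkgs_M_ne_zero H) _ γ hγ1 (fun x _ => hγ2 x)

end Sum

end Fermat.Agent.RT
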