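import Fermat.Agent.RT.Hecke.Plan
import Fermat.Agent.Common.FrobExists

/-!
# K-machine, HECKE-asm: restriction to the subring of the elements with exact representatives

The concrete Hecke ring `𝕋 = HDAlg M` is too big for `HkLevel.gen`.  `rthksE p J` is the subring
generated by the elements `x` with an exact representative `g` (`g + D(g) g⁻¹ = x` on every
`J[pᵏ]`).  `HkLevelW` is `HkLevel` WITHOUT `gen`, with `faith`, `nil`, `cong` asked only on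
`rthksE p J`; `rthk_sub : HkLevelW … 𝕋 … → HkLevel … ↥(rthksE p J) …`.
-/

set_option autoImplicit false

namespace Fermat.Agent.RT

open IsLocalRing Fermat.Agent.ES Fermat.Agent.S30 Fermat.Agent.W1 Fermat.Agent.TW
open Fermat.Agent.RT.Prod

section Sub

variable (p : ℕ) [Fact p.Prime] {𝕋 : Type} [CommRing 𝕋] (J : Type) [AddCommGroup J]
  [Module 𝕋 J] [DistribMulAction GQ J]

/-- the subring generated by the elements with an exact representative -/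
def rthksE : Subring 𝕋 :=
  Subring.closure {x : 𝕋 | ∃ g : GQ,
    ∀ k, Rtk7bApprox p J (fun n g => ((cycE p n g : ℕ) : 𝕋)) k g x}

variable {p J}

/-- approximation over the subring -/
theorem rthks_approx_iff (E : Subring 𝕋) (k : ℕ) (g : GQ) (x : E) :
    Rtk7bApprox p J (fun n g => ((cycE p n g : ℕ) : E)) k g x ↔
      Rtk7bApprox p J (fun n g => ((cycE p n g : ℕ) : 𝕋)) k g (x : 𝕋) := by
  unfold Rtk7bApprox
  refine forall_congr' fun y => imp_congr_right fun _ => ?_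
  have h1 : ((cycE p k g : ℕ) : E) • g⁻¹ • y = ((cycE p k g : ℕ) : 𝕋) • g⁻¹ • y := by
    rw [Nat.cast_smul_eq_nsmul, Nat.cast_smul_eq_nsmul]
  rw [h1]
  rfl

/-- the closure of the preimage of the generators is everything -/
theorem rthks_closure_top (s : Set 𝕋) :
    Subring.closure {x : Subring.closure s | (x : 𝕋) ∈ s} = ⊤ := by
  rw [eq_top_iff]
  rintro ⟨x, hx⟩ -
  induction hx using Subring.closure_induction with
  | mem x hx => exact Subring.subset_closure hx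
  | zero => exact Subring.zero_mem _
  | one => exact Subring.one_mem _
  | add x y hx hy ihx ihy => exact Subring.add_mem _ ihx ihy
  | neg x hx ihx => exact Subring.neg_mem _ ihx
  | mul x y hx hy ihx ihy => exact Subring.mul_mem _ ihx ihy

variable (p J) in
/-- the restricted `Tr` -/
noncomputable def rthksTr (Tr : ℕ → 𝕋) (ℓ : ℕ) : rthksE p J (𝕋 := 𝕋) := by
  classical
  exact if h : Tr ℓ ∈ rthksE p J then ⟨Tr ℓ, h⟩ else 0

/-- the good `Tr ℓ` have exact representatives -/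
theorem rthks_Tr_mem {L : ℕ} {Tr : ℕ → 𝕋} (hP : Rtk7bPkg p L J Tr) {ℓ : ℕ} (hℓ : ℓ.Prime)
    (hℓL : ¬ ℓ ∣ L * p) : Tr ℓ ∈ rthksE p J := by
  obtain ⟨A, τ, hA, hτ⟩ := Fermat.Agent.Common.exists_isFrobeniusAt ℓ hℓ
  exact Subring.subset_closure ⟨τ, fun k => rtk7i_approx_frob hP k hℓ hℓL hA hτ⟩

theorem rthksTr_coe {L : ℕ} {Tr : ℕ → 𝕋} (hP : Rtk7bPkg p L J Tr) {ℓ : ℕ} (hℓ : ℓ.Prime)
    (hℓL : ¬ ℓ ∣ L * p) : ((rthksTr p J Tr ℓ : rthksE p J) : 𝕋) = Tr ℓ := by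
  rw [rthksTr, dif_pos (rthks_Tr_mem hP hℓ hℓL)]

/-- the package over the subring -/
theorem rthks_pkg {L : ℕ} {Tr : ℕ → 𝕋} (hP : Rtk7bPkg p L J Tr) :
    Rtk7bPkg p L J (rthksTr p J Tr) where
  smul_comm σ t x := hP.smul_comm σ (t : 𝕋) x
  finite_level := hP.finite_level
  frob ℓ hℓ hℓL A hA τ hτ n x hx := by
    have h := hP.frob ℓ hℓ hℓL A hA τ hτ n x hx
    have e : rthksTr p J Tr ℓ • (τ • x) = Tr ℓ • (τ • x) := by
      show ((rthksTr p J Tr ℓ : rthksE p J) : 𝕋) • (τ • x) = _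
      rw [rthksTr_coe hP hℓ hℓL]
    rw [e]
    exact h
  unram := hP.unram

end Sub

section Level

variable {O : Type} [CommRing O] [IsLocalRing O]

/-- **The module side at level `n`, weak form** (no `gen`; `faith`, `nil`, `cong` only on the
subring `rthksE p J` generated by the elements with exact representatives). -/
structure HkLevelW (p : ℕ) [Fact p.Prime] (lam : O) (ρbar : ResidualGaloisRep (ResidueField O))
    (Sbad : Finset ℕ) {ι : Type} (σ : ι → GQ) (tχ : ι → O) (m h d n : ℕ)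
    (a0 : ℕ → Matrix (Fin d) (Fin d) O)
    (L : ℕ) {𝕋 : Type} [CommRing 𝕋] (J : Type) [AddCommGroup J] [Module 𝕋 J]
    [DistribMulAction GQ J] (Tr : ℕ → 𝕋)
    (Φ1 Φχ : 𝕋 →+* Matrix (Fin d) (Fin d) (RthkSn O m n)) : Prop where
  pkg : Rtk7bPkg p L J Tr
  primes : ∀ q : ℕ, q.Prime → q ∉ Sbad → ¬ q ∣ L * p
  model : ∀ k : ℕ, ∃ (X : Type) (_ : AddCommGroup X) (_ : Finite X) (act : GQ → X → X),
      (∀ s x x', act s (x + x') = act s x + act s x') ∧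
      (∀ s s' x, act (s * s') x = act s (act s' x)) ∧
      HasFiniteFlatModel (GaloisRep.ratLocalizedAt p) X act ∧
      ∀ e : GQ →₀ ℤ, (∀ x : X, (e.sum fun g z => z • act g x) = 0) →
        ∀ x : J, p ^ k • x = 0 → (e.sum fun g z => z • g • x) = 0
  faith : ∃ n₀ : ℕ, ∀ x ∈ rthksE p J (𝕋 := 𝕋), (∀ y : J, p ^ n₀ • y = 0 → x • y = 0) →
    Φ1 x = 0 ∧ Φχ x = 0
  nil : ∀ x ∈ rthksE p J (𝕋 := 𝕋), ∃ c : O,
    IsNilpotent (Φ1 x - algebraMap O (Matrix (Fin d) (Fin d) (RthkSn O m n)) c) ∧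
    IsNilpotent (Φχ x - algebraMap O (Matrix (Fin d) (Fin d) (RthkSn O m n)) c)
  resid : ∀ ℓ : ℕ, ℓ.Prime → ¬ ℓ ∣ L * p →
    ∀ P : ValuationSubring (AlgebraicClosure ℚ), P.LiesOverPrime ℓ →
      ∀ τ : GQ, P.IsFrobeniusAt τ ℓ → ∃ c : O,
        residue O c = LinearMap.trace (ResidueField O) ρbar.V (ρbar.ρ τ) ∧
        IsNilpotent (Φ1 (Tr ℓ) - algebraMap O (Matrix (Fin d) (Fin d) (RthkSn O m n)) c)
  cong : ∀ x ∈ rthksE p J (𝕋 := 𝕋),
    (Φ1 x).map (Ideal.Quotient.factor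
        (le_sup_right : maximalIdeal (RttwS O m) ^ n ≤
          rttwLam m lam ⊔ maximalIdeal (RttwS O m) ^ n)) =
      (Φχ x).map (Ideal.Quotient.factor
        (le_sup_right : maximalIdeal (RttwS O m) ^ n ≤
          rttwLam m lam ⊔ maximalIdeal (RttwS O m) ^ n))
  trT : ∀ i, ∃ x : 𝕋, (∀ k, Rtk7bApprox p J (fun n g => ((cycE p n g : ℕ) : 𝕋)) k (σ i) x) ∧
    Φ1 x = 2 ∧ Φχ x = algebraMap O (Matrix (Fin d) (Fin d) (RthkSn O m n)) (2 * tχ i)
  trQ : ∀ j : Fin m, (j : ℕ) < h → ∃ (g : GQ) (x : 𝕋),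
    (∀ k, Rtk7bApprox p J (fun n g => ((cycE p n g : ℕ) : 𝕋)) k g x) ∧
    Φ1 x ^ 2 - 4 = algebraMap (RthkSn O m n) (Matrix (Fin d) (Fin d) (RthkSn O m n))
      (Ideal.Quotient.mk _ (MvPowerSeries.X j) ^ 2) ∧
    Φχ x ^ 2 - 4 = algebraMap (RthkSn O m n) (Matrix (Fin d) (Fin d) (RthkSn O m n))
      (Ideal.Quotient.mk _ (MvPowerSeries.X j) ^ 2)
  base : ∀ ℓ : ℕ, ℓ.Prime → ¬ ℓ ∣ L * p →
    (Φ1 (Tr ℓ)).map (Ideal.Quotient.factor
      (le_sup_right : maximalIdeal (RttwS O m) ^ n ≤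
        rttwAug O m ⊔ maximalIdeal (RttwS O m) ^ n)) = rttwBaseRed m d n (a0 ℓ)

/-- **Restriction to the subring of exact representatives.** -/
theorem rthk_sub {p : ℕ} [Fact p.Prime] {lam : O}
    {ρbar : ResidualGaloisRep (ResidueField O)} {Sbad : Finset ℕ} {ι : Type} {σ : ι → GQ}
    {tχ : ι → O} {m h d n : ℕ} {a0 : ℕ → Matrix (Fin d) (Fin d) O} {L : ℕ} {𝕋 : Type}
    [CommRing 𝕋] {J : Type} [AddCommGroup J] [Module 𝕋 J] [DistribMulAction GQ J]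
    {Tr : ℕ → 𝕋} {Φ1 Φχ : 𝕋 →+* Matrix (Fin d) (Fin d) (RthkSn O m n)}
    (W : HkLevelW p lam ρbar Sbad σ tχ m h d n a0 L J Tr Φ1 Φχ) :
    HkLevel p lam ρbar Sbad σ tχ m h d n a0 L J (rthksTr p J Tr)
      (Φ1.comp (rthksE p J (𝕋 := 𝕋)).subtype) (Φχ.comp (rthksE p J (𝕋 := 𝕋)).subtype) where
  pkg := rthks_pkg W.pkg
  primes := W.primes
  model := W.model
  gen := by
    have h := rthks_closure_top {x : 𝕋 | ∃ g : GQ,
      ∀ k, Rtk7bApprox p J (fun n g => ((cycE p n g : ℕ) : 𝕋)) k g x}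
    have e : {x : rthksE p J (𝕋 := 𝕋) | ∃ g : GQ, ∀ k,
          Rtk7bApprox p J (fun n g => ((cycE p n g : ℕ) : rthksE p J (𝕋 := 𝕋))) k g x}
        = {x : rthksE p J (𝕋 := 𝕋) | (x : 𝕋) ∈ {x : 𝕋 | ∃ g : GQ,
            ∀ k, Rtk7bApprox p J (fun n g => ((cycE p n g : ℕ) : 𝕋)) k g x}} := by
      ext x
      constructor
      · rintro ⟨g, hg⟩
        exact ⟨g, fun k => (rthks_approx_iff _ k g x).mp (hg k)⟩
      · rintro ⟨g, hg⟩
        exact ⟨g, fun k => (rthks_approx_iff _ k g x).mpr (hg k)⟩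
    rw [e]
    exact h
  faith := by
    obtain ⟨n₀, hn₀⟩ := W.faith
    exact ⟨n₀, fun x hx => hn₀ (x : 𝕋) x.2 hx⟩
  nil x := W.nil (x : 𝕋) x.2
  resid ℓ hℓ hℓL P hP τ hτ := by
    obtain ⟨c, hc1, hc2⟩ := W.resid ℓ hℓ hℓL P hP τ hτ
    refine ⟨c, hc1, ?_⟩
    rw [RingHom.comp_apply, Subring.coe_subtype, rthksTr_coe W.pkg hℓ hℓL]
    exact hc2
  cong x := W.cong (x : 𝕋) x.2
  trT i := by
    obtain ⟨x, hx, h1, h2⟩ := W.trT i
    have hxE : x ∈ rthksE p J := Subring.subset_closure ⟨σ i, hx⟩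
    exact ⟨⟨x, hxE⟩, fun k => (rthks_approx_iff _ k (σ i) ⟨x, hxE⟩).mpr (hx k), h1, h2⟩
  trQ j hj := by
    obtain ⟨g, x, hx, h1, h2⟩ := W.trQ j hj
    have hxE : x ∈ rthksE p J := Subring.subset_closure ⟨g, hx⟩
    exact ⟨g, ⟨x, hxE⟩, fun k => (rthks_approx_iff _ k g ⟨x, hxE⟩).mpr (hx k), h1, h2⟩
  base ℓ hℓ hℓL := by
    rw [RingHom.comp_apply, Subring.coe_subtype, rthksTr_coe W.pkg hℓ hℓL]
    exact W.base ℓ hℓ hℓL

end Level

end Fermat.Agent.RT
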